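/-
GATE-L / REG3 case (C), the CUSP congruence over `K₀` (helper18; claims key REG3-C-CONGR).

helper50 3003 (C): at a cuspidal point `n` of the `1/j`-chart lying on the third vertical
component only, `Reg3Hasse.exists_vertPrime_of_hasse_log` needs, with `a = 1/j`, `a' = 1/j_{q²}`,
`e₀ = (a' − a)^(q−1)/q`, units `Ũ Ṽ`:   `e₀ Ũ + Ṽ a^(q−1) ∈ P₃ O_n`.
By `Reg3HtOne.mem_map_iff_mem_nonunits` this is a statement in the FIELD `K₀(X₀(N))` about the
valuation ring `Rw3K0`; this file proves it there: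

* `aeval_reverse_of_mul_eq_one`, `cusp_congr_abs` (any commutative ring, any ideal),
  `cusp_congr_val` (any valuation subring of a field): from `ε U(J) + V(J) ∈ 𝔪`,
  `deg V = deg U + n`, `J` a unit, `J₂ ≡ J`:  `1/J₂ ∈ V`, `1/J₂ ≡ 1/J`,
  `(±ε (a a')^n) Ũ(a) + (±Ṽ(a)) a^n ∈ 𝔪`  (`Ũ Ṽ` the REVERSED polynomials);
* `jSqK0` (`= j_{q²}` over `K₀`), `aK = 1/j`, `aK' = 1/j_{q²}`, `e0cK0 = (aK' − aK)^(q−1)/q`,
  `e0cK0_eq : e0cK0 = (−1)^(q−1) ε₃ (aK aK')^(q−1)`, `natCast_mul_e0cK0 : q · e0cK0 = (aK'−aK)^(q−1)`;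
* `jK0_mem_Rw3K0`, `jK0_inv_mem_Rw3K0`, `jSqK0_ne_zero`, `aK'_mem_Rw3K0`,
  `aK'_sub_aK_mem_nonunits`, `aK_notMem_nonunits`, `aK'_sub_aK : a' − a = −y₃ · a a'`;
* **`cusp_congr_K0_of`** (any integer pair `PU PV` with the Hasse congruence),
  **`cusp_congr_K0`** (`q ≥ 5`, helper63's `intU₂`, `intV₁`), **`cusp_congr_K0_small`** (`q ∈ {2,3}`);
* `eval_zero_reverse_int`, `eval_zero_reverse_intV₁` (constant terms of the reversed polynomials:
  the unit hypotheses `hUt hVt` at a point with `a ∈ 𝔪_n`).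
-/
import Fermat.Agent.GL.Val.ThirdK0HasseInt

set_option autoImplicit false
set_option linter.unusedSectionVars false

noncomputable section

open Polynomial

namespace Fermat.Agent.GL.Reg3.CuspCongrK0


section Abs

variable {R : Type*} [CommRing R]

/-- reversal: `(reverse P)(a) = a ^ deg P * P(j)` when `a j = 1` -/
theorem aeval_reverse_of_mul_eq_one {a j : R} (haj : a * j = 1) (P : ℤ[X]) :
    aeval a P.reverse = a ^ P.natDegree * aeval j P := by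
  let _ : Invertible j := ⟨a, haj, by rw [mul_comm]; exact haj⟩
  have h := Polynomial.eval₂_reverse_mul_pow (algebraMap ℤ R) j P
  have h2 : (⅟j : R) = a := rfl
  rw [h2] at h
  rw [aeval_def, aeval_def, ← h]
  calc eval₂ (algebraMap ℤ R) a P.reverse
      = eval₂ (algebraMap ℤ R) a P.reverse * (a * j) ^ P.natDegree := by rw [haj, one_pow, mul_one]
    _ = a ^ P.natDegree * (eval₂ (algebraMap ℤ R) a P.reverse * j ^ P.natDegree) := by ring

/-- **the cusp congruence, abstract**: from `e U(j) + V(j) ∈ m`, `deg V = deg U + n`, `a j = 1`,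
`a' ≡ a`, to `(±e (a a')^n) Ũ(a) + (±Ṽ(a)) a^n ∈ m`. -/
theorem cusp_congr_abs (m : Ideal R) {e a a' j : R} (haj : a * j = 1) (ha : a' - a ∈ m)
    (PU PV : ℤ[X]) {n : ℕ} (hdeg : PV.natDegree = PU.natDegree + n)
    (hcong : e * aeval j PU + aeval j PV ∈ m) :
    ((-1) ^ n * e * (a * a') ^ n) * aeval a PU.reverse +
      ((-1) ^ n * aeval a PV.reverse) * a ^ n ∈ m := by
  have hU := aeval_reverse_of_mul_eq_one haj PU
  have hV := aeval_reverse_of_mul_eq_one haj PV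
  have hpow : a' ^ n - a ^ n ∈ m := by
    obtain ⟨c, hc⟩ := sub_dvd_pow_sub_pow a' a n
    rw [hc]
    exact m.mul_mem_right _ ha
  have h1 : a ^ (PU.natDegree + n) * (e * aeval j PU + aeval j PV) ∈ m := m.mul_mem_left _ hcong
  have key : ((-1) ^ n * e * (a * a') ^ n) * aeval a PU.reverse +
      ((-1) ^ n * aeval a PV.reverse) * a ^ n =
      (-1) ^ n * (a ^ n * (a ^ (PU.natDegree + n) * (e * aeval j PU + aeval j PV)) +
        e * a ^ n * (a ^ PU.natDegree * aeval j PU) * (a' ^ n - a ^ n)) := by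
    rw [hU, hV, hdeg]
    ring
  rw [key]
  exact m.mul_mem_left _ (m.add_mem (m.mul_mem_left _ h1) (m.mul_mem_left _ hpow))

end Abs

section Val

variable {F : Type*} [Field F] (V : ValuationSubring F)

/-- integer polynomials commute with the inclusion `V → F` -/
theorem coe_aeval_int (x : V) (P : ℤ[X]) : ((aeval x P : V) : F) = aeval (x : F) P :=
  (Polynomial.aeval_algHom_apply (V.subtype.toIntAlgHom) x P).symm

/-- **the cusp congruence in a valuation ring `V` of a field**: `J` a unit of `V`,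
`J₂ ≡ J mod 𝔪`, `ε U(J) + V(J) ∈ 𝔪`, `deg V = deg U + n` ⟹ `J₂ ≠ 0`, `1/J₂ ∈ V`, `1/J₂ ≡ 1/J` and
`(±ε (a a')^n) Ũ(a) + (±Ṽ(a)) a^n ∈ 𝔪` with `a = 1/J`, `a' = 1/J₂`. -/
theorem cusp_congr_val {ε J J2 : F} (hε : ε ∈ V) (hJ : J ∈ V) (hJi : J⁻¹ ∈ V) (hJ0 : J ≠ 0)
    (hy : J2 - J ∈ V.nonunits) (PU PV : ℤ[X]) {n : ℕ} (hdeg : PV.natDegree = PU.natDegree + n)
    (hcong : ε * aeval J PU + aeval J PV ∈ V.nonunits) :
    J2 ≠ 0 ∧ J2⁻¹ ∈ V ∧ J2⁻¹ - J⁻¹ ∈ V.nonunits ∧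
      ((-1) ^ n * ε * (J⁻¹ * J2⁻¹) ^ n) * aeval J⁻¹ PU.reverse +
        ((-1) ^ n * aeval J⁻¹ PV.reverse) * J⁻¹ ^ n ∈ V.nonunits := by
  set m := IsLocalRing.maximalIdeal V with hm
  obtain ⟨hyV, hym⟩ := ValuationSubring.mem_nonunits_iff_exists_mem_maximalIdeal.mp hy
  let e : V := ⟨ε, hε⟩
  let a : V := ⟨J⁻¹, hJi⟩
  let j : V := ⟨J, hJ⟩
  let y : V := ⟨J2 - J, hyV⟩
  have haj : a * j = 1 := Subtype.ext (inv_mul_cancel₀ hJ0)
  have hju : IsUnit j := IsUnit.of_mul_eq_one a (by rw [mul_comm]; exact haj)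
  have hj2u : IsUnit (j + y) := by
    rw [← IsLocalRing.notMem_maximalIdeal]
    intro h
    have : j ∈ m := by
      have := m.sub_mem h hym
      rwa [add_sub_cancel_right] at this
    exact (IsLocalRing.notMem_maximalIdeal.mpr hju) this
  obtain ⟨a', ha'⟩ := hj2u.exists_left_inv
  have hJ2 : ((j + y : V) : F) = J2 := by
    show J + (J2 - J) = J2
    ring
  have h1 : (a' : F) * J2 = 1 := by
    rw [← hJ2]
    exact congrArg (fun z : V => (z : F)) ha'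
  have ha'F : (a' : F) = J2⁻¹ := eq_inv_of_mul_eq_one_left h1
  have ha : a' - a ∈ m := by
    have h2 : a' - a = -(a * a' * y) := by
      have : a' - a = a' * (a * j) - a * (a' * (j + y)) := by rw [haj, ha', mul_one, mul_one]
      rw [this]; ring
    rw [h2]
    exact m.neg_mem (m.mul_mem_left _ hym)
  obtain ⟨hcV, hcm⟩ := ValuationSubring.mem_nonunits_iff_exists_mem_maximalIdeal.mp hcong
  have hcong' : e * aeval j PU + aeval j PV ∈ m := by
    have h3 : (⟨ε * aeval J PU + aeval J PV, hcV⟩ : V) = e * aeval j PU + aeval j PV := by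
      apply Subtype.ext
      show ε * aeval J PU + aeval J PV =
        ε * ((aeval j PU : V) : F) + ((aeval j PV : V) : F)
      rw [coe_aeval_int, coe_aeval_int]
    rw [← h3]; exact hcm
  have hfin := cusp_congr_abs m haj ha PU PV hdeg hcong'
  refine ⟨right_ne_zero_of_mul_eq_one h1, ha'F ▸ a'.2, ?_, ?_⟩
  · rw [ValuationSubring.mem_nonunits_iff_exists_mem_maximalIdeal]
    have hmem : J2⁻¹ - J⁻¹ ∈ V := by
      rw [← ha'F]; exact (a' - a).2
    refine ⟨hmem, ?_⟩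
    have : (⟨J2⁻¹ - J⁻¹, hmem⟩ : V) = a' - a := Subtype.ext (by
      show J2⁻¹ - J⁻¹ = (a' : F) - J⁻¹
      rw [ha'F])
    rw [this]; exact ha
  · rw [ValuationSubring.mem_nonunits_iff_exists_mem_maximalIdeal]
    have hval : (((-1) ^ n * e * (a * a') ^ n) * aeval a PU.reverse +
        ((-1) ^ n * aeval a PV.reverse) * a ^ n : V) =
        (((-1) ^ n * ε * (J⁻¹ * J2⁻¹) ^ n) * aeval J⁻¹ PU.reverse +
        ((-1) ^ n * aeval J⁻¹ PV.reverse) * J⁻¹ ^ n : F) := by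
      push_cast
      rw [coe_aeval_int, coe_aeval_int, ha'F]
    have hmem : ((-1) ^ n * ε * (J⁻¹ * J2⁻¹) ^ n) * aeval J⁻¹ PU.reverse +
        ((-1) ^ n * aeval J⁻¹ PV.reverse) * J⁻¹ ^ n ∈ V := by
      rw [← hval]; exact Subtype.mem _
    refine ⟨hmem, ?_⟩
    have : (⟨_, hmem⟩ : V) = ((-1) ^ n * e * (a * a') ^ n) * aeval a PU.reverse +
        ((-1) ^ n * aeval a PV.reverse) * a ^ n := Subtype.ext hval.symm
    rw [this]; exact hfin

end Val


/-! ### over `K₀` -/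

section K0

open HahnSeries ModularCurve IsLocalRing
open Fermat.Agent.S24 Fermat.Agent.S24_helper62
open Fermat.Agent.GJ.J1 Fermat.Agent.GJ.J1.Val Fermat.Agent.GL.CuspVal
open Fermat.Agent.GL.Thick Fermat.Agent.GL.W3
open Fermat.Agent.GL.Val.GaussK0 Fermat.Agent.GL.Val.CuspK0 Fermat.Agent.GL.Val.SecondK0
open Fermat.Agent.GL.Val.OrthK0 Fermat.Agent.GL.Val.ThirdK0
open Fermat.Agent.GK.Val Fermat.Agent.GK.Val.GaussBase
open Fermat.Agent.Common_helper32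

variable (A : ValuationSubring Qb) {N q M' : ℕ} [NeZero N] [NeZero (q ^ 2 * 1)]
  (hdN : q ^ 2 * 1 ∣ N)

/-- `j_{q²} = j(q² z)` over `K₀` -/
def jSqK0 : modularFunctionFieldFullC (K0 A) N := genC (K0 A) (R0 A) N hdN

theorem y3K0_eq_sub : y3K0 A N q hdN (one_dvd N) = jSqK0 A hdN - jK0 A N := rfl

/-- `a = 1/j` -/
def aK (A : ValuationSubring Qb) (N : ℕ) [NeZero N] : modularFunctionFieldFullC (K0 A) N :=
  (jK0 A N)⁻¹

/-- `a' = 1/j_{q²}` -/
def aK' : modularFunctionFieldFullC (K0 A) N := (jSqK0 A hdN)⁻¹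

/-- `e₀ = (a' − a)^(q−1)/q` -/
def e0cK0 : modularFunctionFieldFullC (K0 A) N :=
  (aK' A hdN - aK A N) ^ (q - 1) *
    (algebraMap (K0 A) (modularFunctionFieldFullC (K0 A) N) ((q : ℕ) : K0 A))⁻¹

theorem toFN0_jSqK0 : toFN0 A N (jSqK0 A hdN) = jdF N (q ^ 2 * 1) hdN := toFN0_genC A hdN

theorem jK0_ne_zero : jK0 A N ≠ 0 := by
  intro h
  have h1 := toFN0_jK0_eq_jF A (N := N)
  rw [h, map_zero] at h1
  obtain ⟨hs, ht⟩ := isGaussChart_jF_cusp N A (QuotientGroup.mk 1 : I0 N)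
  apply ht
  have e : (⟨jF N, hs⟩ : (redDataCusp N A (QuotientGroup.mk 1 : I0 N)).Rw) = 0 :=
    Subtype.ext h1.symm
  rw [e, map_zero]
  exact isAlgebraic_zero

/-- `q · e₀ = (a' − a)^(q−1)` (`q ≠ 0`) -/
theorem natCast_mul_e0cK0 (hq0 : q ≠ 0) :
    algebraMap (K0 A) (modularFunctionFieldFullC (K0 A) N) ((q : ℕ) : K0 A) * e0cK0 A hdN =
      (aK' A hdN - aK A N) ^ (q - 1) := by
  have h0 : algebraMap (K0 A) (modularFunctionFieldFullC (K0 A) N) ((q : ℕ) : K0 A) ≠ 0 := by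
    rw [Ne, map_eq_zero]
    exact_mod_cast hq0
  rw [e0cK0, mul_comm, mul_assoc, inv_mul_cancel₀ h0, mul_one]

/-- `j ∈ R_{w₃}` -/
theorem jK0_mem_Rw3K0 : jK0 A N ∈ Rw3K0 A N q := by
  rw [mem_RwCuspK0_iff, toFN0_jK0_eq_jF]
  exact jF_mem_RwCusp N A _

/-- `1/j ∈ R_{w₃}`: `j` is a unit at `w₃` -/
theorem jK0_inv_mem_Rw3K0 : (jK0 A N)⁻¹ ∈ Rw3K0 A N q := by
  rw [mem_RwCuspK0_iff, map_inv₀, toFN0_jK0_eq_jF]
  obtain ⟨hs, ht⟩ := isGaussChart_jF_cusp N A (cusp3 N q)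
  exact inv_mem_of_red_ne_zero _ hs (fun h => ht (h ▸ isAlgebraic_zero))

/-- `a = 1/j` is a unit at `w₃` -/
theorem aK_notMem_nonunits : aK A N ∉ (Rw3K0 A N q).nonunits := by
  intro h
  rw [ValuationSubring.mem_nonunits_iff_or] at h
  rcases h with h | h
  · exact inv_ne_zero (jK0_ne_zero A) h
  · apply h
    rw [aK, inv_inv]
    exact jK0_mem_Rw3K0 A

variable (hq : q.Prime) (hN : N = M' * q ^ 2) (hqM : ¬ q ∣ M') (hA : A.LiesOverPrime q)

include hq hN hqM hA in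
/-- `j_{q²} − j ∈ 𝔪(w₃)` -/
theorem jSqK0_sub_jK0_mem_nonunits : jSqK0 A hdN - jK0 A N ∈ (Rw3K0 A N q).nonunits := by
  rw [← y3K0_eq_sub, mem_nonunits_of_comap (toFN0 A N : _ →+* _) (Rw3K0 A N q)
    (redData3 N A q).Rw (fun x => Iff.rfl), toFN0_y3K0]
  exact y3_mem_nonunits_Rw3 A hq hN hqM hA (one_dvd M') hdN (one_dvd N)

include hq hN hqM hA in
/-- **the generic cusp congruence over `K₀`**: for any integer pair `PU PV` with
`deg PV = deg PU + n` and `ε₃ PU(j) + PV(j) ∈ 𝔪(w₃)`. -/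
theorem cusp_congr_K0_of (PU PV : ℤ[X]) {n : ℕ} (hdeg : PV.natDegree = PU.natDegree + n)
    (hcong : eps3K0 A N q hdN (one_dvd N) * aeval (jK0 A N) PU + aeval (jK0 A N) PV ∈
      (Rw3K0 A N q).nonunits) :
    ((-1) ^ n * eps3K0 A N q hdN (one_dvd N) * (aK A N * aK' A hdN) ^ n) *
        aeval (aK A N) PU.reverse +
      ((-1) ^ n * aeval (aK A N) PV.reverse) * aK A N ^ n ∈ (Rw3K0 A N q).nonunits :=
  (cusp_congr_val (Rw3K0 A N q) (eps3K0_mem A hq hN hqM (one_dvd M') hdN (one_dvd N))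
    (jK0_mem_Rw3K0 A) (jK0_inv_mem_Rw3K0 A) (jK0_ne_zero A)
    (jSqK0_sub_jK0_mem_nonunits A hdN hq hN hqM hA) PU PV hdeg hcong).2.2.2

include hq hN hqM hA in
theorem jSq_facts : jSqK0 A hdN ≠ 0 ∧ aK' A hdN ∈ Rw3K0 A N q ∧
    aK' A hdN - aK A N ∈ (Rw3K0 A N q).nonunits := by
  have h := cusp_congr_val (Rw3K0 A N q) (eps3K0_mem A hq hN hqM (one_dvd M') hdN (one_dvd N))
    (jK0_mem_Rw3K0 A) (jK0_inv_mem_Rw3K0 A) (jK0_ne_zero A)
    (jSqK0_sub_jK0_mem_nonunits A hdN hq hN hqM hA) 0 0 (n := 0) (by simp) (by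
      simp only [map_zero, mul_zero, add_zero]
      rw [ValuationSubring.mem_nonunits_iff, map_zero]
      exact zero_lt_one)
  exact ⟨h.1, h.2.1, h.2.2.1⟩

include hq hN hqM hA in
theorem jSqK0_ne_zero : jSqK0 A hdN ≠ 0 := (jSq_facts A hdN hq hN hqM hA).1

include hq hN hqM hA in
/-- `a' = 1/j_{q²} ∈ R_{w₃}` -/
theorem aK'_mem_Rw3K0 : aK' A hdN ∈ Rw3K0 A N q := (jSq_facts A hdN hq hN hqM hA).2.1

include hq hN hqM hA in
/-- `a' − a ∈ 𝔪(w₃)` -/
theorem aK'_sub_aK_mem_nonunits : aK' A hdN - aK A N ∈ (Rw3K0 A N q).nonunits :=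
  (jSq_facts A hdN hq hN hqM hA).2.2

include hq hN hqM hA in
/-- `a' − a = −y₃ · a a'` -/
theorem aK'_sub_aK :
    aK' A hdN - aK A N = -(y3K0 A N q hdN (one_dvd N)) * (aK A N * aK' A hdN) := by
  have h1 := jK0_ne_zero A (N := N)
  have h2 := jSqK0_ne_zero A hdN hq hN hqM hA
  rw [y3K0_eq_sub, aK, aK']
  field_simp
  ring

include hq hN hqM hA in
/-- **`e₀ = (−1)^(q−1) ε₃ (a a')^(q−1)`** -/
theorem e0cK0_eq : e0cK0 A hdN =
    (-1) ^ (q - 1) * eps3K0 A N q hdN (one_dvd N) * (aK A N * aK' A hdN) ^ (q - 1) := by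
  rw [e0cK0, aK'_sub_aK A hdN hq hN hqM hA, eps3K0, mul_pow, neg_pow]
  ring

/-- `deg intV₁ = (q − 1) + (q − 1)/2` -/
theorem natDegree_intV₁' : (intV₁ q).natDegree = (q - 1) + (q - 1) / 2 := by
  rw [intV₁, Polynomial.Monic.natDegree_mul (monic_X_pow _) ((monic_X_sub_C _).pow _),
    natDegree_X_pow, Polynomial.Monic.natDegree_pow (monic_X_sub_C _), natDegree_X_sub_C, mul_one]

include hN hqM hA in
/-- **the cusp congruence over `K₀`, `q ≥ 5`**:
`e₀ · Ũ₂(a) + ((−1)^(q−1) Ṽ₁(a)) · a^(q−1) ∈ 𝔪(w₃)`, `Ũ₂ Ṽ₁` the reverses of helper63's integer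
lifts. -/
theorem cusp_congr_K0 [Fact q.Prime] (hq5 : 5 ≤ q) :
    e0cK0 A hdN * aeval (aK A N) (intU₂ q hq5).reverse +
        ((-1) ^ (q - 1) * aeval (aK A N) (intV₁ q).reverse) * aK A N ^ (q - 1) ∈
      (Rw3K0 A N q).nonunits := by
  have hq : q.Prime := Fact.out
  have hdeg : (intV₁ q).natDegree = (intU₂ q hq5).natDegree + (q - 1) := by
    rw [natDegree_intU₂, natDegree_intV₁', add_comm]
  rw [e0cK0_eq A hdN hq hN hqM hA]
  exact cusp_congr_K0_of A hdN hq hN hqM hA _ _ hdeg (hasse_congr_K0_int A hdN hN hqM hA hq5)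

include hN hqM hA in
/-- **the cusp congruence over `K₀`, `q ∈ {2, 3}`**: `e₀ + (−1)^(q−1) a^(q−1) ∈ 𝔪(w₃)` -/
theorem cusp_congr_K0_small (hq : q.Prime) (hq5 : ¬ 5 ≤ q) :
    e0cK0 A hdN + (-1) ^ (q - 1) * aK A N ^ (q - 1) ∈ (Rw3K0 A N q).nonunits := by
  have hc := small_congr_K0 A hdN hN hqM hA hq hq5
  have hdeg : ((X : ℤ[X]) ^ (q - 1)).natDegree = (1 : ℤ[X]).natDegree + (q - 1) := by
    rw [natDegree_X_pow, natDegree_one, zero_add]
  have h := cusp_congr_K0_of A hdN hq hN hqM hA 1 (X ^ (q - 1)) hdeg (by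
    simpa using hc)
  rw [e0cK0_eq A hdN hq hN hqM hA]
  have e1 : (1 : ℤ[X]).reverse = 1 := by
    rw [← Polynomial.C_1, Polynomial.reverse_C]
  have e2 : ((X : ℤ[X]) ^ (q - 1)).reverse = 1 := by
    have : (X : ℤ[X]) ^ (q - 1) = X ^ (q - 1) * 1 := (mul_one _).symm
    rw [this, Polynomial.reverse_X_pow_mul, e1]
  rw [e1, e2] at h
  simpa using h

/-- the constant term of a reversed polynomial is the leading coefficient -/
theorem eval_zero_reverse_int (P : ℤ[X]) : P.reverse.eval 0 = P.leadingCoeff := by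
  rw [← Polynomial.coeff_zero_eq_eval_zero, Polynomial.coeff_zero_reverse]

theorem eval_zero_reverse_intV₁ : (intV₁ q).reverse.eval 0 = 1 := by
  rw [eval_zero_reverse_int, (monic_intV₁ q).leadingCoeff]

end K0

end Fermat.Agent.GL.Reg3.CuspCongrK0
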