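/-
GATE-L / REG3-B-CONG (helper67): the congruence `γ ≡ α mod 𝔪(w₃)` of helper93
`Reg3BInst.exists_vertPrime_caseB` (`hcong`), over `K₀`, levels LITERAL `M'`, `M' q`, `M' q q`.

* `alpha2 = alphaK0 ∘ alphaK0 : K₀(X₀(M')) → K₀(X₀(M' q q))`   (`z(t) ↦ z(t)`),
* `gamma2 = betaK0 ∘ betaK0`                                      (`z(t) ↦ z(t^{q²})`),
* `alpha2_jK0`, `gamma2_jK0`, `gamma2_sub_alpha2_jK0 : γ j' − α j' = y3K0 …` (= `hαj`, `hγj`),
* **`gamma2_sub_alpha2_mem_nonunits`** : `z ∈ RwK0 A M' → γ z − α z ∈ (Rw3K0 A (M' q q) q).nonunits`,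
  because `red₃ (α z) = (red₁'' z)(t^N) = red₃ (γ z)` (rows `(π; w₃ → w₁')`, `(π'; w₃ → w₂')` of
  `RowsK0W3` and the lower row `(π'; w₂' → w₁'')` proved here: `wAutK0 (β z) = α z`).
-/
import Fermat.Agent.GL.Final.RowsInst
import Fermat.Agent.GK.AL.WRealize

set_option autoImplicit false

noncomputable section

open Module IsLocalRing ModularCurve AlgebraicCurve HahnSeries

namespace Fermat.Agent.GL.Reg3.BCong

open Fermat.Agent.S24 Fermat.Agent.GJ.J1 Fermat.Agent.GJ.J1.Val Fermat.Agent.GJ.HN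
open Fermat.Agent.GK.Val.GaussBase
open Fermat.Agent.GL.Val.GaussK0 Fermat.Agent.GL.Val.SecondK0 Fermat.Agent.GL.Val.SecondK0Hall
open Fermat.Agent.GL.Val.ThirdK0 Fermat.Agent.GL.Val.CuspK0 Fermat.Agent.GL.Table.K0
open Fermat.Agent.GL.W3Table Fermat.Agent.GL.W3 Fermat.Agent.GK.AL
open Fermat.Agent.GL.Val.OrthK0
open Fermat.Agent.Common_helper32

/-! ### The lower row `(π'; w₂' → w₁'')` at `q ∥ M' q` -/

section Lower

variable (A : ValuationSubring Qb) {M' q : ℕ} [NeZero q] [NeZero M'] (h : ExactDvd q (M' * q))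

/-- `W_q ∘ β = α` over `K₀` -/
theorem wAutK0_betaK0 (z : modularFunctionFieldFullC (K0 A) M') :
    wAutK0 A (M' * q) h (betaK0 A M' q z) = alphaK0 A M' q z := by
  apply mapK0Bar_injective A (M' * q)
  rw [mapK0Bar_wAutK0, mapK0Bar_betaK0, mapK0Bar_alphaK0, wAut_betaB]

/-- `W_q ∘ α = β` over `K₀` -/
theorem wAutK0_alphaK0 (z : modularFunctionFieldFullC (K0 A) M') :
    wAutK0 A (M' * q) h (alphaK0 A M' q z) = betaK0 A M' q z := by
  apply mapK0Bar_injective A (M' * q)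
  rw [mapK0Bar_wAutK0, mapK0Bar_betaK0, mapK0Bar_alphaK0, wAut_alphaB]

/-- **row `(π'; w₂' → w₁'')`** : `w₂'(β z) ≥ 0 ↔ w₁''(z) ≥ 0` -/
theorem betaK0_mem_Rw2K0_iff (z : modularFunctionFieldFullC (K0 A) M') :
    betaK0 A M' q z ∈ (redData2K0 A (M' * q) h).Rw ↔ z ∈ RwK0 A M' := by
  rw [mem_Rw2K0_iff_wAutK0, wAutK0_betaK0]
  exact alphaK0_mem_RwK0_iff A M' q z

/-- **row `(π; w₂' → w₁'')`** : `w₂'(α z) ≥ 0 ↔ w₁''(z) ≥ 0` -/
theorem alphaK0_mem_Rw2K0_iff (z : modularFunctionFieldFullC (K0 A) M') :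
    alphaK0 A M' q z ∈ (redData2K0 A (M' * q) h).Rw ↔ z ∈ RwK0 A M' := by
  rw [mem_Rw2K0_iff_wAutK0, wAutK0_alphaK0]
  exact betaK0_mem_RwK0_iff A M' q z

/-- `red₂' (β z) = red₁'' z` (as series: `y ↦ y`) -/
theorem red2K0_betaK0 (z : modularFunctionFieldFullC (K0 A) M') (hz : z ∈ RwK0 A M')
    (h' : betaK0 A M' q z ∈ (redData2K0 A (M' * q) h).Rw) :
    (redData2K0 A (M' * q) h).red ⟨betaK0 A M' q z, h'⟩ =
      fresInclC (R0 A) (dvd_mul_right M' q) ((redDataK0 A M').red ⟨z, hz⟩) := by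
  refine (red2K0_eq A (M' * q) h _ h').trans ?_
  exact (congrArg (redDataK0 A (M' * q)).red (Subtype.ext (wAutK0_betaK0 A h z))).trans
    (red_inclC (R0 A) (dvd_mul_right M' q) ⟨z, hz⟩)

/-- `red₂' (α z) = (red₁'' z)(t^q)` -/
theorem red2K0_alphaK0 (z : modularFunctionFieldFullC (K0 A) M') (hz : z ∈ RwK0 A M')
    (h' : alphaK0 A M' q z ∈ (redData2K0 A (M' * q) h).Rw) :
    (redData2K0 A (M' * q) h).red ⟨alphaK0 A M' q z, h'⟩ =
      fresBetaC (R0 A) M' q ((redDataK0 A M').red ⟨z, hz⟩) := by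
  refine (red2K0_eq A (M' * q) h _ h').trans ?_
  exact (congrArg (redDataK0 A (M' * q)).red (Subtype.ext (wAutK0_alphaK0 A h z))).trans
    (red_betaC (R0 A) M' q ⟨z, hz⟩)

end Lower

/-! ### `α = π^* ∘ π^*`, `γ = π'^* ∘ π'^*` and the congruence at `w₃` -/

section Upper

variable (A : ValuationSubring Qb) (M' q : ℕ) [NeZero q] [NeZero M']

/-- `α : z(t) ↦ z(t)`, `K₀(X₀(M')) → K₀(X₀(M' q q))` -/
def alpha2 : modularFunctionFieldFullC (K0 A) M' →+* modularFunctionFieldFullC (K0 A) (M' * q * q) :=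
  (alphaK0 A (M' * q) q).toRingHom.comp (alphaK0 A M' q).toRingHom

/-- `γ : z(t) ↦ z(t^{q²})`, `K₀(X₀(M')) → K₀(X₀(M' q q))` -/
def gamma2 : modularFunctionFieldFullC (K0 A) M' →+* modularFunctionFieldFullC (K0 A) (M' * q * q) :=
  (betaK0 A (M' * q) q).toRingHom.comp (betaK0 A M' q).toRingHom

variable {M' q}

theorem alpha2_apply (z : modularFunctionFieldFullC (K0 A) M') :
    alpha2 A M' q z = alphaK0 A (M' * q) q (alphaK0 A M' q z) := rfl

theorem gamma2_apply (z : modularFunctionFieldFullC (K0 A) M') :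
    gamma2 A M' q z = betaK0 A (M' * q) q (betaK0 A M' q z) := rfl

@[simp]
theorem coe_alpha2 (z : modularFunctionFieldFullC (K0 A) M') :
    ((alpha2 A M' q z : modularFunctionFieldFullC (K0 A) (M' * q * q)) : LaurentSeries (K0 A)) =
      (z : LaurentSeries (K0 A)) := by
  rw [alpha2_apply, coe_alphaC, coe_alphaC]

@[simp]
theorem coe_gamma2 (z : modularFunctionFieldFullC (K0 A) M') :
    ((gamma2 A M' q z : modularFunctionFieldFullC (K0 A) (M' * q * q)) : LaurentSeries (K0 A)) =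
      qExpand (K0 A) q (qExpand (K0 A) q (z : LaurentSeries (K0 A))) := by
  rw [gamma2_apply, coe_betaC, coe_betaC]

/-- `α j' = j` (`hαj` of `exists_vertPrime_caseB`) -/
theorem alpha2_jK0 : alpha2 A M' q (jK0 A M') = jK0 A (M' * q * q) := by
  apply Subtype.ext
  rw [coe_alpha2, jK0, jK0, coe_genC, coe_genC]

theorem qExpand_congr {R : Type*} [CommRing R] {d d' : ℕ} [NeZero d] [NeZero d'] (h : d = d') :
    qExpand R d = qExpand R d' := by
  subst h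
  rfl

/-- `γ j' = j_{q²}` -/
theorem gamma2_jK0 [NeZero (q ^ 2 * 1)] (hdN : q ^ 2 * 1 ∣ M' * q * q) :
    gamma2 A M' q (jK0 A M') = genC (K0 A) (R0 A) (M' * q * q) hdN := by
  apply Subtype.ext
  rw [coe_gamma2, jK0, coe_genC, coe_genC, qExpand_one_apply]
  have : NeZero (q * q) := ⟨mul_ne_zero (NeZero.ne q) (NeZero.ne q)⟩
  rw [qExpand_congr (R := K0 A) (show q ^ 2 * 1 = q * q by ring)]
  exact qExpand_qExpand _ _ _

/-- `γ j' − α j' = y₃` (`hγj` of `exists_vertPrime_caseB`) -/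
theorem gamma2_sub_alpha2_jK0 [NeZero (q ^ 2 * 1)] (hdN : q ^ 2 * 1 ∣ M' * q * q) :
    gamma2 A M' q (jK0 A M') - alpha2 A M' q (jK0 A M') =
      y3K0 A (M' * q * q) q hdN (one_dvd (M' * q * q)) := by
  rw [gamma2_jK0 A hdN, alpha2_jK0, y3K0, jK0]

variable (hq : q.Prime) (hqM : ¬ q ∣ M') (hA : (q : Qb) ∈ A.nonunits)

include hq in
theorem alpha2_mem_Rw3K0_iff (z : modularFunctionFieldFullC (K0 A) M') :
    alpha2 A M' q z ∈ Rw3K0 A (M' * q * q) q ↔ z ∈ RwK0 A M' := by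
  rw [alpha2_apply, alphaK0_mem_Rw3K0_iff A hq, alphaK0_mem_RwK0_iff]

include hq hqM in
theorem gamma2_mem_Rw3K0_iff (z : modularFunctionFieldFullC (K0 A) M') :
    gamma2 A M' q z ∈ Rw3K0 A (M' * q * q) q ↔ z ∈ RwK0 A M' := by
  rw [gamma2_apply, betaK0_mem_Rw3K0_iff A hq hqM, betaK0_mem_Rw2K0_iff]

/-- `red₃ (α z) = (red₁'' z)(t^N)` -/
theorem red3K0_alpha2 (z : modularFunctionFieldFullC (K0 A) M') (hz : z ∈ RwK0 A M')
    (h : alpha2 A M' q z ∈ Rw3K0 A (M' * q * q) q) :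
    (redData3K0 A (M' * q * q) q hq hA).red ⟨alpha2 A M' q z, h⟩ =
      fres3Old A hq hA (fresInclC (R0 A) (dvd_mul_right M' q) ((redDataK0 A M').red ⟨z, hz⟩)) := by
  have h1 : alphaK0 A M' q z ∈ RwK0 A (M' * q) := (alphaK0_mem_RwK0_iff A M' q z).2 hz
  refine (red3K0_alphaK0 A hq hA ⟨alphaK0 A M' q z, h1⟩).trans ?_
  congr 1
  exact red_inclC (R0 A) (dvd_mul_right M' q) ⟨z, hz⟩

include hqM in
/-- `red₃ (γ z) = (red₁'' z)(t^N)` -/
theorem red3K0_gamma2 (z : modularFunctionFieldFullC (K0 A) M') (hz : z ∈ RwK0 A M')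
    (h : gamma2 A M' q z ∈ Rw3K0 A (M' * q * q) q) :
    (redData3K0 A (M' * q * q) q hq hA).red ⟨gamma2 A M' q z, h⟩ =
      fres3Old A hq hA (fresInclC (R0 A) (dvd_mul_right M' q) ((redDataK0 A M').red ⟨z, hz⟩)) := by
  have h1 : betaK0 A M' q z ∈ (redData2K0 A (M' * q) (exactDvd_level hq hqM)).Rw :=
    (betaK0_mem_Rw2K0_iff A _ z).2 hz
  refine (red3K0_betaK0 A hq hqM hA ⟨betaK0 A M' q z, h1⟩).trans ?_
  congr 1
  exact red2K0_betaK0 A _ z hz h1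

include hq hqM hA in
/-- **`γ ≡ α mod 𝔪(w₃)` on the Gauss valuation ring of `K₀(X₀(M'))`**
(`hcong` of `exists_vertPrime_caseB`, for every `S' ≤ RwK0 A M'`) -/
theorem gamma2_sub_alpha2_mem_nonunits (z : modularFunctionFieldFullC (K0 A) M')
    (hz : z ∈ RwK0 A M') :
    gamma2 A M' q z - alpha2 A M' q z ∈ (Rw3K0 A (M' * q * q) q).nonunits := by
  have ha : alpha2 A M' q z ∈ Rw3K0 A (M' * q * q) q := (alpha2_mem_Rw3K0_iff A hq z).2 hz
  have hg : gamma2 A M' q z ∈ Rw3K0 A (M' * q * q) q := (gamma2_mem_Rw3K0_iff A hq hqM z).2 hz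
  have hmem : gamma2 A M' q z - alpha2 A M' q z ∈ Rw3K0 A (M' * q * q) q :=
    sub_mem hg ha
  have hred : (redData3K0 A (M' * q * q) q hq hA).red
      ⟨gamma2 A M' q z - alpha2 A M' q z, hmem⟩ = 0 := by
    have e : (⟨gamma2 A M' q z - alpha2 A M' q z, hmem⟩ : (redData3K0 A (M' * q * q) q hq hA).Rw) =
        ⟨gamma2 A M' q z, hg⟩ - ⟨alpha2 A M' q z, ha⟩ := rfl
    rw [e, map_sub, red3K0_gamma2 A hq hqM hA z hz hg, red3K0_alpha2 A hq hA z hz ha, sub_self]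
  have hmax := ((redData3K0 A (M' * q * q) q hq hA).red_eq_zero_iff _).1 hred
  rw [ValuationSubring.mem_nonunits_iff_exists_mem_maximalIdeal]
  exact ⟨hmem, hmax⟩

include hq hqM hA in
/-- the same for a subring `S'` of the Gauss valuation ring (binder shape of `hcong`) -/
theorem hcong (S' : Subring (modularFunctionFieldFullC (K0 A) M'))
    (hS' : ∀ z ∈ S', z ∈ RwK0 A M') :
    ∀ z ∈ S', gamma2 A M' q z - alpha2 A M' q z ∈ (Rw3K0 A (M' * q * q) q).nonunits :=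
  fun z hz => gamma2_sub_alpha2_mem_nonunits A hq hqM hA z (hS' z hz)

end Upper

end Fermat.Agent.GL.Reg3.BCong
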