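/-
GATE-L / L5d REG3, abstract core (helper50): the CUBE TRICK and the LOG TRICK.
Mathlib + helper92's `GL/Alg/PrincipalCrit.lean` (pow trick) only.

Setting (as in `PowTrick`): `O` an integrally closed domain, `P` a prime ideal, `g ∈ O`, `n ≥ 1`
with `∀ z ∈ P, g ∣ z ^ n`  (REG3: `O = O_x`, `P = P₃·O`, `g = q`, `n = q - 1`).

Two "coordinate systems" `α, γ : A →+* O` agreeing modulo `P` (REG3: `α = π^*`, `γ = (π∘w)^*`,
`A` = the regular local ring one level down) give for every `f ∈ A` the element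
`y_f = γ f - α f ∈ P` and `ε(f) = y_f ^ n / g ∈ O`.  The pow trick needs ONE `f` with `ε(f)` a
unit; at the elliptic-type points (`j = 0, 1728` with the auxiliary level making the local ring one
level down regular, `j - a = u * h ^ c`, `c = 3, 2`) `ε(j)` is NOT a unit, but its reduction
`- (θ J̃)^(q-1) = unit * H̃ ^ ((c-1) * n)` has EXACTLY the order of vanishing that `ε(u * h ^ c)`
must have if `ε(h)` is a unit: this is the cube trick.

* `exists_binom_quot` : `(a z₁ + b z₂) ^ n / g` expanded by the binomial theorem;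
* `cube_expand` : `ε(u * h ^ c) ≡ h ^ ((c-1) n) * ((c u) ^ n * ε(h) + h * R)  (mod P)`;
* `span_eq_of_cube` : **cube trick**: `O` local, `h ∈ 𝔪 ∖ P`,
  `ε(u * h ^ c) ≡ unit * h ^ ((c-1) n) (mod P)`  ⟹  `P = (y_h)`;
* `span_eq_of_log` : **log trick** (cusps): `γ g₀ = α g₀ * v`, `α g₀ ∉ P`,
  `ε(g₀) ≡ unit * (α g₀) ^ n (mod P)`  ⟹  `P = (v - 1)`;
* `span_eq_of_unit` : the generic case (`ε(f) ≡ unit`), for uniformity;
* `_hom` versions for ring homomorphisms `α, γ`, and the regularity corollaries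
  (`𝔪 = (y, t)`, UFD) when `O ⧸ P` is a DVR.
-/
import Fermat.Agent.GL.Alg.PrincipalCrit

set_option autoImplicit false

namespace Fermat.Agent.GL.Reg3

open IsLocalRing

section Expand

variable {O : Type*} [CommRing O] [IsDomain O] [IsIntegrallyClosed O]

/-- binomial expansion of `(a z₁ + b z₂) ^ n / g` when `g ∣ z₁ ^ n` and `g ∣ z₂ ^ n` in an
integrally closed domain: all mixed monomials `z₁ ^ m z₂ ^ (n - m)` are divisible by `g`. -/
theorem exists_binom_quot {g : O} {n : ℕ} (hn : n ≠ 0) (hg : g ≠ 0) {z₁ z₂ : O}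
    (h₁ : g ∣ z₁ ^ n) (h₂ : g ∣ z₂ ^ n) :
    ∃ t : ℕ → O, (∀ m ≤ n, g * t m = z₁ ^ m * z₂ ^ (n - m)) ∧
      ∀ a b e₀ : O, g * e₀ = (a * z₁ + b * z₂) ^ n →
        e₀ = ∑ m ∈ Finset.range (n + 1), a ^ m * b ^ (n - m) * (n.choose m : O) * t m := by
  classical
  have key : ∀ m : ℕ, ∃ s : O, m ≤ n → g * s = z₁ ^ m * z₂ ^ (n - m) := by
    intro m
    by_cases hm : m ≤ n
    · obtain ⟨s, hs⟩ := PowTrick.dvd_mul_pow_of_dvd_pow hn h₁ h₂ (i := m) (j := n - m) (by omega)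
      exact ⟨s, fun _ => hs.symm⟩
    · exact ⟨0, fun h => absurd h hm⟩
  choose t ht using key
  refine ⟨t, ht, fun a b e₀ he => ?_⟩
  apply mul_left_cancel₀ hg
  rw [he, add_pow, Finset.mul_sum]
  refine Finset.sum_congr rfl fun m hm => ?_
  have hm' : m ≤ n := Nat.lt_succ_iff.mp (Finset.mem_range.mp hm)
  have := ht m hm'
  calc (a * z₁) ^ m * (b * z₂) ^ (n - m) * (n.choose m : O)
      = a ^ m * b ^ (n - m) * (n.choose m : O) * (z₁ ^ m * z₂ ^ (n - m)) := by ring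
    _ = g * (a ^ m * b ^ (n - m) * (n.choose m : O) * t m) := by rw [← this]; ring

/-- `∑_{i < c} x ^ i * x ^ (c - 1 - i) = c * x ^ (c - 1)`. -/
theorem geom_sum₂_self_eq {S : Type*} [CommRing S] (x : S) (c : ℕ) :
    ∑ i ∈ Finset.range c, x ^ i * x ^ (c - 1 - i) = (c : S) * x ^ (c - 1) := by
  have : ∀ i ∈ Finset.range c, x ^ i * x ^ (c - 1 - i) = x ^ (c - 1) := by
    intro i hi
    have hi' : i < c := Finset.mem_range.mp hi
    rw [← pow_add]
    congr 1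
    omega
  rw [Finset.sum_congr rfl this, Finset.sum_const, Finset.card_range, nsmul_eq_mul]

/-- **cube expansion**: with `y_f = f' - f` and `ε(f) = y_f ^ n / g`,
`ε(u * h ^ c) ≡ h ^ ((c-1) n) * ((c u) ^ n * ε(h) + h * R)  (mod P)`. -/
theorem cube_expand {P : Ideal O} {g : O} {n : ℕ} (hn : n ≠ 0) (hg : g ≠ 0)
    (hP : ∀ z ∈ P, g ∣ z ^ n) {u u' h h' : O} (hu : u' - u ∈ P) (hh : h' - h ∈ P)
    {c : ℕ} (hc : 1 ≤ c) {e₀ : O} (he₀ : g * e₀ = (u' * h' ^ c - u * h ^ c) ^ n) :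
    ∃ eh R : O, g * eh = (h' - h) ^ n ∧
      e₀ - h ^ ((c - 1) * n) * (((c : O) * u) ^ n * eh + h * R) ∈ P := by
  classical
  obtain ⟨d, rfl⟩ : ∃ d, c = d + 1 := ⟨c - 1, by omega⟩
  rw [Nat.add_sub_cancel]
  set S : O := ∑ i ∈ Finset.range (d + 1), h' ^ i * h ^ (d + 1 - 1 - i) with hS
  have hSmul : S * (h' - h) = h' ^ (d + 1) - h ^ (d + 1) := geom_sum₂_mul h' h (d + 1)
  have hZ : u' * h' ^ (d + 1) - u * h ^ (d + 1)
      = h' ^ (d + 1) * (u' - u) + (u * S) * (h' - h) := by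
    rw [mul_assoc, hSmul]; ring
  obtain ⟨t, ht, hsum⟩ := exists_binom_quot hn hg (hP _ hu) (hP _ hh)
  have he := hsum (h' ^ (d + 1)) (u * S) e₀ (by rw [← hZ]; exact he₀)
  refine ⟨t 0, ∑ m ∈ Finset.range n,
    h ^ m * (((d + 1 : ℕ) : O) * u) ^ (n - (m + 1)) * (n.choose (m + 1) : O) * t (m + 1), ?_, ?_⟩
  · have := ht 0 (Nat.zero_le n)
    simpa using this
  · rw [← Ideal.Quotient.eq]
    have hφh : Ideal.Quotient.mk P h' = Ideal.Quotient.mk P h := Ideal.Quotient.eq.mpr hh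
    have hφS : Ideal.Quotient.mk P S = ((d + 1 : ℕ) : O ⧸ P) * (Ideal.Quotient.mk P h) ^ d := by
      rw [hS, map_sum]
      simp only [map_mul, map_pow, hφh]
      have := geom_sum₂_self_eq (Ideal.Quotient.mk P h) (d + 1)
      rw [Nat.add_sub_cancel] at this
      exact this
    rw [he, Finset.sum_range_succ']
    simp only [map_add, map_sum, map_mul, map_pow, map_natCast, hφh, hφS, pow_zero, one_mul,
      Nat.sub_zero, Nat.choose_zero_right, Nat.cast_one, mul_one]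
    rw [mul_add, add_comm, Finset.mul_sum, Finset.mul_sum]
    congr 1
    · ring
    · refine Finset.sum_congr rfl fun m hm => ?_
      have hm' : m < n := Finset.mem_range.mp hm
      obtain ⟨k, rfl⟩ : ∃ k, n = k + (m + 1) := ⟨n - (m + 1), by omega⟩
      rw [Nat.add_sub_cancel]
      ring

end Expand

section Local

variable {O : Type*} [CommRing O] [IsDomain O] [IsIntegrallyClosed O] [IsLocalRing O]

omit [IsDomain O] [IsIntegrallyClosed O] in
/-- in a local ring, congruent to a unit modulo a proper ideal implies unit. -/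
theorem isUnit_of_sub_mem {P : Ideal O} (hP1 : P ≠ ⊤) {a w : O} (hw : IsUnit w)
    (h : a - w ∈ P) : IsUnit a := by
  by_contra ha
  have ha' : a ∈ maximalIdeal O := (mem_maximalIdeal a).mpr ha
  have h' : a - w ∈ maximalIdeal O := le_maximalIdeal hP1 h
  have hwm : w ∈ maximalIdeal O := by
    have := Ideal.sub_mem _ ha' h'
    simpa using this
  exact (mem_maximalIdeal w).mp hwm hw

/-- **generic case** of REG3: `ε(f) = y ^ n / g` congruent to a unit modulo `P`. -/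
theorem span_eq_of_unit {P : Ideal O} [P.IsPrime] {g : O} {n : ℕ} (hn : n ≠ 0)
    (hP : ∀ z ∈ P, g ∣ z ^ n) {y e₀ w : O} (hy : y ∈ P) (he₀ : g * e₀ = y ^ n)
    (hw : IsUnit w) (hew : e₀ - w ∈ P) : P = Ideal.span {y} :=
  PowTrick.eq_span_singleton_of_pow hn hP hy
    (isUnit_of_sub_mem (Ideal.IsPrime.ne_top ‹_›) hw hew) he₀.symm

/-- **cube trick**, unit form: if `h ∈ 𝔪 ∖ P` and `ε(u * h ^ c) ≡ w * h ^ ((c-1) n) (mod P)` with
`w` a unit, then `ε(h) = (h' - h) ^ n / g` is a unit. -/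
theorem exists_isUnit_of_cube {P : Ideal O} [P.IsPrime] {g : O} {n : ℕ} (hn : n ≠ 0)
    (hg : g ≠ 0) (hP : ∀ z ∈ P, g ∣ z ^ n) {u u' h h' : O} (hu : u' - u ∈ P) (hh : h' - h ∈ P)
    {c : ℕ} (hc : 1 ≤ c) {e₀ : O} (he₀ : g * e₀ = (u' * h' ^ c - u * h ^ c) ^ n)
    (hhm : h ∈ maximalIdeal O) (hhP : h ∉ P) {w : O} (hw : IsUnit w)
    (hew : e₀ - w * h ^ ((c - 1) * n) ∈ P) :
    ∃ eh : O, IsUnit eh ∧ g * eh = (h' - h) ^ n := by
  obtain ⟨eh, R, heh, hcong⟩ := cube_expand hn hg hP hu hh hc he₀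
  set W : O := ((c : O) * u) ^ n * eh + h * R with hW
  have h1 : h ^ ((c - 1) * n) * (W - w) ∈ P := by
    have := Ideal.sub_mem _ hew hcong
    convert this using 1
    ring
  have h2 : W - w ∈ P := by
    rcases Ideal.IsPrime.mem_or_mem ‹_› h1 with h3 | h3
    · exact absurd (Ideal.IsPrime.mem_of_pow_mem ‹_› _ h3) hhP
    · exact h3
  have hWu : IsUnit W := isUnit_of_sub_mem (Ideal.IsPrime.ne_top ‹_›) hw h2
  have h3 : IsUnit (((c : O) * u) ^ n * eh) := by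
    by_contra hnu
    have h4 : ((c : O) * u) ^ n * eh ∈ maximalIdeal O := (mem_maximalIdeal _).mpr hnu
    have h5 : W ∈ maximalIdeal O := Ideal.add_mem _ h4 (Ideal.mul_mem_right _ _ hhm)
    exact (mem_maximalIdeal W).mp h5 hWu
  exact ⟨eh, isUnit_of_mul_isUnit_right h3, heh⟩

/-- **cube trick**: `P = (h' - h)`. -/
theorem span_eq_of_cube {P : Ideal O} [P.IsPrime] {g : O} {n : ℕ} (hn : n ≠ 0)
    (hg : g ≠ 0) (hP : ∀ z ∈ P, g ∣ z ^ n) {u u' h h' : O} (hu : u' - u ∈ P) (hh : h' - h ∈ P)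
    {c : ℕ} (hc : 1 ≤ c) {e₀ : O} (he₀ : g * e₀ = (u' * h' ^ c - u * h ^ c) ^ n)
    (hhm : h ∈ maximalIdeal O) (hhP : h ∉ P) {w : O} (hw : IsUnit w)
    (hew : e₀ - w * h ^ ((c - 1) * n) ∈ P) :
    P = Ideal.span {h' - h} := by
  obtain ⟨eh, hehu, heh⟩ := exists_isUnit_of_cube hn hg hP hu hh hc he₀ hhm hhP hw hew
  exact PowTrick.eq_span_singleton_of_pow hn hP hh hehu heh.symm

omit [IsLocalRing O] [IsIntegrallyClosed O] in
/-- under the hypotheses of the pow trick the generator is nonzero. -/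
theorem ne_zero_of_pow_eq {g y e : O} {n : ℕ} (hg : g ≠ 0) (he : IsUnit e)
    (hy : g * e = y ^ n) (hn : n ≠ 0) : y ≠ 0 := by
  rintro rfl
  rw [zero_pow hn] at hy
  rcases mul_eq_zero.mp hy with h | h
  · exact hg h
  · exact he.ne_zero h

omit [IsIntegrallyClosed O] in
/-- **log trick**, unit form (cusps): `a' = a * v` (`a = α g₀`, `a' = γ g₀`), `a ∉ P`,
`ε(g₀) ≡ w * a ^ n (mod P)` with `w` a unit; then `v - 1 ∈ P` and `(v - 1) ^ n / g` is a unit. -/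
theorem exists_isUnit_of_log {P : Ideal O} [P.IsPrime] {g : O} {n : ℕ} (hg : g ≠ 0)
    (hP : ∀ z ∈ P, g ∣ z ^ n) {a a' v : O} (ha : a' - a ∈ P) (hv : a' = a * v) (haP : a ∉ P)
    {e₀ : O} (he₀ : g * e₀ = (a' - a) ^ n) {w : O} (hw : IsUnit w)
    (hew : e₀ - w * a ^ n ∈ P) :
    v - 1 ∈ P ∧ ∃ ev : O, IsUnit ev ∧ g * ev = (v - 1) ^ n := by
  have hfac : a' - a = a * (v - 1) := by rw [hv]; ring
  have hv1 : v - 1 ∈ P := by
    rw [hfac] at ha
    exact (Ideal.IsPrime.mem_or_mem ‹_› ha).resolve_left haP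
  obtain ⟨ev, hev⟩ := hP _ hv1
  refine ⟨hv1, ev, ?_, hev.symm⟩
  have h1 : e₀ = a ^ n * ev := by
    apply mul_left_cancel₀ hg
    rw [he₀, hfac, mul_pow, hev]
    ring
  have h2 : a ^ n * (ev - w) ∈ P := by
    convert hew using 1
    rw [h1]
    ring
  have h3 : ev - w ∈ P := by
    rcases Ideal.IsPrime.mem_or_mem ‹_› h2 with h4 | h4
    · exact absurd (Ideal.IsPrime.mem_of_pow_mem ‹_› _ h4) haP
    · exact h4
  exact isUnit_of_sub_mem (Ideal.IsPrime.ne_top ‹_›) hw h3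

/-- **log trick** (cusps): `P = (v - 1)`. -/
theorem span_eq_of_log {P : Ideal O} [P.IsPrime] {g : O} {n : ℕ} (hn : n ≠ 0) (hg : g ≠ 0)
    (hP : ∀ z ∈ P, g ∣ z ^ n) {a a' v : O} (ha : a' - a ∈ P) (hv : a' = a * v) (haP : a ∉ P)
    {e₀ : O} (he₀ : g * e₀ = (a' - a) ^ n) {w : O} (hw : IsUnit w)
    (hew : e₀ - w * a ^ n ∈ P) :
    P = Ideal.span {v - 1} := by
  obtain ⟨hv1, ev, hevu, hev⟩ := exists_isUnit_of_log hg hP ha hv haP he₀ hw hew
  exact PowTrick.eq_span_singleton_of_pow hn hP hv1 hevu hev.symm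

end Local

section Hom

variable {O : Type*} [CommRing O] [IsDomain O] [IsIntegrallyClosed O] [IsLocalRing O]
variable {A : Type*} [CommRing A] (α γ : A →+* O)

/-- **cube trick** for two ring homomorphisms `α, γ : A →+* O` congruent modulo `P`:
`f ∈ A` with `γ f - α f = γ (u * h ^ c) - α (u * h ^ c)` (e.g. `f = a + u * h ^ c`, `a` a constant),
`ε(f) ≡ unit * (α h) ^ ((c-1) n)`, `α h ∈ 𝔪 ∖ P`  ⟹  `P = (γ h - α h)`. -/
theorem span_eq_of_cube_hom {P : Ideal O} [P.IsPrime] {g : O} {n : ℕ} (hn : n ≠ 0)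
    (hg : g ≠ 0) (hP : ∀ z ∈ P, g ∣ z ^ n) (hαγ : ∀ f, γ f - α f ∈ P) {f u h : A} {c : ℕ}
    (hc : 1 ≤ c) (hf : γ f - α f = γ (u * h ^ c) - α (u * h ^ c)) {e₀ : O}
    (he₀ : g * e₀ = (γ f - α f) ^ n) (hhm : α h ∈ maximalIdeal O) (hhP : α h ∉ P) {w : O}
    (hw : IsUnit w) (hew : e₀ - w * α h ^ ((c - 1) * n) ∈ P) :
    P = Ideal.span {γ h - α h} := by
  refine span_eq_of_cube hn hg hP (hαγ u) (hαγ h) hc ?_ hhm hhP hw hew
  rw [he₀, hf, map_mul, map_mul, map_pow, map_pow]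

/-- **log trick** for two ring homomorphisms. -/
theorem span_eq_of_log_hom {P : Ideal O} [P.IsPrime] {g : O} {n : ℕ} (hn : n ≠ 0)
    (hg : g ≠ 0) (hP : ∀ z ∈ P, g ∣ z ^ n) (hαγ : ∀ f, γ f - α f ∈ P) {g₀ : A} {v : O}
    (hv : γ g₀ = α g₀ * v) (haP : α g₀ ∉ P) {e₀ : O} (he₀ : g * e₀ = (γ g₀ - α g₀) ^ n)
    {w : O} (hw : IsUnit w) (hew : e₀ - w * α g₀ ^ n ∈ P) :
    P = Ideal.span {v - 1} :=
  span_eq_of_log hn hg hP (hαγ g₀) hv haP he₀ hw hew

end Hom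

section Regular

variable {O : Type*} [CommRing O] [IsLocalRing O]

/-- `P = (y)` and `O ⧸ P` a DVR give `𝔪 = (y, t)`. -/
theorem exists_maximalIdeal_eq_span_pair_of_span_eq {P : Ideal O} {y : O}
    (h : P = Ideal.span {y}) [IsDomain (O ⧸ P)] [IsDiscreteValuationRing (O ⧸ P)] :
    ∃ t : O, maximalIdeal O = Ideal.span {y, t} := by
  subst h
  exact RegTwo.exists_maximalIdeal_eq_span_pair_of_quotient_dvr y

/-- `P = (y)`, `y ≠ 0` and `O ⧸ P` a DVR give that `O` is a UFD. -/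
theorem ufd_of_span_eq [IsDomain O] [IsNoetherianRing O] {P : Ideal O} {y : O}
    (h : P = Ideal.span {y}) (hy0 : y ≠ 0) [IsDomain (O ⧸ P)]
    [IsDiscreteValuationRing (O ⧸ P)] : UniqueFactorizationMonoid O := by
  subst h
  exact RegTwo.ufd_of_quotient_dvr y hy0

variable [IsDomain O] [IsIntegrallyClosed O]

/-- **REG3 at an elliptic-type point** (cube trick + `O ⧸ P` a DVR): `O` is regular of
dimension two with `𝔪 = (h' - h, t)`, and a UFD. -/
theorem regular_of_cube [IsNoetherianRing O] {P : Ideal O} [IsDomain (O ⧸ P)]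
    [IsDiscreteValuationRing (O ⧸ P)] {g : O} {n : ℕ} (hn : n ≠ 0)
    (hg : g ≠ 0) (hP : ∀ z ∈ P, g ∣ z ^ n) {u u' h h' : O} (hu : u' - u ∈ P) (hh : h' - h ∈ P)
    {c : ℕ} (hc : 1 ≤ c) {e₀ : O} (he₀ : g * e₀ = (u' * h' ^ c - u * h ^ c) ^ n)
    (hhm : h ∈ maximalIdeal O) (hhP : h ∉ P) {w : O} (hw : IsUnit w)
    (hew : e₀ - w * h ^ ((c - 1) * n) ∈ P) :
    P = Ideal.span {h' - h} ∧ (∃ t : O, maximalIdeal O = Ideal.span {h' - h, t}) ∧
      UniqueFactorizationMonoid O := by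
  have hPp : P.IsPrime := (Ideal.Quotient.isDomain_iff_prime P).mp inferInstance
  obtain ⟨eh, hehu, heh⟩ := exists_isUnit_of_cube hn hg hP hu hh hc he₀ hhm hhP hw hew
  have hspan := PowTrick.eq_span_singleton_of_pow hn hP hh hehu heh.symm
  exact ⟨hspan, exists_maximalIdeal_eq_span_pair_of_span_eq hspan,
    ufd_of_span_eq hspan (ne_zero_of_pow_eq hg hehu heh hn)⟩

/-- **REG3 at a cusp** (log trick + `O ⧸ P` a DVR). -/
theorem regular_of_log [IsNoetherianRing O] {P : Ideal O} [IsDomain (O ⧸ P)]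
    [IsDiscreteValuationRing (O ⧸ P)] {g : O} {n : ℕ} (hn : n ≠ 0) (hg : g ≠ 0)
    (hP : ∀ z ∈ P, g ∣ z ^ n) {a a' v : O} (ha : a' - a ∈ P) (hv : a' = a * v) (haP : a ∉ P)
    {e₀ : O} (he₀ : g * e₀ = (a' - a) ^ n) {w : O} (hw : IsUnit w)
    (hew : e₀ - w * a ^ n ∈ P) :
    P = Ideal.span {v - 1} ∧ (∃ t : O, maximalIdeal O = Ideal.span {v - 1, t}) ∧
      UniqueFactorizationMonoid O := by
  have hPp : P.IsPrime := (Ideal.Quotient.isDomain_iff_prime P).mp inferInstance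
  obtain ⟨hv1, ev, hevu, hev⟩ := exists_isUnit_of_log hg hP ha hv haP he₀ hw hew
  have hspan := PowTrick.eq_span_singleton_of_pow hn hP hv1 hevu hev.symm
  exact ⟨hspan, exists_maximalIdeal_eq_span_pair_of_span_eq hspan,
    ufd_of_span_eq hspan (ne_zero_of_pow_eq hg hevu hev hn)⟩

/-- **REG3 at a generic point** (pow trick + `O ⧸ P` a DVR). -/
theorem regular_of_unit [IsNoetherianRing O] {P : Ideal O} [IsDomain (O ⧸ P)]
    [IsDiscreteValuationRing (O ⧸ P)] {g : O} {n : ℕ} (hn : n ≠ 0) (hg : g ≠ 0)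
    (hP : ∀ z ∈ P, g ∣ z ^ n) {y e₀ w : O} (hy : y ∈ P) (he₀ : g * e₀ = y ^ n)
    (hw : IsUnit w) (hew : e₀ - w ∈ P) :
    P = Ideal.span {y} ∧ (∃ t : O, maximalIdeal O = Ideal.span {y, t}) ∧
      UniqueFactorizationMonoid O := by
  have hPp : P.IsPrime := (Ideal.Quotient.isDomain_iff_prime P).mp inferInstance
  have heu : IsUnit e₀ := isUnit_of_sub_mem (Ideal.IsPrime.ne_top ‹_›) hw hew
  have hspan := PowTrick.eq_span_singleton_of_pow hn hP hy heu he₀.symm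
  exact ⟨hspan, exists_maximalIdeal_eq_span_pair_of_span_eq hspan,
    ufd_of_span_eq hspan (ne_zero_of_pow_eq hg heu he₀ hn)⟩

end Regular

section Reduction

variable {O : Type*} [CommRing O] [IsDomain O] [IsIntegrallyClosed O] [IsLocalRing O]
variable {A : Type*} [CommRing A] (α γ : A →+* O)
variable {K : Type*} [CommRing K] [IsDomain K] (rd : O →+* K)

/-- **cube trick, reduction-map form**: `rd : O →+* K` (`K` a domain) with kernel `P`
(REG3: `rd = rd₃`), `rd ∘ γ = rd ∘ α`, `f ∈ A` with `y_f = y_{u h^c}`, and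
`rd (y_f ^ n / g) = rd w * rd (α h) ^ ((c-1) n)` with `w` a unit, `α h ∈ 𝔪`, `rd (α h) ≠ 0`.
Then `ker rd = (γ h - α h)`. -/
theorem ker_eq_span_of_cube {g : O} {n : ℕ} (hn : n ≠ 0) (hg : g ≠ 0)
    (hP : ∀ z, rd z = 0 → g ∣ z ^ n) (hαγ : ∀ f, rd (γ f) = rd (α f)) {f u h : A} {c : ℕ}
    (hc : 1 ≤ c) (hf : γ f - α f = γ (u * h ^ c) - α (u * h ^ c)) {e₀ : O}
    (he₀ : g * e₀ = (γ f - α f) ^ n) (hhm : α h ∈ maximalIdeal O) (hhP : rd (α h) ≠ 0)
    {w : O} (hw : IsUnit w) (hew : rd e₀ = rd w * rd (α h) ^ ((c - 1) * n)) :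
    RingHom.ker rd = Ideal.span {γ h - α h} := by
  have : (RingHom.ker rd).IsPrime := RingHom.ker_isPrime rd
  refine span_eq_of_cube_hom α γ hn hg (fun z hz => hP z ((RingHom.mem_ker).mp hz))
    (fun f => ?_) hc hf he₀ hhm (fun hh => hhP ((RingHom.mem_ker).mp hh)) hw ?_
  · rw [RingHom.mem_ker, map_sub, hαγ, sub_self]
  · rw [RingHom.mem_ker, map_sub, map_mul, map_pow, hew, sub_self]

/-- **log trick, reduction-map form** (cusps): `γ g₀ = α g₀ * v`, `rd (α g₀) ≠ 0`,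
`rd (y_{g₀} ^ n / g) = rd w * rd (α g₀) ^ n` with `w` a unit.  Then `ker rd = (v - 1)`. -/
theorem ker_eq_span_of_log {g : O} {n : ℕ} (hn : n ≠ 0) (hg : g ≠ 0)
    (hP : ∀ z, rd z = 0 → g ∣ z ^ n) (hαγ : ∀ f, rd (γ f) = rd (α f)) {g₀ : A} {v : O}
    (hv : γ g₀ = α g₀ * v) (haP : rd (α g₀) ≠ 0) {e₀ : O}
    (he₀ : g * e₀ = (γ g₀ - α g₀) ^ n) {w : O} (hw : IsUnit w)
    (hew : rd e₀ = rd w * rd (α g₀) ^ n) :
    RingHom.ker rd = Ideal.span {v - 1} := by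
  have : (RingHom.ker rd).IsPrime := RingHom.ker_isPrime rd
  refine span_eq_of_log_hom α γ hn hg (fun z hz => hP z ((RingHom.mem_ker).mp hz))
    (fun f => ?_) hv (fun hh => haP ((RingHom.mem_ker).mp hh)) he₀ hw ?_
  · rw [RingHom.mem_ker, map_sub, hαγ, sub_self]
  · rw [RingHom.mem_ker, map_sub, map_mul, map_pow, hew, sub_self]

/-- **generic case, reduction-map form**: `rd (y ^ n / g) = rd w`, `w` a unit. -/
theorem ker_eq_span_of_unit {g : O} {n : ℕ} (hn : n ≠ 0)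
    (hP : ∀ z, rd z = 0 → g ∣ z ^ n) {y e₀ w : O} (hy : rd y = 0) (he₀ : g * e₀ = y ^ n)
    (hw : IsUnit w) (hew : rd e₀ = rd w) :
    RingHom.ker rd = Ideal.span {y} := by
  have : (RingHom.ker rd).IsPrime := RingHom.ker_isPrime rd
  refine span_eq_of_unit hn (fun z hz => hP z ((RingHom.mem_ker).mp hz))
    ((RingHom.mem_ker).mpr hy) he₀ hw ?_
  rw [RingHom.mem_ker, map_sub, hew, sub_self]

end Reduction

end Fermat.Agent.GL.Reg3

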