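/-
GATE-L / L5d REG3, FRAME ADAPTER (helper50): the cube / log / generic tricks of `CubeTrick.lean`
in the height-one language of helper80 (`HeightOneFrame`) and helper84 (`VertPrimeHtOne`).

`B` noetherian integrally closed (REG3: the chart ring `B2` of level `N = q² M`), `F = Frac B`,
`P` a prime of `B` (a closed point `x` of the special fibre), `O = B_P`, `𝔭₀` a height-one prime
`≤ P` (REG3: `P₃`), `g ∈ B` (`= q`), `n ≥ 1` (`= q - 1`) with

* `hvert` : no OTHER height-one prime `≤ P` contains `g`   (`x` lies on `C₃` only);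
* `hram`  : `∀ f ∈ 𝔭₀, ∃ s ∉ 𝔭₀, g ∣ s * f ^ n`              (`w₃(f ^ n) ≥ w₃(q)` on `P₃`).

Then

* `pow_dvd_of_mem_map` : `∀ z ∈ 𝔭₀ O, g ∣ z ^ n` in `O` — the hypothesis `hP` of `CubeTrick` (Hartogs
  on the height-one frame);
* `exists_vertPrime_of_isUnit` : ONE `y ∈ 𝔭₀ O` with `y ^ n = g * unit` produces `π ∈ B` with the
  inputs `hπne hπ0 hgen hother` of helper84 `VertPrimeHtOne.prime_algebraMap_htOne /
  divPrincipal_htOne` (and of helper47 `LocTypeI`), `π O = y O`;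
* `exists_vertPrime_of_cube / _of_log / _of_unit` : the same from the cube / log / generic data.
-/
import Fermat.Agent.GL.Frame.VertPrimeHtOne
import Fermat.Agent.GL.Reg3.CubeTrick

set_option autoImplicit false
set_option linter.unusedSectionVars false

namespace Fermat.Agent.GL.Reg3

open Fermat.Agent.GL.KrullFrame Fermat.Agent.GL.KrullHeightOne Fermat.Agent.GL.Frame.HeightOne
  Fermat.Agent.GL.Frame.VertPrimeHtOne IsLocalRing

section HtOne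

variable {B F : Type*} [CommRing B] [IsDomain B] [Field F] [Algebra B F] [IsFractionRing B F]
  [IsNoetherianRing B] [IsIntegrallyClosed B]
variable (P : Ideal B) [P.IsPrime]
variable (O : Type*) [CommRing O] [IsDomain O] [Algebra B O] [IsLocalization.AtPrime O P]
  [Algebra O F] [IsScalarTower B O F] [IsFractionRing O F]
variable (𝔭₀ : HtOne B)

/-- `z ∈ 𝔭₀ O` iff `z` is a non-unit of `B_𝔭₀`. -/
theorem mem_map_iff_mem_nonunits (h𝔭P : 𝔭₀.1 ≤ P) (z : O) :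
    z ∈ Ideal.map (algebraMap B O) 𝔭₀.1 ↔ algebraMap O F z ∈ (V1 F 𝔭₀).nonunits := by
  constructor
  · intro hz
    rw [IsLocalization.mem_map_algebraMap_iff P.primeCompl] at hz
    obtain ⟨⟨⟨a, ha⟩, s⟩, hzs⟩ := hz
    have hs𝔭 : (s : B) ∉ 𝔭₀.1 := fun h => s.2 (h𝔭P h)
    have hsF : algebraMap B F (s : B) ≠ 0 := KrullHeightOne.algebraMap_ne_zero_of_not_mem 𝔭₀.1 hs𝔭
    have h1 : algebraMap O F z * algebraMap B F (s : B) = algebraMap B F a := by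
      have := congrArg (algebraMap O F) hzs
      rwa [map_mul, ← IsScalarTower.algebraMap_apply, ← IsScalarTower.algebraMap_apply] at this
    have h2 : algebraMap O F z = algebraMap B F a * (algebraMap B F (s : B))⁻¹ := by
      rw [← h1, mul_assoc, mul_inv_cancel₀ hsF, mul_one]
    rw [h2, ValuationSubring.mem_nonunits_iff, map_mul]
    exact mul_lt_one_of_lt_of_le
      ((ValuationSubring.mem_nonunits_iff _).mp ((algebraMap_mem_nonunits_V1_iff 𝔭₀ a).2 ha))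
      ((ValuationSubring.valuation_le_one_iff _ _).mpr (inv_algebraMap_mem_V1 𝔭₀ hs𝔭))
  · intro hz
    obtain ⟨⟨a, s⟩, hmk⟩ := IsLocalization.mk'_surjective P.primeCompl z
    have hmk' : IsLocalization.mk' O a s = z := hmk
    have h1 := IsLocalization.mk'_spec O a s
    rw [hmk'] at h1
    have h2 : algebraMap O F z * algebraMap B F (s : B) = algebraMap B F a := by
      have := congrArg (algebraMap O F) h1
      rwa [map_mul, ← IsScalarTower.algebraMap_apply, ← IsScalarTower.algebraMap_apply] at this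
    have ha : a ∈ 𝔭₀.1 := by
      rw [← algebraMap_mem_nonunits_V1_iff (F := F), ← h2, ValuationSubring.mem_nonunits_iff,
        map_mul]
      exact mul_lt_one_of_lt_of_le ((ValuationSubring.mem_nonunits_iff _).mp hz)
        ((ValuationSubring.valuation_le_one_iff _ _).mpr (algebraMap_mem_V1 𝔭₀ (s : B)))
    rw [IsLocalization.mem_map_algebraMap_iff P.primeCompl]
    exact ⟨⟨⟨a, ha⟩, s⟩, h1⟩

/-- in a valuation subring, `x ^ n ∈ V` (`n ≠ 0`) implies `x ∈ V`. -/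
theorem mem_of_pow_mem_valuationSubring {V : ValuationSubring F} {x : F} {n : ℕ} (hn : n ≠ 0)
    (hx : x ^ n ∈ V) : x ∈ V := by
  rw [← ValuationSubring.valuation_le_one_iff] at hx ⊢
  rw [map_pow] at hx
  exact (pow_le_one_iff hn).mp hx

/-- the valuation of a unit of `O = B_P` at a height-one prime `≤ P` is one. -/
theorem valuation_algebraMap_eq_one_of_isUnit {𝔮 : HtOne B} (h𝔮P : 𝔮.1 ≤ P) {ε : O}
    (hε : IsUnit ε) : (V1 F 𝔮).valuation (algebraMap O F ε) = 1 := by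
  obtain ⟨u, rfl⟩ := hε
  have hV := isFrame_heightOne (B := B) (F := F)
  have hov : Over (V1 (B := B) F) P 𝔮 := (over_V1_iff P 𝔮).2 h𝔮P
  have h1 : (V1 F 𝔮).valuation (algebraMap O F (u : O)) ≤ 1 :=
    (ValuationSubring.valuation_le_one_iff _ _).mpr (hV.algebraMap_loc_mem P O (u : O) hov)
  have h2 : (V1 F 𝔮).valuation (algebraMap O F ((u⁻¹ : Oˣ) : O)) ≤ 1 :=
    (ValuationSubring.valuation_le_one_iff _ _).mpr
      (hV.algebraMap_loc_mem P O ((u⁻¹ : Oˣ) : O) hov)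
  have h3 : (V1 F 𝔮).valuation (algebraMap O F (u : O)) *
      (V1 F 𝔮).valuation (algebraMap O F ((u⁻¹ : Oˣ) : O)) = 1 := by
    rw [← map_mul, ← map_mul, Units.mul_inv, map_one, map_one]
  refine le_antisymm h1 ?_
  by_contra hlt
  push Not at hlt
  have : (V1 F 𝔮).valuation (algebraMap O F (u : O)) *
      (V1 F 𝔮).valuation (algebraMap O F ((u⁻¹ : Oˣ) : O)) < 1 := mul_lt_one_of_lt_of_le hlt h2
  rw [h3] at this
  exact lt_irrefl _ this

/-- the valuation of `s ∉ 𝔮` at `𝔮` is one. -/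
theorem valuation_algebraMap_eq_one_of_not_mem {𝔮 : HtOne B} {s : B} (hs : s ∉ 𝔮.1) :
    (V1 F 𝔮).valuation (algebraMap B F s) = 1 := by
  have h1 : (V1 F 𝔮).valuation (algebraMap B F s) ≤ 1 :=
    (ValuationSubring.valuation_le_one_iff _ _).mpr (algebraMap_mem_V1 𝔮 s)
  refine le_antisymm h1 ?_
  by_contra hlt
  push Not at hlt
  exact hs ((algebraMap_mem_nonunits_V1_iff 𝔮 s).1 ((ValuationSubring.mem_nonunits_iff _).mpr hlt))

variable {𝔭₀} {g : B} {n : ℕ}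

include F in
/-- **Hartogs on the height-one frame**: if `𝔭₀` is the only height-one prime `≤ P` containing `g`
and `f ^ n / g` is integral at `𝔭₀` for every `f ∈ 𝔭₀`, then `g ∣ z ^ n` in `O = B_P` for every
`z ∈ 𝔭₀ O`.  This is the hypothesis `hP` of `CubeTrick`. -/
theorem pow_dvd_of_mem_map (hg : g ≠ 0) (h𝔭P : 𝔭₀.1 ≤ P)
    (hvert : ∀ 𝔮 : HtOne B, 𝔮 ≠ 𝔭₀ → 𝔮.1 ≤ P → g ∉ 𝔮.1)
    (hram : ∀ f ∈ 𝔭₀.1, ∃ s : B, s ∉ 𝔭₀.1 ∧ g ∣ s * f ^ n)
    {z : O} (hz : z ∈ Ideal.map (algebraMap B O) 𝔭₀.1) : algebraMap B O g ∣ z ^ n := by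
  have hV := isFrame_heightOne (B := B) (F := F)
  have hgF : algebraMap B F g ≠ 0 := fun h =>
    hg ((map_eq_zero_iff _ (IsFractionRing.injective B F)).1 h)
  -- `z = a / s` with `a ∈ 𝔭₀`, `s ∉ P`
  rw [IsLocalization.mem_map_algebraMap_iff P.primeCompl] at hz
  obtain ⟨⟨⟨a, ha⟩, s⟩, hzs⟩ := hz
  have hs𝔭 : (s : B) ∉ 𝔭₀.1 := fun h => s.2 (h𝔭P h)
  have hsF : algebraMap B F (s : B) ≠ 0 := KrullHeightOne.algebraMap_ne_zero_of_not_mem 𝔭₀.1 hs𝔭
  have h1 : algebraMap O F z * algebraMap B F (s : B) = algebraMap B F a := by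
    have := congrArg (algebraMap O F) hzs
    rwa [map_mul, ← IsScalarTower.algebraMap_apply, ← IsScalarTower.algebraMap_apply] at this
  have h2 : algebraMap O F z = algebraMap B F a * (algebraMap B F (s : B))⁻¹ := by
    rw [← h1, mul_assoc, mul_inv_cancel₀ hsF, mul_one]
  -- `z ^ n / g` is integral at every height-one prime `≤ P`
  have hmem : algebraMap O F z ^ n / algebraMap B F g ∈ (algebraMap O F).range := by
    rw [hV.mem_range_loc_iff P O]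
    intro 𝔮 h𝔮
    have h𝔮P : 𝔮.1 ≤ P := (over_V1_iff P 𝔮).1 h𝔮
    by_cases h𝔮0 : 𝔮 = 𝔭₀
    · subst h𝔮0
      obtain ⟨t, ht, b, hb⟩ := hram a ha
      have htF : algebraMap B F t ≠ 0 := KrullHeightOne.algebraMap_ne_zero_of_not_mem 𝔮.1 ht
      have hb' : algebraMap B F t * algebraMap B F a ^ n = algebraMap B F g * algebraMap B F b := by
        rw [← map_pow, ← map_mul, hb, map_mul]
      have : algebraMap O F z ^ n / algebraMap B F g =
          algebraMap B F b * (algebraMap B F t)⁻¹ * ((algebraMap B F (s : B))⁻¹) ^ n := by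
        rw [h2, mul_pow, div_eq_iff hgF]
        calc algebraMap B F a ^ n * (algebraMap B F (s : B))⁻¹ ^ n
            = (algebraMap B F t * algebraMap B F a ^ n) * (algebraMap B F t)⁻¹ *
                (algebraMap B F (s : B))⁻¹ ^ n := by field_simp
          _ = algebraMap B F b * (algebraMap B F t)⁻¹ * (algebraMap B F (s : B))⁻¹ ^ n *
                algebraMap B F g := by rw [hb']; ring
      rw [this]
      exact (V1 F 𝔮).mul_mem _ _
        ((V1 F 𝔮).mul_mem _ _ (algebraMap_mem_V1 𝔮 b) (inv_algebraMap_mem_V1 𝔮 ht))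
        (pow_mem (inv_algebraMap_mem_V1 𝔮 hs𝔭) n)
    · rw [div_eq_mul_inv]
      exact (V1 F 𝔮).mul_mem _ _ (pow_mem (hV.algebraMap_loc_mem P O z h𝔮) n)
        (inv_algebraMap_mem_V1 𝔮 (hvert 𝔮 h𝔮0 h𝔮P))
  obtain ⟨o, ho⟩ := hmem
  refine ⟨o, ?_⟩
  apply IsFractionRing.injective O F
  rw [map_pow, map_mul, ho, ← IsScalarTower.algebraMap_apply, mul_div_cancel₀ _ hgF]

include F in
/-- **REG3 adapter**: ONE `y ∈ 𝔭₀ O` with `g * ε = y ^ n`, `ε` a unit of `O = B_P`, produces a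
vertical uniformiser `π ∈ B` with the inputs of helper84 `VertPrimeHtOne` (`hπne hπ0 hgen hother`)
and `π O = y O`. -/
theorem exists_vertPrime_of_isUnit (hn : n ≠ 0) (hg : g ≠ 0) (h𝔭P : 𝔭₀.1 ≤ P)
    (hvert : ∀ 𝔮 : HtOne B, 𝔮 ≠ 𝔭₀ → 𝔮.1 ≤ P → g ∉ 𝔮.1)
    (hram : ∀ f ∈ 𝔭₀.1, ∃ s : B, s ∉ 𝔭₀.1 ∧ g ∣ s * f ^ n)
    {y ε : O} (hy : y ∈ Ideal.map (algebraMap B O) 𝔭₀.1) (hε : IsUnit ε)
    (hyε : algebraMap B O g * ε = y ^ n) :
    ∃ π : B, π ≠ 0 ∧ π ∈ 𝔭₀.1 ∧ (∀ f ∈ 𝔭₀.1, ∃ s : B, s ∉ 𝔭₀.1 ∧ π ∣ s * f) ∧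
      (∀ 𝔮 : HtOne B, 𝔮 ≠ 𝔭₀ → 𝔮.1 ≤ P → π ∉ 𝔮.1) ∧
      Ideal.span {algebraMap B O π} = Ideal.span {y} := by
  have hgF : algebraMap B F g ≠ 0 := fun h =>
    hg ((map_eq_zero_iff _ (IsFractionRing.injective B F)).1 h)
  -- `y = a / s`
  obtain ⟨⟨a, s⟩, hmk⟩ := IsLocalization.mk'_surjective P.primeCompl y
  have hmk' : IsLocalization.mk' O a s = y := hmk
  have h1 := IsLocalization.mk'_spec O a s
  rw [hmk'] at h1
  have hsP : (s : B) ∉ P := s.2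
  have hs𝔭 : (s : B) ∉ 𝔭₀.1 := fun h => hsP (h𝔭P h)
  have hsF : algebraMap B F (s : B) ≠ 0 := KrullHeightOne.algebraMap_ne_zero_of_not_mem P hsP
  have h2 : algebraMap O F y * algebraMap B F (s : B) = algebraMap B F a := by
    have := congrArg (algebraMap O F) h1
    rwa [map_mul, ← IsScalarTower.algebraMap_apply, ← IsScalarTower.algebraMap_apply] at this
  -- the key identity in `F`: `a ^ n = s ^ n * g * ε`
  have hkey : algebraMap B F a ^ n =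
      algebraMap B F (s : B) ^ n * (algebraMap B F g * algebraMap O F ε) := by
    have h3 := congrArg (algebraMap O F) hyε
    rw [map_mul, map_pow, ← IsScalarTower.algebraMap_apply] at h3
    rw [← h2, mul_pow, h3]
    ring
  have hεF : algebraMap O F ε ≠ 0 := (hε.map (algebraMap O F)).ne_zero
  have ha0 : a ≠ 0 := by
    rintro rfl
    rw [map_zero, zero_pow hn] at hkey
    exact (mul_ne_zero (pow_ne_zero n hsF) (mul_ne_zero hgF hεF)) hkey.symm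
  have haF : algebraMap B F a ≠ 0 := fun h =>
    ha0 ((map_eq_zero_iff _ (IsFractionRing.injective B F)).1 h)
  have ha𝔭 : a ∈ 𝔭₀.1 := by
    have hyV := (mem_map_iff_mem_nonunits (F := F) P O 𝔭₀ h𝔭P y).1 hy
    rw [← algebraMap_mem_nonunits_V1_iff (F := F), ← h2, ValuationSubring.mem_nonunits_iff,
      map_mul]
    exact mul_lt_one_of_lt_of_le ((ValuationSubring.mem_nonunits_iff _).mp hyV)
      ((ValuationSubring.valuation_le_one_iff _ _).mpr (algebraMap_mem_V1 𝔭₀ (s : B)))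
  refine ⟨a, ha0, ha𝔭, ?_, ?_, ?_⟩
  · -- `hgen`
    intro f hf
    obtain ⟨t, ht, b, hb⟩ := hram f hf
    have htF : algebraMap B F t ≠ 0 := KrullHeightOne.algebraMap_ne_zero_of_not_mem 𝔭₀.1 ht
    have hb' : algebraMap B F t * algebraMap B F f ^ n = algebraMap B F g * algebraMap B F b := by
      rw [← map_pow, ← map_mul, hb, map_mul]
    -- `(f / a) ^ n ∈ B_𝔭₀`
    have hpow : (algebraMap B F f / algebraMap B F a) ^ n ∈ V1 F 𝔭₀ := by
      have hεinv : (algebraMap O F ε)⁻¹ ∈ V1 F 𝔭₀ := by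
        obtain ⟨u, rfl⟩ := hε
        have : (algebraMap O F (u : O))⁻¹ = algebraMap O F ((u⁻¹ : Oˣ) : O) := by
          refine (eq_inv_of_mul_eq_one_left ?_).symm
          rw [← map_mul, Units.inv_mul, map_one]
        rw [this]
        exact (isFrame_heightOne (B := B) (F := F)).algebraMap_loc_mem P O _
          ((over_V1_iff P 𝔭₀).2 h𝔭P)
      have : (algebraMap B F f / algebraMap B F a) ^ n =
          algebraMap B F b * (algebraMap B F t)⁻¹ * ((algebraMap B F (s : B))⁻¹) ^ n *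
            (algebraMap O F ε)⁻¹ := by
        rw [div_pow, hkey, div_eq_iff (mul_ne_zero (pow_ne_zero n hsF) (mul_ne_zero hgF hεF))]
        calc algebraMap B F f ^ n
            = (algebraMap B F t * algebraMap B F f ^ n) * (algebraMap B F t)⁻¹ := by field_simp
          _ = algebraMap B F g * algebraMap B F b * (algebraMap B F t)⁻¹ := by rw [hb']
          _ = algebraMap B F b * (algebraMap B F t)⁻¹ * (algebraMap B F (s : B))⁻¹ ^ n *
                (algebraMap O F ε)⁻¹ *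
                (algebraMap B F (s : B) ^ n * (algebraMap B F g * algebraMap O F ε)) := by
              have e1 : (algebraMap B F (s : B))⁻¹ ^ n * algebraMap B F (s : B) ^ n = 1 := by
                rw [← mul_pow, inv_mul_cancel₀ hsF, one_pow]
              have e2 : (algebraMap O F ε)⁻¹ * algebraMap O F ε = 1 := inv_mul_cancel₀ hεF
              have e3 : algebraMap B F b * (algebraMap B F t)⁻¹ *
                  (algebraMap B F (s : B))⁻¹ ^ n * (algebraMap O F ε)⁻¹ *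
                  (algebraMap B F (s : B) ^ n * (algebraMap B F g * algebraMap O F ε)) =
                  algebraMap B F g * algebraMap B F b * (algebraMap B F t)⁻¹ *
                  ((algebraMap B F (s : B))⁻¹ ^ n * algebraMap B F (s : B) ^ n) *
                  ((algebraMap O F ε)⁻¹ * algebraMap O F ε) := by ring
              rw [e3, e1, e2, mul_one, mul_one]
      rw [this]
      exact (V1 F 𝔭₀).mul_mem _ _ ((V1 F 𝔭₀).mul_mem _ _
        ((V1 F 𝔭₀).mul_mem _ _ (algebraMap_mem_V1 𝔭₀ b) (inv_algebraMap_mem_V1 𝔭₀ ht))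
        (pow_mem (inv_algebraMap_mem_V1 𝔭₀ hs𝔭) n)) hεinv
    have hfa : algebraMap B F f / algebraMap B F a ∈ V1 F 𝔭₀ :=
      mem_of_pow_mem_valuationSubring hn hpow
    obtain ⟨s', hs', c, hc⟩ := (mem_V1_iff 𝔭₀).1 hfa
    refine ⟨s', hs', c, ?_⟩
    apply IsFractionRing.injective B F
    rw [map_mul, map_mul, hc, Algebra.smul_def]
    field_simp
  · -- `hother`
    intro 𝔮 h𝔮0 h𝔮P ha𝔮
    have hv1 : (V1 F 𝔮).valuation (algebraMap B F a) < 1 :=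
      (ValuationSubring.mem_nonunits_iff _).mp ((algebraMap_mem_nonunits_V1_iff 𝔮 a).2 ha𝔮)
    have hvs : (V1 F 𝔮).valuation (algebraMap B F (s : B)) = 1 :=
      valuation_algebraMap_eq_one_of_not_mem fun h => hsP (h𝔮P h)
    have hvg : (V1 F 𝔮).valuation (algebraMap B F g) = 1 :=
      valuation_algebraMap_eq_one_of_not_mem (hvert 𝔮 h𝔮0 h𝔮P)
    have hvε : (V1 F 𝔮).valuation (algebraMap O F ε) = 1 :=
      valuation_algebraMap_eq_one_of_isUnit P O h𝔮P hε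
    have h3 := congrArg (V1 F 𝔮).valuation hkey
    rw [map_pow, map_mul, map_pow, map_mul, hvs, hvg, hvε, one_pow, one_mul, one_mul] at h3
    have : (V1 F 𝔮).valuation (algebraMap B F a) ^ n < 1 := pow_lt_one₀ zero_le hv1 hn
    rw [h3] at this
    exact lt_irrefl _ this
  · -- `π O = y O`
    have hu : IsUnit (algebraMap B O (s : B)) := IsLocalization.map_units O s
    rw [Ideal.span_singleton_eq_span_singleton]
    obtain ⟨u, hu'⟩ := hu
    refine ⟨u⁻¹, ?_⟩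
    rw [← h1, ← hu', mul_assoc, Units.mul_inv, mul_one]

include F in
/-- `O = B_P` is a local integrally closed domain and `𝔭₀ O` is prime: the standing hypotheses of
`CubeTrick`. -/
theorem cubeTrick_setting (h𝔭P : 𝔭₀.1 ≤ P) :
    IsLocalRing O ∧ IsIntegrallyClosed O ∧ (Ideal.map (algebraMap B O) 𝔭₀.1).IsPrime := by
  refine ⟨IsLocalization.AtPrime.isLocalRing O P,
    isIntegrallyClosed_of_isLocalization O P.primeCompl P.primeCompl_le_nonZeroDivisors, ?_⟩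
  have hdisj : Disjoint (P.primeCompl : Set B) (𝔭₀.1 : Set B) := by
    rw [Set.disjoint_left]
    intro x hx hx'
    exact hx (h𝔭P hx')
  exact IsLocalization.isPrime_of_isPrime_disjoint P.primeCompl O _ 𝔭₀.2.1 hdisj

include F in
/-- **REG3, generic point, frame form**: `y ∈ 𝔭₀ O`, `g * e₀ = y ^ n`, `e₀ ≡ w (mod 𝔭₀ O)`, `w` a
unit. -/
theorem exists_vertPrime_of_unit (hn : n ≠ 0) (hg : g ≠ 0) (h𝔭P : 𝔭₀.1 ≤ P)
    (hvert : ∀ 𝔮 : HtOne B, 𝔮 ≠ 𝔭₀ → 𝔮.1 ≤ P → g ∉ 𝔮.1)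
    (hram : ∀ f ∈ 𝔭₀.1, ∃ s : B, s ∉ 𝔭₀.1 ∧ g ∣ s * f ^ n)
    {y e₀ w : O} (hy : y ∈ Ideal.map (algebraMap B O) 𝔭₀.1)
    (he₀ : algebraMap B O g * e₀ = y ^ n) (hw : IsUnit w)
    (hew : e₀ - w ∈ Ideal.map (algebraMap B O) 𝔭₀.1) :
    ∃ π : B, π ≠ 0 ∧ π ∈ 𝔭₀.1 ∧ (∀ f ∈ 𝔭₀.1, ∃ s : B, s ∉ 𝔭₀.1 ∧ π ∣ s * f) ∧
      (∀ 𝔮 : HtOne B, 𝔮 ≠ 𝔭₀ → 𝔮.1 ≤ P → π ∉ 𝔮.1) ∧
      Ideal.span {algebraMap B O π} = Ideal.span {y} := by
  obtain ⟨hloc, hic, hprime⟩ := cubeTrick_setting (F := F) P O h𝔭P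
  have heu : IsUnit e₀ := isUnit_of_sub_mem (Ideal.IsPrime.ne_top hprime) hw hew
  exact exists_vertPrime_of_isUnit (F := F) P O hn hg h𝔭P hvert hram hy heu he₀

include F in
/-- **REG3, elliptic-type point, frame form** (cube trick): `u' ≡ u`, `h' ≡ h (mod 𝔭₀ O)`,
`g * e₀ = (u' h'^c - u h^c) ^ n`, `h` a non-unit of `O` outside `𝔭₀ O`,
`e₀ ≡ w * h ^ ((c-1) n)` with `w` a unit.  Then `y = h' - h` gives the vertical uniformiser. -/
theorem exists_vertPrime_of_cube (hn : n ≠ 0) (hg : g ≠ 0) (h𝔭P : 𝔭₀.1 ≤ P)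
    (hvert : ∀ 𝔮 : HtOne B, 𝔮 ≠ 𝔭₀ → 𝔮.1 ≤ P → g ∉ 𝔮.1)
    (hram : ∀ f ∈ 𝔭₀.1, ∃ s : B, s ∉ 𝔭₀.1 ∧ g ∣ s * f ^ n)
    {u u' h h' : O} (hu : u' - u ∈ Ideal.map (algebraMap B O) 𝔭₀.1)
    (hh : h' - h ∈ Ideal.map (algebraMap B O) 𝔭₀.1) {c : ℕ} (hc : 1 ≤ c) {e₀ : O}
    (he₀ : algebraMap B O g * e₀ = (u' * h' ^ c - u * h ^ c) ^ n) (hhm : ¬ IsUnit h)
    (hhP : h ∉ Ideal.map (algebraMap B O) 𝔭₀.1) {w : O} (hw : IsUnit w)
    (hew : e₀ - w * h ^ ((c - 1) * n) ∈ Ideal.map (algebraMap B O) 𝔭₀.1) :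
    ∃ π : B, π ≠ 0 ∧ π ∈ 𝔭₀.1 ∧ (∀ f ∈ 𝔭₀.1, ∃ s : B, s ∉ 𝔭₀.1 ∧ π ∣ s * f) ∧
      (∀ 𝔮 : HtOne B, 𝔮 ≠ 𝔭₀ → 𝔮.1 ≤ P → π ∉ 𝔮.1) ∧
      Ideal.span {algebraMap B O π} = Ideal.span {h' - h} := by
  obtain ⟨hloc, hic, hprime⟩ := cubeTrick_setting (F := F) P O h𝔭P
  have hgO : algebraMap B O g ≠ 0 := fun h0 =>
    hg ((map_eq_zero_iff _ (IsLocalization.injective O P.primeCompl_le_nonZeroDivisors)).1 h0)
  obtain ⟨eh, hehu, heh⟩ := exists_isUnit_of_cube hn hgO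
    (fun z hz => pow_dvd_of_mem_map (F := F) P O hg h𝔭P hvert hram hz) hu hh hc he₀
    ((mem_maximalIdeal h).mpr hhm) hhP hw hew
  exact exists_vertPrime_of_isUnit (F := F) P O hn hg h𝔭P hvert hram hh hehu heh

include F in
/-- **REG3, cusp, frame form** (log trick): `a' = a * v`, `a' ≡ a (mod 𝔭₀ O)`, `a ∉ 𝔭₀ O`,
`g * e₀ = (a' - a) ^ n`, `e₀ ≡ w * a ^ n` with `w` a unit.  Then `y = v - 1`. -/
theorem exists_vertPrime_of_log (hn : n ≠ 0) (hg : g ≠ 0) (h𝔭P : 𝔭₀.1 ≤ P)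
    (hvert : ∀ 𝔮 : HtOne B, 𝔮 ≠ 𝔭₀ → 𝔮.1 ≤ P → g ∉ 𝔮.1)
    (hram : ∀ f ∈ 𝔭₀.1, ∃ s : B, s ∉ 𝔭₀.1 ∧ g ∣ s * f ^ n)
    {a a' v : O} (ha : a' - a ∈ Ideal.map (algebraMap B O) 𝔭₀.1) (hv : a' = a * v)
    (haP : a ∉ Ideal.map (algebraMap B O) 𝔭₀.1) {e₀ : O}
    (he₀ : algebraMap B O g * e₀ = (a' - a) ^ n) {w : O} (hw : IsUnit w)
    (hew : e₀ - w * a ^ n ∈ Ideal.map (algebraMap B O) 𝔭₀.1) :
    ∃ π : B, π ≠ 0 ∧ π ∈ 𝔭₀.1 ∧ (∀ f ∈ 𝔭₀.1, ∃ s : B, s ∉ 𝔭₀.1 ∧ π ∣ s * f) ∧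
      (∀ 𝔮 : HtOne B, 𝔮 ≠ 𝔭₀ → 𝔮.1 ≤ P → π ∉ 𝔮.1) ∧
      Ideal.span {algebraMap B O π} = Ideal.span {v - 1} := by
  obtain ⟨hloc, hic, hprime⟩ := cubeTrick_setting (F := F) P O h𝔭P
  have hgO : algebraMap B O g ≠ 0 := fun h0 =>
    hg ((map_eq_zero_iff _ (IsLocalization.injective O P.primeCompl_le_nonZeroDivisors)).1 h0)
  obtain ⟨hv1, ev, hevu, hev⟩ := exists_isUnit_of_log hgO
    (fun z hz => pow_dvd_of_mem_map (F := F) P O hg h𝔭P hvert hram hz) ha hv haP he₀ hw hew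
  exact exists_vertPrime_of_isUnit (F := F) P O hn hg h𝔭P hvert hram hv1 hevu hev

/-- **REG at a point of `C₃` only** (helper84 `divPrincipal_htOne` fed by the adapter): from ONE
`y ∈ 𝔭₀ O` with `g * ε = y ^ n`, `ε` a unit, and `hval`. -/
theorem divPrincipal_of_isUnit (hn : n ≠ 0) (hg : g ≠ 0) (h𝔭P : 𝔭₀.1 ≤ P)
    (hvert : ∀ 𝔮 : HtOne B, 𝔮 ≠ 𝔭₀ → 𝔮.1 ≤ P → g ∉ 𝔮.1)
    (hram : ∀ f ∈ 𝔭₀.1, ∃ s : B, s ∉ 𝔭₀.1 ∧ g ∣ s * f ^ n)
    {y ε : O} (hy : y ∈ Ideal.map (algebraMap B O) 𝔭₀.1) (hε : IsUnit ε)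
    (hyε : algebraMap B O g * ε = y ^ n)
    (hval : ∀ a b : B, ∃ c s : B, s ∉ P ∧ (s * a - c * b ∈ 𝔭₀.1 ∨ s * b - c * a ∈ 𝔭₀.1)) :
    DivPrincipal O F := by
  obtain ⟨π, hπne, hπ0, hgen, hother, -⟩ :=
    exists_vertPrime_of_isUnit (F := F) P O hn hg h𝔭P hvert hram hy hε hyε
  exact divPrincipal_htOne P O hπne h𝔭P hπ0 hgen hother hval

end HtOne

end Fermat.Agent.GL.Reg3
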