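/-
GATE-L / L5d REG3, the three cases in "Hasse identity" form (helper50).  On top of `Reg3HtOne`.

The concrete inputs of REG3 are congruences modulo `𝔭₀ O` (`𝔭₀ = P₃`, `O = B_n`) between
`e₀ = y^(q-1)/q` and values of the level-one polynomials `U₂, V₁` (helper63 `hasse_T`, helper93
`red3_eps3_mul_hasseU₂`):  `e₀ · U + V ≡ 0`.  This file turns each of the three shapes of that
congruence into the output `(π, hπne, hπ0, hgen, hother)` of `Reg3HtOne` (= the inputs of helper84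
`VertPrimeHtOne` / helper47 `LocTypeI.exists_locAt`):

* `exists_vertPrime_of_hasse`      : generic point, `e₀ U + V ≡ 0`, `V` a unit at `n`
                                     (`U` a unit comes out: the point is automatically ordinary);
* `exists_vertPrime_of_hasse_cube` : `f = u h^c` (`f = j - a`), `e₀ f^s U' + f^r V' ≡ 0`,
                                     `c (r - s) = (c - 1) n`, `U', V'` units;
* `exists_vertPrime_of_hasse_log`  : cusp, `a' = a v`, `e₀ Ũ + Ṽ a^n ≡ 0`, `Ũ, Ṽ` units.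
-/
import Fermat.Agent.GL.Reg3.Reg3HtOne

set_option autoImplicit false
set_option linter.unusedSectionVars false

namespace Fermat.Agent.GL.Reg3

open Fermat.Agent.GL.KrullFrame Fermat.Agent.GL.KrullHeightOne Fermat.Agent.GL.Frame.HeightOne
  Fermat.Agent.GL.Frame.VertPrimeHtOne IsLocalRing

section Hasse

variable {B F : Type*} [CommRing B] [IsDomain B] [Field F] [Algebra B F] [IsFractionRing B F]
  [IsNoetherianRing B] [IsIntegrallyClosed B]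
variable (P : Ideal B) [P.IsPrime]
variable (O : Type*) [CommRing O] [IsDomain O] [Algebra B O] [IsLocalization.AtPrime O P]
  [Algebra O F] [IsScalarTower B O F] [IsFractionRing O F]
variable {𝔭₀ : HtOne B} {g : B} {n : ℕ}

include F in
/-- **REG3, generic point, Hasse form**: `g e₀ = y ^ n`, `e₀ U + V ∈ 𝔭₀ O`, `V` a unit of `O`. -/
theorem exists_vertPrime_of_hasse (hn : n ≠ 0) (hg : g ≠ 0) (h𝔭P : 𝔭₀.1 ≤ P)
    (hvert : ∀ 𝔮 : HtOne B, 𝔮 ≠ 𝔭₀ → 𝔮.1 ≤ P → g ∉ 𝔮.1)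
    (hram : ∀ f ∈ 𝔭₀.1, ∃ s : B, s ∉ 𝔭₀.1 ∧ g ∣ s * f ^ n)
    {y e₀ U V : O} (hy : y ∈ Ideal.map (algebraMap B O) 𝔭₀.1)
    (he₀ : algebraMap B O g * e₀ = y ^ n) (hV : IsUnit V)
    (hmem : e₀ * U + V ∈ Ideal.map (algebraMap B O) 𝔭₀.1) :
    ∃ π : B, π ≠ 0 ∧ π ∈ 𝔭₀.1 ∧ (∀ f ∈ 𝔭₀.1, ∃ s : B, s ∉ 𝔭₀.1 ∧ π ∣ s * f) ∧
      (∀ 𝔮 : HtOne B, 𝔮 ≠ 𝔭₀ → 𝔮.1 ≤ P → π ∉ 𝔮.1) ∧
      Ideal.span {algebraMap B O π} = Ideal.span {y} := by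
  obtain ⟨hloc, hic, hprime⟩ := cubeTrick_setting (F := F) P O h𝔭P
  -- `e₀ U = (e₀ U + V) - V` is a unit
  have h1 : IsUnit (e₀ * U) := by
    have h2 : e₀ * U - (-V) ∈ Ideal.map (algebraMap B O) 𝔭₀.1 := by
      rw [sub_neg_eq_add]; exact hmem
    exact isUnit_of_sub_mem (Ideal.IsPrime.ne_top hprime) hV.neg h2
  exact exists_vertPrime_of_isUnit (F := F) P O hn hg h𝔭P hvert hram hy
    (isUnit_of_mul_isUnit_left h1) he₀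

include F in
/-- **REG3, elliptic-type point, Hasse form** (cube trick): `f = u h ^ c`, `f' = u' h' ^ c`
(the two old copies of `j - a`), `g e₀ = (f' - f) ^ n`, and the level-one identity in the shape
`e₀ f^s U' + f^r V' ∈ 𝔭₀ O` with `U', V', u` units and `c (r - s) = (c - 1) n`. -/
theorem exists_vertPrime_of_hasse_cube (hn : n ≠ 0) (hg : g ≠ 0) (h𝔭P : 𝔭₀.1 ≤ P)
    (hvert : ∀ 𝔮 : HtOne B, 𝔮 ≠ 𝔭₀ → 𝔮.1 ≤ P → g ∉ 𝔮.1)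
    (hram : ∀ f ∈ 𝔭₀.1, ∃ s : B, s ∉ 𝔭₀.1 ∧ g ∣ s * f ^ n)
    {u u' h h' : O} (hu : u' - u ∈ Ideal.map (algebraMap B O) 𝔭₀.1)
    (hh : h' - h ∈ Ideal.map (algebraMap B O) 𝔭₀.1) {c : ℕ} (hc : 1 ≤ c) {e₀ : O}
    (he₀ : algebraMap B O g * e₀ = (u' * h' ^ c - u * h ^ c) ^ n) (hhm : ¬ IsUnit h)
    (hhP : h ∉ Ideal.map (algebraMap B O) 𝔭₀.1) (huu : IsUnit u)
    {U' V' : O} (hU' : IsUnit U') (hV' : IsUnit V') {r s : ℕ} (hsr : s ≤ r)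
    (hcrs : c * (r - s) = (c - 1) * n)
    (hmem : e₀ * ((u * h ^ c) ^ s * U') + (u * h ^ c) ^ r * V' ∈
      Ideal.map (algebraMap B O) 𝔭₀.1) :
    ∃ π : B, π ≠ 0 ∧ π ∈ 𝔭₀.1 ∧ (∀ f ∈ 𝔭₀.1, ∃ s : B, s ∉ 𝔭₀.1 ∧ π ∣ s * f) ∧
      (∀ 𝔮 : HtOne B, 𝔮 ≠ 𝔭₀ → 𝔮.1 ≤ P → π ∉ 𝔮.1) ∧
      Ideal.span {algebraMap B O π} = Ideal.span {h' - h} := by
  obtain ⟨hloc, hic, hprime⟩ := cubeTrick_setting (F := F) P O h𝔭P
  set P₀ := Ideal.map (algebraMap B O) 𝔭₀.1 with hP₀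
  obtain ⟨uu, rfl⟩ := huu
  obtain ⟨Uu, rfl⟩ := hU'
  set f : O := (uu : O) * h ^ c with hf
  -- `f ∉ P₀`
  have hfP : f ∉ P₀ := by
    intro hfP
    rcases Ideal.IsPrime.mem_or_mem hprime hfP with h1 | h1
    · exact (Ideal.IsPrime.ne_top hprime) (Ideal.eq_top_of_isUnit_mem _ h1 uu.isUnit)
    · exact hhP (Ideal.IsPrime.mem_of_pow_mem hprime _ h1)
  -- cancel `f ^ s`
  obtain ⟨d, rfl⟩ : ∃ d, r = s + d := ⟨r - s, by omega⟩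
  rw [Nat.add_sub_cancel_left] at hcrs
  have h1 : f ^ s * (e₀ * (Uu : O) + f ^ d * V') ∈ P₀ := by
    convert hmem using 1
    rw [pow_add]; ring
  have h2 : e₀ * (Uu : O) + f ^ d * V' ∈ P₀ := by
    rcases Ideal.IsPrime.mem_or_mem hprime h1 with h3 | h3
    · exact absurd (Ideal.IsPrime.mem_of_pow_mem hprime _ h3) hfP
    · exact h3
  -- `e₀ ≡ w h ^ (c d)` with `w = - u ^ d V' U'⁻¹`
  set w : O := -((uu : O) ^ d * V' * ((Uu⁻¹ : Oˣ) : O)) with hw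
  have hwu : IsUnit w :=
    (((uu.isUnit.pow d).mul hV').mul (Uu⁻¹).isUnit).neg
  have hew : e₀ - w * h ^ ((c - 1) * n) ∈ P₀ := by
    have h3 : ((Uu⁻¹ : Oˣ) : O) * (e₀ * (Uu : O) + f ^ d * V') ∈ P₀ := P₀.mul_mem_left _ h2
    convert h3 using 1
    rw [← hcrs, hw, hf, mul_pow, ← pow_mul]
    have h4 : ((Uu⁻¹ : Oˣ) : O) * (Uu : O) = 1 := Units.inv_mul Uu
    calc e₀ - -((uu : O) ^ d * V' * ((Uu⁻¹ : Oˣ) : O)) * h ^ (c * d)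
        = e₀ * 1 + ((Uu⁻¹ : Oˣ) : O) * ((uu : O) ^ d * h ^ (c * d) * V') := by ring
      _ = ((Uu⁻¹ : Oˣ) : O) * (e₀ * (Uu : O) + (uu : O) ^ d * h ^ (c * d) * V') := by
          rw [← h4]; ring
  exact exists_vertPrime_of_cube (F := F) P O hn hg h𝔭P hvert hram hu hh hc he₀ hhm hhP hwu hew

include F in
/-- **REG3, cusp, Hasse form** (log trick): `a' = a v` (`a = 1/j`, `a' = 1/j''`),
`g e₀ = (a' - a) ^ n`, and the level-one identity at `∞` in the shape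
`e₀ Ũ + Ṽ a ^ n ∈ 𝔭₀ O` with `Ũ, Ṽ` units of `O`. -/
theorem exists_vertPrime_of_hasse_log (hn : n ≠ 0) (hg : g ≠ 0) (h𝔭P : 𝔭₀.1 ≤ P)
    (hvert : ∀ 𝔮 : HtOne B, 𝔮 ≠ 𝔭₀ → 𝔮.1 ≤ P → g ∉ 𝔮.1)
    (hram : ∀ f ∈ 𝔭₀.1, ∃ s : B, s ∉ 𝔭₀.1 ∧ g ∣ s * f ^ n)
    {a a' v : O} (ha : a' - a ∈ Ideal.map (algebraMap B O) 𝔭₀.1) (hv : a' = a * v)
    (haP : a ∉ Ideal.map (algebraMap B O) 𝔭₀.1) {e₀ : O}
    (he₀ : algebraMap B O g * e₀ = (a' - a) ^ n) {Ut Vt : O} (hUt : IsUnit Ut) (hVt : IsUnit Vt)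
    (hmem : e₀ * Ut + Vt * a ^ n ∈ Ideal.map (algebraMap B O) 𝔭₀.1) :
    ∃ π : B, π ≠ 0 ∧ π ∈ 𝔭₀.1 ∧ (∀ f ∈ 𝔭₀.1, ∃ s : B, s ∉ 𝔭₀.1 ∧ π ∣ s * f) ∧
      (∀ 𝔮 : HtOne B, 𝔮 ≠ 𝔭₀ → 𝔮.1 ≤ P → π ∉ 𝔮.1) ∧
      Ideal.span {algebraMap B O π} = Ideal.span {v - 1} := by
  obtain ⟨Uu, rfl⟩ := hUt
  set w : O := -(Vt * ((Uu⁻¹ : Oˣ) : O)) with hw
  have hwu : IsUnit w := (hVt.mul (Uu⁻¹).isUnit).neg
  have hew : e₀ - w * a ^ n ∈ Ideal.map (algebraMap B O) 𝔭₀.1 := by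
    have h3 : ((Uu⁻¹ : Oˣ) : O) * (e₀ * (Uu : O) + Vt * a ^ n) ∈
        Ideal.map (algebraMap B O) 𝔭₀.1 := Ideal.mul_mem_left _ _ hmem
    convert h3 using 1
    have h4 : ((Uu⁻¹ : Oˣ) : O) * (Uu : O) = 1 := Units.inv_mul Uu
    rw [hw]
    calc e₀ - -(Vt * ((Uu⁻¹ : Oˣ) : O)) * a ^ n
        = e₀ * 1 + ((Uu⁻¹ : Oˣ) : O) * (Vt * a ^ n) := by ring
      _ = ((Uu⁻¹ : Oˣ) : O) * (e₀ * (Uu : O) + Vt * a ^ n) := by rw [← h4]; ring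
  exact exists_vertPrime_of_log (F := F) P O hn hg h𝔭P hvert hram ha hv haP he₀ hwu hew

end Hasse

end Fermat.Agent.GL.Reg3
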