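/-
GATE-L / L5d REG3, case (A) CONCRETE over `K₀` (helper93), on top of helper50's `Reg3HtOne` /
`Reg3Hasse`, helper26's `isRamified_Rw3K0` and the `K₀`-level Hasse congruence
`hasse_congr_K0_int` (`GL/Val/ThirdK0HasseInt.lean`).

ABSTRACT LAYER (`exists_vertPrime_of_hasse_field`): the inputs of `exists_vertPrime_of_hasse` read
inside the fraction field `F`, at the valuation subring `V1 F 𝔭₀`:
* `hramV` : `x ∈ 𝔪(V1 F 𝔭₀) ⟹ x ^ n / g ∈ V1 F 𝔭₀`   (ramification index `≤ n` over `g`);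
* `yB ∈ 𝔭₀`, `VB ∉ P`, and the congruence
  `yB ^ n / g · UB + VB ∈ 𝔪(V1 F 𝔭₀)`.
No element of `O = B_P` has to be produced by the caller.

CONCRETE LAYER (`exists_vertPrime_caseA`, `q ≥ 5`; `exists_vertPrime_caseA_small`, `q ∈ {2,3}`):
`F₀ = K₀(X₀(N))`, `N = M' q²`, `B` any noetherian normal domain with fraction field `F₀`,
`𝔭₀ : HtOne B` with `V1 F₀ 𝔭₀ = Rw3K0 A N q`, `P ≥ 𝔭₀` a prime through which no other height-one
prime contains `q`, `jB yB : B` with images `jK0 A N`, `y3K0`;  ordinarity hypothesis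
`intV₁(jB) ∉ P` (i.e. `j mod P ∉ {0, 1728}`; for `q ∈ {2,3}`: `jB ∉ P`).  Output = the block
`(π, hπne, hπ0, hgen, hother)` of helper47 `LocTypeI.exists_locAt` / helper84 `VertPrimeHtOne`,
with `π O = yB O`.
-/
import Fermat.Agent.GL.Reg3.Reg3Hasse
import Fermat.Agent.GL.Val.ThirdK0HasseInt

set_option autoImplicit false
set_option linter.unusedSectionVars false

noncomputable section

namespace Fermat.Agent.GL.Reg3

open Fermat.Agent.GL.KrullFrame Fermat.Agent.GL.KrullHeightOne Fermat.Agent.GL.Frame.HeightOne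
  Fermat.Agent.GL.Frame.VertPrimeHtOne IsLocalRing Polynomial

/-! ### Abstract layer: the Hasse form read in the fraction field -/

section Field

variable {B F : Type*} [CommRing B] [IsDomain B] [Field F] [Algebra B F] [IsFractionRing B F]
  [IsNoetherianRing B] [IsIntegrallyClosed B]
variable (P : Ideal B) [P.IsPrime]
variable (O : Type*) [CommRing O] [IsDomain O] [Algebra B O] [IsLocalization.AtPrime O P]
  [Algebra O F] [IsScalarTower B O F] [IsFractionRing O F]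
variable {𝔭₀ : HtOne B} {g : B} {n : ℕ}

/-- `hram` of `Reg3HtOne` from its valuation form at `V1 F 𝔭₀`. -/
theorem hram_of_valuation (hg : g ≠ 0)
    (hramV : ∀ x : F, x ∈ (V1 F 𝔭₀).nonunits → x ^ n / algebraMap B F g ∈ V1 F 𝔭₀) :
    ∀ f ∈ 𝔭₀.1, ∃ s : B, s ∉ 𝔭₀.1 ∧ g ∣ s * f ^ n := by
  intro f hf
  have hgF : algebraMap B F g ≠ 0 := fun h =>
    hg ((map_eq_zero_iff _ (IsFractionRing.injective B F)).1 h)
  have h1 := hramV _ ((algebraMap_mem_nonunits_V1_iff (F := F) 𝔭₀ f).2 hf)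
  obtain ⟨s, hs, c, hc⟩ := (mem_V1_iff 𝔭₀).1 h1
  refine ⟨s, hs, c, ?_⟩
  apply IsFractionRing.injective B F
  rw [map_mul, map_mul, map_pow, hc, Algebra.smul_def]
  field_simp

include F in
/-- **REG3, generic point, Hasse form in the fraction field.** -/
theorem exists_vertPrime_of_hasse_field (hn : n ≠ 0) (hg : g ≠ 0) (h𝔭P : 𝔭₀.1 ≤ P)
    (hvert : ∀ 𝔮 : HtOne B, 𝔮 ≠ 𝔭₀ → 𝔮.1 ≤ P → g ∉ 𝔮.1)
    (hramV : ∀ x : F, x ∈ (V1 F 𝔭₀).nonunits → x ^ n / algebraMap B F g ∈ V1 F 𝔭₀)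
    {yB UB VB : B} (hy : yB ∈ 𝔭₀.1) (hVB : VB ∉ P)
    (hmem : algebraMap B F yB ^ n / algebraMap B F g * algebraMap B F UB + algebraMap B F VB ∈
      (V1 F 𝔭₀).nonunits) :
    ∃ π : B, π ≠ 0 ∧ π ∈ 𝔭₀.1 ∧ (∀ f ∈ 𝔭₀.1, ∃ s : B, s ∉ 𝔭₀.1 ∧ π ∣ s * f) ∧
      (∀ 𝔮 : HtOne B, 𝔮 ≠ 𝔭₀ → 𝔮.1 ≤ P → π ∉ 𝔮.1) ∧
      Ideal.span {algebraMap B O π} = Ideal.span {algebraMap B O yB} := by
  have hgF : algebraMap B F g ≠ 0 := fun h =>
    hg ((map_eq_zero_iff _ (IsFractionRing.injective B F)).1 h)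
  have hram := hram_of_valuation (F := F) hg hramV
  have hyO : algebraMap B O yB ∈ Ideal.map (algebraMap B O) 𝔭₀.1 := Ideal.mem_map_of_mem _ hy
  obtain ⟨e₀, he₀⟩ := pow_dvd_of_mem_map (F := F) P O hg h𝔭P hvert hram hyO
  have he₀F : algebraMap O F e₀ = algebraMap B F yB ^ n / algebraMap B F g := by
    have h1 := congrArg (algebraMap O F) he₀
    rw [map_pow, map_mul, ← IsScalarTower.algebraMap_apply, ← IsScalarTower.algebraMap_apply]
      at h1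
    rw [h1, mul_div_cancel_left₀ _ hgF]
  have hV : IsUnit (algebraMap B O VB) :=
    IsLocalization.map_units O (⟨VB, hVB⟩ : P.primeCompl)
  refine exists_vertPrime_of_hasse (F := F) P O hn hg h𝔭P hvert hram hyO he₀.symm hV
    (U := algebraMap B O UB) ?_
  rw [mem_map_iff_mem_nonunits (F := F) P O 𝔭₀ h𝔭P, map_add, map_mul, he₀F,
    ← IsScalarTower.algebraMap_apply, ← IsScalarTower.algebraMap_apply]
  exact hmem

end Field

/-! ### Concrete layer: `w₃` on `K₀(X₀(N))` -/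

section K0

open Fermat.Agent.GL.Val.GaussK0 Fermat.Agent.GL.Val.CuspK0 Fermat.Agent.GL.Val.OrthK0
open Fermat.Agent.GL.Val.ThirdK0 Fermat.Agent.GL.MultiVal Fermat.Agent.GL.Thick
open Fermat.Agent.GL.W3 ModularCurve Fermat.Agent.Common_helper32

variable (A : ValuationSubring Qb) {N q M' : ℕ} [NeZero N] [NeZero (q ^ 2 * 1)]
  (hdN : q ^ 2 * 1 ∣ N) (hN : N = M' * q ^ 2) (hqM : ¬ q ∣ M') (hA : (q : Qb) ∈ A.nonunits)
  (hq : q.Prime)

variable {B : Type*} [CommRing B] [IsDomain B] [Algebra B ↥(modularFunctionFieldFullC (K0 A) N)] [IsFractionRing B ↥(modularFunctionFieldFullC (K0 A) N)]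
  [IsNoetherianRing B] [IsIntegrallyClosed B]
variable (P : Ideal B) [P.IsPrime]
variable (O : Type*) [CommRing O] [IsDomain O] [Algebra B O] [IsLocalization.AtPrime O P]
  [Algebra O ↥(modularFunctionFieldFullC (K0 A) N)] [IsScalarTower B O ↥(modularFunctionFieldFullC (K0 A) N)] [IsFractionRing O ↥(modularFunctionFieldFullC (K0 A) N)]
variable {𝔭₀ : HtOne B}

include hdN hN hqM hA hq in
/-- the ramification input `hramV` at `w₃`: `x ∈ 𝔪(w₃) ⟹ x^(q−1)/q ∈ R_{w₃}`. -/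
theorem hramV_Rw3K0 (x : ↥(modularFunctionFieldFullC (K0 A) N)) (hx : x ∈ (Rw3K0 A N q).nonunits) :
    x ^ (q - 1) / ((q : ℕ) : ↥(modularFunctionFieldFullC (K0 A) N)) ∈ Rw3K0 A N q := by
  have hR := isRamified_Rw3K0 A hq hN hqM hA (one_dvd M') hdN (one_dvd N)
  have hcast : ((q : ℕ) : ↥(modularFunctionFieldFullC (K0 A) N)) =
      algebraMap (K0 A) ↥(modularFunctionFieldFullC (K0 A) N) ((q : ℕ) : K0 A) :=
    (map_natCast _ q).symm
  have hq0 : ((q : ℕ) : ↥(modularFunctionFieldFullC (K0 A) N)) ≠ 0 := by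
    rw [hcast, Ne, map_eq_zero]
    exact_mod_cast hq.ne_zero
  rw [← ValuationSubring.valuation_le_one_iff, map_div₀, map_pow]
  have h1 := hR.gen x ((ValuationSubring.mem_nonunits_iff _).mp hx)
  have h2 : (Rw3K0 A N q).valuation ((q : ℕ) : ↥(modularFunctionFieldFullC (K0 A) N)) =
      (Rw3K0 A N q).valuation (y3K0 A N q hdN (one_dvd N)) ^ (q - 1) := by
    rw [hcast, hR.pow_eq]
  have h3 : (Rw3K0 A N q).valuation ((q : ℕ) : ↥(modularFunctionFieldFullC (K0 A) N)) ≠ 0 := (_root_.map_ne_zero _).mpr hq0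
  rw [div_le_one₀ (zero_lt_iff.mpr h3), h2]
  exact pow_le_pow_left₀ zero_le h1 _

include hdN hN hqM hA hq in
/-- **REG3 case (A) over `K₀`** (`q ≥ 5`): at a point `P` of the component `𝔭₀ = P₃` only, with
`j mod P ∉ {0, 1728}` (`intV₁(jB) ∉ P`), the vertical prime `P₃` is locally principal, generated by
`y₃ = j(q² z) − j(z)`. -/
theorem exists_vertPrime_caseA [Fact q.Prime] (hq5 : 5 ≤ q)
    (hV1 : V1 ↥(modularFunctionFieldFullC (K0 A) N) 𝔭₀ = Rw3K0 A N q) (h𝔭P : 𝔭₀.1 ≤ P)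
    (hvert : ∀ 𝔮 : HtOne B, 𝔮 ≠ 𝔭₀ → 𝔮.1 ≤ P → ((q : ℕ) : B) ∉ 𝔮.1)
    {jB yB : B} (hjB : algebraMap B ↥(modularFunctionFieldFullC (K0 A) N) jB = jK0 A N)
    (hyB : algebraMap B ↥(modularFunctionFieldFullC (K0 A) N) yB = y3K0 A N q hdN (one_dvd N))
    (hord : aeval jB (intV₁ q) ∉ P) :
    ∃ π : B, π ≠ 0 ∧ π ∈ 𝔭₀.1 ∧ (∀ f ∈ 𝔭₀.1, ∃ s : B, s ∉ 𝔭₀.1 ∧ π ∣ s * f) ∧
      (∀ 𝔮 : HtOne B, 𝔮 ≠ 𝔭₀ → 𝔮.1 ≤ P → π ∉ 𝔮.1) ∧
      Ideal.span {algebraMap B O π} = Ideal.span {algebraMap B O yB} := by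
  have hq1 : q - 1 ≠ 0 := by have := hq.two_le; omega
  have hqB : ((q : ℕ) : B) ≠ 0 := by
    intro h
    have h1 := congrArg (algebraMap B ↥(modularFunctionFieldFullC (K0 A) N)) h
    rw [map_natCast, map_zero] at h1
    have : ((q : ℕ) : ↥(modularFunctionFieldFullC (K0 A) N)) = algebraMap (K0 A) ↥(modularFunctionFieldFullC (K0 A) N) ((q : ℕ) : K0 A) := (map_natCast _ q).symm
    rw [this, map_eq_zero] at h1
    exact hq.ne_zero (by exact_mod_cast h1)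
  have hyn : y3K0 A N q hdN (one_dvd N) ∈ (Rw3K0 A N q).nonunits :=
    (ValuationSubring.mem_nonunits_iff _).mpr
      (isRamified_Rw3K0 A hq hN hqM hA (one_dvd M') hdN (one_dvd N)).lt_one
  refine exists_vertPrime_of_hasse_field (F := ↥(modularFunctionFieldFullC (K0 A) N)) P O hq1 hqB h𝔭P hvert ?_
    (UB := aeval jB (intU₂ q hq5)) ?_ hord ?_
  · intro x hx
    rw [hV1] at hx ⊢
    rw [map_natCast]
    exact hramV_Rw3K0 A hdN hN hqM hA hq x hx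
  · rw [← algebraMap_mem_nonunits_V1_iff (F := ↥(modularFunctionFieldFullC (K0 A) N)), hV1, hyB]
    exact hyn
  · rw [hV1, map_natCast, hyB, map_aeval_int, map_aeval_int, hjB]
    have h1 := hasse_congr_K0_int A hdN hN hqM hA hq5
    have h2 : y3K0 A N q hdN (one_dvd N) ^ (q - 1) / ((q : ℕ) : ↥(modularFunctionFieldFullC (K0 A) N)) =
        eps3K0 A N q hdN (one_dvd N) := by
      rw [eps3K0, div_eq_mul_inv, map_natCast]
    rw [h2]
    exact h1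

include hdN hN hqM hA hq in
/-- **REG3 case (A) over `K₀`, small primes** (`q ∈ {2, 3}`): at a point `P` of the component
`𝔭₀ = P₃` only with `j mod P ≠ 0`. -/
theorem exists_vertPrime_caseA_small (hq5 : ¬ 5 ≤ q)
    (hV1 : V1 ↥(modularFunctionFieldFullC (K0 A) N) 𝔭₀ = Rw3K0 A N q) (h𝔭P : 𝔭₀.1 ≤ P)
    (hvert : ∀ 𝔮 : HtOne B, 𝔮 ≠ 𝔭₀ → 𝔮.1 ≤ P → ((q : ℕ) : B) ∉ 𝔮.1)
    {jB yB : B} (hjB : algebraMap B ↥(modularFunctionFieldFullC (K0 A) N) jB = jK0 A N)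
    (hyB : algebraMap B ↥(modularFunctionFieldFullC (K0 A) N) yB = y3K0 A N q hdN (one_dvd N))
    (hord : jB ∉ P) :
    ∃ π : B, π ≠ 0 ∧ π ∈ 𝔭₀.1 ∧ (∀ f ∈ 𝔭₀.1, ∃ s : B, s ∉ 𝔭₀.1 ∧ π ∣ s * f) ∧
      (∀ 𝔮 : HtOne B, 𝔮 ≠ 𝔭₀ → 𝔮.1 ≤ P → π ∉ 𝔮.1) ∧
      Ideal.span {algebraMap B O π} = Ideal.span {algebraMap B O yB} := by
  have hq1 : q - 1 ≠ 0 := by have := hq.two_le; omega
  have hqB : ((q : ℕ) : B) ≠ 0 := by
    intro h
    have h1 := congrArg (algebraMap B ↥(modularFunctionFieldFullC (K0 A) N)) h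
    rw [map_natCast, map_zero] at h1
    have : ((q : ℕ) : ↥(modularFunctionFieldFullC (K0 A) N)) = algebraMap (K0 A) ↥(modularFunctionFieldFullC (K0 A) N) ((q : ℕ) : K0 A) := (map_natCast _ q).symm
    rw [this, map_eq_zero] at h1
    exact hq.ne_zero (by exact_mod_cast h1)
  have hyn : y3K0 A N q hdN (one_dvd N) ∈ (Rw3K0 A N q).nonunits :=
    (ValuationSubring.mem_nonunits_iff _).mpr
      (isRamified_Rw3K0 A hq hN hqM hA (one_dvd M') hdN (one_dvd N)).lt_one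
  have hord' : jB ^ (q - 1) ∉ P := fun h => hord (Ideal.IsPrime.mem_of_pow_mem ‹_› _ h)
  refine exists_vertPrime_of_hasse_field (F := ↥(modularFunctionFieldFullC (K0 A) N)) P O hq1 hqB h𝔭P hvert ?_
    (UB := 1) ?_ hord' ?_
  · intro x hx
    rw [hV1] at hx ⊢
    rw [map_natCast]
    exact hramV_Rw3K0 A hdN hN hqM hA hq x hx
  · rw [← algebraMap_mem_nonunits_V1_iff (F := ↥(modularFunctionFieldFullC (K0 A) N)), hV1, hyB]
    exact hyn
  · rw [hV1, map_natCast, hyB, map_one, mul_one, map_pow, hjB]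
    have h1 := small_congr_K0 A hdN hN hqM hA hq hq5
    have h2 : y3K0 A N q hdN (one_dvd N) ^ (q - 1) / ((q : ℕ) : ↥(modularFunctionFieldFullC (K0 A) N)) =
        eps3K0 A N q hdN (one_dvd N) := by
      rw [eps3K0, div_eq_mul_inv, map_natCast]
    rw [h2]
    exact h1

end K0

end Fermat.Agent.GL.Reg3
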