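/-
GATE-L / L5d REG3, cases (B) (cube trick) and (C) (log trick) in FIELD FORM (helper93), twins of
`exists_vertPrime_of_hasse_field` (`Reg3AInst.lean`) for helper50's `exists_vertPrime_of_hasse_cube`
/ `exists_vertPrime_of_hasse_log` (`Reg3Hasse.lean`).

Every congruence `x ∈ 𝔭₀ O` is read in the fraction field as `x ∈ 𝔪(V1 F 𝔭₀)`, the ramification
input is the valuation form `hramV` (`x ∈ 𝔪(V1 F 𝔭₀) ⟹ x^n/g ∈ V1 F 𝔭₀`), and the element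
`e₀ = (…)^n / g ∈ O` is PRODUCED here (Hartogs `pow_dvd_of_mem_map`), so the Hasse congruence is
stated with the quotient `(…)^n / g` taken in `F`:

* `exists_vertPrime_of_hasse_cube_field` : `u' ≡ u`, `h' ≡ h`, and
    `(u' h'^c − u h^c)^n / g · (f^s U') + f^r V' ∈ 𝔪(V1 F 𝔭₀)`, `f = u h^c`;
* `exists_vertPrime_of_hasse_log_field`  : `a' = a v`, `a' ≡ a`, and
    `(a' − a)^n / g · Ũ + Ṽ a^n ∈ 𝔪(V1 F 𝔭₀)`.
-/
import Fermat.Agent.GL.Reg3.Reg3AInst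

set_option autoImplicit false
set_option linter.unusedSectionVars false

noncomputable section

namespace Fermat.Agent.GL.Reg3

open Fermat.Agent.GL.KrullFrame Fermat.Agent.GL.KrullHeightOne Fermat.Agent.GL.Frame.HeightOne
  Fermat.Agent.GL.Frame.VertPrimeHtOne IsLocalRing

variable {B F : Type*} [CommRing B] [IsDomain B] [Field F] [Algebra B F] [IsFractionRing B F]
  [IsNoetherianRing B] [IsIntegrallyClosed B]
variable (P : Ideal B) [P.IsPrime]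
variable (O : Type*) [CommRing O] [IsDomain O] [Algebra B O] [IsLocalization.AtPrime O P]
  [Algebra O F] [IsScalarTower B O F] [IsFractionRing O F]
variable {𝔭₀ : HtOne B} {g : B} {n : ℕ}

include F in
/-- the element `e₀ = z^n / g` of `O` for `z ∈ 𝔭₀ O` (field form of Hartogs) -/
theorem exists_div_of_mem_nonunits (hg : g ≠ 0) (h𝔭P : 𝔭₀.1 ≤ P)
    (hvert : ∀ 𝔮 : HtOne B, 𝔮 ≠ 𝔭₀ → 𝔮.1 ≤ P → g ∉ 𝔮.1)
    (hramV : ∀ x : F, x ∈ (V1 F 𝔭₀).nonunits → x ^ n / algebraMap B F g ∈ V1 F 𝔭₀)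
    {z : O} (hz : algebraMap O F z ∈ (V1 F 𝔭₀).nonunits) :
    ∃ e₀ : O, algebraMap B O g * e₀ = z ^ n ∧
      algebraMap O F e₀ = algebraMap O F z ^ n / algebraMap B F g := by
  have hgF : algebraMap B F g ≠ 0 := fun h =>
    hg ((map_eq_zero_iff _ (IsFractionRing.injective B F)).1 h)
  have hram := hram_of_valuation (F := F) hg hramV
  obtain ⟨e₀, he₀⟩ := pow_dvd_of_mem_map (F := F) P O hg h𝔭P hvert hram
    ((mem_map_iff_mem_nonunits (F := F) P O 𝔭₀ h𝔭P z).2 hz)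
  refine ⟨e₀, he₀.symm, ?_⟩
  have h1 := congrArg (algebraMap O F) he₀
  rw [map_pow, map_mul, ← IsScalarTower.algebraMap_apply] at h1
  rw [h1, mul_div_cancel_left₀ _ hgF]

include F in
/-- **REG3, cusp, Hasse form in the fraction field** (log trick). -/
theorem exists_vertPrime_of_hasse_log_field (hn : n ≠ 0) (hg : g ≠ 0) (h𝔭P : 𝔭₀.1 ≤ P)
    (hvert : ∀ 𝔮 : HtOne B, 𝔮 ≠ 𝔭₀ → 𝔮.1 ≤ P → g ∉ 𝔮.1)
    (hramV : ∀ x : F, x ∈ (V1 F 𝔭₀).nonunits → x ^ n / algebraMap B F g ∈ V1 F 𝔭₀)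
    {a a' v : O} (ha : algebraMap O F (a' - a) ∈ (V1 F 𝔭₀).nonunits) (hv : a' = a * v)
    (haP : algebraMap O F a ∉ (V1 F 𝔭₀).nonunits) {Ut Vt : O} (hUt : IsUnit Ut)
    (hVt : IsUnit Vt)
    (hmem : algebraMap O F (a' - a) ^ n / algebraMap B F g * algebraMap O F Ut +
      algebraMap O F Vt * algebraMap O F a ^ n ∈ (V1 F 𝔭₀).nonunits) :
    ∃ π : B, π ≠ 0 ∧ π ∈ 𝔭₀.1 ∧ (∀ f ∈ 𝔭₀.1, ∃ s : B, s ∉ 𝔭₀.1 ∧ π ∣ s * f) ∧
      (∀ 𝔮 : HtOne B, 𝔮 ≠ 𝔭₀ → 𝔮.1 ≤ P → π ∉ 𝔮.1) ∧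
      Ideal.span {algebraMap B O π} = Ideal.span {v - 1} := by
  have hram := hram_of_valuation (F := F) hg hramV
  obtain ⟨e₀, he₀, he₀F⟩ := exists_div_of_mem_nonunits (F := F) P O hg h𝔭P hvert hramV ha
  refine exists_vertPrime_of_hasse_log (F := F) P O hn hg h𝔭P hvert hram
    ((mem_map_iff_mem_nonunits (F := F) P O 𝔭₀ h𝔭P _).2 ha) hv
    (fun h => haP ((mem_map_iff_mem_nonunits (F := F) P O 𝔭₀ h𝔭P _).1 h)) he₀ hUt hVt ?_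
  rw [mem_map_iff_mem_nonunits (F := F) P O 𝔭₀ h𝔭P, map_add, map_mul, map_mul, map_pow, he₀F]
  exact hmem

include F in
/-- **REG3, elliptic-type point, Hasse form in the fraction field** (cube trick). -/
theorem exists_vertPrime_of_hasse_cube_field (hn : n ≠ 0) (hg : g ≠ 0) (h𝔭P : 𝔭₀.1 ≤ P)
    (hvert : ∀ 𝔮 : HtOne B, 𝔮 ≠ 𝔭₀ → 𝔮.1 ≤ P → g ∉ 𝔮.1)
    (hramV : ∀ x : F, x ∈ (V1 F 𝔭₀).nonunits → x ^ n / algebraMap B F g ∈ V1 F 𝔭₀)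
    {u u' h h' : O} (hu : algebraMap O F (u' - u) ∈ (V1 F 𝔭₀).nonunits)
    (hh : algebraMap O F (h' - h) ∈ (V1 F 𝔭₀).nonunits) {c : ℕ} (hc : 1 ≤ c)
    (hhm : ¬ IsUnit h) (hhP : algebraMap O F h ∉ (V1 F 𝔭₀).nonunits) (huu : IsUnit u)
    {U' V' : O} (hU' : IsUnit U') (hV' : IsUnit V') {r s : ℕ} (hsr : s ≤ r)
    (hcrs : c * (r - s) = (c - 1) * n)
    (hmem : algebraMap O F (u' * h' ^ c - u * h ^ c) ^ n / algebraMap B F g *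
        algebraMap O F ((u * h ^ c) ^ s * U') + algebraMap O F ((u * h ^ c) ^ r * V') ∈
      (V1 F 𝔭₀).nonunits) :
    ∃ π : B, π ≠ 0 ∧ π ∈ 𝔭₀.1 ∧ (∀ f ∈ 𝔭₀.1, ∃ s : B, s ∉ 𝔭₀.1 ∧ π ∣ s * f) ∧
      (∀ 𝔮 : HtOne B, 𝔮 ≠ 𝔭₀ → 𝔮.1 ≤ P → π ∉ 𝔮.1) ∧
      Ideal.span {algebraMap B O π} = Ideal.span {h' - h} := by
  have hram := hram_of_valuation (F := F) hg hramV
  have hu' := (mem_map_iff_mem_nonunits (F := F) P O 𝔭₀ h𝔭P _).2 hu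
  have hh' := (mem_map_iff_mem_nonunits (F := F) P O 𝔭₀ h𝔭P _).2 hh
  -- `u' h'^c − u h^c ∈ 𝔭₀ O`
  have hdiff : u' * h' ^ c - u * h ^ c ∈ Ideal.map (algebraMap B O) 𝔭₀.1 := by
    obtain ⟨d, hd⟩ := sub_dvd_pow_sub_pow h' h c
    have : u' * h' ^ c - u * h ^ c = (u' - u) * h' ^ c + u * d * (h' - h) := by
      have : h' ^ c - h ^ c = (h' - h) * d := hd
      calc u' * h' ^ c - u * h ^ c = (u' - u) * h' ^ c + u * (h' ^ c - h ^ c) := by ring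
        _ = (u' - u) * h' ^ c + u * d * (h' - h) := by rw [this]; ring
    rw [this]
    exact Ideal.add_mem _ (Ideal.mul_mem_right _ _ hu') (Ideal.mul_mem_left _ _ hh')
  obtain ⟨e₀, he₀, he₀F⟩ := exists_div_of_mem_nonunits (F := F) P O hg h𝔭P hvert hramV
    ((mem_map_iff_mem_nonunits (F := F) P O 𝔭₀ h𝔭P _).1 hdiff)
  refine exists_vertPrime_of_hasse_cube (F := F) P O hn hg h𝔭P hvert hram hu' hh' hc he₀ hhm
    (fun h0 => hhP ((mem_map_iff_mem_nonunits (F := F) P O 𝔭₀ h𝔭P _).1 h0)) huu hU' hV' hsr hcrs ?_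
  rw [mem_map_iff_mem_nonunits (F := F) P O 𝔭₀ h𝔭P, map_add, map_mul, he₀F]
  exact hmem

end Fermat.Agent.GL.Reg3
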