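/-
GATE-L / L5d REG3, case (B) CONCRETE over `K₀` in hypothesis form (helper93): the CUBE TRICK at the
points of `C₃` over `j = a`, `a ∈ {0, 1728}`, on top of `exists_vertPrime_of_hasse_cube_field`
(`Reg3FieldForms.lean`) and the `K₀`-level Hasse congruence `hasse_congr_K0` (`ThirdK0Hasse.lean`).

`F₀ = K₀(X₀(N))`, `N = M' q²`, frame `(B, P, O, 𝔭₀)` with `V1 F₀ 𝔭₀ = Rw3K0 A N q` as in
`Reg3AInst.lean`.  The LOWER LEVEL enters only through:
* a field `F'` (`= K₀(X₀(M'))`) with two ring maps `α γ : F' → F₀` (`α` = inclusion, `γ` =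
  `z ↦ q² z`), a chart `j'` with `α j' = j`, `γ j' − α j' = y₃`;
* a subring `S' ⊆ F'` (`= A'`, the local ring of the level-`M'` chart at the image point) with
  `α(S'), γ(S') ⊆ O` and `γ z ≡ α z (mod 𝔪(w₃))` on `S'`  (old copies agree on `C₃`);
* **(S4)** `j' − a = u₀ h₀^c` in `S'`, `u₀ ∈ S'ˣ`  (helper25 `S4Inst`, `c = 3, 2`);
* the level-one polynomial data: integer polynomials `PU' PV'` with
  `(X − a)^s PU' ↦ U₂`, `(X − a)^r PV' ↦ V₁`, `PU'(j), PV'(j) ∉ P`, `c (r − s) = (c − 1)(q − 1)`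
  (`a = 0`: `s = (q−1)/3`, `r = q − 1`, `PV' = (X − 1728)^((q−1)/2)`;
   `a = 1728`: `s = 0`, `r = (q−1)/2`, `PV' = X^(q−1)`).
Output: the block `(π, hπne, hπ0, hgen, hother)` of `LocTypeI.exists_locAt`, `π O = (γ h₀ − α h₀) O`.
-/
import Fermat.Agent.GL.Reg3.Reg3FieldForms
import Fermat.Agent.GL.Val.GaussAtLegsK0

set_option autoImplicit false
set_option linter.unusedSectionVars false

noncomputable section

namespace Fermat.Agent.GL.Reg3

open Fermat.Agent.GL.KrullFrame Fermat.Agent.GL.KrullHeightOne Fermat.Agent.GL.Frame.HeightOne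
  Fermat.Agent.GL.Frame.VertPrimeHtOne IsLocalRing Polynomial
open Fermat.Agent.GL.Val.GaussK0 Fermat.Agent.GL.Val.CuspK0 Fermat.Agent.GL.Val.OrthK0
open Fermat.Agent.GL.Val.ThirdK0 Fermat.Agent.GL.MultiVal Fermat.Agent.GL.Thick
open Fermat.Agent.GL.W3 Fermat.Agent.GL.GaussAt ModularCurve Fermat.Agent.Common_helper32

variable (A : ValuationSubring Qb) {N q M' : ℕ} [NeZero N] [NeZero (q ^ 2 * 1)]
  (hdN : q ^ 2 * 1 ∣ N) (hN : N = M' * q ^ 2) (hqM : ¬ q ∣ M') (hA : (q : Qb) ∈ A.nonunits)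
  (hq : q.Prime)

local notation "𝕜" => ResidueField A

/-- `j − a` is a unit at `w₃` for every integer `a` (`j` is a Gauss point) -/
theorem jK0_sub_intCast_not_mem_nonunits (a : ℤ) :
    jK0 A N - ((a : ℤ) : ↥(modularFunctionFieldFullC (K0 A) N)) ∉ (Rw3K0 A N q).nonunits := by
  have hG := Fermat.Agent.GL.Val.GaussAtLegsK0.isGaussAt_Rw3K0 A (N := N) q
  have h1 := hG.valuation_aeval_eq_one (X - C ((a : ℤ) : K0 A)) (fun i => ?_) ⟨1, ?_⟩
  · rw [map_sub, aeval_X, aeval_C, map_intCast] at h1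
    rw [ValuationSubring.mem_nonunits_iff, h1]
    exact lt_irrefl _
  · rw [coeff_sub, coeff_X, coeff_C]
    refine (R0 A).sub_mem ?_ ?_
    · split_ifs
      · exact (R0 A).one_mem
      · exact (R0 A).zero_mem
    · split_ifs
      · exact intCast_mem _ a
      · exact (R0 A).zero_mem
  · rw [coeff_sub, coeff_X_one, coeff_C, if_neg one_ne_zero, sub_zero, map_one]

variable {B : Type*} [CommRing B] [IsDomain B] [Algebra B ↥(modularFunctionFieldFullC (K0 A) N)]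
  [IsFractionRing B ↥(modularFunctionFieldFullC (K0 A) N)]
  [IsNoetherianRing B] [IsIntegrallyClosed B]
variable (P : Ideal B) [P.IsPrime]
variable (O : Type*) [CommRing O] [IsDomain O] [Algebra B O] [IsLocalization.AtPrime O P]
  [Algebra O ↥(modularFunctionFieldFullC (K0 A) N)]
  [IsScalarTower B O ↥(modularFunctionFieldFullC (K0 A) N)]
  [IsFractionRing O ↥(modularFunctionFieldFullC (K0 A) N)]
variable {𝔭₀ : HtOne B}

include hdN hN hqM hA hq in
/-- **REG3 case (B) over `K₀`** (`q ≥ 5`, hypothesis form): the cube trick at a point `P` of the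
component `𝔭₀ = P₃` only, lying over `j = a`. -/
theorem exists_vertPrime_caseB [Fact q.Prime] [CharP 𝕜 q] (hq5 : 5 ≤ q)
    (hV1 : V1 ↥(modularFunctionFieldFullC (K0 A) N) 𝔭₀ = Rw3K0 A N q) (h𝔭P : 𝔭₀.1 ≤ P)
    (hvert : ∀ 𝔮 : HtOne B, 𝔮 ≠ 𝔭₀ → 𝔮.1 ≤ P → ((q : ℕ) : B) ∉ 𝔮.1)
    {jB : B} (hjB : algebraMap B ↥(modularFunctionFieldFullC (K0 A) N) jB = jK0 A N)
    (a : ℤ) (hfa : jB - ((a : ℤ) : B) ∈ P)
    {F' : Type*} [Field F'] (α γ : F' →+* ↥(modularFunctionFieldFullC (K0 A) N)) (j' : F')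
    (hαj : α j' = jK0 A N) (hγj : γ j' - α j' = y3K0 A N q hdN (one_dvd N))
    (S' : Subring F')
    (hαO : ∀ z ∈ S', α z ∈ (algebraMap O ↥(modularFunctionFieldFullC (K0 A) N)).range)
    (hγO : ∀ z ∈ S', γ z ∈ (algebraMap O ↥(modularFunctionFieldFullC (K0 A) N)).range)
    (hcong : ∀ z ∈ S', γ z - α z ∈ (Rw3K0 A N q).nonunits)
    {u₀ h₀ : F'} (hu₀ : u₀ ∈ S') (hu₀i : u₀⁻¹ ∈ S') (hh₀ : h₀ ∈ S') {c : ℕ} (hc : 1 ≤ c)
    (hS4 : j' - ((a : ℤ) : F') = u₀ * h₀ ^ c)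
    {r s : ℕ} (hsr : s ≤ r) (hcrs : c * (r - s) = (c - 1) * (q - 1))
    (PU' PV' : ℤ[X])
    (hPU : ((X - C a) ^ s * PU').map (Int.castRingHom 𝕜) = hasseU₂ q 𝕜 hq5)
    (hPV : ((X - C a) ^ r * PV').map (Int.castRingHom 𝕜) = hasseV₁ q 𝕜)
    (hU' : aeval jB PU' ∉ P) (hV' : aeval jB PV' ∉ P) :
    ∃ π : B, π ≠ 0 ∧ π ∈ 𝔭₀.1 ∧ (∀ f ∈ 𝔭₀.1, ∃ s : B, s ∉ 𝔭₀.1 ∧ π ∣ s * f) ∧
      (∀ 𝔮 : HtOne B, 𝔮 ≠ 𝔭₀ → 𝔮.1 ≤ P → π ∉ 𝔮.1) ∧
      ∃ hO h'O : O, algebraMap O ↥(modularFunctionFieldFullC (K0 A) N) hO = α h₀ ∧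
        algebraMap O ↥(modularFunctionFieldFullC (K0 A) N) h'O = γ h₀ ∧
        Ideal.span {algebraMap B O π} = Ideal.span {h'O - hO} := by
  have hq1 : q - 1 ≠ 0 := by have := hq.two_le; omega
  have hinj : Function.Injective (algebraMap O ↥(modularFunctionFieldFullC (K0 A) N)) :=
    IsFractionRing.injective O _
  have hqB : ((q : ℕ) : B) ≠ 0 := by
    intro h
    have h1 := congrArg (algebraMap B ↥(modularFunctionFieldFullC (K0 A) N)) h
    rw [map_natCast, map_zero] at h1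
    have : ((q : ℕ) : ↥(modularFunctionFieldFullC (K0 A) N)) =
        algebraMap (K0 A) ↥(modularFunctionFieldFullC (K0 A) N) ((q : ℕ) : K0 A) :=
      (map_natCast _ q).symm
    rw [this, map_eq_zero] at h1
    exact hq.ne_zero (by exact_mod_cast h1)
  -- the elements of `O`
  obtain ⟨uO, huO⟩ := hαO u₀ hu₀
  obtain ⟨u'O, hu'O⟩ := hγO u₀ hu₀
  obtain ⟨uiO, huiO⟩ := hαO u₀⁻¹ hu₀i
  obtain ⟨hO, hhO⟩ := hαO h₀ hh₀
  obtain ⟨h'O, hh'O⟩ := hγO h₀ hh₀
  have hu₀0 : u₀ ≠ 0 := by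
    rintro rfl
    have hS4' := congrArg α hS4
    rw [zero_mul, map_zero, map_sub, hαj, map_intCast] at hS4'
    exact jK0_sub_intCast_not_mem_nonunits A (N := N) (q := q) a (by
      rw [hS4']; exact (ValuationSubring.mem_nonunits_iff _).mpr (by rw [map_zero]; exact zero_lt_one))
  -- the value of `f = u h^c` in `F₀`
  have hfO : algebraMap O ↥(modularFunctionFieldFullC (K0 A) N) (uO * hO ^ c) =
      jK0 A N - ((a : ℤ) : ↥(modularFunctionFieldFullC (K0 A) N)) := by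
    rw [map_mul, map_pow, huO, hhO, ← map_pow, ← map_mul, ← hS4, map_sub, hαj, map_intCast]
  have hf'O : algebraMap O ↥(modularFunctionFieldFullC (K0 A) N) (u'O * h'O ^ c) =
      γ j' - ((a : ℤ) : ↥(modularFunctionFieldFullC (K0 A) N)) := by
    rw [map_mul, map_pow, hu'O, hh'O, ← map_pow, ← map_mul, ← hS4, map_sub, map_intCast]
  have hfB : uO * hO ^ c = algebraMap B O (jB - ((a : ℤ) : B)) := by
    apply hinj
    rw [hfO, ← IsScalarTower.algebraMap_apply, map_sub, hjB, map_intCast]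
  have huu : IsUnit uO := by
    refine IsUnit.of_mul_eq_one uiO ?_
    apply hinj
    rw [map_mul, huO, huiO, ← map_mul, mul_inv_cancel₀ hu₀0, map_one, map_one]
  have hhm : ¬ IsUnit hO := by
    intro hunit
    have h1 : IsUnit (uO * hO ^ c) := huu.mul (hunit.pow c)
    rw [hfB, IsLocalization.AtPrime.isUnit_to_map_iff O P] at h1
    exact h1 hfa
  have hOmem : ∀ z : O, algebraMap O ↥(modularFunctionFieldFullC (K0 A) N) z ∈
      V1 ↥(modularFunctionFieldFullC (K0 A) N) 𝔭₀ := fun z =>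
    (isFrame_heightOne (B := B) (F := ↥(modularFunctionFieldFullC (K0 A) N))).algebraMap_loc_mem
      P O z ((over_V1_iff (F := ↥(modularFunctionFieldFullC (K0 A) N)) P 𝔭₀).2 h𝔭P)
  have hhP : algebraMap O ↥(modularFunctionFieldFullC (K0 A) N) hO ∉
      (V1 ↥(modularFunctionFieldFullC (K0 A) N) 𝔭₀).nonunits := by
    intro hmem
    refine jK0_sub_intCast_not_mem_nonunits A (N := N) (q := q) a ?_
    rw [← hfO, ← hV1, map_mul, map_pow]
    obtain ⟨c', rfl⟩ : ∃ c', c = c' + 1 := ⟨c - 1, by omega⟩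
    rw [pow_succ, ← mul_assoc]
    rw [ValuationSubring.mem_nonunits_iff] at hmem ⊢
    rw [map_mul, mul_comm]
    refine mul_lt_one_of_lt_of_le hmem ?_
    rw [ValuationSubring.valuation_le_one_iff]
    exact mul_mem (hOmem uO) (pow_mem (hOmem hO) c')
  have hγj' : γ j' - jK0 A N = y3K0 A N q hdN (one_dvd N) := by rw [← hαj]; exact hγj
  have hUu : IsUnit (algebraMap B O (aeval jB PU')) :=
    IsLocalization.map_units O (⟨_, hU'⟩ : P.primeCompl)
  have hVu : IsUnit (algebraMap B O (aeval jB PV')) :=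
    IsLocalization.map_units O (⟨_, hV'⟩ : P.primeCompl)
  obtain ⟨π, h1, h2, h3, h4, h5⟩ := exists_vertPrime_of_hasse_cube_field
    (F := ↥(modularFunctionFieldFullC (K0 A) N)) P O hq1 hqB h𝔭P hvert
    (fun x hx => by
      rw [hV1] at hx ⊢
      rw [map_natCast]
      exact hramV_Rw3K0 A hdN hN hqM hA hq x hx)
    (u := uO) (u' := u'O) (h := hO) (h' := h'O)
    (by rw [map_sub, hu'O, huO, hV1]; exact hcong u₀ hu₀)
    (by rw [map_sub, hh'O, hhO, hV1]; exact hcong h₀ hh₀)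
    hc hhm hhP huu hUu hVu hsr hcrs
    (by
      rw [hV1, map_sub, hf'O, hfO, sub_sub_sub_cancel_right, hγj', map_natCast, map_mul, map_mul,
        map_pow, map_pow, hfO, ← IsScalarTower.algebraMap_apply, ← IsScalarTower.algebraMap_apply,
        map_aeval_int, map_aeval_int, hjB]
      have hA' : A.LiesOverPrime q := hA
      have h1 := hasse_congr_K0 A hdN hN hqM hA' hq5 _ _ hPU hPV
      have h2 : y3K0 A N q hdN (one_dvd N) ^ (q - 1) /
          ((q : ℕ) : ↥(modularFunctionFieldFullC (K0 A) N)) = eps3K0 A N q hdN (one_dvd N) := by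
        rw [eps3K0, div_eq_mul_inv, map_natCast]
      rw [h2]
      simpa [map_mul, map_pow, map_sub, aeval_X, aeval_C] using h1)
  exact ⟨π, h1, h2, h3, h4, hO, h'O, hhO, hh'O, h5⟩

end Fermat.Agent.GL.Reg3
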