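/-
GATE-L / L5d REG3, case (B): the NUMERICAL / level-one inputs of `exists_vertPrime_caseB`
discharged (helper93).

* `intCast_mem_iff_dvd`, `aeval_int_mem_iff_dvd_eval`, `aeval_int_mem_iff_eval_zmod` : for a prime
  `P ∋ q` of a ring `B` and `jB ≡ a (mod P)`, `a : ℤ`:  `PP(jB) ∈ P ↔ q ∣ PP(a) ↔ P̄P(ā) = 0` in
  `ZMod q`   (`PP : ℤ[X]`);
* `exists_int_lift_U₂'` : when `0` is ordinary, an integer polynomial `PU'` with
  `X^((q−1)/3) · PU' ↦ U₂` over every field of characteristic `q`, `P̄U'(0) ≠ 0`;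
* **`exists_vertPrime_caseB_1728`**, **`exists_vertPrime_caseB_zero`** : `exists_vertPrime_caseB`
  at `a = 1728` (`c = 2`) and `a = 0` (`c = 3`) with ALL polynomial data inside; the only inputs
  left are the frame, ordinarity `pH(jB) ∉ P` (`intSsPoly`), the old copies `α γ S'` with
  `hαO hγO hcong`, and (S4).
-/
import Fermat.Agent.GL.Reg3.Reg3BInst
import Fermat.Agent.GL.Thick.HasseMap

set_option autoImplicit false
set_option linter.unusedSectionVars false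

noncomputable section

namespace Fermat.Agent.GL.Reg3

open Fermat.Agent.GL.KrullFrame Fermat.Agent.GL.KrullHeightOne Fermat.Agent.GL.Frame.HeightOne
  Fermat.Agent.GL.Frame.VertPrimeHtOne IsLocalRing Polynomial
open Fermat.Agent.GL.Val.GaussK0 Fermat.Agent.GL.Val.CuspK0 Fermat.Agent.GL.Val.OrthK0
open Fermat.Agent.GL.Val.ThirdK0 Fermat.Agent.GL.MultiVal Fermat.Agent.GL.Thick
open Fermat.Agent.GL.W3 ModularCurve Fermat.Agent.Common_helper32

/-! ### Values of integer polynomials modulo a prime over `q` -/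

section Prime

variable {B : Type*} [CommRing B] (P : Ideal B) [P.IsPrime] {q : ℕ}

include P in
/-- an integer lies in a prime `P ∋ q` iff it is divisible by `q` -/
theorem intCast_mem_iff_dvd (hq : q.Prime) (hqP : ((q : ℕ) : B) ∈ P) (m : ℤ) :
    ((m : ℤ) : B) ∈ P ↔ (q : ℤ) ∣ m := by
  constructor
  · intro hm
    by_contra hnd
    have hcop : IsCoprime (q : ℤ) m := by
      rw [Int.isCoprime_iff_gcd_eq_one]
      have hp : Prime (q : ℤ) := Nat.prime_iff_prime_int.mp hq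
      exact Int.isCoprime_iff_gcd_eq_one.mp ((Prime.coprime_iff_not_dvd hp).mpr hnd)
    obtain ⟨x, y, hxy⟩ := hcop
    have h1 : ((1 : ℤ) : B) ∈ P := by
      rw [← hxy]
      push_cast
      exact P.add_mem (P.mul_mem_left _ hqP) (P.mul_mem_left _ hm)
    rw [Int.cast_one] at h1
    exact (Ideal.IsPrime.ne_top ‹_›) ((Ideal.eq_top_iff_one P).mpr h1)
  · rintro ⟨k, rfl⟩
    push_cast
    exact P.mul_mem_right _ hqP

include P in
/-- `PP(jB) ≡ PP(a) (mod P)` for `jB ≡ a` -/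
theorem aeval_int_sub_mem {jB : B} {a : ℤ} (hfa : jB - ((a : ℤ) : B) ∈ P) (PP : ℤ[X]) :
    aeval jB PP - (((PP.eval a : ℤ)) : B) ∈ P := by
  have h1 : aeval jB PP = (PP.map (Int.castRingHom B)).eval jB := by
    rw [aeval_def, eval₂_eq_eval_map]
    rfl
  have h2 : (((PP.eval a : ℤ)) : B) = (PP.map (Int.castRingHom B)).eval ((a : ℤ) : B) := by
    rw [eval_intCast_map, eq_intCast, Int.cast_id]
  rw [h1, h2]
  obtain ⟨d, hd⟩ := sub_dvd_eval_sub jB ((a : ℤ) : B) (PP.map (Int.castRingHom B))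
  rw [hd]
  exact P.mul_mem_right _ hfa

include P in
theorem aeval_int_mem_iff_dvd_eval (hq : q.Prime) (hqP : ((q : ℕ) : B) ∈ P) {jB : B} {a : ℤ}
    (hfa : jB - ((a : ℤ) : B) ∈ P) (PP : ℤ[X]) :
    aeval jB PP ∈ P ↔ (q : ℤ) ∣ PP.eval a := by
  rw [← intCast_mem_iff_dvd P hq hqP]
  have h := aeval_int_sub_mem P hfa PP
  constructor
  · intro h1
    have := P.sub_mem h1 h
    rwa [sub_sub_cancel] at this
  · intro h1
    have := P.add_mem h h1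
    rwa [sub_add_cancel] at this

/-- divisibility of a value by `q`, read in `ZMod q` -/
theorem dvd_eval_iff_eval_zmod (q : ℕ) (PP : ℤ[X]) (a : ℤ) :
    (q : ℤ) ∣ PP.eval a ↔
      (PP.map (Int.castRingHom (ZMod q))).eval ((a : ℤ) : ZMod q) = 0 := by
  rw [eval_intCast_map, eq_intCast, Int.cast_id, ZMod.intCast_zmod_eq_zero_iff_dvd]

include P in
theorem aeval_int_mem_iff_eval_zmod (hq : q.Prime) (hqP : ((q : ℕ) : B) ∈ P) {jB : B} {a : ℤ}
    (hfa : jB - ((a : ℤ) : B) ∈ P) (PP : ℤ[X]) :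
    aeval jB PP ∈ P ↔ (PP.map (Int.castRingHom (ZMod q))).eval ((a : ℤ) : ZMod q) = 0 := by
  rw [aeval_int_mem_iff_dvd_eval P hq hqP hfa, dvd_eval_iff_eval_zmod]

end Prime

/-! ### The integer lift of `U₂'` at the ordinary point `0` -/

section Lift

variable (q : ℕ) [Fact q.Prime]

/-- **`U₂ = X^((q−1)/3) · U₂'` with an INTEGER `U₂'`**, uniform in the field, when `0` is ordinary -/
theorem exists_int_lift_U₂' (hq5 : 5 ≤ q) (h0 : (ssPoly q (ZMod q) hq5).eval 0 ≠ 0) :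
    ∃ PU' : ℤ[X],
      (∀ (k : Type*) [Field k] [CharP k q],
        (X ^ ((q - 1) / 3) * PU').map (Int.castRingHom k) = hasseU₂ q k hq5) ∧
      (PU'.map (Int.castRingHom (ZMod q))).eval 0 ≠ 0 := by
  obtain ⟨U₂', hU, hU0⟩ := exists_hasseU₂_factor_zero q (ZMod q) hq5 h0
  obtain ⟨PU', hPU'⟩ := Polynomial.map_surjective (Int.castRingHom (ZMod q))
    ZMod.intCast_surjective U₂'
  refine ⟨PU', ?_, by rw [hPU']; exact hU0⟩
  intro k _ _
  rw [intCast_eq_comp q k, ← Polynomial.map_map, Polynomial.map_mul, Polynomial.map_pow, map_X,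
    hPU', ← hU, hasseU₂_map]

end Lift

/-! ### Case (B) at `a = 1728` and `a = 0` -/

section K0

variable (A : ValuationSubring Qb) {N q M' : ℕ} [NeZero N] [NeZero (q ^ 2 * 1)]
  (hdN : q ^ 2 * 1 ∣ N) (hN : N = M' * q ^ 2) (hqM : ¬ q ∣ M') (hA : (q : Qb) ∈ A.nonunits)
  (hq : q.Prime)

local notation "𝕜" => ResidueField A

variable {B : Type*} [CommRing B] [IsDomain B] [Algebra B ↥(modularFunctionFieldFullC (K0 A) N)]
  [IsFractionRing B ↥(modularFunctionFieldFullC (K0 A) N)]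
  [IsNoetherianRing B] [IsIntegrallyClosed B]
variable (P : Ideal B) [P.IsPrime]
variable (O : Type*) [CommRing O] [IsDomain O] [Algebra B O] [IsLocalization.AtPrime O P]
  [Algebra O ↥(modularFunctionFieldFullC (K0 A) N)]
  [IsScalarTower B O ↥(modularFunctionFieldFullC (K0 A) N)]
  [IsFractionRing O ↥(modularFunctionFieldFullC (K0 A) N)]
variable {𝔭₀ : HtOne B}

include hdN hN hqM hA hq in
/-- `q ∈ P` for every prime `P` above the vertical prime of `w₃` -/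
theorem natCast_mem_of_V1_eq
    (hV1 : V1 ↥(modularFunctionFieldFullC (K0 A) N) 𝔭₀ = Rw3K0 A N q) (h𝔭P : 𝔭₀.1 ≤ P) :
    ((q : ℕ) : B) ∈ P := by
  apply h𝔭P
  rw [← algebraMap_mem_nonunits_V1_iff (F := ↥(modularFunctionFieldFullC (K0 A) N)), hV1,
    map_natCast]
  have hR := isRamified_Rw3K0 A hq hN hqM hA (one_dvd M') hdN (one_dvd N)
  have hcast : ((q : ℕ) : ↥(modularFunctionFieldFullC (K0 A) N)) =
      algebraMap (K0 A) ↥(modularFunctionFieldFullC (K0 A) N) ((q : ℕ) : K0 A) :=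
    (map_natCast _ q).symm
  have hq1 : q - 1 ≠ 0 := by have := hq.two_le; omega
  rw [ValuationSubring.mem_nonunits_iff, hcast, ← hR.pow_eq]
  exact pow_lt_one₀ zero_le hR.lt_one hq1

include hdN hN hqM hA hq in
/-- **REG3 case (B) at `j = 1728`** (`c = 2`): all polynomial data discharged. -/
theorem exists_vertPrime_caseB_1728 [Fact q.Prime] (hq5 : 5 ≤ q)
    (hV1 : V1 ↥(modularFunctionFieldFullC (K0 A) N) 𝔭₀ = Rw3K0 A N q) (h𝔭P : 𝔭₀.1 ≤ P)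
    (hvert : ∀ 𝔮 : HtOne B, 𝔮 ≠ 𝔭₀ → 𝔮.1 ≤ P → ((q : ℕ) : B) ∉ 𝔮.1)
    {jB : B} (hjB : algebraMap B ↥(modularFunctionFieldFullC (K0 A) N) jB = jK0 A N)
    (hfa : jB - (((1728 : ℤ) : ℤ) : B) ∈ P) (hss : aeval jB (intSsPoly q hq5) ∉ P)
    {F' : Type*} [Field F'] (α γ : F' →+* ↥(modularFunctionFieldFullC (K0 A) N)) (j' : F')
    (hαj : α j' = jK0 A N) (hγj : γ j' - α j' = y3K0 A N q hdN (one_dvd N))
    (S' : Subring F')
    (hαO : ∀ z ∈ S', α z ∈ (algebraMap O ↥(modularFunctionFieldFullC (K0 A) N)).range)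
    (hγO : ∀ z ∈ S', γ z ∈ (algebraMap O ↥(modularFunctionFieldFullC (K0 A) N)).range)
    (hcong : ∀ z ∈ S', γ z - α z ∈ (Rw3K0 A N q).nonunits)
    {u₀ h₀ : F'} (hu₀ : u₀ ∈ S') (hu₀i : u₀⁻¹ ∈ S') (hh₀ : h₀ ∈ S')
    (hS4 : j' - (((1728 : ℤ) : ℤ) : F') = u₀ * h₀ ^ 2) :
    ∃ π : B, π ≠ 0 ∧ π ∈ 𝔭₀.1 ∧ (∀ f ∈ 𝔭₀.1, ∃ s : B, s ∉ 𝔭₀.1 ∧ π ∣ s * f) ∧
      (∀ 𝔮 : HtOne B, 𝔮 ≠ 𝔭₀ → 𝔮.1 ≤ P → π ∉ 𝔮.1) ∧
      ∃ hO h'O : O, algebraMap O ↥(modularFunctionFieldFullC (K0 A) N) hO = α h₀ ∧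
        algebraMap O ↥(modularFunctionFieldFullC (K0 A) N) h'O = γ h₀ ∧
        Ideal.span {algebraMap B O π} = Ideal.span {h'O - hO} := by
  have : CharP 𝕜 q := Fermat.Agent.GJ.Kum.charP_residueField A hq hA
  have hqP := natCast_mem_of_V1_eq A hdN hN hqM hA hq P hV1 h𝔭P
  have hodd : q % 2 = 1 := by
    rcases hq.eq_two_or_odd with h | h
    · omega
    · exact h
  -- ordinarity of `1728`
  have hss' : (ssPoly q (ZMod q) hq5).eval ((1728 : ℤ) : ZMod q) ≠ 0 := by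
    intro h0
    apply hss
    rw [aeval_int_mem_iff_eval_zmod P hq hqP hfa, intSsPoly_map_zmod]
    exact h0
  have h1728 : (((1728 : ℤ) : ℤ) : ZMod q) = (1728 : ZMod q) := by push_cast; rfl
  refine exists_vertPrime_caseB A hdN hN hqM hA hq P O hq5 hV1 h𝔭P hvert hjB 1728 hfa α γ j' hαj
    hγj S' hαO hγO hcong hu₀ hu₀i hh₀ (c := 2) (by norm_num) hS4 (r := (q - 1) / 2) (s := 0)
    (Nat.zero_le _) (by omega) (intU₂ q hq5) (X ^ (q - 1)) ?_ ?_ ?_ ?_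
  · rw [pow_zero, one_mul, intU₂_map]
  · rw [← intV₁_map q 𝕜, intV₁, mul_comm]
  · rw [aeval_int_mem_iff_eval_zmod P hq hqP hfa, intU₂_map_zmod, h1728]
    rw [h1728] at hss'
    exact hasseU₂_eval_1728_ne_zero q (ZMod q) hq5 hss'
  · rw [aeval_int_mem_iff_eval_zmod P hq hqP hfa, Polynomial.map_pow, map_X, eval_pow, eval_X,
      h1728]
    exact pow_ne_zero _ (ne_zero_1728' q (ZMod q) hq5)

include hdN hN hqM hA hq in
/-- **REG3 case (B) at `j = 0`** (`c = 3`): all polynomial data discharged. -/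
theorem exists_vertPrime_caseB_zero [Fact q.Prime] (hq5 : 5 ≤ q)
    (hV1 : V1 ↥(modularFunctionFieldFullC (K0 A) N) 𝔭₀ = Rw3K0 A N q) (h𝔭P : 𝔭₀.1 ≤ P)
    (hvert : ∀ 𝔮 : HtOne B, 𝔮 ≠ 𝔭₀ → 𝔮.1 ≤ P → ((q : ℕ) : B) ∉ 𝔮.1)
    {jB : B} (hjB : algebraMap B ↥(modularFunctionFieldFullC (K0 A) N) jB = jK0 A N)
    (hfa : jB - (((0 : ℤ) : ℤ) : B) ∈ P) (hss : aeval jB (intSsPoly q hq5) ∉ P)
    {F' : Type*} [Field F'] (α γ : F' →+* ↥(modularFunctionFieldFullC (K0 A) N)) (j' : F')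
    (hαj : α j' = jK0 A N) (hγj : γ j' - α j' = y3K0 A N q hdN (one_dvd N))
    (S' : Subring F')
    (hαO : ∀ z ∈ S', α z ∈ (algebraMap O ↥(modularFunctionFieldFullC (K0 A) N)).range)
    (hγO : ∀ z ∈ S', γ z ∈ (algebraMap O ↥(modularFunctionFieldFullC (K0 A) N)).range)
    (hcong : ∀ z ∈ S', γ z - α z ∈ (Rw3K0 A N q).nonunits)
    {u₀ h₀ : F'} (hu₀ : u₀ ∈ S') (hu₀i : u₀⁻¹ ∈ S') (hh₀ : h₀ ∈ S')
    (hS4 : j' - (((0 : ℤ) : ℤ) : F') = u₀ * h₀ ^ 3) :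
    ∃ π : B, π ≠ 0 ∧ π ∈ 𝔭₀.1 ∧ (∀ f ∈ 𝔭₀.1, ∃ s : B, s ∉ 𝔭₀.1 ∧ π ∣ s * f) ∧
      (∀ 𝔮 : HtOne B, 𝔮 ≠ 𝔭₀ → 𝔮.1 ≤ P → π ∉ 𝔮.1) ∧
      ∃ hO h'O : O, algebraMap O ↥(modularFunctionFieldFullC (K0 A) N) hO = α h₀ ∧
        algebraMap O ↥(modularFunctionFieldFullC (K0 A) N) h'O = γ h₀ ∧
        Ideal.span {algebraMap B O π} = Ideal.span {h'O - hO} := by
  have : CharP 𝕜 q := Fermat.Agent.GJ.Kum.charP_residueField A hq hA
  have hqP := natCast_mem_of_V1_eq A hdN hN hqM hA hq P hV1 h𝔭P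
  -- ordinarity of `0`
  have hss' : (ssPoly q (ZMod q) hq5).eval 0 ≠ 0 := by
    intro h0
    apply hss
    rw [aeval_int_mem_iff_eval_zmod P hq hqP hfa, intSsPoly_map_zmod, Int.cast_zero]
    exact h0
  have h3 : 3 ∣ q - 1 := three_dvd_of_ssPoly_zero q (ZMod q) hq5 hss'
  obtain ⟨PU', hPU', hPU0⟩ := exists_int_lift_U₂' q hq5 hss'
  have hodd : q % 2 = 1 := by
    rcases hq.eq_two_or_odd with h | h
    · omega
    · exact h
  have hC0 : (X - C (0 : ℤ) : ℤ[X]) = X := by rw [C_0, sub_zero]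
  refine exists_vertPrime_caseB A hdN hN hqM hA hq P O hq5 hV1 h𝔭P hvert hjB 0 hfa α γ j' hαj
    hγj S' hαO hγO hcong hu₀ hu₀i hh₀ (c := 3) (by norm_num) hS4 (r := q - 1) (s := (q - 1) / 3)
    (Nat.div_le_self _ _) (by omega) PU' ((X - C 1728) ^ ((q - 1) / 2)) ?_ ?_ ?_ ?_
  · rw [hC0]
    exact hPU' 𝕜
  · rw [hC0, ← intV₁_map q 𝕜, intV₁]
  · rw [aeval_int_mem_iff_eval_zmod P hq hqP hfa, Int.cast_zero]
    exact hPU0
  · rw [aeval_int_mem_iff_eval_zmod P hq hqP hfa, Int.cast_zero, Polynomial.map_pow,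
      Polynomial.map_sub, map_X, Polynomial.map_C, eval_pow, eval_sub, eval_X, eval_C, zero_sub]
    refine pow_ne_zero _ (neg_ne_zero.mpr ?_)
    have := ne_zero_1728' q (ZMod q) hq5
    simpa using this

end K0

end Fermat.Agent.GL.Reg3
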