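/-
GATE-L / REG3 case (B), OLD-COPY GLUE (helper93; claims key REG3-B-OLD).

Abstract glue between the level-`M'` chart `B' ⊂ F'` and the local ring `B_𝔫 ⊂ F` of the level-`N`
frame at a closed point `𝔫` lying on the third component only, for the TWO old copies
`α γ : F' →+* F` (`α = d0`, `γ = d2`):

* data: `α(B') ⊆ B_𝔫`, `γ(B') ⊆ B_𝔫` (helper84 `OldContraction.old_fin_le`), a valuation subring
  `V ⊇ B_𝔫` of `F` (`= R_{w₃} = V1 F 𝔭₀`, `𝔭₀ ≤ 𝔫`) with `𝔪_V ∩ B_𝔫 ⊆ 𝔪_𝔫`, and the congruence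
  `γ b − α b ∈ 𝔪_V` on `B'`;
* output: the contracted prime `x' := contrOld α` of `B'` is ALSO the contraction along `γ`
  (`contrOld_eq`), and on `S' := B'_{x'}` (helper8 `locSubring`): `α(S') ⊆ B_𝔫` (`alpha_loc_le`),
  `γ(S') ⊆ B_𝔫` (`gamma_loc_le`), `γ z − α z ∈ 𝔪_V` (`cong_loc`) — the binders `hαO hγO hcong` of
  `Reg3BNum.exists_vertPrime_caseB_1728 / _zero` at `S' := locSubring B' x'`;
* `mem_contrOld_iff_of_eq` : `b ∈ x' ↔ c ∈ 𝔫` whenever `α b = c ∈ B` (`q`, `j' − a`);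
* `unit_mem`, `unit_inv_mem` : a unit of the ring `S'` has value and inverse in `S'`
  (plug of helper25 `(S4)` : `u₀ : A'ˣ`).
-/
import Fermat.Agent.GL.Frame.OldContraction

set_option autoImplicit false

namespace Fermat.Agent.GL.Reg3.BOld

open Fermat.Agent.GL.Frame.Chart Fermat.Agent.GL.Frame.OldContraction

variable {F F' : Type*} [Field F] [Field F'] (B : Subring F) (𝔫 : Ideal B) [h𝔫 : 𝔫.IsPrime]
  (B' : Subring F') (α γ : F' →+* F)
  (hα : ∀ b ∈ B', α b ∈ locSubring B 𝔫) (hγ : ∀ b ∈ B', γ b ∈ locSubring B 𝔫)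
  (V : ValuationSubring F)

/-- `b ∈ x' ↔ c ∈ 𝔫` whenever `α b = c` with `c ∈ B`. -/
theorem mem_contrOld_iff_of_eq (b : B') (c : B) (h : α b = c) :
    b ∈ contrOld B 𝔫 B' α hα ↔ c ∈ 𝔫 := by
  rw [mem_contrOld, ← coe_mem_locMax_iff B 𝔫 c]
  have : (⟨α b, hα b b.2⟩ : locSubring B 𝔫) = ⟨(c : F), le_locSubring B 𝔫 c.2⟩ := Subtype.ext h
  rw [this]

variable (hVm : ∀ (x : F) (hx : x ∈ locSubring B 𝔫), x ∈ V.nonunits →
    (⟨x, hx⟩ : locSubring B 𝔫) ∈ locMax B 𝔫)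
  (hcong : ∀ b ∈ B', γ b - α b ∈ V.nonunits)

include hVm hcong in
/-- the contractions of `𝔫` along `α` and along `γ` coincide. -/
theorem contrOld_eq : contrOld B 𝔫 B' γ hγ = contrOld B 𝔫 B' α hα := by
  ext b
  rw [mem_contrOld, mem_contrOld]
  have hd : (⟨γ b, hγ b b.2⟩ : locSubring B 𝔫) - ⟨α b, hα b b.2⟩ ∈ locMax B 𝔫 :=
    hVm (γ b - α b) ((locSubring B 𝔫).sub_mem (hγ b b.2) (hα b b.2)) (hcong b b.2)
  constructor
  · intro h
    have := (locMax B 𝔫).sub_mem h hd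
    rwa [sub_sub_cancel] at this
  · intro h
    have := (locMax B 𝔫).add_mem hd h
    rwa [sub_add_cancel] at this

/-- `α (B'_{x'}) ⊆ B_𝔫` (= helper84 `old_loc_le`). -/
theorem alpha_loc_le {z : F'} (hz : z ∈ locSubring B' (contrOld B 𝔫 B' α hα)) :
    α z ∈ locSubring B 𝔫 := old_loc_le B 𝔫 B' α hα hz

include hγ hVm hcong in
/-- `γ (B'_{x'}) ⊆ B_𝔫` for the SAME `x'` (the contraction along `α`). -/
theorem gamma_loc_le {z : F'} (hz : z ∈ locSubring B' (contrOld B 𝔫 B' α hα)) :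
    γ z ∈ locSubring B 𝔫 := by
  have hz' : z ∈ locSubring B' (contrOld B 𝔫 B' γ hγ) := by
    obtain ⟨a, s, hs, h⟩ := hz
    refine ⟨a, s, ?_, h⟩
    rw [contrOld_eq B 𝔫 B' α γ hα hγ V hVm hcong]
    exact hs
  exact old_loc_le B 𝔫 B' γ hγ hz'

variable (hV : ∀ x ∈ locSubring B 𝔫, x ∈ V)

include hγ hVm hcong hV in
/-- **the congruence `γ ≡ α mod 𝔪_V` on the local ring `B'_{x'}`**. -/
theorem cong_loc {z : F'} (hz : z ∈ locSubring B' (contrOld B 𝔫 B' α hα)) :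
    γ z - α z ∈ V.nonunits := by
  have hαz := alpha_loc_le B 𝔫 B' α hα hz
  have hγz := gamma_loc_le B 𝔫 B' α γ hα hγ V hVm hcong hz
  obtain ⟨a, s, hs, h⟩ := hz
  -- `α s` is a unit of `B_𝔫`
  have hsi : (α (s : F'))⁻¹ ∈ locSubring B 𝔫 := old_unit B 𝔫 B' α hα hs
  have hs0 : α (s : F') ≠ 0 := by
    intro h0
    apply hs
    rw [mem_contrOld]
    have : (⟨α s, hα s s.2⟩ : locSubring B 𝔫) = 0 := Subtype.ext h0
    rw [this]; exact (locMax B 𝔫).zero_mem
  -- `(γ z − α z) · α s = (γ a − α a) − γ z · (γ s − α s)`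
  have hkey : γ z - α z = ((γ (a : F') - α (a : F')) - γ z * (γ (s : F') - α (s : F'))) *
      (α (s : F'))⁻¹ := by
    have h1 : α z * α (s : F') = α (a : F') := by rw [← map_mul, h]
    have h2 : γ z * γ (s : F') = γ (a : F') := by rw [← map_mul, h]
    rw [← h1, ← h2]
    field_simp
    ring
  rw [hkey, ValuationSubring.mem_nonunits_iff, map_mul]
  refine mul_lt_one_of_lt_of_le ?_ ((ValuationSubring.valuation_le_one_iff _ _).mpr (hV _ hsi))
  refine lt_of_le_of_lt (Valuation.map_sub _ _ _) (max_lt ?_ ?_)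
  · exact (ValuationSubring.mem_nonunits_iff _).mp (hcong a a.2)
  · rw [map_mul, mul_comm]
    exact mul_lt_one_of_lt_of_le ((ValuationSubring.mem_nonunits_iff _).mp (hcong s s.2))
      ((ValuationSubring.valuation_le_one_iff _ _).mpr (hV _ hγz))

omit h𝔫 in
/-- a unit of the ring `S` (a subring of a field) has its value in `S`. -/
theorem unit_mem {S : Subring F'} (u : Sˣ) : ((u : S) : F') ∈ S := (u : S).2

omit h𝔫 in
/-- a unit of the ring `S` (a subring of a field) has its inverse in `S`. -/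
theorem unit_inv_mem {S : Subring F'} (u : Sˣ) : ((u : S) : F')⁻¹ ∈ S := by
  have h1 : ((u : S) : F') * ((u⁻¹ : Sˣ) : S) = 1 := by
    have := congrArg (Subtype.val : S → F') u.mul_inv
    rwa [Subring.coe_mul, Subring.coe_one] at this
  have h2 : ((u : S) : F')⁻¹ = ((u⁻¹ : Sˣ) : S) := by
    rw [eq_comm, ← mul_eq_one_iff_eq_inv₀]
    · rw [mul_comm]; exact h1
    · intro h0
      rw [h0, zero_mul] at h1
      exact zero_ne_one h1
  rw [h2]
  exact ((u⁻¹ : Sˣ) : S).2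

end Fermat.Agent.GL.Reg3.BOld
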