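/-
GATE-L / L5d REG3 on the `j`-frame `Bj`: the DISPATCHER (helper93; claims key REG3-DISPATCH).

**`hreg3_K0` = the `hreg3` binder of helper11 `H5TypeI.hallj_typed` VERBATIM** on a frame
`Bf : Subring K₀(X₀(N))`, `N = M' q²`, third component `𝔭₀` (`V1 F₀ 𝔭₀ = Rw3K0 A N q`), at the
ordinary closed points `𝔫` (`q ∈ 𝔫`, `s = pH(j) ∉ 𝔫`, `s := aeval j (intSsPolyAll q)`) through which
only `𝔭₀` passes:

* `q < 5`           : case (A small)  (`Reg3AInst.exists_vertPrime_caseA_small`);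
* `q ≥ 5`, `j ∈ 𝔫`  : case (B), `a = 0`, `c = 3`   (`Reg3BNum.exists_vertPrime_caseB_zero`);
* `j − 1728 ∈ 𝔫`    : case (B), `a = 1728`, `c = 2` (`Reg3BNum.exists_vertPrime_caseB_1728`);
* otherwise         : case (A)        (`Reg3AInst.exists_vertPrime_caseA`).

The local ring `O` of the four theorems is instantiated at `Localization.AtPrime 𝔫` (with the
canonical map to the fraction field, `atPrimeHom`), and eliminated from the statement: the `(B)`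
inputs `hαO hγO` read `α z ∈ Chart.locSubring Bf 𝔫`.

`hBdata_of_chart` : the per-point `(B)` datum (`S'`, `hαO`, `hγO`, `hcong`, `(S4)`) from the
level-`M'` chart `B'`: `α(B'), γ(B') ⊆ B_𝔫`, the congruence on `B'` and `(S4)` in the local rings of
`B'` — glue of `Reg3BOld`.
-/
import Fermat.Agent.GL.Reg3.Reg3AInst
import Fermat.Agent.GL.Reg3.Reg3BNum
import Fermat.Agent.GL.Reg3.Reg3BOld
import Fermat.Agent.GL.Thick.HasseMapAll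

set_option autoImplicit false
set_option linter.unusedSectionVars false

noncomputable section

namespace Fermat.Agent.GL.Reg3.Dispatch

open Fermat.Agent.GL.KrullFrame Fermat.Agent.GL.KrullHeightOne Fermat.Agent.GL.Frame.HeightOne
  Fermat.Agent.GL.Frame.VertPrimeHtOne IsLocalRing Polynomial
open Fermat.Agent.GL.Frame.Chart Fermat.Agent.GL.Frame.OldContraction

/-! ### `Localization.AtPrime P` inside the fraction field -/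

section AtPrime

variable {B F : Type*} [CommRing B] [IsDomain B] [Field F] [Algebra B F] [IsFractionRing B F]
variable (P : Ideal B) [P.IsPrime]

theorem isUnit_algebraMap_primeCompl (y : P.primeCompl) : IsUnit (algebraMap B F (y : B)) := by
  have h0 : (y : B) ≠ 0 := fun h => y.2 (by rw [h]; exact P.zero_mem)
  exact isUnit_iff_ne_zero.mpr ((map_ne_zero_iff _ (IsFractionRing.injective B F)).mpr h0)

variable (F) in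
/-- the canonical map `B_P → F`. -/
def atPrimeHom : Localization.AtPrime P →+* F :=
  IsLocalization.lift (M := P.primeCompl) (g := algebraMap B F) (isUnit_algebraMap_primeCompl P)

theorem atPrimeHom_algebraMap (b : B) :
    atPrimeHom F P (algebraMap B (Localization.AtPrime P) b) = algebraMap B F b :=
  IsLocalization.lift_eq _ b

theorem mem_range_atPrimeHom_iff (z : F) :
    z ∈ (atPrimeHom F P).range ↔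
      ∃ a s : B, s ∉ P ∧ z * algebraMap B F s = algebraMap B F a := by
  constructor
  · rintro ⟨w, rfl⟩
    obtain ⟨⟨a, s⟩, hmk⟩ := IsLocalization.mk'_surjective P.primeCompl w
    have hmk' : IsLocalization.mk' (Localization.AtPrime P) a s = w := hmk
    refine ⟨a, s, s.2, ?_⟩
    have h1 := IsLocalization.mk'_spec (Localization.AtPrime P) a s
    rw [hmk'] at h1
    have := congrArg (atPrimeHom F P) h1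
    rwa [map_mul, atPrimeHom_algebraMap, atPrimeHom_algebraMap] at this
  · rintro ⟨a, s, hs, h⟩
    refine ⟨IsLocalization.mk' (Localization.AtPrime P) a (⟨s, hs⟩ : P.primeCompl), ?_⟩
    have h1 := IsLocalization.mk'_spec (Localization.AtPrime P) a (⟨s, hs⟩ : P.primeCompl)
    have h2 := congrArg (atPrimeHom F P) h1
    rw [map_mul, atPrimeHom_algebraMap, atPrimeHom_algebraMap] at h2
    have hs0 : algebraMap B F s ≠ 0 := (isUnit_algebraMap_primeCompl P ⟨s, hs⟩).ne_zero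
    exact mul_right_cancel₀ hs0 (h2.trans h.symm)

end AtPrime

/-! ### The local ring `B_𝔫 ⊂ F` of a subring and the DVR of a height-one prime `𝔭₀ ≤ 𝔫` -/

section V1Sub

variable {F : Type*} [Field F] {Bf : Subring F} [IsFractionRing Bf F] [IsNoetherianRing Bf]
  [IsIntegrallyClosed Bf]
variable (𝔫 : Ideal Bf) [𝔫.IsPrime] (𝔭₀ : HtOne Bf)

/-- `B_𝔫 ⊆ B_𝔭₀` for `𝔭₀ ≤ 𝔫`. -/
theorem locSubring_le_V1 (h𝔭𝔫 : 𝔭₀.1 ≤ 𝔫) : ∀ x ∈ locSubring Bf 𝔫, x ∈ V1 F 𝔭₀ := by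
  rintro x ⟨a, s, hs, h⟩
  have hs𝔭 : s ∉ 𝔭₀.1 := fun h' => hs (h𝔭𝔫 h')
  have hs0 : algebraMap Bf F s ≠ 0 := KrullHeightOne.algebraMap_ne_zero_of_not_mem 𝔭₀.1 hs𝔭
  have hx : x = algebraMap Bf F a * (algebraMap Bf F s)⁻¹ := by
    have h' : x * algebraMap Bf F s = algebraMap Bf F a := h
    rw [← h', mul_assoc, mul_inv_cancel₀ hs0, mul_one]
  rw [hx]
  exact (V1 F 𝔭₀).mul_mem _ _ (algebraMap_mem_V1 𝔭₀ a) (inv_algebraMap_mem_V1 𝔭₀ hs𝔭)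

/-- `𝔪(B_𝔭₀) ∩ B_𝔫 ⊆ 𝔪_𝔫` for `𝔭₀ ≤ 𝔫`. -/
theorem mem_locMax_of_mem_nonunits_V1 (h𝔭𝔫 : 𝔭₀.1 ≤ 𝔫) (x : F) (hx : x ∈ locSubring Bf 𝔫)
    (hxn : x ∈ (V1 F 𝔭₀).nonunits) : (⟨x, hx⟩ : locSubring Bf 𝔫) ∈ locMax Bf 𝔫 := by
  obtain ⟨a, s, hs, h⟩ := hx
  refine ⟨a, s, h𝔭𝔫 ?_, hs, h⟩
  rw [← algebraMap_mem_nonunits_V1_iff (F := F)]
  have h' : algebraMap Bf F a = x * algebraMap Bf F s := h.symm
  rw [h', ValuationSubring.mem_nonunits_iff, map_mul]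
  exact mul_lt_one_of_lt_of_le ((ValuationSubring.mem_nonunits_iff _).mp hxn)
    ((ValuationSubring.valuation_le_one_iff _ _).mpr (algebraMap_mem_V1 𝔭₀ s))

/-- **the per-point `(B)` datum from the level-`M'` chart `B'`** (glue of `Reg3BOld`):
`S' := B'_{x'}`, `x'` the contraction of `𝔫` along `α` (= along `γ`). -/
theorem hBdata_of_chart (h𝔭𝔫 : 𝔭₀.1 ≤ 𝔫) {F' : Type*} [Field F'] (B' : Subring F')
    (α γ : F' →+* F)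
    (hα : ∀ b ∈ B', α b ∈ locSubring Bf 𝔫) (hγ : ∀ b ∈ B', γ b ∈ locSubring Bf 𝔫)
    (hcong : ∀ b ∈ B', γ b - α b ∈ (V1 F 𝔭₀).nonunits)
    {j' : F'} (hj' : j' ∈ B') {jB : Bf} (hαj : α j' = jB) (a : ℤ) (hfa : jB - (a : Bf) ∈ 𝔫)
    {qn : ℕ} (hqn : ((qn : ℕ) : Bf) ∈ 𝔫) (c : ℕ)
    (hS4 : ∀ (x' : Ideal B') [x'.IsPrime], ((qn : ℕ) : B') ∈ x' →
      (⟨j', hj'⟩ : B') - ((a : ℤ) : B') ∈ x' →
      ∃ (u₀ : (locSubring B' x')ˣ) (h₀ : locSubring B' x'),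
        j' - ((a : ℤ) : F') = ((u₀ : locSubring B' x') : F') * (h₀ : F') ^ c) :
    ∃ S' : Subring F', (∀ z ∈ S', α z ∈ locSubring Bf 𝔫) ∧ (∀ z ∈ S', γ z ∈ locSubring Bf 𝔫) ∧
      (∀ z ∈ S', γ z - α z ∈ (V1 F 𝔭₀).nonunits) ∧
      ∃ u₀ h₀ : F', u₀ ∈ S' ∧ u₀⁻¹ ∈ S' ∧ h₀ ∈ S' ∧ j' - ((a : ℤ) : F') = u₀ * h₀ ^ c := by
  have hVm := mem_locMax_of_mem_nonunits_V1 𝔫 𝔭₀ h𝔭𝔫
  have hV := locSubring_le_V1 𝔫 𝔭₀ h𝔭𝔫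
  have hq' : ((qn : ℕ) : B') ∈ contrOld Bf 𝔫 B' α hα := by
    rw [BOld.mem_contrOld_iff_of_eq Bf 𝔫 B' α hα _ ((qn : ℕ) : Bf) (by push_cast; rw [map_natCast])]
    exact hqn
  have hja' : (⟨j', hj'⟩ : B') - ((a : ℤ) : B') ∈ contrOld Bf 𝔫 B' α hα := by
    rw [BOld.mem_contrOld_iff_of_eq Bf 𝔫 B' α hα _ (jB - ((a : ℤ) : Bf))
      (by push_cast; rw [map_sub, map_intCast, hαj])]
    exact hfa
  obtain ⟨u₀, h₀, hS4'⟩ := hS4 (contrOld Bf 𝔫 B' α hα) hq' hja'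
  refine ⟨locSubring B' (contrOld Bf 𝔫 B' α hα),
    fun z hz => BOld.alpha_loc_le Bf 𝔫 B' α hα hz,
    fun z hz => BOld.gamma_loc_le Bf 𝔫 B' α γ hα hγ _ hVm hcong hz,
    fun z hz => BOld.cong_loc Bf 𝔫 B' α γ hα hγ _ hVm hcong hV hz,
    ((u₀ : locSubring B' (contrOld Bf 𝔫 B' α hα)) : F'), (h₀ : F'), BOld.unit_mem u₀,
    BOld.unit_inv_mem u₀, h₀.2, hS4'⟩

end V1Sub

/-! ### The four cases over `K₀` without `O`, and the dispatcher -/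

section K0

open Fermat.Agent.GL.Val.GaussK0 Fermat.Agent.GL.Val.CuspK0 Fermat.Agent.GL.Val.OrthK0
open Fermat.Agent.GL.Val.ThirdK0 Fermat.Agent.GL.MultiVal Fermat.Agent.GL.Thick
open Fermat.Agent.GL.W3 ModularCurve Fermat.Agent.Common_helper32

variable (A : ValuationSubring Qb) {N q M' : ℕ} [NeZero N] [NeZero (q ^ 2 * 1)]
  (hdN : q ^ 2 * 1 ∣ N) (hN : N = M' * q ^ 2) (hqM : ¬ q ∣ M') (hA : (q : Qb) ∈ A.nonunits)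
  (hq : q.Prime)

/-- shortcut instance (TC does not find it within the default heartbeats at the concrete field);
`rfl`-equal to the generic `Algebra.ofSubsemiring`. -/
instance instAlgebraSubringF0 (Bf : Subring ↥(modularFunctionFieldFullC (K0 A) N)) :
    Algebra Bf ↥(modularFunctionFieldFullC (K0 A) N) := Algebra.ofSubsemiring Bf

variable {Bf : Subring ↥(modularFunctionFieldFullC (K0 A) N)}
  [IsFractionRing Bf ↥(modularFunctionFieldFullC (K0 A) N)] [IsNoetherianRing Bf]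
  [IsIntegrallyClosed Bf]
variable (𝔫 : Ideal Bf) [𝔫.IsPrime] {𝔭₀ : HtOne Bf}

include hdN hN hqM hA hq in
/-- case (A), `q ≥ 5`, without `O`. -/
theorem caseA [Fact q.Prime] (hq5 : 5 ≤ q)
    (hV1 : V1 ↥(modularFunctionFieldFullC (K0 A) N) 𝔭₀ = Rw3K0 A N q) (h𝔭P : 𝔭₀.1 ≤ 𝔫)
    (hvert : ∀ 𝔮 : HtOne Bf, 𝔮 ≠ 𝔭₀ → 𝔮.1 ≤ 𝔫 → ((q : ℕ) : Bf) ∉ 𝔮.1)
    {jB yB : Bf} (hjB : (jB : ↥(modularFunctionFieldFullC (K0 A) N)) = jK0 A N)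
    (hyB : (yB : ↥(modularFunctionFieldFullC (K0 A) N)) = y3K0 A N q hdN (one_dvd N))
    (hord : aeval jB (intV₁ q) ∉ 𝔫) :
    ∃ π : Bf, π ≠ 0 ∧ π ∈ 𝔭₀.1 ∧ (∀ f ∈ 𝔭₀.1, ∃ s : Bf, s ∉ 𝔭₀.1 ∧ π ∣ s * f) ∧
      (∀ 𝔮 : HtOne Bf, 𝔮 ≠ 𝔭₀ → 𝔮.1 ≤ 𝔫 → π ∉ 𝔮.1) := by
  let _ : Algebra (Localization.AtPrime 𝔫) ↥(modularFunctionFieldFullC (K0 A) N) :=
    (atPrimeHom ↥(modularFunctionFieldFullC (K0 A) N) 𝔫).toAlgebra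
  have : IsScalarTower Bf (Localization.AtPrime 𝔫) ↥(modularFunctionFieldFullC (K0 A) N) :=
    IsScalarTower.of_algebraMap_eq (fun b => (atPrimeHom_algebraMap 𝔫 b).symm)
  have : IsFractionRing (Localization.AtPrime 𝔫) ↥(modularFunctionFieldFullC (K0 A) N) :=
    IsFractionRing.isFractionRing_of_isDomain_of_isLocalization 𝔫.primeCompl _ _
  obtain ⟨π, h1, h2, h3, h4, -⟩ := exists_vertPrime_caseA A hdN hN hqM hA hq 𝔫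
    (Localization.AtPrime 𝔫) hq5 hV1 h𝔭P hvert hjB hyB hord
  exact ⟨π, h1, h2, h3, h4⟩

include hdN hN hqM hA hq in
/-- case (A), `q ∈ {2, 3}`, without `O`. -/
theorem caseA_small (hq5 : ¬ 5 ≤ q)
    (hV1 : V1 ↥(modularFunctionFieldFullC (K0 A) N) 𝔭₀ = Rw3K0 A N q) (h𝔭P : 𝔭₀.1 ≤ 𝔫)
    (hvert : ∀ 𝔮 : HtOne Bf, 𝔮 ≠ 𝔭₀ → 𝔮.1 ≤ 𝔫 → ((q : ℕ) : Bf) ∉ 𝔮.1)
    {jB yB : Bf} (hjB : (jB : ↥(modularFunctionFieldFullC (K0 A) N)) = jK0 A N)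
    (hyB : (yB : ↥(modularFunctionFieldFullC (K0 A) N)) = y3K0 A N q hdN (one_dvd N))
    (hord : jB ∉ 𝔫) :
    ∃ π : Bf, π ≠ 0 ∧ π ∈ 𝔭₀.1 ∧ (∀ f ∈ 𝔭₀.1, ∃ s : Bf, s ∉ 𝔭₀.1 ∧ π ∣ s * f) ∧
      (∀ 𝔮 : HtOne Bf, 𝔮 ≠ 𝔭₀ → 𝔮.1 ≤ 𝔫 → π ∉ 𝔮.1) := by
  let _ : Algebra (Localization.AtPrime 𝔫) ↥(modularFunctionFieldFullC (K0 A) N) :=
    (atPrimeHom ↥(modularFunctionFieldFullC (K0 A) N) 𝔫).toAlgebra
  have : IsScalarTower Bf (Localization.AtPrime 𝔫) ↥(modularFunctionFieldFullC (K0 A) N) :=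
    IsScalarTower.of_algebraMap_eq (fun b => (atPrimeHom_algebraMap 𝔫 b).symm)
  have : IsFractionRing (Localization.AtPrime 𝔫) ↥(modularFunctionFieldFullC (K0 A) N) :=
    IsFractionRing.isFractionRing_of_isDomain_of_isLocalization 𝔫.primeCompl _ _
  obtain ⟨π, h1, h2, h3, h4, -⟩ := exists_vertPrime_caseA_small A hdN hN hqM hA hq 𝔫
    (Localization.AtPrime 𝔫) hq5 hV1 h𝔭P hvert hjB hyB hord
  exact ⟨π, h1, h2, h3, h4⟩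

include hdN hN hqM hA hq in
/-- case (B) at `j = 1728` (`c = 2`), without `O`: `hαO hγO` read in `Chart.locSubring Bf 𝔫`. -/
theorem caseB_1728 [Fact q.Prime] (hq5 : 5 ≤ q)
    (hV1 : V1 ↥(modularFunctionFieldFullC (K0 A) N) 𝔭₀ = Rw3K0 A N q) (h𝔭P : 𝔭₀.1 ≤ 𝔫)
    (hvert : ∀ 𝔮 : HtOne Bf, 𝔮 ≠ 𝔭₀ → 𝔮.1 ≤ 𝔫 → ((q : ℕ) : Bf) ∉ 𝔮.1)
    {jB : Bf} (hjB : (jB : ↥(modularFunctionFieldFullC (K0 A) N)) = jK0 A N)
    (hfa : jB - (((1728 : ℤ) : ℤ) : Bf) ∈ 𝔫) (hss : aeval jB (intSsPoly q hq5) ∉ 𝔫)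
    {F' : Type*} [Field F'] (α γ : F' →+* ↥(modularFunctionFieldFullC (K0 A) N)) (j' : F')
    (hαj : α j' = jK0 A N) (hγj : γ j' - α j' = y3K0 A N q hdN (one_dvd N))
    (S' : Subring F')
    (hαO : ∀ z ∈ S', α z ∈ locSubring Bf 𝔫) (hγO : ∀ z ∈ S', γ z ∈ locSubring Bf 𝔫)
    (hcong : ∀ z ∈ S', γ z - α z ∈ (Rw3K0 A N q).nonunits)
    {u₀ h₀ : F'} (hu₀ : u₀ ∈ S') (hu₀i : u₀⁻¹ ∈ S') (hh₀ : h₀ ∈ S')
    (hS4 : j' - (((1728 : ℤ) : ℤ) : F') = u₀ * h₀ ^ 2) :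
    ∃ π : Bf, π ≠ 0 ∧ π ∈ 𝔭₀.1 ∧ (∀ f ∈ 𝔭₀.1, ∃ s : Bf, s ∉ 𝔭₀.1 ∧ π ∣ s * f) ∧
      (∀ 𝔮 : HtOne Bf, 𝔮 ≠ 𝔭₀ → 𝔮.1 ≤ 𝔫 → π ∉ 𝔮.1) := by
  let _ : Algebra (Localization.AtPrime 𝔫) ↥(modularFunctionFieldFullC (K0 A) N) :=
    (atPrimeHom ↥(modularFunctionFieldFullC (K0 A) N) 𝔫).toAlgebra
  have : IsScalarTower Bf (Localization.AtPrime 𝔫) ↥(modularFunctionFieldFullC (K0 A) N) :=
    IsScalarTower.of_algebraMap_eq (fun b => (atPrimeHom_algebraMap 𝔫 b).symm)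
  have : IsFractionRing (Localization.AtPrime 𝔫) ↥(modularFunctionFieldFullC (K0 A) N) :=
    IsFractionRing.isFractionRing_of_isDomain_of_isLocalization 𝔫.primeCompl _ _
  have hrange : ∀ z : ↥(modularFunctionFieldFullC (K0 A) N), z ∈ locSubring Bf 𝔫 →
      z ∈ (algebraMap (Localization.AtPrime 𝔫) ↥(modularFunctionFieldFullC (K0 A) N)).range :=
    fun z hz => (mem_range_atPrimeHom_iff 𝔫 z).mpr hz
  obtain ⟨π, h1, h2, h3, h4, -⟩ := exists_vertPrime_caseB_1728 A hdN hN hqM hA hq 𝔫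
    (Localization.AtPrime 𝔫) hq5 hV1 h𝔭P hvert hjB hfa hss α γ j' hαj hγj S'
    (fun z hz => hrange _ (hαO z hz)) (fun z hz => hrange _ (hγO z hz)) hcong hu₀ hu₀i hh₀ hS4
  exact ⟨π, h1, h2, h3, h4⟩

include hdN hN hqM hA hq in
/-- case (B) at `j = 0` (`c = 3`), without `O`. -/
theorem caseB_zero [Fact q.Prime] (hq5 : 5 ≤ q)
    (hV1 : V1 ↥(modularFunctionFieldFullC (K0 A) N) 𝔭₀ = Rw3K0 A N q) (h𝔭P : 𝔭₀.1 ≤ 𝔫)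
    (hvert : ∀ 𝔮 : HtOne Bf, 𝔮 ≠ 𝔭₀ → 𝔮.1 ≤ 𝔫 → ((q : ℕ) : Bf) ∉ 𝔮.1)
    {jB : Bf} (hjB : (jB : ↥(modularFunctionFieldFullC (K0 A) N)) = jK0 A N)
    (hfa : jB - (((0 : ℤ) : ℤ) : Bf) ∈ 𝔫) (hss : aeval jB (intSsPoly q hq5) ∉ 𝔫)
    {F' : Type*} [Field F'] (α γ : F' →+* ↥(modularFunctionFieldFullC (K0 A) N)) (j' : F')
    (hαj : α j' = jK0 A N) (hγj : γ j' - α j' = y3K0 A N q hdN (one_dvd N))
    (S' : Subring F')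
    (hαO : ∀ z ∈ S', α z ∈ locSubring Bf 𝔫) (hγO : ∀ z ∈ S', γ z ∈ locSubring Bf 𝔫)
    (hcong : ∀ z ∈ S', γ z - α z ∈ (Rw3K0 A N q).nonunits)
    {u₀ h₀ : F'} (hu₀ : u₀ ∈ S') (hu₀i : u₀⁻¹ ∈ S') (hh₀ : h₀ ∈ S')
    (hS4 : j' - (((0 : ℤ) : ℤ) : F') = u₀ * h₀ ^ 3) :
    ∃ π : Bf, π ≠ 0 ∧ π ∈ 𝔭₀.1 ∧ (∀ f ∈ 𝔭₀.1, ∃ s : Bf, s ∉ 𝔭₀.1 ∧ π ∣ s * f) ∧
      (∀ 𝔮 : HtOne Bf, 𝔮 ≠ 𝔭₀ → 𝔮.1 ≤ 𝔫 → π ∉ 𝔮.1) := by
  let _ : Algebra (Localization.AtPrime 𝔫) ↥(modularFunctionFieldFullC (K0 A) N) :=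
    (atPrimeHom ↥(modularFunctionFieldFullC (K0 A) N) 𝔫).toAlgebra
  have : IsScalarTower Bf (Localization.AtPrime 𝔫) ↥(modularFunctionFieldFullC (K0 A) N) :=
    IsScalarTower.of_algebraMap_eq (fun b => (atPrimeHom_algebraMap 𝔫 b).symm)
  have : IsFractionRing (Localization.AtPrime 𝔫) ↥(modularFunctionFieldFullC (K0 A) N) :=
    IsFractionRing.isFractionRing_of_isDomain_of_isLocalization 𝔫.primeCompl _ _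
  have hrange : ∀ z : ↥(modularFunctionFieldFullC (K0 A) N), z ∈ locSubring Bf 𝔫 →
      z ∈ (algebraMap (Localization.AtPrime 𝔫) ↥(modularFunctionFieldFullC (K0 A) N)).range :=
    fun z hz => (mem_range_atPrimeHom_iff 𝔫 z).mpr hz
  obtain ⟨π, h1, h2, h3, h4, -⟩ := exists_vertPrime_caseB_zero A hdN hN hqM hA hq 𝔫
    (Localization.AtPrime 𝔫) hq5 hV1 h𝔭P hvert hjB hfa hss α γ j' hαj hγj S'
    (fun z hz => hrange _ (hαO z hz)) (fun z hz => hrange _ (hγO z hz)) hcong hu₀ hu₀i hh₀ hS4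
  exact ⟨π, h1, h2, h3, h4⟩

omit [𝔫.IsPrime] in
include hdN hN hqM hA hq in
/-- **the `hreg3` binder of helper11 `H5TypeI.hallj_typed` VERBATIM** (`f 2 := 𝔭₀`,
`s := sB = pH(jB)`): REG3 at every ordinary closed point of the third component of the `j`-frame.
`hBdata` = the per-point datum of case (B) (`hBdata_of_chart`), asked only for `q ≥ 5` at the
points over `j = 0` (`c = 3`) and `j = 1728` (`c = 2`). -/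
theorem hreg3_K0 [Fact q.Prime] (vert : Finset (HtOne Bf))
    (hV1 : V1 ↥(modularFunctionFieldFullC (K0 A) N) 𝔭₀ = Rw3K0 A N q)
    {qB jB yB sB : Bf}
    (hqB : (qB : ↥(modularFunctionFieldFullC (K0 A) N)) =
      ((q : ℕ) : ↥(modularFunctionFieldFullC (K0 A) N)))
    (hjB : (jB : ↥(modularFunctionFieldFullC (K0 A) N)) = jK0 A N)
    (hyB : (yB : ↥(modularFunctionFieldFullC (K0 A) N)) = y3K0 A N q hdN (one_dvd N))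
    (hsB : sB = aeval jB (intSsPolyAll q))
    (hvert : ∀ 𝔭 : HtOne Bf, qB ∈ 𝔭.1 → 𝔭 ∈ vert)
    {F' : Type*} [Field F'] (α γ : F' →+* ↥(modularFunctionFieldFullC (K0 A) N)) (j' : F')
    (hαj : α j' = jK0 A N) (hγj : γ j' - α j' = y3K0 A N q hdN (one_dvd N))
    (hBdata : 5 ≤ q → ∀ (𝔫 : Ideal Bf) (h𝔫 : 𝔫.IsMaximal), qB ∈ 𝔫 → 𝔭₀.1 ≤ 𝔫 →
      ∀ (a : ℤ) (c : ℕ), ((a = 0 ∧ c = 3) ∨ (a = 1728 ∧ c = 2)) → jB - ((a : ℤ) : Bf) ∈ 𝔫 →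
      ∃ S' : Subring F', (∀ z ∈ S', α z ∈ locSubring Bf 𝔫 (h𝔫 := h𝔫.isPrime)) ∧
        (∀ z ∈ S', γ z ∈ locSubring Bf 𝔫 (h𝔫 := h𝔫.isPrime)) ∧
        (∀ z ∈ S', γ z - α z ∈ (Rw3K0 A N q).nonunits) ∧
        ∃ u₀ h₀ : F', u₀ ∈ S' ∧ u₀⁻¹ ∈ S' ∧ h₀ ∈ S' ∧ j' - ((a : ℤ) : F') = u₀ * h₀ ^ c) :
    ∀ 𝔫 : Ideal Bf, 𝔫.IsMaximal → (qB ∈ 𝔫 ∧ sB ∉ 𝔫) → 𝔭₀.1 ≤ 𝔫 →
      (∀ j ∈ vert, j ≠ 𝔭₀ → ¬ j.1 ≤ 𝔫) →
      ∃ π : Bf, π ≠ 0 ∧ π ∈ 𝔭₀.1 ∧ (∀ x ∈ 𝔭₀.1, ∃ s : Bf, s ∉ 𝔭₀.1 ∧ π ∣ s * x) ∧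
        (∀ 𝔮 : HtOne Bf, 𝔮 ≠ 𝔭₀ → 𝔮.1 ≤ 𝔫 → π ∉ 𝔮.1) := by
  intro 𝔫 h𝔫 hPt h𝔭𝔫 hbr
  obtain ⟨hq𝔫, hs𝔫⟩ := hPt
  have := h𝔫.isPrime
  have hqcast : qB = ((q : ℕ) : Bf) := Subtype.ext (by rw [hqB]; push_cast; rfl)
  have hvert' : ∀ 𝔮 : HtOne Bf, 𝔮 ≠ 𝔭₀ → 𝔮.1 ≤ 𝔫 → ((q : ℕ) : Bf) ∉ 𝔮.1 :=
    fun 𝔮 hne hle hmem => hbr 𝔮 (hvert 𝔮 (hqcast ▸ hmem)) hne hle
  by_cases hq5 : 5 ≤ q
  · have hss : aeval jB (intSsPoly q hq5) ∉ 𝔫 := by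
      rw [← intSsPolyAll_of_le q hq5, ← hsB]; exact hs𝔫
    by_cases h0 : jB ∈ 𝔫
    · have hfa : jB - (((0 : ℤ) : ℤ) : Bf) ∈ 𝔫 := by rw [Int.cast_zero, sub_zero]; exact h0
      obtain ⟨S', hαO, hγO, hcong, u₀, h₀, hu₀, hu₀i, hh₀, hS4⟩ :=
        hBdata hq5 𝔫 h𝔫 hq𝔫 h𝔭𝔫 0 3 (Or.inl ⟨rfl, rfl⟩) hfa
      exact caseB_zero A hdN hN hqM hA hq 𝔫 hq5 hV1 h𝔭𝔫 hvert' hjB hfa hss α γ j' hαj hγj S'
        hαO hγO hcong hu₀ hu₀i hh₀ hS4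
    · by_cases h1 : jB - (((1728 : ℤ) : ℤ) : Bf) ∈ 𝔫
      · obtain ⟨S', hαO, hγO, hcong, u₀, h₀, hu₀, hu₀i, hh₀, hS4⟩ :=
          hBdata hq5 𝔫 h𝔫 hq𝔫 h𝔭𝔫 1728 2 (Or.inr ⟨rfl, rfl⟩) h1
        exact caseB_1728 A hdN hN hqM hA hq 𝔫 hq5 hV1 h𝔭𝔫 hvert' hjB h1 hss α γ j' hαj hγj S'
          hαO hγO hcong hu₀ hu₀i hh₀ hS4
      · refine caseA A hdN hN hqM hA hq 𝔫 hq5 hV1 h𝔭𝔫 hvert' hjB hyB ?_
        rw [intV₁, map_mul, map_pow, map_pow, map_sub, aeval_X, aeval_C]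
        intro hmem
        rcases Ideal.IsPrime.mem_or_mem ‹𝔫.IsPrime› hmem with h | h
        · exact h0 (Ideal.IsPrime.mem_of_pow_mem ‹𝔫.IsPrime› _ h)
        · apply h1
          have := Ideal.IsPrime.mem_of_pow_mem ‹𝔫.IsPrime› _ h
          simpa using this
  · refine caseA_small A hdN hN hqM hA hq 𝔫 hq5 hV1 h𝔭𝔫 hvert' hjB hyB ?_
    intro hj
    apply hs𝔫
    rw [hsB, intSsPolyAll_of_not_le q hq5, map_pow, aeval_X]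
    have hq1 : q - 1 ≠ 0 := by have := hq.two_le; omega
    exact Ideal.pow_mem_of_mem 𝔫 hj _ (Nat.pos_of_ne_zero hq1)

omit [𝔫.IsPrime] in
include hdN hN hqM hA hq in
/-- **`hreg3` from the level-`M'` chart `B'`**: `hreg3_K0` with `hBdata` produced by
`hBdata_of_chart`.  Inputs on the chart: `α(B'), γ(B') ⊆ Bf` (integrality of the old copies,
ARITH-INT), the congruence `γ ≡ α mod 𝔪(w₃)` on `B'`, and `(S4)` in the local rings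
`Chart.locSubring B' x'` of `B'` at the primes `x' ∋ q, j' − a`. -/
theorem hreg3_K0_of_chart [Fact q.Prime] (vert : Finset (HtOne Bf))
    (hV1 : V1 ↥(modularFunctionFieldFullC (K0 A) N) 𝔭₀ = Rw3K0 A N q)
    {qB jB yB sB : Bf}
    (hqB : (qB : ↥(modularFunctionFieldFullC (K0 A) N)) =
      ((q : ℕ) : ↥(modularFunctionFieldFullC (K0 A) N)))
    (hjB : (jB : ↥(modularFunctionFieldFullC (K0 A) N)) = jK0 A N)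
    (hyB : (yB : ↥(modularFunctionFieldFullC (K0 A) N)) = y3K0 A N q hdN (one_dvd N))
    (hsB : sB = aeval jB (intSsPolyAll q))
    (hvert : ∀ 𝔭 : HtOne Bf, qB ∈ 𝔭.1 → 𝔭 ∈ vert)
    {F' : Type*} [Field F'] (α γ : F' →+* ↥(modularFunctionFieldFullC (K0 A) N)) (j' : F')
    (hαj : α j' = jK0 A N) (hγj : γ j' - α j' = y3K0 A N q hdN (one_dvd N))
    (B' : Subring F') (hj' : j' ∈ B')
    (hα : ∀ b ∈ B', α b ∈ Bf) (hγ : ∀ b ∈ B', γ b ∈ Bf)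
    (hcong : ∀ b ∈ B', γ b - α b ∈ (Rw3K0 A N q).nonunits)
    (hS4 : 5 ≤ q → ∀ (a : ℤ) (c : ℕ), ((a = 0 ∧ c = 3) ∨ (a = 1728 ∧ c = 2)) →
      ∀ (x' : Ideal B') [x'.IsPrime], ((q : ℕ) : B') ∈ x' →
        (⟨j', hj'⟩ : B') - ((a : ℤ) : B') ∈ x' →
        ∃ (u₀ : (locSubring B' x')ˣ) (h₀ : locSubring B' x'),
          j' - ((a : ℤ) : F') = ((u₀ : locSubring B' x') : F') * (h₀ : F') ^ c) :
    ∀ 𝔫 : Ideal Bf, 𝔫.IsMaximal → (qB ∈ 𝔫 ∧ sB ∉ 𝔫) → 𝔭₀.1 ≤ 𝔫 →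
      (∀ j ∈ vert, j ≠ 𝔭₀ → ¬ j.1 ≤ 𝔫) →
      ∃ π : Bf, π ≠ 0 ∧ π ∈ 𝔭₀.1 ∧ (∀ x ∈ 𝔭₀.1, ∃ s : Bf, s ∉ 𝔭₀.1 ∧ π ∣ s * x) ∧
        (∀ 𝔮 : HtOne Bf, 𝔮 ≠ 𝔭₀ → 𝔮.1 ≤ 𝔫 → π ∉ 𝔮.1) := by
  refine hreg3_K0 A hdN hN hqM hA hq vert hV1 hqB hjB hyB hsB hvert α γ j' hαj hγj ?_
  intro hq5 𝔫 h𝔫 hq𝔫 h𝔭𝔫 a c hac hfa
  have := h𝔫.isPrime
  have hqcast : qB = ((q : ℕ) : Bf) := Subtype.ext (by rw [hqB]; push_cast; rfl)
  have hcong' : ∀ b ∈ B', γ b - α b ∈ (V1 ↥(modularFunctionFieldFullC (K0 A) N) 𝔭₀).nonunits := by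
    rw [hV1]; exact hcong
  have h := hBdata_of_chart 𝔫 𝔭₀ h𝔭𝔫 B' α γ (fun b hb => le_locSubring Bf 𝔫 (hα b hb))
    (fun b hb => le_locSubring Bf 𝔫 (hγ b hb)) hcong' hj' (jB := jB) (hαj.trans hjB.symm) a hfa
    (qn := q) (hqcast ▸ hq𝔫) c (hS4 hq5 a c hac)
  rw [hV1] at h
  exact h

end K0

end Fermat.Agent.GL.Reg3.Dispatch
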