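/-
GATE-L / REG3-B-CHART-FEED (helper67): the chart-level inputs of helper93
`Reg3Dispatch.hreg3_K0_of_chart` at the CONCRETE data

  `F' := K₀(X₀(M'))`, `α := alpha2 A M' q`, `γ := gamma2 A M' q`, `j' := jK0 A M'`,
  `B' := BK0 A M'` (`= chartRing (R0 A) (jC M' (K0 A))`), `Bf := BK0 A (M' * q * q)`,

as THEOREMS: `hj'`, `hα`, `hγ`, `hcong` (everything except `(S4)`), and the resulting call
`hreg3_K0_BK0` of `hreg3_K0_of_chart` with only `hS4` (helper25) left as a hypothesis.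
-/
import Fermat.Agent.GL.Reg3.Reg3BCong
import Fermat.Agent.GL.Reg3.Reg3Dispatch
import Fermat.Agent.GL.Final.BuildInst

set_option autoImplicit false

noncomputable section

open Module IsLocalRing ModularCurve AlgebraicCurve HahnSeries Polynomial

namespace Fermat.Agent.GL.Reg3.BChartFeed

open Fermat.Agent.S24 Fermat.Agent.GJ.J1 Fermat.Agent.GJ.J1.Val Fermat.Agent.GJ.HN
open Fermat.Agent.GK.Val.GaussBase
open Fermat.Agent.GL.Val.GaussK0 Fermat.Agent.GL.Val.SecondK0 Fermat.Agent.GL.Val.SecondK0Hall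
open Fermat.Agent.GL.Val.ThirdK0 Fermat.Agent.GL.Val.CuspK0 Fermat.Agent.GL.Table.K0
open Fermat.Agent.GL.W3Table Fermat.Agent.GL.W3 Fermat.Agent.GK.AL
open Fermat.Agent.GL.Val.OrthK0
open Fermat.Agent.Common_helper32
open Fermat.Agent.GL.Reg3.BCong Fermat.Agent.GL.BuildInst

variable (A : ValuationSubring Qb) {M' q : ℕ} [NeZero q] [NeZero M']

/-- `hj'` : `j' ∈ B'` -/
theorem jK0_mem_BK0 : jK0 A M' ∈ BK0 A M' := by
  rw [jK0_eq_jC]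
  exact (jB A M').2

/-- `hα` : `α (B') ⊆ Bf` -/
theorem alpha2_mem_BK0 (b : modularFunctionFieldFullC (K0 A) M') (hb : b ∈ BK0 A M') :
    alpha2 A M' q b ∈ BK0 A (M' * q * q) :=
  (phiAlpha A (M' * q) q (phiAlpha A M' q ⟨b, hb⟩)).2

/-- `hγ` : `γ (B') ⊆ Bf` -/
theorem gamma2_mem_BK0 (b : modularFunctionFieldFullC (K0 A) M') (hb : b ∈ BK0 A M') :
    gamma2 A M' q b ∈ BK0 A (M' * q * q) :=
  (phiBeta A (M' * q) q (phiBeta A M' q ⟨b, hb⟩)).2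

/-- `B' ⊆` the Gauss valuation ring of level `M'` -/
theorem BK0_le_RwK0 (b : modularFunctionFieldFullC (K0 A) M') (hb : b ∈ BK0 A M') :
    b ∈ RwK0 A M' :=
  algebraMap_BK0_mem_RwK0 A M' ⟨b, hb⟩

/-- `hcong` : `γ ≡ α mod 𝔪(w₃)` on `B'` -/
theorem hcong_BK0 (hq : q.Prime) (hqM : ¬ q ∣ M') (hA : (q : Qb) ∈ A.nonunits) :
    ∀ b ∈ BK0 A M', gamma2 A M' q b - alpha2 A M' q b ∈ (Rw3K0 A (M' * q * q) q).nonunits :=
  hcong A hq hqM hA (BK0 A M') (BK0_le_RwK0 A)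

/-! ### The call of `hreg3_K0_of_chart` with only `(S4)` left -/

section Call

open Fermat.Agent.GL.KrullFrame Fermat.Agent.GL.KrullHeightOne Fermat.Agent.GL.Frame.HeightOne
  Fermat.Agent.GL.Frame.VertPrimeHtOne
open Fermat.Agent.GL.Frame.Chart Fermat.Agent.GL.Frame.OldContraction
open Fermat.Agent.GL.MultiVal Fermat.Agent.GL.Thick Fermat.Agent.GL.Reg3.Dispatch

variable [NeZero (q ^ 2 * 1)] (hdN : q ^ 2 * 1 ∣ M' * q * q)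
  (hqM : ¬ q ∣ M') (hA : (q : Qb) ∈ A.nonunits) (hq : q.Prime)

variable {Bf : Subring ↥(modularFunctionFieldFullC (K0 A) (M' * q * q))}
  [IsFractionRing Bf ↥(modularFunctionFieldFullC (K0 A) (M' * q * q))] [IsNoetherianRing Bf]
  [IsIntegrallyClosed Bf] {𝔭₀ : HtOne Bf}

include hdN hqM hA hq in
/-- **`hreg3` of `hallj_typed` on any frame `Bf ⊇ α(B'), γ(B')`** at level `M' q q`, from `(S4)` in
the local rings of the level-`M'` chart `B' = BK0 A M'` alone. -/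
theorem hreg3_K0_of_S4 [Fact q.Prime] (vert : Finset (HtOne Bf))
    (hV1 : V1 ↥(modularFunctionFieldFullC (K0 A) (M' * q * q)) 𝔭₀ = Rw3K0 A (M' * q * q) q)
    {qB jB yB sB : Bf}
    (hqB : (qB : ↥(modularFunctionFieldFullC (K0 A) (M' * q * q))) =
      ((q : ℕ) : ↥(modularFunctionFieldFullC (K0 A) (M' * q * q))))
    (hjB : (jB : ↥(modularFunctionFieldFullC (K0 A) (M' * q * q))) = jK0 A (M' * q * q))
    (hyB : (yB : ↥(modularFunctionFieldFullC (K0 A) (M' * q * q))) =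
      y3K0 A (M' * q * q) q hdN (one_dvd (M' * q * q)))
    (hsB : sB = aeval jB (intSsPolyAll q))
    (hvert : ∀ 𝔭 : HtOne Bf, qB ∈ 𝔭.1 → 𝔭 ∈ vert)
    (hα : ∀ b ∈ BK0 A M', alpha2 A M' q b ∈ Bf) (hγ : ∀ b ∈ BK0 A M', gamma2 A M' q b ∈ Bf)
    (hS4 : 5 ≤ q → ∀ (a : ℤ) (c : ℕ), ((a = 0 ∧ c = 3) ∨ (a = 1728 ∧ c = 2)) →
      ∀ (x' : Ideal (BK0 A M')) [x'.IsPrime], ((q : ℕ) : BK0 A M') ∈ x' →
        (⟨jK0 A M', jK0_mem_BK0 A⟩ : BK0 A M') - ((a : ℤ) : BK0 A M') ∈ x' →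
        ∃ (u₀ : (locSubring (BK0 A M') x')ˣ) (h₀ : locSubring (BK0 A M') x'),
          jK0 A M' - ((a : ℤ) : modularFunctionFieldFullC (K0 A) M') =
            ((u₀ : locSubring (BK0 A M') x') : modularFunctionFieldFullC (K0 A) M') *
              (h₀ : modularFunctionFieldFullC (K0 A) M') ^ c) :
    ∀ 𝔫 : Ideal Bf, 𝔫.IsMaximal → (qB ∈ 𝔫 ∧ sB ∉ 𝔫) → 𝔭₀.1 ≤ 𝔫 →
      (∀ j ∈ vert, j ≠ 𝔭₀ → ¬ j.1 ≤ 𝔫) →
      ∃ π : Bf, π ≠ 0 ∧ π ∈ 𝔭₀.1 ∧ (∀ x ∈ 𝔭₀.1, ∃ s : Bf, s ∉ 𝔭₀.1 ∧ π ∣ s * x) ∧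
        (∀ 𝔮 : HtOne Bf, 𝔮 ≠ 𝔭₀ → 𝔮.1 ≤ 𝔫 → π ∉ 𝔮.1) :=
  hreg3_K0_of_chart A hdN level_eq hqM hA hq vert hV1 hqB hjB hyB hsB hvert
    (alpha2 A M' q) (gamma2 A M' q) (jK0 A M') (alpha2_jK0 A) (gamma2_sub_alpha2_jK0 A hdN)
    (BK0 A M') (jK0_mem_BK0 A) hα hγ (hcong_BK0 A hq hqM hA) hS4

include hdN hqM hA hq in
/-- the same on the `j`-frame `Bf := BK0 A (M' q q)` itself: `hα hγ` discharged. -/
theorem hreg3_BK0_of_S4 [Fact q.Prime]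
    [IsFractionRing (BK0 A (M' * q * q)) ↥(modularFunctionFieldFullC (K0 A) (M' * q * q))]
    [IsNoetherianRing (BK0 A (M' * q * q))] [IsIntegrallyClosed (BK0 A (M' * q * q))]
    {𝔭₀ : HtOne (BK0 A (M' * q * q))} (vert : Finset (HtOne (BK0 A (M' * q * q))))
    (hV1 : V1 ↥(modularFunctionFieldFullC (K0 A) (M' * q * q)) 𝔭₀ = Rw3K0 A (M' * q * q) q)
    {qB jB yB sB : BK0 A (M' * q * q)}
    (hqB : (qB : ↥(modularFunctionFieldFullC (K0 A) (M' * q * q))) =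
      ((q : ℕ) : ↥(modularFunctionFieldFullC (K0 A) (M' * q * q))))
    (hjB : (jB : ↥(modularFunctionFieldFullC (K0 A) (M' * q * q))) = jK0 A (M' * q * q))
    (hyB : (yB : ↥(modularFunctionFieldFullC (K0 A) (M' * q * q))) =
      y3K0 A (M' * q * q) q hdN (one_dvd (M' * q * q)))
    (hsB : sB = aeval jB (intSsPolyAll q))
    (hvert : ∀ 𝔭 : HtOne (BK0 A (M' * q * q)), qB ∈ 𝔭.1 → 𝔭 ∈ vert)
    (hS4 : 5 ≤ q → ∀ (a : ℤ) (c : ℕ), ((a = 0 ∧ c = 3) ∨ (a = 1728 ∧ c = 2)) →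
      ∀ (x' : Ideal (BK0 A M')) [x'.IsPrime], ((q : ℕ) : BK0 A M') ∈ x' →
        (⟨jK0 A M', jK0_mem_BK0 A⟩ : BK0 A M') - ((a : ℤ) : BK0 A M') ∈ x' →
        ∃ (u₀ : (locSubring (BK0 A M') x')ˣ) (h₀ : locSubring (BK0 A M') x'),
          jK0 A M' - ((a : ℤ) : modularFunctionFieldFullC (K0 A) M') =
            ((u₀ : locSubring (BK0 A M') x') : modularFunctionFieldFullC (K0 A) M') *
              (h₀ : modularFunctionFieldFullC (K0 A) M') ^ c) :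
    ∀ 𝔫 : Ideal (BK0 A (M' * q * q)), 𝔫.IsMaximal → (qB ∈ 𝔫 ∧ sB ∉ 𝔫) → 𝔭₀.1 ≤ 𝔫 →
      (∀ j ∈ vert, j ≠ 𝔭₀ → ¬ j.1 ≤ 𝔫) →
      ∃ π : BK0 A (M' * q * q), π ≠ 0 ∧ π ∈ 𝔭₀.1 ∧
        (∀ x ∈ 𝔭₀.1, ∃ s : BK0 A (M' * q * q), s ∉ 𝔭₀.1 ∧ π ∣ s * x) ∧
        (∀ 𝔮 : HtOne (BK0 A (M' * q * q)), 𝔮 ≠ 𝔭₀ → 𝔮.1 ≤ 𝔫 → π ∉ 𝔮.1) :=
  hreg3_K0_of_S4 A hdN hqM hA hq vert hV1 hqB hjB hyB hsB hvert
    (alpha2_mem_BK0 A) (gamma2_mem_BK0 A) hS4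

end Call

end Fermat.Agent.GL.Reg3.BChartFeed
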