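/-
GATE-L / L5d REG3, case (C) = the CUSPS (helper50; claims key REG3-C-INST).

`B` = the `1/j`-frame (noetherian normal, `Frac B = F`), `P` a closed point with `a = 1/j ∈ P`
(a cusp point), `O = B_P`, `𝔭₀` = the vertical height-one prime `P₃ ≤ P`.

* `not_mem_nonunits_of_intRel` : a function `x` (`= j_{q²}`) with `1/a` integral over `ℤ[x]`
  (helper87 `IntRel`) is a UNIT at every height-one prime `𝔮 ≤ P` with `a ∉ 𝔮`
  (no zero of `j_{q²}` on a horizontal non-cuspidal curve through a cusp point; no residue fields);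
* `exists_quot_cusp` : `v = j / j_{q²} = a'/a ∈ O` (Hartogs on the height-one frame) from the two
  integral relations, the behaviour at `𝔭₀`, and `hcusp` : `ord_𝔮 a' = ord_𝔮 a` at the cusp primes
  `𝔮 ≤ P` (helper16 CUSP-SPEC);
* `isUnit_aeval_int` : `PU(a)` is a unit of `O` when `a ∈ P` and `PU(0) ∉ P`;
* `exists_vertPrime_cusp` / `exists_vertPrime_cusp_loc` : the block `(π, hπne, hπ0, hgen, hother)`
  at a cusp point, from the congruence `(a' − a)^n / g · PU(a) + PV(a) · a^n ∈ 𝔪(V1 F 𝔭₀)`, via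
  helper93's `exists_vertPrime_of_hasse_log_field`;
* `exists_vertPrime_caseC` : CONCRETE at `V1 F₀ 𝔭₀ = Rw3K0 A N q` on `F₀ = K₀(X₀(N))`, `N = M' q²`:
  integral relations from helper87 `intRel_genC`, ramification from helper93 `hramV_Rw3K0`;
  remaining inputs = helper16's `hcusp` and helper18's three facts (`haK`, `hsub`, `hcongr`).
-/
import Fermat.Agent.GL.Reg3.Reg3FieldForms
import Fermat.Agent.GL.Frame.ArithInt

set_option autoImplicit false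
set_option linter.unusedSectionVars false

noncomputable section

namespace Fermat.Agent.GL.Reg3
open Fermat.Agent.GL.KrullFrame Fermat.Agent.GL.KrullHeightOne Fermat.Agent.GL.Frame.HeightOne
  Fermat.Agent.GL.Frame.VertPrimeHtOne Fermat.Agent.GL.Frame.ArithInt IsLocalRing Polynomial

section A
variable {F : Type*} [Field F]

theorem evalInt_mem_valuationSubring (V : ValuationSubring F) {x : F} (hx : x ∈ V) (G : ℤ[X]) :
    evalInt x G ∈ V := by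
  have h := comp_evalInt V.subtype (⟨x, hx⟩ : V)
  have h2 : evalInt x G = V.subtype (evalInt (⟨x, hx⟩ : V) G) := by
    rw [← RingHom.comp_apply, h]
    rfl
  rw [h2]
  exact (evalInt (⟨x, hx⟩ : V) G).2

theorem valuation_evalInt_sub_lt (V : ValuationSubring F) {x : F} (hx : V.valuation x < 1)
    (G : ℤ[X]) : V.valuation (evalInt x G - ((G.eval 0 : ℤ) : F)) < 1 := by
  have hxV : x ∈ V := (V.valuation_le_one_iff x).mp hx.le
  have h1 : evalInt x G = evalInt x G.divX * x + ((G.eval 0 : ℤ) : F) := by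
    conv_lhs => rw [← Polynomial.divX_mul_X_add G]
    rw [map_add, map_mul, evalInt_X, ← Polynomial.coeff_zero_eq_eval_zero]
    congr 1
    simp [evalInt]
  rw [h1, add_sub_cancel_right, mul_comm, map_mul]
  exact mul_lt_one_of_lt_of_le hx
    ((V.valuation_le_one_iff _).mpr (evalInt_mem_valuationSubring V hxV _))
end A

section Abstract

variable {B F : Type*} [CommRing B] [IsDomain B] [Field F] [Algebra B F] [IsFractionRing B F]
  [IsNoetherianRing B] [IsIntegrallyClosed B]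
variable (P : Ideal B) [P.IsPrime]

/-- **no zero of `x` on a non-cuspidal curve through a cusp point**: `𝔮 ≤ P` height-one, `a ∈ P`,
`a ∉ 𝔮`, `x ∈ B_𝔮` and `1/a` integral over `ℤ[x]` ⟹ `x` is a unit of `B_𝔮`. -/
theorem not_mem_nonunits_of_intRel {𝔮 : HtOne B} (h𝔮P : 𝔮.1 ≤ P) {aB : B} (haP : aB ∈ P)
    (ha𝔮 : aB ∉ 𝔮.1) {x : F} (hrel : IntRel x (algebraMap B F aB)⁻¹) :
    x ∉ (V1 F 𝔮).nonunits := by
  intro hx
  have hlt : (V1 F 𝔮).valuation x < 1 := (ValuationSubring.mem_nonunits_iff _).mp hx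
  obtain ⟨G, hG, hGz⟩ := hrel
  set aF := algebraMap B F aB with haF
  have haF0 : aF ≠ 0 := KrullHeightOne.algebraMap_ne_zero_of_not_mem 𝔮.1 ha𝔮
  set m := G.natDegree with hm
  -- the relation multiplied by `a ^ m`
  have hrel : ∑ i ∈ Finset.range (m + 1), evalInt x (G.coeff i) * aF ^ (m - i) = 0 := by
    have h1 : (∑ i ∈ Finset.range (m + 1), evalInt x (G.coeff i) * aF ^ (m - i)) =
        aF ^ m * eval₂ (evalInt x) aF⁻¹ G := by
      rw [Polynomial.eval₂_eq_sum_range, Finset.mul_sum]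
      refine Finset.sum_congr rfl fun i hi => ?_
      have hi' : i ≤ m := Nat.lt_succ_iff.mp (Finset.mem_range.mp hi)
      rw [inv_pow, mul_left_comm, ← div_eq_mul_inv, pow_sub₀ _ haF0 hi', div_eq_mul_inv]
    rw [h1, hGz, mul_zero]
  -- the element `e = Σ G_i(0) a^(m-i)` of `B`
  set e : B := ∑ i ∈ Finset.range (m + 1), (((G.coeff i).eval 0 : ℤ) : B) * aB ^ (m - i) with he
  have heF : algebraMap B F e =
      ∑ i ∈ Finset.range (m + 1), (((G.coeff i).eval 0 : ℤ) : F) * aF ^ (m - i) := by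
    rw [he, map_sum]
    refine Finset.sum_congr rfl fun i _ => ?_
    rw [map_mul, map_pow, map_intCast]
  have haV : aF ∈ V1 F 𝔮 := algebraMap_mem_V1 𝔮 aB
  have heV : (V1 F 𝔮).valuation (algebraMap B F e) < 1 := by
    have h2 : algebraMap B F e = ∑ i ∈ Finset.range (m + 1),
        -((evalInt x (G.coeff i) - (((G.coeff i).eval 0 : ℤ) : F)) * aF ^ (m - i)) := by
      rw [heF, Finset.sum_neg_distrib, ← sub_eq_zero, sub_neg_eq_add, ← Finset.sum_add_distrib,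
        ← hrel]
      refine Finset.sum_congr rfl fun i _ => ?_
      ring
    rw [h2]
    refine Valuation.map_sum_lt _ one_ne_zero fun i _ => ?_
    rw [Valuation.map_neg, map_mul]
    exact mul_lt_one_of_lt_of_le (valuation_evalInt_sub_lt _ hlt _)
      ((ValuationSubring.valuation_le_one_iff _ _).mpr (pow_mem haV _))
  have he𝔮 : e ∈ 𝔮.1 :=
    (algebraMap_mem_nonunits_V1_iff (F := F) 𝔮 e).1 ((ValuationSubring.mem_nonunits_iff _).mpr heV)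
  have heP : e ∈ P := h𝔮P he𝔮
  -- but `e ≡ 1 (mod a)`
  have h1 : e = (∑ i ∈ Finset.range m, (((G.coeff i).eval 0 : ℤ) : B) * aB ^ (m - i)) + 1 := by
    rw [he, Finset.sum_range_succ, hm, hG.coeff_natDegree, Nat.sub_self, pow_zero, mul_one]
    simp
  have h2 : (∑ i ∈ Finset.range m, (((G.coeff i).eval 0 : ℤ) : B) * aB ^ (m - i)) ∈ P := by
    refine Ideal.sum_mem _ fun i hi => ?_
    have hi' : m - i ≠ 0 := by have := Finset.mem_range.mp hi; omega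
    exact Ideal.mul_mem_left _ _ (Ideal.pow_mem_of_mem _ haP _ (Nat.pos_of_ne_zero hi'))
  have h3 : (1 : B) ∈ P := by
    have := P.sub_mem heP h2
    rwa [h1, add_sub_cancel_left] at this
  exact (Ideal.IsPrime.ne_top ‹_›) ((Ideal.eq_top_iff_one P).mpr h3)


variable (O : Type*) [CommRing O] [IsDomain O] [Algebra B O] [IsLocalization.AtPrime O P]
  [Algebra O F] [IsScalarTower B O F] [IsFractionRing O F]
variable {𝔭₀ : HtOne B} {g : B} {n : ℕ}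

include F in
/-- **`v = a'/a ∈ O` at a cusp point** (Hartogs on the height-one frame).  `a = 1/j ∈ P`,
`x = j_{q²}` (so `a' = x⁻¹`), the two integral relations between `j = 1/a` and `x`, `a` a unit and
`a' ∈ V` at the vertical prime `𝔭₀`, and `ord_𝔮 a' = ord_𝔮 a` at the other height-one primes
`𝔮 ≤ P` containing `a` (the cusp primes). -/
theorem exists_quot_cusp {aB : B} (haP : aB ∈ P) (ha0 : aB ≠ 0) {x : F}
    (h1 : IntRel (algebraMap B F aB)⁻¹ x) (h2 : IntRel x (algebraMap B F aB)⁻¹)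
    (h𝔭a : algebraMap B F aB ∉ (V1 F 𝔭₀).nonunits) (h𝔭x : x⁻¹ ∈ V1 F 𝔭₀)
    (hcusp : ∀ 𝔮 : HtOne B, 𝔮 ≠ 𝔭₀ → 𝔮.1 ≤ P → aB ∈ 𝔮.1 →
      (V1 F 𝔮).valuation x⁻¹ = (V1 F 𝔮).valuation (algebraMap B F aB)) :
    ∃ v : O, algebraMap O F v = x⁻¹ / algebraMap B F aB := by
  have hV := isFrame_heightOne (B := B) (F := F)
  have haF0 : algebraMap B F aB ≠ 0 := fun h =>
    ha0 ((map_eq_zero_iff _ (IsFractionRing.injective B F)).1 h)
  have hmem : x⁻¹ / algebraMap B F aB ∈ (algebraMap O F).range := by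
    rw [hV.mem_range_loc_iff P O]
    intro 𝔮 h𝔮
    have h𝔮P : 𝔮.1 ≤ P := (over_V1_iff P 𝔮).1 h𝔮
    rw [div_eq_mul_inv]
    by_cases h𝔮0 : 𝔮 = 𝔭₀
    · subst h𝔮0
      exact (V1 F 𝔮).mul_mem _ _ h𝔭x
        (inv_mem_of_not_mem_nonunits h𝔭a)
    · by_cases ha𝔮 : aB ∈ 𝔮.1
      · rw [← div_eq_mul_inv, ← ValuationSubring.valuation_le_one_iff, map_div₀,
          hcusp 𝔮 h𝔮0 h𝔮P ha𝔮, div_self ((Valuation.ne_zero_iff _).mpr haF0)]
      · have hj : (algebraMap B F aB)⁻¹ ∈ V1 F 𝔮 := inv_algebraMap_mem_V1 𝔮 ha𝔮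
        have hxint : IsIntegral (V1 F 𝔮).toSubring x := h1.isIntegral _ hj
        have hxV : x ∈ V1 F 𝔮 := by
          obtain ⟨y, hy⟩ := IsIntegrallyClosed.isIntegral_iff (R := V1 F 𝔮) (K := F) |>.mp hxint
          rw [← hy]
          exact y.2
        exact (V1 F 𝔮).mul_mem _ _
          (inv_mem_of_not_mem_nonunits (not_mem_nonunits_of_intRel P h𝔮P haP ha𝔮 h2)) hj
  obtain ⟨v, hv⟩ := hmem
  exact ⟨v, hv⟩


omit [IsDomain B] [IsNoetherianRing B] [IsIntegrallyClosed B] [IsDomain O] in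
/-- `PU(a)` is a unit of `O = B_P` when `a ∈ P` and the constant term of `PU` is not in `P`. -/
theorem isUnit_aeval_int {aB : B} (haP : aB ∈ P) {PU : ℤ[X]} (hPU : ((PU.eval 0 : ℤ) : B) ∉ P) :
    IsUnit (aeval (algebraMap B O aB) PU) := by
  have hloc : IsLocalRing O := IsLocalization.AtPrime.isLocalRing O P
  have h0 : IsUnit (((PU.eval 0 : ℤ) : O)) := by
    have := IsLocalization.map_units O (⟨((PU.eval 0 : ℤ) : B), hPU⟩ : P.primeCompl)
    rwa [map_intCast] at this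
  have ham : algebraMap B O aB ∈ maximalIdeal O :=
    (IsLocalization.AtPrime.to_map_mem_maximal_iff O P aB).mpr haP
  refine isUnit_of_sub_mem (P := maximalIdeal O) (Ideal.IsPrime.ne_top inferInstance) h0 ?_
  have h1 : aeval (algebraMap B O aB) PU =
      aeval (algebraMap B O aB) PU.divX * algebraMap B O aB + ((PU.eval 0 : ℤ) : O) := by
    conv_lhs => rw [← Polynomial.divX_mul_X_add PU]
    rw [map_add, map_mul, aeval_X, aeval_C, ← Polynomial.coeff_zero_eq_eval_zero]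
    simp
  rw [h1, add_sub_cancel_right]
  exact Ideal.mul_mem_left _ _ ham

include F O in
/-- **REG3 at a cusp point, abstract.**  `a = 1/j ∈ P`, `x = j_{q²}`, `a' = x⁻¹`; the congruence
`(a' − a)^n / g · PU(a) + PV(a) · a^n ∈ 𝔪(V1 F 𝔭₀)` with `PU(0), PV(0) ∉ P`. -/
theorem exists_vertPrime_cusp (hn : n ≠ 0) (hg : g ≠ 0) (h𝔭P : 𝔭₀.1 ≤ P)
    (hvert : ∀ 𝔮 : HtOne B, 𝔮 ≠ 𝔭₀ → 𝔮.1 ≤ P → g ∉ 𝔮.1)
    (hramV : ∀ x : F, x ∈ (V1 F 𝔭₀).nonunits → x ^ n / algebraMap B F g ∈ V1 F 𝔭₀)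
    {aB : B} (haP : aB ∈ P) (ha0 : aB ≠ 0) {x : F}
    (h1 : IntRel (algebraMap B F aB)⁻¹ x) (h2 : IntRel x (algebraMap B F aB)⁻¹)
    (h𝔭a : algebraMap B F aB ∉ (V1 F 𝔭₀).nonunits)
    (hsub : x⁻¹ - algebraMap B F aB ∈ (V1 F 𝔭₀).nonunits)
    (hcusp : ∀ 𝔮 : HtOne B, 𝔮 ≠ 𝔭₀ → 𝔮.1 ≤ P → aB ∈ 𝔮.1 →
      (V1 F 𝔮).valuation x⁻¹ = (V1 F 𝔮).valuation (algebraMap B F aB))
    {PU PV : ℤ[X]} (hPU : ((PU.eval 0 : ℤ) : B) ∉ P) (hPV : ((PV.eval 0 : ℤ) : B) ∉ P)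
    (hmem : (x⁻¹ - algebraMap B F aB) ^ n / algebraMap B F g * aeval (algebraMap B F aB) PU +
      aeval (algebraMap B F aB) PV * algebraMap B F aB ^ n ∈ (V1 F 𝔭₀).nonunits) :
    ∃ π : B, π ≠ 0 ∧ π ∈ 𝔭₀.1 ∧ (∀ f ∈ 𝔭₀.1, ∃ s : B, s ∉ 𝔭₀.1 ∧ π ∣ s * f) ∧
      (∀ 𝔮 : HtOne B, 𝔮 ≠ 𝔭₀ → 𝔮.1 ≤ P → π ∉ 𝔮.1) := by
  have haF0 : algebraMap B F aB ≠ 0 := fun h =>
    ha0 ((map_eq_zero_iff _ (IsFractionRing.injective B F)).1 h)
  have h𝔭x : x⁻¹ ∈ V1 F 𝔭₀ := by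
    have h3 : x⁻¹ = (x⁻¹ - algebraMap B F aB) + algebraMap B F aB := by ring
    rw [h3]
    exact (V1 F 𝔭₀).add_mem _ _ ((V1 F 𝔭₀).nonunits_le hsub) (algebraMap_mem_V1 𝔭₀ aB)
  obtain ⟨v, hv⟩ := exists_quot_cusp (F := F) P O haP ha0 h1 h2 h𝔭a h𝔭x hcusp
  have haO : algebraMap O F (algebraMap B O aB) = algebraMap B F aB :=
    (IsScalarTower.algebraMap_apply B O F aB).symm
  have ha' : algebraMap O F (algebraMap B O aB * v) = x⁻¹ := by
    rw [map_mul, hv, haO, mul_div_cancel₀ _ haF0]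
  obtain ⟨π, h3, h4, h5, h6, -⟩ := exists_vertPrime_of_hasse_log_field (F := F) P O hn hg h𝔭P
    hvert hramV (a := algebraMap B O aB) (a' := algebraMap B O aB * v) (v := v)
    (by rw [map_sub, ha', haO]; exact hsub) rfl (by rw [haO]; exact h𝔭a)
    (isUnit_aeval_int P O haP hPU) (isUnit_aeval_int P O haP hPV)
    (by
      rw [map_sub, ha', haO, Fermat.Agent.GL.W3.map_aeval_int, Fermat.Agent.GL.W3.map_aeval_int,
        haO]
      exact hmem)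
  exact ⟨π, h3, h4, h5, h6⟩


include F in
/-- the same with the model `O := Localization.AtPrime P` built inside: no `O` in the statement. -/
theorem exists_vertPrime_cusp_loc (hn : n ≠ 0) (hg : g ≠ 0) (h𝔭P : 𝔭₀.1 ≤ P)
    (hvert : ∀ 𝔮 : HtOne B, 𝔮 ≠ 𝔭₀ → 𝔮.1 ≤ P → g ∉ 𝔮.1)
    (hramV : ∀ x : F, x ∈ (V1 F 𝔭₀).nonunits → x ^ n / algebraMap B F g ∈ V1 F 𝔭₀)
    {aB : B} (haP : aB ∈ P) (ha0 : aB ≠ 0) {x : F}
    (h1 : IntRel (algebraMap B F aB)⁻¹ x) (h2 : IntRel x (algebraMap B F aB)⁻¹)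
    (h𝔭a : algebraMap B F aB ∉ (V1 F 𝔭₀).nonunits)
    (hsub : x⁻¹ - algebraMap B F aB ∈ (V1 F 𝔭₀).nonunits)
    (hcusp : ∀ 𝔮 : HtOne B, 𝔮 ≠ 𝔭₀ → 𝔮.1 ≤ P → aB ∈ 𝔮.1 →
      (V1 F 𝔮).valuation x⁻¹ = (V1 F 𝔮).valuation (algebraMap B F aB))
    {PU PV : ℤ[X]} (hPU : ((PU.eval 0 : ℤ) : B) ∉ P) (hPV : ((PV.eval 0 : ℤ) : B) ∉ P)
    (hmem : (x⁻¹ - algebraMap B F aB) ^ n / algebraMap B F g * aeval (algebraMap B F aB) PU +
      aeval (algebraMap B F aB) PV * algebraMap B F aB ^ n ∈ (V1 F 𝔭₀).nonunits) :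
    ∃ π : B, π ≠ 0 ∧ π ∈ 𝔭₀.1 ∧ (∀ f ∈ 𝔭₀.1, ∃ s : B, s ∉ 𝔭₀.1 ∧ π ∣ s * f) ∧
      (∀ 𝔮 : HtOne B, 𝔮 ≠ 𝔭₀ → 𝔮.1 ≤ P → π ∉ 𝔮.1) := by
  have hunits : ∀ s : P.primeCompl, IsUnit (algebraMap B F (s : B)) := fun s => by
    have h0 : (s : B) ≠ 0 := fun h => s.2 (h ▸ P.zero_mem)
    exact ((map_ne_zero_iff _ (IsFractionRing.injective B F)).mpr h0).isUnit
  let algOF : Algebra (Localization.AtPrime P) F :=
    (IsLocalization.lift (M := P.primeCompl) (S := Localization.AtPrime P) hunits).toAlgebra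
  have : IsScalarTower B (Localization.AtPrime P) F :=
    IsScalarTower.of_algebraMap_eq fun b => (IsLocalization.lift_eq hunits b).symm
  have : IsFractionRing (Localization.AtPrime P) F :=
    IsFractionRing.isFractionRing_of_isDomain_of_isLocalization P.primeCompl
      (Localization.AtPrime P) F
  exact exists_vertPrime_cusp (F := F) P (Localization.AtPrime P) hn hg h𝔭P hvert hramV haP ha0
    h1 h2 h𝔭a hsub hcusp hPU hPV hmem

end Abstract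

/-! ### Concrete layer: the cusp points of `C₃` on the `1/j`-frame of `K₀(X₀(N))` -/

section K0

open Fermat.Agent.GL.Val.GaussK0 Fermat.Agent.GL.Val.CuspK0 Fermat.Agent.GL.Val.OrthK0
open Fermat.Agent.GL.Val.ThirdK0 Fermat.Agent.GL.MultiVal Fermat.Agent.GL.Thick
open Fermat.Agent.GL.W3 ModularCurve Fermat.Agent.Common_helper32
open Fermat.Agent.GK.Val.GaussBase

variable (A : ValuationSubring Qb) {N q M' : ℕ} [NeZero N] [NeZero (q ^ 2 * 1)]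
  (hdN : q ^ 2 * 1 ∣ N) (hN : N = M' * q ^ 2) (hqM : ¬ q ∣ M') (hA : (q : Qb) ∈ A.nonunits)
  (hq : q.Prime)

variable {B : Type*} [CommRing B] [IsDomain B] [Algebra B ↥(modularFunctionFieldFullC (K0 A) N)]
  [IsFractionRing B ↥(modularFunctionFieldFullC (K0 A) N)]
  [IsNoetherianRing B] [IsIntegrallyClosed B]
variable (P : Ideal B) [P.IsPrime]
variable {𝔭₀ : HtOne B}

/-- an integer prime to `q` is not in a prime ideal containing `q`. -/
theorem intCast_notMem_of_not_dvd {R : Type*} [CommRing R] {P : Ideal R} [P.IsPrime] {q : ℕ}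
    (hq : q.Prime) (hqP : ((q : ℕ) : R) ∈ P) {c : ℤ} (hc : ¬ (q : ℤ) ∣ c) : ((c : ℤ) : R) ∉ P := by
  intro hcP
  have hcop : IsCoprime (q : ℤ) c :=
    (Prime.coprime_iff_not_dvd (Nat.prime_iff_prime_int.mp hq)).mpr hc
  obtain ⟨s, t, hst⟩ := hcop
  have h1 : ((s : ℤ) : R) * ((q : ℕ) : R) + ((t : ℤ) : R) * ((c : ℤ) : R) = 1 := by
    have := congrArg (Int.cast (R := R)) hst
    push_cast at this
    exact this
  have h2 : (1 : R) ∈ P := by
    rw [← h1]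
    exact P.add_mem (P.mul_mem_left _ hqP) (P.mul_mem_left _ hcP)
  exact (Ideal.IsPrime.ne_top ‹_›) ((Ideal.eq_top_iff_one P).mpr h2)

include hdN hN hqM hA hq in
/-- **REG3 case (C) over `K₀`**: at a cusp point `P` (`a = 1/j ∈ P`) of the component `𝔭₀ = P₃`
only, on the `1/j`-frame `B`.  Inputs: the frame facts, helper16's `hcusp`, and helper18's
cusp congruence for a pair `PU PV : ℤ[X]` with constant terms prime to `q`. -/
theorem exists_vertPrime_caseC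
    (hV1 : V1 ↥(modularFunctionFieldFullC (K0 A) N) 𝔭₀ = Rw3K0 A N q) (h𝔭P : 𝔭₀.1 ≤ P)
    (hvert : ∀ 𝔮 : HtOne B, 𝔮 ≠ 𝔭₀ → 𝔮.1 ≤ P → ((q : ℕ) : B) ∉ 𝔮.1)
    {aB : B} (haB : algebraMap B ↥(modularFunctionFieldFullC (K0 A) N) aB = (jK0 A N)⁻¹)
    (haP : aB ∈ P)
    (hcusp : ∀ 𝔮 : HtOne B, 𝔮 ≠ 𝔭₀ → 𝔮.1 ≤ P → aB ∈ 𝔮.1 →
      (V1 ↥(modularFunctionFieldFullC (K0 A) N) 𝔮).valuation (genC (K0 A) (R0 A) N hdN)⁻¹ =
        (V1 ↥(modularFunctionFieldFullC (K0 A) N) 𝔮).valuation (jK0 A N)⁻¹)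
    (haK : (jK0 A N)⁻¹ ∉ (Rw3K0 A N q).nonunits)
    (hsub : (genC (K0 A) (R0 A) N hdN)⁻¹ - (jK0 A N)⁻¹ ∈ (Rw3K0 A N q).nonunits)
    {PU PV : ℤ[X]} (hPU : ¬ (q : ℤ) ∣ PU.eval 0) (hPV : ¬ (q : ℤ) ∣ PV.eval 0)
    (hcongr : ((genC (K0 A) (R0 A) N hdN)⁻¹ - (jK0 A N)⁻¹) ^ (q - 1) /
        ((q : ℕ) : ↥(modularFunctionFieldFullC (K0 A) N)) * aeval (jK0 A N)⁻¹ PU +
      aeval (jK0 A N)⁻¹ PV * (jK0 A N)⁻¹ ^ (q - 1) ∈ (Rw3K0 A N q).nonunits) :
    ∃ π : B, π ≠ 0 ∧ π ∈ 𝔭₀.1 ∧ (∀ f ∈ 𝔭₀.1, ∃ s : B, s ∉ 𝔭₀.1 ∧ π ∣ s * f) ∧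
      (∀ 𝔮 : HtOne B, 𝔮 ≠ 𝔭₀ → 𝔮.1 ≤ P → π ∉ 𝔮.1) := by
  have hq1 : q - 1 ≠ 0 := by have := hq.two_le; omega
  have hcast : ((q : ℕ) : ↥(modularFunctionFieldFullC (K0 A) N)) =
      algebraMap (K0 A) ↥(modularFunctionFieldFullC (K0 A) N) ((q : ℕ) : K0 A) :=
    (map_natCast _ q).symm
  have hqB : ((q : ℕ) : B) ≠ 0 := by
    intro h
    have h1 := congrArg (algebraMap B ↥(modularFunctionFieldFullC (K0 A) N)) h
    rw [map_natCast, map_zero, hcast, map_eq_zero] at h1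
    exact hq.ne_zero (by exact_mod_cast h1)
  have hR := isRamified_Rw3K0 A hq hN hqM hA (one_dvd M') hdN (one_dvd N)
  -- `q ∈ 𝔭₀ ⊆ P`
  have hq𝔭 : ((q : ℕ) : B) ∈ 𝔭₀.1 := by
    rw [← algebraMap_mem_nonunits_V1_iff (F := ↥(modularFunctionFieldFullC (K0 A) N)), hV1,
      map_natCast, hcast, ValuationSubring.mem_nonunits_iff, ← hR.pow_eq]
    exact pow_lt_one₀ zero_le hR.lt_one hq1
  have hqP : ((q : ℕ) : B) ∈ P := h𝔭P hq𝔭
  have ha0 : aB ≠ 0 := by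
    rintro rfl
    rw [map_zero] at haB
    have : (jK0 A N)⁻¹ ∈ (Rw3K0 A N q).nonunits := by
      rw [← haB, ValuationSubring.mem_nonunits_iff, map_zero]
      exact zero_lt_one
    exact haK this
  have hj : jK0 A N = genC (K0 A) (R0 A) N (one_dvd N) := rfl
  refine exists_vertPrime_cusp_loc (F := ↥(modularFunctionFieldFullC (K0 A) N)) P hq1 hqB h𝔭P hvert
    ?_ haP ha0 (x := genC (K0 A) (R0 A) N hdN) ?_ ?_ ?_ ?_ ?_
    (intCast_notMem_of_not_dvd hq hqP hPU) (intCast_notMem_of_not_dvd hq hqP hPV) ?_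
  · intro x hx
    rw [hV1] at hx ⊢
    rw [map_natCast]
    exact hramV_Rw3K0 A hdN hN hqM hA hq x hx
  · rw [haB, inv_inv, hj]
    exact intRel_genC N (R0 A) hdN (one_dvd N)
  · rw [haB, inv_inv, hj]
    exact intRel_genC N (R0 A) (one_dvd N) hdN
  · rw [haB, hV1]
    exact haK
  · rw [haB, hV1]
    exact hsub
  · intro 𝔮 h1 h2 h3
    rw [haB]
    exact hcusp 𝔮 h1 h2 h3
  · rw [haB, hV1, map_natCast]
    exact hcongr

end K0

end Fermat.Agent.GL.Reg3
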