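/-
GATE-L / L5d REG3, case (C) = the CUSPS, helper18's congruence PLUGGED (helper50; claims key
REG3-C-INST).

`exists_vertPrime_caseC` (`Reg3CInst.lean`) with the three `w₃`-facts `haK hsub hcongr` discharged
by helper18's `CuspCongrK0` (`aK_notMem_nonunits`, `aK'_sub_aK_mem_nonunits`, `cusp_congr_K0`,
`cusp_congr_K0_small`) and the constant terms by helper63's `intU₂` (`natDegree_intU₂`,
`intU₂_map`):

* `exists_vertPrime_caseC_int`   (`q ≥ 5`), `exists_vertPrime_caseC_small` (`q ∈ {2, 3}`),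
* `exists_vertPrime_caseC_all`   (every prime `q`).

The ONLY remaining inputs are the frame facts (`hV1 h𝔭P hvert`, `a = 1/j ∈ P`) and helper16's
`hcusp` : `ord_𝔮 (1/j_{q²}) = ord_𝔮 (1/j)` at the horizontal cusp primes `𝔮 ≤ P`.
-/
import Fermat.Agent.GL.Reg3.Reg3CInst
import Fermat.Agent.GL.Reg3.CuspCongrK0

set_option autoImplicit false
set_option linter.unusedSectionVars false

noncomputable section

namespace Fermat.Agent.GL.Reg3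

open Fermat.Agent.GL.KrullFrame Fermat.Agent.GL.KrullHeightOne Fermat.Agent.GL.Frame.HeightOne
  Fermat.Agent.GL.Frame.VertPrimeHtOne Fermat.Agent.GL.Frame.ArithInt IsLocalRing Polynomial
open Fermat.Agent.GL.Val.GaussK0 Fermat.Agent.GL.Val.CuspK0 Fermat.Agent.GL.Val.OrthK0
open Fermat.Agent.GL.Val.ThirdK0 Fermat.Agent.GL.MultiVal Fermat.Agent.GL.Thick
open Fermat.Agent.GL.W3 ModularCurve Fermat.Agent.Common_helper32
open Fermat.Agent.GK.Val.GaussBase Fermat.Agent.GL.Reg3.CuspCongrK0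

/-- the leading coefficient of helper63's integer lift of `U₂` is prime to `q`. -/
theorem not_dvd_leadingCoeff_intU₂ (q : ℕ) [Fact q.Prime] (hq5 : 5 ≤ q) :
    ¬ (q : ℤ) ∣ (intU₂ q hq5).leadingCoeff := by
  intro hdvd
  have h1 := intU₂_map q hq5 (ZMod q)
  have h2 := congrArg (fun P => P.coeff ((q - 1) / 2)) h1
  simp only [Polynomial.coeff_map] at h2
  have h3 : (intU₂ q hq5).coeff ((q - 1) / 2) = (intU₂ q hq5).leadingCoeff := by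
    rw [Polynomial.leadingCoeff, natDegree_intU₂]
  have h4 : (hasseU₂ q (ZMod q) hq5).coeff ((q - 1) / 2) =
      (hasseU₂ q (ZMod q) hq5).leadingCoeff := by
    rw [Polynomial.leadingCoeff, natDegree_hasseU₂]
  rw [h3, h4] at h2
  have h5 : (Int.castRingHom (ZMod q)) (intU₂ q hq5).leadingCoeff = 0 := by
    rw [eq_intCast]
    exact (ZMod.intCast_zmod_eq_zero_iff_dvd _ q).mpr hdvd
  rw [h5] at h2
  exact leadingCoeff_hasseU₂_ne_zero q (ZMod q) hq5 h2.symm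

section K0

variable (A : ValuationSubring Qb) {N q M' : ℕ} [NeZero N] [NeZero (q ^ 2 * 1)]
  (hdN : q ^ 2 * 1 ∣ N) (hN : N = M' * q ^ 2) (hqM : ¬ q ∣ M') (hA : (q : Qb) ∈ A.nonunits)
  (hq : q.Prime)

variable {B : Type*} [CommRing B] [IsDomain B] [Algebra B ↥(modularFunctionFieldFullC (K0 A) N)]
  [IsFractionRing B ↥(modularFunctionFieldFullC (K0 A) N)]
  [IsNoetherianRing B] [IsIntegrallyClosed B]
variable (P : Ideal B) [P.IsPrime]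
variable {𝔭₀ : HtOne B}

include hdN hN hqM hA hq in
/-- **REG3 case (C) over `K₀`, `q ≥ 5`.** -/
theorem exists_vertPrime_caseC_int [Fact q.Prime] (hq5 : 5 ≤ q)
    (hV1 : V1 ↥(modularFunctionFieldFullC (K0 A) N) 𝔭₀ = Rw3K0 A N q) (h𝔭P : 𝔭₀.1 ≤ P)
    (hvert : ∀ 𝔮 : HtOne B, 𝔮 ≠ 𝔭₀ → 𝔮.1 ≤ P → ((q : ℕ) : B) ∉ 𝔮.1)
    {aB : B} (haB : algebraMap B ↥(modularFunctionFieldFullC (K0 A) N) aB = (jK0 A N)⁻¹)
    (haP : aB ∈ P)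
    (hcusp : ∀ 𝔮 : HtOne B, 𝔮 ≠ 𝔭₀ → 𝔮.1 ≤ P → aB ∈ 𝔮.1 →
      (V1 ↥(modularFunctionFieldFullC (K0 A) N) 𝔮).valuation (genC (K0 A) (R0 A) N hdN)⁻¹ =
        (V1 ↥(modularFunctionFieldFullC (K0 A) N) 𝔮).valuation (jK0 A N)⁻¹) :
    ∃ π : B, π ≠ 0 ∧ π ∈ 𝔭₀.1 ∧ (∀ f ∈ 𝔭₀.1, ∃ s : B, s ∉ 𝔭₀.1 ∧ π ∣ s * f) ∧
      (∀ 𝔮 : HtOne B, 𝔮 ≠ 𝔭₀ → 𝔮.1 ≤ P → π ∉ 𝔮.1) := by
  have hA' : A.LiesOverPrime q := hA
  refine exists_vertPrime_caseC A hdN hN hqM hA hq P hV1 h𝔭P hvert haB haP hcusp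
    (aK_notMem_nonunits A) (aK'_sub_aK_mem_nonunits A hdN hq hN hqM hA')
    (PU := (intU₂ q hq5).reverse) (PV := C ((-1) ^ (q - 1)) * (intV₁ q).reverse) ?_ ?_ ?_
  · rw [eval_zero_reverse_int]
    exact not_dvd_leadingCoeff_intU₂ q hq5
  · rw [eval_mul, eval_C, eval_zero_reverse_intV₁, mul_one]
    intro h
    have h1 : (q : ℤ) ∣ 1 := by
      have := dvd_mul_of_dvd_left h ((-1 : ℤ) ^ (q - 1))
      rwa [← mul_pow, neg_one_mul, neg_neg, one_pow] at this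
    have h2 := Int.natAbs_dvd_natAbs.mpr h1
    simp only [Int.natAbs_natCast, Int.natAbs_one, Nat.dvd_one] at h2
    exact hq.one_lt.ne' h2
  · have h := cusp_congr_K0 A hdN hN hqM hA' hq5
    have e1 : aeval (jK0 A N)⁻¹ (C ((-1 : ℤ) ^ (q - 1)) * (intV₁ q).reverse) =
        (-1) ^ (q - 1) * aeval (aK A N) (intV₁ q).reverse := by
      rw [map_mul, aeval_C, aK]
      simp
    have e2 : ((genC (K0 A) (R0 A) N hdN)⁻¹ - (jK0 A N)⁻¹) ^ (q - 1) /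
        ((q : ℕ) : ↥(modularFunctionFieldFullC (K0 A) N)) = e0cK0 A hdN := by
      rw [e0cK0, aK', aK, jSqK0, div_eq_mul_inv, map_natCast]
    rw [e1, e2]
    exact h

include hdN hN hqM hA hq in
/-- **REG3 case (C) over `K₀`, `q ∈ {2, 3}`.** -/
theorem exists_vertPrime_caseC_small (hq5 : ¬ 5 ≤ q)
    (hV1 : V1 ↥(modularFunctionFieldFullC (K0 A) N) 𝔭₀ = Rw3K0 A N q) (h𝔭P : 𝔭₀.1 ≤ P)
    (hvert : ∀ 𝔮 : HtOne B, 𝔮 ≠ 𝔭₀ → 𝔮.1 ≤ P → ((q : ℕ) : B) ∉ 𝔮.1)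
    {aB : B} (haB : algebraMap B ↥(modularFunctionFieldFullC (K0 A) N) aB = (jK0 A N)⁻¹)
    (haP : aB ∈ P)
    (hcusp : ∀ 𝔮 : HtOne B, 𝔮 ≠ 𝔭₀ → 𝔮.1 ≤ P → aB ∈ 𝔮.1 →
      (V1 ↥(modularFunctionFieldFullC (K0 A) N) 𝔮).valuation (genC (K0 A) (R0 A) N hdN)⁻¹ =
        (V1 ↥(modularFunctionFieldFullC (K0 A) N) 𝔮).valuation (jK0 A N)⁻¹) :
    ∃ π : B, π ≠ 0 ∧ π ∈ 𝔭₀.1 ∧ (∀ f ∈ 𝔭₀.1, ∃ s : B, s ∉ 𝔭₀.1 ∧ π ∣ s * f) ∧
      (∀ 𝔮 : HtOne B, 𝔮 ≠ 𝔭₀ → 𝔮.1 ≤ P → π ∉ 𝔮.1) := by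
  have hA' : A.LiesOverPrime q := hA
  have hone : ¬ (q : ℤ) ∣ 1 := by
    intro h1
    have h2 := Int.natAbs_dvd_natAbs.mpr h1
    simp only [Int.natAbs_natCast, Int.natAbs_one, Nat.dvd_one] at h2
    exact hq.one_lt.ne' h2
  refine exists_vertPrime_caseC A hdN hN hqM hA hq P hV1 h𝔭P hvert haB haP hcusp
    (aK_notMem_nonunits A) (aK'_sub_aK_mem_nonunits A hdN hq hN hqM hA')
    (PU := 1) (PV := C ((-1) ^ (q - 1))) ?_ ?_ ?_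
  · rw [eval_one]
    exact hone
  · rw [eval_C]
    intro h
    apply hone
    have := dvd_mul_of_dvd_left h ((-1 : ℤ) ^ (q - 1))
    rwa [← mul_pow, neg_one_mul, neg_neg, one_pow] at this
  · have h := cusp_congr_K0_small A hdN hN hqM hA' hq hq5
    have e1 : aeval (jK0 A N)⁻¹ (C ((-1 : ℤ) ^ (q - 1))) =
        ((-1) ^ (q - 1) : ↥(modularFunctionFieldFullC (K0 A) N)) := by
      rw [aeval_C]
      simp
    have e2 : ((genC (K0 A) (R0 A) N hdN)⁻¹ - (jK0 A N)⁻¹) ^ (q - 1) /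
        ((q : ℕ) : ↥(modularFunctionFieldFullC (K0 A) N)) = e0cK0 A hdN := by
      rw [e0cK0, aK', aK, jSqK0, div_eq_mul_inv, map_natCast]
    rw [e1, e2, map_one, mul_one]
    exact h

include hdN hN hqM hA hq in
/-- **REG3 case (C) over `K₀`, every prime `q`**: at a cusp point `P` (`a = 1/j ∈ P`) of the
`1/j`-frame lying on the vertical component `𝔭₀ = P₃` only, `P₃` is locally principal (block
`(π, hπne, hπ0, hgen, hother)` of helper47 `LocTypeI.exists_locAt`). -/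
theorem exists_vertPrime_caseC_all
    (hV1 : V1 ↥(modularFunctionFieldFullC (K0 A) N) 𝔭₀ = Rw3K0 A N q) (h𝔭P : 𝔭₀.1 ≤ P)
    (hvert : ∀ 𝔮 : HtOne B, 𝔮 ≠ 𝔭₀ → 𝔮.1 ≤ P → ((q : ℕ) : B) ∉ 𝔮.1)
    {aB : B} (haB : algebraMap B ↥(modularFunctionFieldFullC (K0 A) N) aB = (jK0 A N)⁻¹)
    (haP : aB ∈ P)
    (hcusp : ∀ 𝔮 : HtOne B, 𝔮 ≠ 𝔭₀ → 𝔮.1 ≤ P → aB ∈ 𝔮.1 →
      (V1 ↥(modularFunctionFieldFullC (K0 A) N) 𝔮).valuation (genC (K0 A) (R0 A) N hdN)⁻¹ =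
        (V1 ↥(modularFunctionFieldFullC (K0 A) N) 𝔮).valuation (jK0 A N)⁻¹) :
    ∃ π : B, π ≠ 0 ∧ π ∈ 𝔭₀.1 ∧ (∀ f ∈ 𝔭₀.1, ∃ s : B, s ∉ 𝔭₀.1 ∧ π ∣ s * f) ∧
      (∀ 𝔮 : HtOne B, 𝔮 ≠ 𝔭₀ → 𝔮.1 ≤ P → π ∉ 𝔮.1) := by
  by_cases hq5 : 5 ≤ q
  · have : Fact q.Prime := ⟨hq⟩
    exact exists_vertPrime_caseC_int A hdN hN hqM hA hq P hq5 hV1 h𝔭P hvert haB haP hcusp
  · exact exists_vertPrime_caseC_small A hdN hN hqM hA hq P hq5 hV1 h𝔭P hvert haB haP hcusp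

end K0

end Fermat.Agent.GL.Reg3
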