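/-
GATE-L / L5d REG3 on the `j`-frame, CONCRETE old copies (helper93; claims key REG3-B-K0).

`hreg3_K0_of_chart` (`Reg3Dispatch`) with the two old copies made concrete:

* `alphaN A hN : K₀(X₀(M')) →+* K₀(X₀(N))` = the inclusion (`d0`, series `y ↦ y`),
  `gammaN A hN` = `y(t) ↦ y(t^{q²})` (`d2`), `N = M' q²`; `alphaN_jK0`, `gammaN_jK0`,
  `gammaN_sub_alphaN_jK0 : γ j' − α j' = y₃`;
* `map_mem_of_isIntegral_adjoin` : a ring map `δ` compatible with the base `R` sends the integral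
  closure of `R[t']` into every integrally closed subring `O ⊇ R`, `O ∋ δ t'`;
* `alphaN_mem`, `gammaN_mem` : `α(B'), γ(B') ⊆ Bf` for `B'` integral over `R₀[j']` and `Bf ∋ j`
  integrally closed containing `R₀` (ARITH-INT, helper87 `isIntegral_genC_of_mem`);
* **`hreg3_K0_concrete`** : the `hreg3` binder of helper11 `hallj_typed` on `Bf`, from
  `hcong` (`γ ≡ α mod 𝔪(w₃)` on `B'`, helper67 REG3-B-CONG) and `(S4)` in the local rings of `B'`
  (helper25 S4-INST) ONLY.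
-/
import Fermat.Agent.GL.Reg3.Reg3Dispatch
import Fermat.Agent.GL.Table.DegenK0
import Fermat.Agent.GL.Frame.ArithInt

set_option autoImplicit false
set_option linter.unusedSectionVars false

noncomputable section

namespace Fermat.Agent.GL.Reg3.BK0

open Fermat.Agent.GL.KrullFrame Fermat.Agent.GL.KrullHeightOne Fermat.Agent.GL.Frame.HeightOne
  Fermat.Agent.GL.Frame.VertPrimeHtOne IsLocalRing Polynomial
open Fermat.Agent.GL.Frame.Chart Fermat.Agent.GL.Frame.OldContraction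

/-! ### Generic: images of integral closures -/

section Generic

variable {R F F' : Type*} [CommRing R] [Field F] [Field F'] [Algebra R F] [Algebra R F']

/-- a ring map `δ : F' → F` compatible with the base `R` sends everything integral over `R[t']`
into every integrally closed subring `O` of `F` containing `R` and `δ t'`. -/
theorem map_mem_of_isIntegral_adjoin (δ : F' →+* F)
    (hδ : ∀ r : R, δ (algebraMap R F' r) = algebraMap R F r) (O : Subring F) (hIC : IsIC O)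
    (hR : ∀ r : R, algebraMap R F r ∈ O) {t' : F'} (ht : δ t' ∈ O) {b : F'}
    (hb : IsIntegral (Algebra.adjoin R {t'}) b) : δ b ∈ O := by
  have hT : ∀ a ∈ Algebra.adjoin R {t'}, δ a ∈ O := by
    intro a ha
    induction ha using Algebra.adjoin_induction with
    | mem x hx =>
      rw [Set.mem_singleton_iff] at hx
      rw [hx]; exact ht
    | algebraMap r => rw [hδ r]; exact hR r
    | add x y _ _ hx hy => rw [map_add]; exact O.add_mem hx hy
    | mul x y _ _ hx hy => rw [map_mul]; exact O.mul_mem hx hy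
  let φ : Algebra.adjoin R {t'} →+* O :=
    (δ.comp (Algebra.adjoin R {t'}).val.toRingHom).codRestrict O (fun a => hT a a.2)
  have h1 : IsIntegral O (δ b) :=
    IsIntegral.map_of_comp_eq φ δ (RingHom.ext fun _ => rfl) hb
  exact hIC _ h1

/-- an integrally closed domain with fraction field `F`, as a subring of `F`, is `IsIC`. -/
theorem isIC_of_isIntegrallyClosed (O : Subring F) [IsFractionRing O F] [IsIntegrallyClosed O] :
    IsIC O := by
  intro z hz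
  obtain ⟨y, hy⟩ := (IsIntegrallyClosed.isIntegral_iff (R := O) (K := F)).mp hz
  rw [← hy]
  exact y.2

end Generic

/-! ### The two old copies `K₀(X₀(M')) → K₀(X₀(N))`, `N = M' q²` -/

section K0

open Fermat.Agent.GL.Val.GaussK0 Fermat.Agent.GL.Val.CuspK0 Fermat.Agent.GL.Val.OrthK0
open Fermat.Agent.GL.Val.ThirdK0 Fermat.Agent.GL.MultiVal Fermat.Agent.GL.Thick
open Fermat.Agent.GL.W3 ModularCurve Fermat.Agent.Common_helper32
open Fermat.Agent.GK.Val.GaussBase Fermat.Agent.GL.Table.K0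

variable (A : ValuationSubring Qb) {N q M' : ℕ} [NeZero N] [NeZero M'] [NeZero q]
  [NeZero (q ^ 2 * 1)]
  (hdN : q ^ 2 * 1 ∣ N) (hN : N = M' * q ^ 2) (hqM : ¬ q ∣ M') (hA : (q : Qb) ∈ A.nonunits)
  (hq : q.Prime)

/-- the old copy `d0` : the inclusion `K₀(X₀(M')) → K₀(X₀(N))` (series `y ↦ y`). -/
def alphaN : ↥(modularFunctionFieldFullC (K0 A) M') →+* ↥(modularFunctionFieldFullC (K0 A) N) :=
  (inclC (K0 A) (Dvd.intro (q ^ 2) hN.symm : M' ∣ N)).toRingHom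

/-- the old copy `d2` : `y(t) ↦ y(t^{q²})`, `K₀(X₀(M')) → K₀(X₀(N))`. -/
def gammaN : ↥(modularFunctionFieldFullC (K0 A) M') →+* ↥(modularFunctionFieldFullC (K0 A) N) :=
  ((inclC (K0 A) (dvd_of_eq hN.symm : M' * q ^ 2 ∣ N)).toRingHom :
      ↥(modularFunctionFieldFullC (K0 A) (M' * q ^ 2)) →+*
        ↥(modularFunctionFieldFullC (K0 A) N)).comp
    ((betaC (K0 A) M' (q ^ 2)).toRingHom :
      ↥(modularFunctionFieldFullC (K0 A) M') →+*
        ↥(modularFunctionFieldFullC (K0 A) (M' * q ^ 2)))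

theorem coe_alphaN (x : ↥(modularFunctionFieldFullC (K0 A) M')) :
    ((alphaN A hN x : ↥(modularFunctionFieldFullC (K0 A) N)) : LaurentSeries (K0 A)) =
      (x : LaurentSeries (K0 A)) :=
  coe_inclC (K0 A) _ x

theorem coe_gammaN (x : ↥(modularFunctionFieldFullC (K0 A) M')) :
    ((gammaN A hN x : ↥(modularFunctionFieldFullC (K0 A) N)) : LaurentSeries (K0 A)) =
      qExpand (K0 A) (q ^ 2) (x : LaurentSeries (K0 A)) := by
  show ((inclC (K0 A) (dvd_of_eq hN.symm : M' * q ^ 2 ∣ N) (betaC (K0 A) M' (q ^ 2) x) :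
    ↥(modularFunctionFieldFullC (K0 A) N)) : LaurentSeries (K0 A)) = _
  rw [coe_inclC, coe_betaC]

theorem alphaN_algebraMap (a : K0 A) :
    alphaN A hN (algebraMap (K0 A) _ a) = algebraMap (K0 A) _ a :=
  (inclC (K0 A) _).commutes a

theorem gammaN_algebraMap (a : K0 A) :
    gammaN A hN (algebraMap (K0 A) _ a) = algebraMap (K0 A) _ a := by
  show inclC (K0 A) (dvd_of_eq hN.symm : M' * q ^ 2 ∣ N)
    (betaC (K0 A) M' (q ^ 2) (algebraMap (K0 A) _ a)) = _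
  rw [AlgHom.commutes, AlgHom.commutes]

theorem alphaN_jK0 : alphaN A hN (jK0 A M') = jK0 A N := by
  apply Subtype.ext
  rw [coe_alphaN, jK0, jK0, coe_genC, coe_genC]

theorem gammaN_jK0 : gammaN A hN (jK0 A M') = genC (K0 A) (R0 A) N hdN := by
  apply Subtype.ext
  rw [coe_gammaN, jK0, coe_genC, coe_genC, qExpand_qExpand]

theorem gammaN_sub_alphaN_jK0 :
    gammaN A hN (jK0 A M') - alphaN A hN (jK0 A M') = y3K0 A N q hdN (one_dvd N) := by
  rw [gammaN_jK0 A hdN hN, alphaN_jK0 A hN, y3K0, jK0]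

/-! ### `α(B'), γ(B') ⊆ Bf` -/

/-- shortcut instance (TC is slow at the concrete field); `rfl`-equal to the generic one. -/
instance instAlgebraR0FullC (N : ℕ) [NeZero N] :
    Algebra ↥(R0 A) ↥(modularFunctionFieldFullC (K0 A) N) := Algebra.ofSubsemiring (R0 A)

variable {Bf : Subring ↥(modularFunctionFieldFullC (K0 A) N)}

/-- `α(B') ⊆ Bf` : the inclusion sends everything integral over `R₀[j']` into `Bf`. -/
theorem alphaN_mem (hIC : IsIC Bf)
    (hR0 : ∀ r : R0 A, algebraMap (R0 A) ↥(modularFunctionFieldFullC (K0 A) N) r ∈ Bf)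
    (hj : jK0 A N ∈ Bf) {b : ↥(modularFunctionFieldFullC (K0 A) M')}
    (hb : IsIntegral (Algebra.adjoin (R0 A) {jK0 A M'}) b) : alphaN A hN b ∈ Bf :=
  map_mem_of_isIntegral_adjoin (R := ↥(R0 A)) (alphaN A hN)
    (fun r => alphaN_algebraMap A hN (r : K0 A)) Bf hIC hR0 (by rw [alphaN_jK0]; exact hj) hb

include hdN in
/-- `γ(B') ⊆ Bf` : ARITH-INT (`j_{q²}` is integral over `ℤ[j]`, helper87). -/
theorem gammaN_mem (hIC : IsIC Bf)
    (hR0 : ∀ r : R0 A, algebraMap (R0 A) ↥(modularFunctionFieldFullC (K0 A) N) r ∈ Bf)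
    (hj : jK0 A N ∈ Bf) {b : ↥(modularFunctionFieldFullC (K0 A) M')}
    (hb : IsIntegral (Algebra.adjoin (R0 A) {jK0 A M'}) b) : gammaN A hN b ∈ Bf := by
  refine map_mem_of_isIntegral_adjoin (R := ↥(R0 A)) (gammaN A hN)
    (fun r => gammaN_algebraMap A hN (r : K0 A)) Bf hIC hR0 ?_ hb
  rw [gammaN_jK0 A hdN hN]
  exact hIC _ (Fermat.Agent.GL.Frame.ArithInt.isIntegral_genC_of_mem N (R0 A) hdN (one_dvd N) Bf hj)

/-! ### The `hreg3` binder with concrete old copies -/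

include hdN hN hqM hA hq in
/-- **the `hreg3` binder of helper11 `H5TypeI.hallj_typed` on the `j`-frame `Bf`** (`f 2 := 𝔭₀`,
`s := sB = pH(jB)`), from the level-`M'` chart `B'` (integral over `R₀[j']`): the ONLY inputs left
are `hcong` (`γ ≡ α mod 𝔪(w₃)` on `B'`) and `(S4)` in the local rings of `B'`. -/
theorem hreg3_K0_concrete [Fact q.Prime]
    [IsFractionRing Bf ↥(modularFunctionFieldFullC (K0 A) N)] [IsNoetherianRing Bf]
    [IsIntegrallyClosed Bf] (vert : Finset (HtOne Bf)) {𝔭₀ : HtOne Bf}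
    (hV1 : V1 ↥(modularFunctionFieldFullC (K0 A) N) 𝔭₀ = Rw3K0 A N q)
    {qB jB yB sB : Bf}
    (hqB : (qB : ↥(modularFunctionFieldFullC (K0 A) N)) =
      ((q : ℕ) : ↥(modularFunctionFieldFullC (K0 A) N)))
    (hjB : (jB : ↥(modularFunctionFieldFullC (K0 A) N)) = jK0 A N)
    (hyB : (yB : ↥(modularFunctionFieldFullC (K0 A) N)) = y3K0 A N q hdN (one_dvd N))
    (hsB : sB = aeval jB (intSsPolyAll q))
    (hvert : ∀ 𝔭 : HtOne Bf, qB ∈ 𝔭.1 → 𝔭 ∈ vert)
    (hR0 : ∀ r : R0 A, algebraMap (R0 A) ↥(modularFunctionFieldFullC (K0 A) N) r ∈ Bf)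
    (B' : Subring ↥(modularFunctionFieldFullC (K0 A) M')) (hj' : jK0 A M' ∈ B')
    (hB'int : ∀ b ∈ B', IsIntegral (Algebra.adjoin (R0 A) {jK0 A M'}) b)
    (hcong : ∀ b ∈ B', gammaN A hN b - alphaN A hN b ∈ (Rw3K0 A N q).nonunits)
    (hS4 : 5 ≤ q → ∀ (a : ℤ) (c : ℕ), ((a = 0 ∧ c = 3) ∨ (a = 1728 ∧ c = 2)) →
      ∀ (x' : Ideal B') [x'.IsPrime], ((q : ℕ) : B') ∈ x' →
        (⟨jK0 A M', hj'⟩ : B') - ((a : ℤ) : B') ∈ x' →
        ∃ (u₀ : (locSubring B' x')ˣ) (h₀ : locSubring B' x'),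
          jK0 A M' - ((a : ℤ) : ↥(modularFunctionFieldFullC (K0 A) M')) =
            ((u₀ : locSubring B' x') : ↥(modularFunctionFieldFullC (K0 A) M')) *
              (h₀ : ↥(modularFunctionFieldFullC (K0 A) M')) ^ c) :
    ∀ 𝔫 : Ideal Bf, 𝔫.IsMaximal → (qB ∈ 𝔫 ∧ sB ∉ 𝔫) → 𝔭₀.1 ≤ 𝔫 →
      (∀ j ∈ vert, j ≠ 𝔭₀ → ¬ j.1 ≤ 𝔫) →
      ∃ π : Bf, π ≠ 0 ∧ π ∈ 𝔭₀.1 ∧ (∀ x ∈ 𝔭₀.1, ∃ s : Bf, s ∉ 𝔭₀.1 ∧ π ∣ s * x) ∧
        (∀ 𝔮 : HtOne Bf, 𝔮 ≠ 𝔭₀ → 𝔮.1 ≤ 𝔫 → π ∉ 𝔮.1) := by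
  have hIC : IsIC Bf := isIC_of_isIntegrallyClosed Bf
  have hjBf : jK0 A N ∈ Bf := hjB ▸ jB.2
  exact Dispatch.hreg3_K0_of_chart A hdN hN hqM hA hq vert hV1 hqB hjB hyB hsB hvert
    (alphaN A hN) (gammaN A hN) (jK0 A M') (alphaN_jK0 A hN) (gammaN_sub_alphaN_jK0 A hdN hN) B' hj'
    (fun b hb => alphaN_mem A hN hIC hR0 hjBf (hB'int b hb))
    (fun b hb => gammaN_mem A hdN hN hIC hR0 hjBf (hB'int b hb)) hcong hS4

end K0

end Fermat.Agent.GL.Reg3.BK0
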