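/-
GATE-L / L5d REG3 on the `j`-frame at the LITERAL level `M' * q * q` (helper93; claims key
REG3-FINAL).

`hreg3_Bj` = **the `hreg3` binder of helper11 `H5TypeI.hallj_typed` / `h5_typed`** on a frame
`Bf ⊂ K₀(X₀(M' q q))`, with
* the old copies `α := alpha2 A M' q`, `γ := gamma2 A M' q` and the congruence
  `γ ≡ α mod 𝔪(w₃)` on the Gauss ring of level `M'` — helper67 `Reg3BCong` — PLUGGED;
* the level-`M'` chart `B' := B1 M' A = chartRing (R0 A) (jC M' (K0 A))` (helper96 `BRing1`),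
  `B' ⊆ RwK0 A M'` (`mem_B1_iff`) PLUGGED;
* `α(B'), γ(B') ⊆ Bf` (ARITH-INT helper87 + `BK0.map_mem_of_isIntegral_adjoin`) PLUGGED;
the ONLY input left besides the frame facts is `(S4)` in the local rings of `B1 M' A`
(helper25 S4-INST).
-/
import Fermat.Agent.GL.Reg3.Reg3BK0
import Fermat.Agent.GL.Reg3.Reg3BCong
import Fermat.Agent.GL.Red.BRing1

set_option autoImplicit false
set_option linter.unusedSectionVars false

noncomputable section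

namespace Fermat.Agent.GL.Reg3.Final

open Fermat.Agent.GL.KrullFrame Fermat.Agent.GL.KrullHeightOne Fermat.Agent.GL.Frame.HeightOne
  Fermat.Agent.GL.Frame.VertPrimeHtOne IsLocalRing Polynomial
open Fermat.Agent.GL.Frame.Chart Fermat.Agent.GL.Frame.OldContraction
open Fermat.Agent.GL.Val.GaussK0 Fermat.Agent.GL.Val.CuspK0 Fermat.Agent.GL.Val.OrthK0
open Fermat.Agent.GL.Val.ThirdK0 Fermat.Agent.GL.MultiVal Fermat.Agent.GL.Thick
open Fermat.Agent.GL.W3 ModularCurve Fermat.Agent.Common_helper32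
open Fermat.Agent.GK.Val.GaussBase Fermat.Agent.GL.Table.K0
open Fermat.Agent.GL.Frame.Inst Fermat.Agent.GL.BRing1 Fermat.Agent.GL.Reg3.BCong
open Fermat.Agent.GL.Val.DegBase

variable (A : ValuationSubring Qb) {M' q : ℕ} [NeZero q] [NeZero M'] [NeZero (q ^ 2 * 1)]
  (hdN : q ^ 2 * 1 ∣ M' * q * q) (hqM : ¬ q ∣ M') (hA : (q : Qb) ∈ A.nonunits) (hq : q.Prime)

theorem level_eq' : M' * q * q = M' * q ^ 2 := by ring

theorem alpha2_algebraMap (a : K0 A) :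
    alpha2 A M' q (algebraMap (K0 A) _ a) = algebraMap (K0 A) _ a := by
  rw [alpha2_apply, AlgHom.commutes, AlgHom.commutes]

theorem gamma2_algebraMap (a : K0 A) :
    gamma2 A M' q (algebraMap (K0 A) _ a) = algebraMap (K0 A) _ a := by
  rw [gamma2_apply, AlgHom.commutes, AlgHom.commutes]

theorem jK0_eq_jC (N : ℕ) [NeZero N] : jK0 A N = jC N (K0 A) := by
  rw [jK0]; exact genC_one_eq_jC N (K0 A) (R0 A)

theorem jK0_mem_B1 : jK0 A M' ∈ B1 M' A := by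
  rw [jK0_eq_jC]
  exact subset_icRing (R0 A) {jC M' (K0 A)} rfl

variable {Bf : Subring ↥(modularFunctionFieldFullC (K0 A) (M' * q * q))}

/-- `α(B₁) ⊆ Bf`. -/
theorem alpha2_mem (hIC : IsIC Bf)
    (hR0 : ∀ r : R0 A, algebraMap (R0 A) ↥(modularFunctionFieldFullC (K0 A) (M' * q * q)) r ∈ Bf)
    (hj : jK0 A (M' * q * q) ∈ Bf) {b : ↥(modularFunctionFieldFullC (K0 A) M')}
    (hb : b ∈ B1 M' A) : alpha2 A M' q b ∈ Bf := by
  refine BK0.map_mem_of_isIntegral_adjoin (R := ↥(R0 A)) (alpha2 A M' q)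
    (fun r => alpha2_algebraMap A (r : K0 A)) Bf hIC hR0 (t' := jC M' (K0 A)) ?_ hb
  rw [← jK0_eq_jC, alpha2_jK0]; exact hj

include hdN in
/-- `γ(B₁) ⊆ Bf` (ARITH-INT). -/
theorem gamma2_mem (hIC : IsIC Bf)
    (hR0 : ∀ r : R0 A, algebraMap (R0 A) ↥(modularFunctionFieldFullC (K0 A) (M' * q * q)) r ∈ Bf)
    (hj : jK0 A (M' * q * q) ∈ Bf) {b : ↥(modularFunctionFieldFullC (K0 A) M')}
    (hb : b ∈ B1 M' A) : gamma2 A M' q b ∈ Bf := by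
  refine BK0.map_mem_of_isIntegral_adjoin (R := ↥(R0 A)) (gamma2 A M' q)
    (fun r => gamma2_algebraMap A (r : K0 A)) Bf hIC hR0 (t' := jC M' (K0 A)) ?_ hb
  rw [← jK0_eq_jC, gamma2_jK0 A hdN]
  exact hIC _ (Fermat.Agent.GL.Frame.ArithInt.isIntegral_genC_of_mem (M' * q * q) (R0 A) hdN
    (one_dvd _) Bf hj)

include hdN hqM hA hq in
/-- **the `hreg3` binder of helper11 `hallj_typed` on the `j`-frame `Bf ⊂ K₀(X₀(M' q q))`**
(`f 2 := 𝔭₀`, `s := sB = pH(jB)`); only `(S4)` in the local rings of `B1 M' A` is left. -/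
theorem hreg3_Bj [Fact q.Prime]
    [IsFractionRing Bf ↥(modularFunctionFieldFullC (K0 A) (M' * q * q))] [IsNoetherianRing Bf]
    [IsIntegrallyClosed Bf] (vert : Finset (HtOne Bf)) {𝔭₀ : HtOne Bf}
    (hV1 : V1 ↥(modularFunctionFieldFullC (K0 A) (M' * q * q)) 𝔭₀ = Rw3K0 A (M' * q * q) q)
    {qB jB yB sB : Bf}
    (hqB : (qB : ↥(modularFunctionFieldFullC (K0 A) (M' * q * q))) =
      ((q : ℕ) : ↥(modularFunctionFieldFullC (K0 A) (M' * q * q))))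
    (hjB : (jB : ↥(modularFunctionFieldFullC (K0 A) (M' * q * q))) = jK0 A (M' * q * q))
    (hyB : (yB : ↥(modularFunctionFieldFullC (K0 A) (M' * q * q))) =
      y3K0 A (M' * q * q) q hdN (one_dvd (M' * q * q)))
    (hsB : sB = aeval jB (intSsPolyAll q))
    (hvert : ∀ 𝔭 : HtOne Bf, qB ∈ 𝔭.1 → 𝔭 ∈ vert)
    (hR0 : ∀ r : R0 A, algebraMap (R0 A) ↥(modularFunctionFieldFullC (K0 A) (M' * q * q)) r ∈ Bf)
    (hS4 : 5 ≤ q → ∀ (a : ℤ) (c : ℕ), ((a = 0 ∧ c = 3) ∨ (a = 1728 ∧ c = 2)) →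
      ∀ (x' : Ideal (B1 M' A)) [x'.IsPrime], ((q : ℕ) : B1 M' A) ∈ x' →
        (⟨jK0 A M', jK0_mem_B1 A⟩ : B1 M' A) - ((a : ℤ) : B1 M' A) ∈ x' →
        ∃ (u₀ : (locSubring (B1 M' A) x')ˣ) (h₀ : locSubring (B1 M' A) x'),
          jK0 A M' - ((a : ℤ) : ↥(modularFunctionFieldFullC (K0 A) M')) =
            ((u₀ : locSubring (B1 M' A) x') : ↥(modularFunctionFieldFullC (K0 A) M')) *
              (h₀ : ↥(modularFunctionFieldFullC (K0 A) M')) ^ c) :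
    ∀ 𝔫 : Ideal Bf, 𝔫.IsMaximal → (qB ∈ 𝔫 ∧ sB ∉ 𝔫) → 𝔭₀.1 ≤ 𝔫 →
      (∀ j ∈ vert, j ≠ 𝔭₀ → ¬ j.1 ≤ 𝔫) →
      ∃ π : Bf, π ≠ 0 ∧ π ∈ 𝔭₀.1 ∧ (∀ x ∈ 𝔭₀.1, ∃ s : Bf, s ∉ 𝔭₀.1 ∧ π ∣ s * x) ∧
        (∀ 𝔮 : HtOne Bf, 𝔮 ≠ 𝔭₀ → 𝔮.1 ≤ 𝔫 → π ∉ 𝔮.1) := by
  have hIC : IsIC Bf := BK0.isIC_of_isIntegrallyClosed Bf
  have hjBf : jK0 A (M' * q * q) ∈ Bf := hjB ▸ jB.2
  have hA' : A.LiesOverPrime q := hA
  exact Dispatch.hreg3_K0_of_chart A hdN level_eq' hqM hA hq vert hV1 hqB hjB hyB hsB hvert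
    (alpha2 A M' q) (gamma2 A M' q) (jK0 A M') (alpha2_jK0 A) (gamma2_sub_alpha2_jK0 A hdN)
    (B1 M' A) (jK0_mem_B1 A)
    (fun b hb => alpha2_mem A hIC hR0 hjBf hb)
    (fun b hb => gamma2_mem A hdN hIC hR0 hjBf hb)
    (fun b hb => gamma2_sub_alpha2_mem_nonunits A hq hqM hA b
      ((mem_B1_iff M' A hqM hA').1 hb).2) hS4

end Fermat.Agent.GL.Reg3.Final
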