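/-
GATE-L / L5d REG3 + FIX C, input (S4), abstract half (helper50).
Mathlib + helper80's `GL/Frame/VerticalExt.lean` (`gaussRing`: the DVR `O_(π) ⊆ F` of a prime element).

`O` a noetherian UFD (REG3 / FIX C: the local ring of the level-`M'r` chart ring at a closed point
`x̄` of the special fibre, a UFD because `O ⧸ (q)` is a DVR), `f ∈ O` (`f = j - a`, `a = 0, 1728`),
`c ≥ 1` (`c = 3, 2`).  If at the DVR `O_(π)` of EVERY prime factor `π` of `f` one has
`f = π ^ (c k) * unit` ("`c ∣ ord`": every place over `j = a` has ramification index `c`, no elliptic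
points), then `f = u * h ^ c` with `u` a unit of `O`.

* `exists_unit_mul_pow_of_dvd_multiplicity` : the UFD lemma in `multiplicity` form;
* `irreducible_gaussRing`, `exists_mul_of_mem_nonunits_gaussRing` : `π` is a uniformiser of `O_(π)`;
* `multiplicity_eq_of_eq_pow_mul` : `f = π ^ m * (unit of O_(π))` ⟹ `multiplicity π f = m`;
* `algebraMap_mem_gaussRing_of_not_dvd` : `π ∤ q` ⟹ `R[1/q] ⊆ O_(π)` (`π` is HORIZONTAL);
* `exists_eq_unit_mul_pow_of_gaussRing` : **(S4)-ABS**.
-/
import Mathlib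
import Fermat.Prelude.Def_AlgebraicCurve_DivisorClassGroup
import Fermat.Agent.GL.Frame.VerticalExt

set_option autoImplicit false

namespace Fermat.Agent.GL.Reg3

open Fermat.Agent.GL.Frame.Vertical Fermat.Agent.GL.Frame.HeightOne

section UFD

variable {O : Type*} [CommRing O] [IsDomain O] [UniqueFactorizationMonoid O]

/-- **UFD lemma**: if `c` divides the multiplicity of every prime element in `x ≠ 0` then `x` is a
unit times a `c`-th power. -/
theorem exists_unit_mul_pow_of_dvd_multiplicity {c : ℕ} (x : O) (hx : x ≠ 0)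
    (H : ∀ π : O, Prime π → c ∣ multiplicity π x) : ∃ (ε : Oˣ) (y : O), x = ε * y ^ c := by
  induction x using UniqueFactorizationMonoid.induction_on_coprime with
  | h0 => exact absurd rfl hx
  | h1 hu =>
    obtain ⟨u, rfl⟩ := hu
    exact ⟨u, 1, by rw [one_pow, mul_one]⟩
  | hpr i hp =>
    rename_i p
    obtain ⟨k, rfl⟩ : c ∣ i := by
      have := H p hp
      rwa [multiplicity_pow_self_of_prime hp] at this
    exact ⟨1, p ^ k, by rw [Units.val_one, one_mul, ← pow_mul, mul_comm]⟩
  | hcp hxy ihx ihy =>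
    rename_i a b
    have ha : a ≠ 0 := left_ne_zero_of_mul hx
    have hb : b ≠ 0 := right_ne_zero_of_mul hx
    have key : ∀ π : O, Prime π → c ∣ multiplicity π a ∧ c ∣ multiplicity π b := by
      intro π hπ
      have hmul := multiplicity_mul hπ (FiniteMultiplicity.of_not_isUnit hπ.not_isUnit hx)
      have hc := H π hπ
      rw [hmul] at hc
      by_cases hπa : π ∣ a
      · have hπb : ¬ π ∣ b := fun hπb => hπ.not_isUnit (hxy hπa hπb)
        have h0 : multiplicity π b = 0 := multiplicity_eq_zero.mpr hπb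
        rw [h0, add_zero] at hc
        exact ⟨hc, h0 ▸ dvd_zero c⟩
      · have h0 : multiplicity π a = 0 := multiplicity_eq_zero.mpr hπa
        rw [h0, zero_add] at hc
        exact ⟨h0 ▸ dvd_zero c, hc⟩
    obtain ⟨ε₁, y₁, h₁⟩ := ihx ha fun π hπ => (key π hπ).1
    obtain ⟨ε₂, y₂, h₂⟩ := ihy hb fun π hπ => (key π hπ).2
    refine ⟨ε₁ * ε₂, y₁ * y₂, ?_⟩
    rw [h₁, h₂, Units.val_mul, mul_pow]
    ring

end UFD

section Gauss

variable {O F : Type*} [CommRing O] [IsDomain O] [Field F] [Algebra O F] [IsFractionRing O F]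
  [IsNoetherianRing O] [IsIntegrallyClosed O]

theorem algebraMap_mem_gaussRing {π : O} (hπ : Prime π) (a : O) :
    algebraMap O F a ∈ gaussRing F hπ :=
  algebraMap_mem_V1 (gaussPrime hπ) a

theorem inv_algebraMap_mem_gaussRing {π : O} (hπ : Prime π) {s : O} (hs : ¬ π ∣ s) :
    (algebraMap O F s)⁻¹ ∈ gaussRing F hπ :=
  inv_algebraMap_mem_V1 (gaussPrime hπ) (by
    rw [gaussPrime_val, Ideal.mem_span_singleton]; exact hs)

omit [IsDomain O] [IsNoetherianRing O] [IsIntegrallyClosed O] in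
theorem algebraMap_ne_zero_of_prime {π : O} (hπ : Prime π) : algebraMap O F π ≠ 0 := fun h =>
  hπ.ne_zero ((map_eq_zero_iff _ (IsFractionRing.injective O F)).1 h)

/-- every non-unit of `O_(π)` is a multiple of `π` in `O_(π)`. -/
theorem exists_mul_of_mem_nonunits_gaussRing {π : O} (hπ : Prime π) {x : F}
    (hx : x ∈ (gaussRing F hπ).nonunits) :
    ∃ y ∈ gaussRing F hπ, x = algebraMap O F π * y := by
  have hxV : x ∈ gaussRing F hπ := ValuationSubring.nonunits_le hx
  obtain ⟨s, hs, a, ha⟩ := (mem_V1_iff (gaussPrime hπ)).1 hxV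
  rw [gaussPrime_val, Ideal.mem_span_singleton] at hs
  rw [Algebra.smul_def] at ha
  have hs0 : algebraMap O F s ≠ 0 := fun h =>
    hs ((map_eq_zero_iff _ (IsFractionRing.injective O F)).1 h ▸ dvd_zero π)
  -- `a = s x` is a non-unit of `O_(π)`, hence divisible by `π`
  have haV : algebraMap O F a ∈ (gaussRing F hπ).nonunits := by
    rw [ha, ValuationSubring.mem_nonunits_iff, map_mul]
    exact mul_lt_one_of_nonneg_of_lt_one_right
      ((ValuationSubring.valuation_le_one_iff _ _).mpr (algebraMap_mem_gaussRing hπ s)) zero_le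
      ((ValuationSubring.mem_nonunits_iff _).mp hx)
  obtain ⟨a', rfl⟩ := (algebraMap_mem_nonunits_gaussRing_iff hπ a).1 haV
  refine ⟨algebraMap O F a' * (algebraMap O F s)⁻¹,
    (gaussRing F hπ).mul_mem _ _ (algebraMap_mem_gaussRing hπ a')
      (inv_algebraMap_mem_gaussRing hπ hs), ?_⟩
  rw [map_mul] at ha
  field_simp
  rw [mul_comm x, ← ha]

/-- `π` is a uniformiser of the DVR `O_(π)`. -/
theorem irreducible_gaussRing {π : O} (hπ : Prime π) :
    Irreducible (⟨algebraMap O F π, algebraMap_mem_gaussRing hπ π⟩ : gaussRing F hπ) := by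
  have hπ0 : algebraMap O F π ≠ 0 := algebraMap_ne_zero_of_prime hπ
  have hnu : ¬ IsUnit (⟨algebraMap O F π, algebraMap_mem_gaussRing hπ π⟩ : gaussRing F hπ) := by
    intro hu
    have h1 : algebraMap O F π ∈ (gaussRing F hπ).nonunits :=
      (algebraMap_mem_nonunits_gaussRing_iff hπ π).2 dvd_rfl
    rw [ValuationSubring.mem_nonunits_iff_exists_mem_maximalIdeal] at h1
    obtain ⟨hmem, hmax⟩ := h1
    exact (IsLocalRing.mem_maximalIdeal _).mp hmax hu
  refine ⟨hnu, ?_⟩
  rintro ⟨x, hx⟩ ⟨y, hy⟩ hxy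
  have hxy' : algebraMap O F π = x * y := congrArg Subtype.val hxy
  by_contra hcon
  push Not at hcon
  obtain ⟨hxu, hyu⟩ := hcon
  have hxn : x ∈ (gaussRing F hπ).nonunits := by
    rw [ValuationSubring.mem_nonunits_iff_exists_mem_maximalIdeal]
    exact ⟨hx, (IsLocalRing.mem_maximalIdeal _).mpr hxu⟩
  have hyn : y ∈ (gaussRing F hπ).nonunits := by
    rw [ValuationSubring.mem_nonunits_iff_exists_mem_maximalIdeal]
    exact ⟨hy, (IsLocalRing.mem_maximalIdeal _).mpr hyu⟩
  obtain ⟨x', hx', rfl⟩ := exists_mul_of_mem_nonunits_gaussRing hπ hxn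
  obtain ⟨y', hy', rfl⟩ := exists_mul_of_mem_nonunits_gaussRing hπ hyn
  -- `π = π² x' y'` gives `π⁻¹ = x' y' ∈ O_(π)`
  apply not_inv_mem_gaussRing (K := F) hπ
  have : (algebraMap O F π)⁻¹ = x' * y' := by
    field_simp
    have h2 : algebraMap O F π * 1 = algebraMap O F π * (algebraMap O F π * (x' * y')) := by
      rw [mul_one]
      calc algebraMap O F π = algebraMap O F π * x' * (algebraMap O F π * y') := hxy'
        _ = algebraMap O F π * (algebraMap O F π * (x' * y')) := by ring
    have h3 := mul_left_cancel₀ hπ0 h2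
    rw [h3]
    ring
  rw [this]
  exact (gaussRing F hπ).mul_mem _ _ hx' hy'

/-- the valuation of `O_(π)` is `1` on a unit. -/
theorem valuation_eq_one_of_mem_of_inv_mem {V : ValuationSubring F} {ε : F} (hε0 : ε ≠ 0)
    (hε : ε ∈ V) (hε' : ε⁻¹ ∈ V) : V.valuation ε = 1 := by
  have h1 : V.valuation ε ≤ 1 := (ValuationSubring.valuation_le_one_iff _ _).mpr hε
  have h2 : V.valuation ε⁻¹ ≤ 1 := (ValuationSubring.valuation_le_one_iff _ _).mpr hε'
  have h3 : V.valuation ε * V.valuation ε⁻¹ = 1 := by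
    rw [← map_mul, mul_inv_cancel₀ hε0, map_one]
  refine le_antisymm h1 ?_
  by_contra hlt
  push Not at hlt
  have : V.valuation ε * V.valuation ε⁻¹ < 1 := mul_lt_one_of_lt_of_le hlt h2
  rw [h3] at this
  exact lt_irrefl _ this

/-- **ord at `O_(π)` is the multiplicity**: if `f = π ^ m * ε` in `F` with `ε` a unit of `O_(π)`,
then `multiplicity π f = m`. -/
theorem multiplicity_eq_of_eq_pow_mul {π : O} (hπ : Prime π) {f : O} (hf0 : f ≠ 0) {m : ℕ}
    {ε : F} (hε : ε ∈ gaussRing F hπ) (hε' : ε⁻¹ ∈ gaussRing F hπ)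
    (hf : algebraMap O F f = algebraMap O F π ^ m * ε) : multiplicity π f = m := by
  have hπ0 : algebraMap O F π ≠ 0 := algebraMap_ne_zero_of_prime hπ
  have hfF : algebraMap O F f ≠ 0 := fun h =>
    hf0 ((map_eq_zero_iff _ (IsFractionRing.injective O F)).1 h)
  have hε0 : ε ≠ 0 := by
    rintro rfl
    rw [mul_zero] at hf
    exact hfF hf
  obtain ⟨k, f', hf', rfl⟩ := WfDvdMonoid.max_power_factor hf0 hπ.irreducible
  have hf'0 : algebraMap O F f' ≠ 0 := fun h =>
    hf' ((map_eq_zero_iff _ (IsFractionRing.injective O F)).1 h ▸ dvd_zero π)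
  set v := (gaussRing F hπ).valuation with hv
  have hvε : v ε = 1 := valuation_eq_one_of_mem_of_inv_mem hε0 hε hε'
  have hvf' : v (algebraMap O F f') = 1 :=
    valuation_eq_one_of_mem_of_inv_mem hf'0 (algebraMap_mem_gaussRing hπ f')
      (inv_algebraMap_mem_gaussRing hπ hf')
  have hvπ1 : v (algebraMap O F π) < 1 :=
    (ValuationSubring.mem_nonunits_iff _).mp
      ((algebraMap_mem_nonunits_gaussRing_iff hπ π).2 dvd_rfl)
  have hvπ0 : 0 < v (algebraMap O F π) := zero_lt_iff.mpr ((Valuation.ne_zero_iff _).mpr hπ0)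
  have hpow : v (algebraMap O F π) ^ k = v (algebraMap O F π) ^ m := by
    have h1 := congrArg v hf
    rw [map_mul, map_pow, map_mul, map_pow, map_mul, map_pow, hvε, hvf', mul_one, mul_one] at h1
    exact h1
  have hkm : k = m := pow_right_injective₀ hvπ0 hvπ1.ne hpow
  subst hkm
  refine multiplicity_eq_of_dvd_of_not_dvd (Dvd.intro _ rfl) ?_
  rintro ⟨d, hd⟩
  apply hf'
  refine ⟨d, ?_⟩
  apply mul_left_cancel₀ (pow_ne_zero k hπ.ne_zero)
  rw [hd]
  ring

end Gauss

section Horizontal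

variable {O F : Type*} [CommRing O] [IsDomain O] [Field F] [Algebra O F] [IsFractionRing O F]
  [IsNoetherianRing O] [IsIntegrallyClosed O]
variable {R K : Type*} [CommRing R] [Field K] [Algebra R K] [Algebra R O] [Algebra K F]
  [Algebra R F] [IsScalarTower R K F] [IsScalarTower R O F]

/-- **a prime element not dividing `q` is horizontal**: if `K = R[1/q]` (every element of `K` is
`r / q ^ n`) and `π ∤ q` in `O`, then the DVR `O_(π)` contains `K`. -/
theorem algebraMap_mem_gaussRing_of_not_dvd {π : O} (hπ : Prime π) {q : R}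
    (hK : ∀ a : K, ∃ (r : R) (n : ℕ), a * algebraMap R K q ^ n = algebraMap R K r)
    (hπq : ¬ π ∣ algebraMap R O q) (a : K) : algebraMap K F a ∈ gaussRing F hπ := by
  obtain ⟨r, n, hrn⟩ := hK a
  have hq0 : algebraMap O F (algebraMap R O q) ≠ 0 := fun h =>
    hπq ((map_eq_zero_iff _ (IsFractionRing.injective O F)).1 h ▸ dvd_zero π)
  have h1 : algebraMap K F a * algebraMap O F (algebraMap R O q) ^ n =
      algebraMap O F (algebraMap R O r) := by
    rw [← IsScalarTower.algebraMap_apply R O F, ← IsScalarTower.algebraMap_apply R O F,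
      IsScalarTower.algebraMap_apply R K F q, IsScalarTower.algebraMap_apply R K F r, ← hrn,
      map_mul, map_pow]
  have h2 : algebraMap K F a =
      algebraMap O F (algebraMap R O r) * ((algebraMap O F (algebraMap R O q))⁻¹) ^ n := by
    rw [← h1, inv_pow, mul_assoc, mul_inv_cancel₀ (pow_ne_zero n hq0), mul_one]
  rw [h2]
  exact (gaussRing F hπ).mul_mem _ _ (algebraMap_mem_gaussRing hπ _)
    (pow_mem (inv_algebraMap_mem_gaussRing hπ hπq) n)

/-- the hypothesis `K = R[1/q]` when `R` is a DVR with uniformiser `q` and `K = Frac R`. -/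
theorem exists_mul_pow_eq_of_irreducible [IsDomain R] [IsDiscreteValuationRing R]
    [IsFractionRing R K] {q : R} (hq : Irreducible q) (a : K) :
    ∃ (r : R) (n : ℕ), a * algebraMap R K q ^ n = algebraMap R K r := by
  obtain ⟨⟨x, s⟩, hxs⟩ := IsLocalization.surj (nonZeroDivisors R) a
  have hs0 : (s : R) ≠ 0 := nonZeroDivisors.ne_zero s.2
  obtain ⟨n, u, hu⟩ := IsDiscreteValuationRing.eq_unit_mul_pow_irreducible hs0 hq
  refine ⟨↑u⁻¹ * x, n, ?_⟩
  have h1 : a * algebraMap R K (s : R) = algebraMap R K x := hxs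
  rw [map_mul, ← h1, hu, map_mul, map_pow]
  have h2 : algebraMap R K ↑u⁻¹ * algebraMap R K ↑u = 1 := by
    rw [← map_mul, Units.inv_mul, map_one]
  calc a * algebraMap R K q ^ n = (algebraMap R K ↑u⁻¹ * algebraMap R K ↑u) *
        (a * algebraMap R K q ^ n) := by rw [h2, one_mul]
    _ = algebraMap R K ↑u⁻¹ * (a * (algebraMap R K ↑u * algebraMap R K q ^ n)) := by ring

end Horizontal

section Main

variable {O F : Type*} [CommRing O] [IsDomain O] [Field F] [Algebra O F] [IsFractionRing O F]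
  [IsNoetherianRing O] [UniqueFactorizationMonoid O]

/-- **(S4)-ABS**: `O` a noetherian UFD, `f ≠ 0`; if at the DVR `O_(π)` of every prime factor `π` of
`f` one has `f = π ^ (c * k) * (unit of O_(π))`, then `f = u * h ^ c` with `u` a unit of `O`. -/
theorem exists_eq_unit_mul_pow_of_gaussRing {f : O} (hf0 : f ≠ 0) {c : ℕ}
    (H : ∀ (π : O) (hπ : Prime π), π ∣ f → ∃ (k : ℕ) (ε : F), ε ∈ gaussRing F hπ ∧
      ε⁻¹ ∈ gaussRing F hπ ∧ algebraMap O F f = algebraMap O F π ^ (c * k) * ε) :
    ∃ (u : Oˣ) (h : O), f = u * h ^ c := by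
  refine exists_unit_mul_pow_of_dvd_multiplicity f hf0 fun π hπ => ?_
  by_cases hπf : π ∣ f
  · obtain ⟨k, ε, hε, hε', hf⟩ := H π hπ hπf
    rw [multiplicity_eq_of_eq_pow_mul (F := F) hπ hf0 hε hε' hf]
    exact Dvd.intro k rfl
  · rw [multiplicity_eq_zero.mpr hπf]
    exact dvd_zero c

/-- (S4)-ABS in uniformiser form: at every prime factor `π` of `f` there are a uniformiser `t` of
`O_(π)` (any element with `t / π` a unit of `O_(π)`) and a unit `ε` with `f = t ^ (c * k) * ε`. -/
theorem exists_eq_unit_mul_pow_of_gaussRing' {f : O} (hf0 : f ≠ 0) {c : ℕ}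
    (H : ∀ (π : O) (hπ : Prime π), π ∣ f → ∃ (k : ℕ) (t ε : F),
      t / algebraMap O F π ∈ gaussRing F hπ ∧ (t / algebraMap O F π)⁻¹ ∈ gaussRing F hπ ∧
      ε ∈ gaussRing F hπ ∧ ε⁻¹ ∈ gaussRing F hπ ∧ algebraMap O F f = t ^ (c * k) * ε) :
    ∃ (u : Oˣ) (h : O), f = u * h ^ c := by
  refine exists_eq_unit_mul_pow_of_gaussRing (F := F) hf0 fun π hπ hπf => ?_
  obtain ⟨k, t, ε, ht, ht', hε, hε', hf⟩ := H π hπ hπf
  have hπ0 : algebraMap O F π ≠ 0 := algebraMap_ne_zero_of_prime hπ
  refine ⟨k, (t / algebraMap O F π) ^ (c * k) * ε,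
    (gaussRing F hπ).mul_mem _ _ (pow_mem ht _) hε, ?_, ?_⟩
  · rw [mul_inv, ← inv_pow]
    exact (gaussRing F hπ).mul_mem _ _ (pow_mem ht' _) hε'
  · rw [hf, div_pow]
    field_simp

end Main

section PlaceForm

open Fermat.Agent.GL.KrullHeightOne AlgebraicCurve

variable {O F : Type*} [CommRing O] [IsDomain O] [Field F] [Algebra O F] [IsFractionRing O F]
  [IsNoetherianRing O] [IsIntegrallyClosed O]

/-- the identity, as a ring isomorphism between the two incarnations of `O_𝔭 ⊆ F`. -/
noncomputable def locSubEquivValSub (𝔭 : Ideal O) [𝔭.IsPrime] (h1 : 𝔭.height = 1) :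
    ↥(locSub F 𝔭) ≃+* ↥(valSub (F := F) 𝔭 h1) where
  toFun x := ⟨x.1, (mem_valSub_iff 𝔭 h1).2 ((mem_locSub_iff 𝔭).1 x.2)⟩
  invFun x := ⟨x.1, (mem_locSub_iff 𝔭).2 ((mem_valSub_iff 𝔭 h1).1 x.2)⟩
  left_inv _ := rfl
  right_inv _ := rfl
  map_mul' _ _ := rfl
  map_add' _ _ := rfl

/-- `O_(π)` is a discrete valuation ring. -/
instance isDiscreteValuationRing_gaussRing {π : O} (hπ : Prime π) :
    IsDiscreteValuationRing ↥(gaussRing F hπ) := by
  have := isDiscreteValuationRing_locSub (F := F) (gaussPrime hπ).1 (gaussPrime hπ).2.2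
  show IsDiscreteValuationRing ↥(valSub (F := F) (gaussPrime hπ).1 (gaussPrime hπ).2.2)
  exact IsDiscreteValuationRing.RingEquivClass.isDiscreteValuationRing
    (locSubEquivValSub (F := F) (gaussPrime hπ).1 (gaussPrime hπ).2.2)

variable {K : Type*} [Field K] [Algebra K F]

/-- the place of `F / K` defined by a HORIZONTAL prime element `π` of `O` (`K ⊆ O_(π)`). -/
noncomputable def placeOfPrime {π : O} (hπ : Prime π)
    (hK : ∀ a : K, algebraMap K F a ∈ gaussRing F hπ) : Place K F where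
  toValuationSubring := gaussRing F hπ
  algebraMap_mem' := hK
  ne_top' := fun h => not_inv_mem_gaussRing (K := F) hπ (h ▸ ValuationSubring.mem_top _)
  isPrincipalIdealRing' := inferInstance

@[simp]
theorem placeOfPrime_toValuationSubring {π : O} (hπ : Prime π)
    (hK : ∀ a : K, algebraMap K F a ∈ gaussRing F hπ) :
    (placeOfPrime hπ hK).toValuationSubring = gaussRing F hπ := rfl

/-- **`ord` at the place of a horizontal prime element is the multiplicity.** -/
theorem ord_placeOfPrime {π : O} (hπ : Prime π)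
    (hK : ∀ a : K, algebraMap K F a ∈ gaussRing F hπ) {f : O} (hf0 : f ≠ 0) :
    (placeOfPrime hπ hK).ord (algebraMap O F f) = (multiplicity π f : ℤ) := by
  set v := placeOfPrime hπ hK with hv
  obtain ⟨k, f', hf', rfl⟩ := WfDvdMonoid.max_power_factor hf0 hπ.irreducible
  have hπ0 : algebraMap O F π ≠ 0 := algebraMap_ne_zero_of_prime hπ
  have hf'0 : algebraMap O F f' ≠ 0 := fun h =>
    hf' ((map_eq_zero_iff _ (IsFractionRing.injective O F)).1 h ▸ dvd_zero π)
  -- `ord π = 1`
  have hordπ : v.ord (algebraMap O F π) = 1 :=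
    v.ord_coe_irreducible (π := ⟨algebraMap O F π, algebraMap_mem_gaussRing hπ π⟩)
      (irreducible_gaussRing hπ)
  -- `ord f' = 0`
  have hordf' : v.ord (algebraMap O F f') = 0 := by
    have hu : IsUnit (⟨algebraMap O F f', algebraMap_mem_gaussRing hπ f'⟩ :
        v.toValuationSubring) := by
      refine IsUnit.of_mul_eq_one
        (⟨(algebraMap O F f')⁻¹, inv_algebraMap_mem_gaussRing hπ hf'⟩ : v.toValuationSubring) ?_
      apply Subtype.ext
      show algebraMap O F f' * (algebraMap O F f')⁻¹ = 1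
      exact mul_inv_cancel₀ hf'0
    obtain ⟨u, hu⟩ := hu
    have := v.ord_coe_unit u
    rwa [hu] at this
  have hmult : multiplicity π (π ^ k * f') = k := by
    refine multiplicity_eq_of_dvd_of_not_dvd (Dvd.intro _ rfl) ?_
    rintro ⟨d, hd⟩
    apply hf'
    refine ⟨d, ?_⟩
    apply mul_left_cancel₀ (pow_ne_zero k hπ.ne_zero)
    rw [hd]
    ring
  rw [hmult, map_mul, map_pow, v.ord_mul (pow_ne_zero k hπ0) hf'0, hordf', add_zero,
    ← zpow_natCast, v.ord_zpow, hordπ, mul_one]

end PlaceForm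

section MainPlace

open AlgebraicCurve

variable {O F : Type*} [CommRing O] [IsDomain O] [Field F] [Algebra O F] [IsFractionRing O F]
  [IsNoetherianRing O] [UniqueFactorizationMonoid O]
variable {K : Type*} [Field K] [Algebra K F]

/-- **(S4)-ABS, place form**: `O` a noetherian UFD with fraction field `F ⊇ K`, `f ≠ 0` all of
whose prime factors are horizontal (`K ⊆ O_(π)`), and `c ∣ v.ord f` at every place `v` of `F / K`
which is a zero of `f`.  Then `f = u * h ^ c` with `u` a unit of `O`. -/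
theorem exists_eq_unit_mul_pow_of_places {f : O} (hf0 : f ≠ 0) {c : ℕ}
    (hhoriz : ∀ (π : O) (hπ : Prime π), π ∣ f → ∀ a : K, algebraMap K F a ∈ gaussRing F hπ)
    (Hord : ∀ v : Place K F, 0 < v.ord (algebraMap O F f) →
      (c : ℤ) ∣ v.ord (algebraMap O F f)) :
    ∃ (u : Oˣ) (h : O), f = u * h ^ c := by
  refine exists_unit_mul_pow_of_dvd_multiplicity f hf0 fun π hπ => ?_
  by_cases hπf : π ∣ f
  · have hord := ord_placeOfPrime (F := F) hπ (hhoriz π hπ hπf) hf0
    have hpos : 0 < multiplicity π f := by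
      rw [Nat.pos_iff_ne_zero, Ne, multiplicity_eq_zero]
      exact not_not.mpr hπf
    have := Hord (placeOfPrime hπ (hhoriz π hπ hπf)) (by rw [hord]; exact_mod_cast hpos)
    rw [hord] at this
    exact_mod_cast this
  · rw [multiplicity_eq_zero.mpr hπf]
    exact dvd_zero c

end MainPlace

section Final

open AlgebraicCurve

variable {O F : Type*} [CommRing O] [IsDomain O] [Field F] [Algebra O F] [IsFractionRing O F]
  [IsNoetherianRing O] [UniqueFactorizationMonoid O]
variable {R K : Type*} [CommRing R] [Field K] [Algebra R K] [Algebra R O] [Algebra K F]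
  [Algebra R F] [IsScalarTower R K F] [IsScalarTower R O F]

omit [Field F] [Algebra O F] [IsFractionRing O F] [IsNoetherianRing O]
  [UniqueFactorizationMonoid O] in
/-- a prime factor of `f` does not divide a prime element `q` with `q ∤ f`. -/
theorem not_dvd_of_dvd_of_not_dvd {π q f : O} (hπ : Prime π) (hq : Prime q) (hπf : π ∣ f)
    (hqf : ¬ q ∣ f) : ¬ π ∣ q := by
  rintro ⟨s, hs⟩
  rcases hq.dvd_or_dvd (hs ▸ dvd_rfl : q ∣ π * s) with h | h
  · exact hqf (h.trans hπf)
  · obtain ⟨s', rfl⟩ := h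
    apply hπ.not_isUnit
    refine IsUnit.of_mul_eq_one s' ?_
    apply mul_left_cancel₀ hq.ne_zero
    rw [mul_one]
    calc q * (π * s') = π * (q * s') := by ring
      _ = q := hs.symm

/-- **(S4)-ABS, consumer form**: `R → O` with `q ∈ R` a prime element of the noetherian UFD `O`
(REG3 / FIX C: `O ⧸ (q)` is the local ring of the residue curve), `K = R[1/q] ⊆ F = Frac O`,
`f ∈ O` not divisible by `q` (its reduction is not zero), and `c ∣ v.ord f` at every zero `v` of `f`
among the places of `F / K`.  Then `f = u * h ^ c` with `u` a unit of `O`. -/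
theorem exists_eq_unit_mul_pow_of_places_of_prime {q : R}
    (hK : ∀ a : K, ∃ (r : R) (n : ℕ), a * algebraMap R K q ^ n = algebraMap R K r)
    (hq : Prime (algebraMap R O q)) {f : O} (hf0 : f ≠ 0) (hqf : ¬ algebraMap R O q ∣ f) {c : ℕ}
    (Hord : ∀ v : Place K F, 0 < v.ord (algebraMap O F f) →
      (c : ℤ) ∣ v.ord (algebraMap O F f)) :
    ∃ (u : Oˣ) (h : O), f = u * h ^ c :=
  exists_eq_unit_mul_pow_of_places (K := K) hf0
    (fun _ hπ hπf => algebraMap_mem_gaussRing_of_not_dvd hπ hK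
      (not_dvd_of_dvd_of_not_dvd hπ hq hπf hqf)) Hord

end Final

end Fermat.Agent.GL.Reg3
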