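/-
GATE-L / (S4)-INST, abstract half (helper25): the local ring of an arithmetic surface at a closed
point of a GOOD-REDUCTION chart.

`B` a noetherian domain, `red : B → C` a surjection onto a Dedekind domain with principal kernel
`(π)` (`π = q`), `v` a closed point of `C`, `𝔫 = red⁻¹(P_v)`, `O = B_𝔫`.

* `exists_local_uniformizer` (Dedekind): `ϖ ∈ P`, `s ∉ P` with `s · P ⊆ (ϖ)`.
* `exists_maximalIdeal_eq` : `𝔪_O = (π, y)`, `y` a lift of `ϖ`.
* `ufd`, `prime_algebraMap` : `O` is a noetherian UFD (helper93 `RegTwo.ufd`) in which `π` is a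
  prime element.
* `exists_eq_unit_mul_pow` (**(S4) in `O`**): `f ∈ B`, `red f ≠ 0`, `c ∣ ord_w f` at every zero
  `w` of `f` among the prelude places of `F / K` `⟹ f = u · h ^ c` in `O`
  (helper50 `HorizFactor.exists_eq_unit_mul_pow_of_places_of_prime`).
* `dvd_of_places` (**(DIV_c)**): under the same hypotheses `c ∣ ord_P (red f)`, in the
  `intValuation` binder shape of helper95 `SmallQThick` / helper65 `FixCNode`.
-/
import Fermat.Agent.GL.Reg3.HorizFactor
import Fermat.Agent.GL.Alg.RegTwoUFD
import Fermat.Agent.GL.Thick.SmallQDiv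

set_option autoImplicit false

noncomputable section

namespace Fermat.Agent.GL.Reg3.GoodRed

open IsLocalRing IsDedekindDomain IsDedekindDomain.HeightOneSpectrum WithZero

section Dedekind

variable {C : Type*} [CommRing C] [IsDedekindDomain C] (v : HeightOneSpectrum C)

/-- a uniformiser at `v`, with the local generation property in fraction-free form -/
theorem exists_local_uniformizer :
    ∃ ϖ : C, ϖ ≠ 0 ∧ ϖ ∈ v.asIdeal ∧
      ∃ s : C, s ∉ v.asIdeal ∧ ∀ x ∈ v.asIdeal, ∃ t : C, s * x = ϖ * t := by
  obtain ⟨ϖ, hϖ⟩ := v.intValuation_exists_uniformizer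
  have hϖ0 : ϖ ≠ 0 := by
    rintro rfl
    rw [map_zero] at hϖ
    exact (WithZero.exp_ne_zero).symm hϖ
  have hmem : ϖ ∈ v.asIdeal := by
    rw [← v.intValuation_lt_one_iff_mem, hϖ, ← exp_zero, exp_lt_exp]
    norm_num
  obtain ⟨J, hJ⟩ := Ideal.dvd_span_singleton.mpr hmem
  have hJP : ¬ J ≤ v.asIdeal := by
    intro hle
    have h2 : ϖ ∈ v.asIdeal ^ 2 := by
      have h1 : ϖ ∈ Ideal.span {ϖ} := Ideal.mem_span_singleton_self ϖ
      rw [hJ] at h1
      rw [sq]
      exact Ideal.mul_mono_right hle h1
    have h3 := (v.intValuation_le_pow_iff_mem ϖ 2).mpr h2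
    rw [hϖ, exp_le_exp] at h3
    norm_num at h3
  obtain ⟨s, hsJ, hsP⟩ := SetLike.not_le_iff_exists.mp hJP
  refine ⟨ϖ, hϖ0, hmem, s, hsP, fun x hx => ?_⟩
  have h1 : x * s ∈ Ideal.span {ϖ} := by
    rw [hJ]
    exact Ideal.mul_mem_mul hx hsJ
  obtain ⟨t, ht⟩ := Ideal.mem_span_singleton'.mp h1
  exact ⟨t, by rw [mul_comm s x, ← ht, mul_comm]⟩

end Dedekind

section Local

variable {B C : Type*} [CommRing B] [IsDomain B] [CommRing C] [IsDedekindDomain C]
  (red : B →+* C) (hsurj : Function.Surjective red) {π : B} (hπ0 : π ≠ 0)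
  (hker : RingHom.ker red = Ideal.span {π}) (v : HeightOneSpectrum C)
  (O : Type*) [CommRing O] [Algebra B O] [IsLocalization.AtPrime O (v.asIdeal.comap red)]

include red v

theorem algebraMap_injective : Function.Injective (algebraMap B O) :=
  IsLocalization.injective O (v.asIdeal.comap red).primeCompl_le_nonZeroDivisors

theorem isDomain : IsDomain O := IsLocalization.isDomain_of_atPrime O (v.asIdeal.comap red)

theorem isLocalRing : IsLocalRing O := IsLocalization.AtPrime.isLocalRing O (v.asIdeal.comap red)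

theorem isNoetherianRing [IsNoetherianRing B] : IsNoetherianRing O :=
  IsLocalization.isNoetherianRing (v.asIdeal.comap red).primeCompl O inferInstance

include hker in
theorem pi_mem_centre : π ∈ v.asIdeal.comap red := by
  have h1 : π ∈ RingHom.ker red := by
    rw [hker]
    exact Ideal.mem_span_singleton_self π
  rw [Ideal.mem_comap, (RingHom.mem_ker).mp h1]
  exact Ideal.zero_mem _

theorem red_ne_zero_of_notMem {s : B} (hs : s ∉ v.asIdeal.comap red) : red s ≠ 0 := by
  intro h0
  apply hs
  rw [Ideal.mem_comap, h0]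
  exact Ideal.zero_mem _

include hker in
/-- `π ∣ z` in `O` forces `red z = 0` (`z ∈ B`) -/
theorem red_eq_zero_of_dvd {z : B} (h : algebraMap B O π ∣ algebraMap B O z) : red z = 0 := by
  obtain ⟨w, hw⟩ := h
  obtain ⟨⟨b, s⟩, hbs⟩ := IsLocalization.mk'_surjective (v.asIdeal.comap red).primeCompl w
  have h1 : w * algebraMap B O (s : B) = algebraMap B O b :=
    (IsLocalization.eq_mk'_iff_mul_eq).mp hbs.symm
  have h2 : algebraMap B O (z * (s : B)) = algebraMap B O (π * b) := by
    rw [map_mul, map_mul, hw, mul_assoc, h1]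
  have h3 : z * (s : B) = π * b := algebraMap_injective red v O h2
  have h4 : red z * red (s : B) = 0 := by
    rw [← map_mul, h3, map_mul]
    have : π ∈ RingHom.ker red := by
      rw [hker]
      exact Ideal.mem_span_singleton_self π
    rw [(RingHom.mem_ker).mp this, zero_mul]
  exact (mul_eq_zero.mp h4).resolve_right (red_ne_zero_of_notMem red v s.2)

include hsurj hker in
/-- **`𝔪_O = (π, y)`**, `y` a lift of a uniformiser at `v` -/
theorem exists_maximalIdeal_eq (hloc : IsLocalRing O) :
    ∃ y : B, y ∈ v.asIdeal.comap red ∧ red y ≠ 0 ∧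
      maximalIdeal O = Ideal.span {algebraMap B O π, algebraMap B O y} := by
  obtain ⟨ϖ, hϖ0, hϖP, s₀, hs₀, hgen⟩ := exists_local_uniformizer v
  obtain ⟨y, rfl⟩ := hsurj ϖ
  obtain ⟨s, rfl⟩ := hsurj s₀
  refine ⟨y, hϖP, hϖ0, ?_⟩
  rw [← IsLocalization.AtPrime.map_eq_maximalIdeal (v.asIdeal.comap red) O]
  apply le_antisymm
  · rw [Ideal.map_le_iff_le_comap]
    intro z hz
    rw [Ideal.mem_comap]
    obtain ⟨t₀, ht₀⟩ := hgen (red z) hz
    obtain ⟨t, rfl⟩ := hsurj t₀
    have h1 : s * z - y * t ∈ RingHom.ker red := by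
      rw [RingHom.mem_ker, map_sub, map_mul, map_mul, ht₀, sub_self]
    rw [hker] at h1
    obtain ⟨b, hb⟩ := Ideal.mem_span_singleton'.mp h1
    have hsu : IsUnit (algebraMap B O s) :=
      (IsLocalization.AtPrime.isUnit_to_map_iff O (v.asIdeal.comap red) s).mpr hs₀
    obtain ⟨u, hu⟩ := hsu
    have h2 : algebraMap B O z =
        ((u⁻¹ : Oˣ) : O) * algebraMap B O b * algebraMap B O π +
          ((u⁻¹ : Oˣ) : O) * algebraMap B O t * algebraMap B O y := by
      have h3 : s * z = b * π + y * t := by rw [hb]; ring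
      have h4 := congrArg (algebraMap B O) h3
      rw [map_mul, map_add, map_mul, map_mul, ← hu] at h4
      calc algebraMap B O z = ((u⁻¹ : Oˣ) : O) * ((u : O) * algebraMap B O z) := by
            rw [← mul_assoc, Units.inv_mul, one_mul]
        _ = _ := by rw [h4]; ring
    rw [h2]
    refine Ideal.add_mem _ (Ideal.mul_mem_left _ _ (Ideal.subset_span ?_))
      (Ideal.mul_mem_left _ _ (Ideal.subset_span ?_))
    · exact Set.mem_insert _ _
    · exact Set.mem_insert_of_mem _ rfl
  · rw [Ideal.span_le]
    rintro x (rfl | hx)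
    · exact Ideal.mem_map_of_mem _ (pi_mem_centre red hker v)
    · rw [Set.mem_singleton_iff] at hx
      rw [hx]
      exact Ideal.mem_map_of_mem _ hϖP

include hπ0 in
theorem algebraMap_pi_ne_zero : algebraMap B O π ≠ 0 := fun h0 =>
  hπ0 (algebraMap_injective red v O (by rw [h0, map_zero]))

include hπ0 hker in
/-- **`π` is a prime element of `O`** -/
theorem prime_algebraMap : Prime (algebraMap B O π) := by
  have hdisj : Disjoint ((v.asIdeal.comap red).primeCompl : Set B) (RingHom.ker red : Set B) := by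
    rw [Set.disjoint_left]
    intro x hx hx'
    apply hx
    rw [SetLike.mem_coe, RingHom.mem_ker] at hx'
    show x ∈ v.asIdeal.comap red
    rw [Ideal.mem_comap, hx']
    exact Ideal.zero_mem _
  have hp := IsLocalization.isPrime_of_isPrime_disjoint (v.asIdeal.comap red).primeCompl O
    (RingHom.ker red) (RingHom.ker_isPrime red) hdisj
  rw [hker, Ideal.map_span, Set.image_singleton] at hp
  exact (Ideal.span_singleton_prime (algebraMap_pi_ne_zero red hπ0 v O)).mp hp

include hsurj hπ0 hker in
/-- **`O` is a UFD** -/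
theorem ufd [IsNoetherianRing B] : UniqueFactorizationMonoid O := by
  haveI := isDomain red v O
  haveI hloc := isLocalRing red v O
  haveI := isNoetherianRing red v O
  obtain ⟨y, hyc, hy0, hm⟩ := exists_maximalIdeal_eq red hsurj hker v O hloc
  have hprime := prime_algebraMap red hπ0 hker v O
  refine Fermat.Agent.GL.RegTwo.ufd hm ⟨Ideal.span {algebraMap B O π}, ?_, ?_, ?_⟩
  · exact (Ideal.span_singleton_prime hprime.ne_zero).mpr hprime
  · rw [Ne, Ideal.span_singleton_eq_bot]
    exact hprime.ne_zero
  · intro h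
    have hy : algebraMap B O y ∈ Ideal.span {algebraMap B O π} := by
      rw [h, hm]
      exact Ideal.subset_span (Set.mem_insert_of_mem _ rfl)
    exact hy0 (red_eq_zero_of_dvd red hker v O (Ideal.mem_span_singleton.mp hy))

end Local

section Factor

open AlgebraicCurve

variable {R K B F C : Type*} [CommRing R] [Field K] [Algebra R K]
  [CommRing B] [IsDomain B] [IsNoetherianRing B] [Algebra R B]
  [Field F] [Algebra B F] [IsFractionRing B F] [Algebra K F] [Algebra R F]
  [IsScalarTower R K F] [IsScalarTower R B F]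
  [CommRing C] [IsDedekindDomain C]
  (red : B →+* C) (hsurj : Function.Surjective red) {q : R} (hq0 : algebraMap R B q ≠ 0)
  (hker : RingHom.ker red = Ideal.span {algebraMap R B q})
  (hK : ∀ a : K, ∃ (r : R) (n : ℕ), a * algebraMap R K q ^ n = algebraMap R K r)
  (v : HeightOneSpectrum C)
  (O : Type*) [CommRing O] [Algebra B O] [IsLocalization.AtPrime O (v.asIdeal.comap red)]
  [Algebra O F] [IsScalarTower B O F]

include hsurj hq0 hker hK v in
/-- **(S4) in the local ring `O = B_𝔫`**: `f = u · h ^ c`. -/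
theorem exists_eq_unit_mul_pow {f : B} (hf : red f ≠ 0) {c : ℕ}
    (Hord : ∀ w : Place K F, 0 < w.ord (algebraMap B F f) →
      (c : ℤ) ∣ w.ord (algebraMap B F f)) :
    ∃ (u : Oˣ) (h : O), algebraMap B O f = u * h ^ c := by
  haveI := isDomain red v O
  haveI := isNoetherianRing red v O
  haveI := ufd red hsurj hq0 hker v O
  haveI : IsFractionRing O F :=
    IsFractionRing.isFractionRing_of_isDomain_of_isLocalization
      (v.asIdeal.comap red).primeCompl O F
  letI : Algebra R O := ((algebraMap B O).comp (algebraMap R B)).toAlgebra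
  haveI : IsScalarTower R O F := IsScalarTower.of_algebraMap_eq fun r => by
    show algebraMap R F r = algebraMap O F (algebraMap B O (algebraMap R B r))
    rw [← IsScalarTower.algebraMap_apply B O F, ← IsScalarTower.algebraMap_apply R B F]
  have hprime : Prime (algebraMap R O q) := prime_algebraMap red hq0 hker v O
  have hf0 : algebraMap B O f ≠ 0 := fun h0 =>
    hf (by
      have := algebraMap_injective red v O (show algebraMap B O f = algebraMap B O 0 by
        rw [h0, map_zero])
      rw [this, map_zero])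
  have hqf : ¬ algebraMap R O q ∣ algebraMap B O f := fun hdvd =>
    hf (red_eq_zero_of_dvd red hker v O hdvd)
  refine exists_eq_unit_mul_pow_of_places_of_prime (R := R) (K := K) (F := F) hK hprime hf0 hqf
    (fun w hw => ?_)
  rw [← IsScalarTower.algebraMap_apply B O F] at hw ⊢
  exact Hord w hw

include hsurj hq0 hker hK in
/-- **(DIV_c)**: `c ∣ ord_P (red f)`, in the `intValuation` binder shape of the (III)-producers.
The statement does not mention `O`. -/
theorem dvd_of_places {f : B} (hf : red f ≠ 0) {c : ℕ}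
    (Hord : ∀ w : Place K F, 0 < w.ord (algebraMap B F f) →
      (c : ℤ) ∣ w.ord (algebraMap B F f)) :
    ∀ n : ℕ, v.intValuation (red f) = exp (-(n : ℤ)) → c ∣ n := by
  -- the concrete local ring
  let O' := Localization.AtPrime (v.asIdeal.comap red)
  letI : Algebra O' F :=
    (IsLocalization.lift (M := (v.asIdeal.comap red).primeCompl) (S := O')
      (g := algebraMap B F) (fun s => by
        have hs0 : (s : B) ≠ 0 := fun h0 => s.2 (by rw [h0]; exact Ideal.zero_mem _)
        exact IsUnit.mk0 _ ((map_ne_zero_iff _ (IsFractionRing.injective B F)).mpr hs0))).toAlgebra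
  haveI : IsScalarTower B O' F := IsScalarTower.of_algebraMap_eq fun b =>
    (IsLocalization.lift_eq _ b).symm
  obtain ⟨u, h, huh⟩ := exists_eq_unit_mul_pow red hsurj hq0 hker hK v O' hf Hord
  obtain ⟨⟨a, s₁⟩, ha⟩ := IsLocalization.mk'_surjective (v.asIdeal.comap red).primeCompl (u : O')
  obtain ⟨⟨b, s₂⟩, hb⟩ := IsLocalization.mk'_surjective (v.asIdeal.comap red).primeCompl h
  have h1 : (u : O') * algebraMap B O' (s₁ : B) = algebraMap B O' a :=
    (IsLocalization.eq_mk'_iff_mul_eq).mp ha.symm
  have h2 : h * algebraMap B O' (s₂ : B) = algebraMap B O' b :=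
    (IsLocalization.eq_mk'_iff_mul_eq).mp hb.symm
  have h3 : algebraMap B O' ((s₁ : B) * (s₂ : B) ^ c * f) = algebraMap B O' (a * b ^ c) := by
    rw [map_mul, map_mul, map_pow, map_mul, map_pow, huh, ← h1, ← h2]
    ring
  have h4 : (s₁ : B) * (s₂ : B) ^ c * f = a * b ^ c := algebraMap_injective red v O' h3
  have ha' : a ∉ v.asIdeal.comap red := by
    have hu : IsUnit (algebraMap B O' a) := by
      rw [← h1]
      exact u.isUnit.mul
        ((IsLocalization.AtPrime.isUnit_to_map_iff O' (v.asIdeal.comap red) _).mpr s₁.2)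
    exact (IsLocalization.AtPrime.isUnit_to_map_iff O' (v.asIdeal.comap red) a).mp hu
  have hs : (s₁ : B) * (s₂ : B) ^ c ∉ v.asIdeal.comap red := by
    intro hmem
    rcases (Ideal.IsPrime.mem_or_mem inferInstance hmem) with h | h
    · exact s₁.2 h
    · exact s₂.2 (Ideal.IsPrime.mem_of_pow_mem inferInstance c h)
  refine Fermat.Agent.GL.SmallQ.dvd_of_mul_eq_mul_pow v (s := red ((s₁ : B) * (s₂ : B) ^ c))
    (u := red a) (h := red b) hs ha' hf ?_
  rw [← map_mul, h4, map_mul, map_pow]

end Factor

end Fermat.Agent.GL.Reg3.GoodRed
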