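/-
GATE-L / (S4)-INST, abstract half, PRIME form (helper25): `GoodRedLocal` at an ARBITRARY prime
`𝔫` of `B` containing `q` and some element with non-zero reduction (such an `𝔫` is automatically
the preimage of a closed point of the Dedekind domain `C`; no maximality hypothesis).

* `exists_heightOne_eq` : `𝔫 = red⁻¹(P_v)` for a (unique) closed point `v` of `C`;
* `ufd_of_prime`, `prime_algebraMap_of_prime` : `O = B_𝔫` is a noetherian UFD with `π` prime;
* `exists_eq_unit_mul_pow_of_prime` : **(S4)** `f = u · h ^ c` in `O`.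
-/
import Fermat.Agent.GL.Reg3.GoodRedLocal
import Fermat.Agent.GL.Frame.Chart

set_option autoImplicit false

noncomputable section

namespace Fermat.Agent.GL.Reg3.GoodRed

open IsLocalRing IsDedekindDomain IsDedekindDomain.HeightOneSpectrum

section Prime

variable {B C : Type*} [CommRing B] [IsDomain B] [CommRing C] [IsDedekindDomain C]
  (red : B →+* C) (hsurj : Function.Surjective red) {π : B}
  (hker : RingHom.ker red = Ideal.span {π})

include hsurj hker in
/-- a prime of `B` containing `π` and an element with non-zero reduction is the preimage of a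
closed point of `C` -/
theorem exists_heightOne_eq (𝔫 : Ideal B) [𝔫.IsPrime] (hπ𝔫 : π ∈ 𝔫) {z : B} (hz : z ∈ 𝔫)
    (hz0 : red z ≠ 0) : ∃ v : HeightOneSpectrum C, 𝔫 = v.asIdeal.comap red := by
  have hle : RingHom.ker red ≤ 𝔫 := by
    rw [hker, Ideal.span_le]
    rintro _ rfl
    exact hπ𝔫
  have hprime : (𝔫.map red).IsPrime := Ideal.map_isPrime_of_surjective hsurj hle
  have hcomap : (𝔫.map red).comap red = 𝔫 := by
    rw [Ideal.comap_map_of_surjective red hsurj, ← RingHom.ker_eq_comap_bot]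
    exact sup_eq_left.mpr hle
  have hne : 𝔫.map red ≠ ⊥ := by
    intro h0
    have : red z ∈ 𝔫.map red := Ideal.mem_map_of_mem red hz
    rw [h0, Ideal.mem_bot] at this
    exact hz0 this
  exact ⟨⟨𝔫.map red, hprime, hne⟩, hcomap.symm⟩

variable (𝔫 : Ideal B) [𝔫.IsPrime] (O : Type*) [CommRing O] [Algebra B O]
  [IsLocalization.AtPrime O 𝔫]

include hsurj hker in
/-- **`O = B_𝔫` is a UFD** -/
theorem ufd_of_prime [IsNoetherianRing B] (hπ0 : π ≠ 0) (hπ𝔫 : π ∈ 𝔫) {z : B} (hz : z ∈ 𝔫)
    (hz0 : red z ≠ 0) : UniqueFactorizationMonoid O := by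
  obtain ⟨v, hv⟩ := exists_heightOne_eq red hsurj hker 𝔫 hπ𝔫 hz hz0
  subst hv
  exact ufd red hsurj hπ0 hker v O

include hsurj hker in
/-- **`π` is a prime element of `O = B_𝔫`** -/
theorem prime_algebraMap_of_prime (hπ0 : π ≠ 0) (hπ𝔫 : π ∈ 𝔫) {z : B} (hz : z ∈ 𝔫)
    (hz0 : red z ≠ 0) : Prime (algebraMap B O π) := by
  obtain ⟨v, hv⟩ := exists_heightOne_eq red hsurj hker 𝔫 hπ𝔫 hz hz0
  subst hv
  exact prime_algebraMap red hπ0 hker v O

end Prime

section Factor

open AlgebraicCurve

variable {R K B F C : Type*} [CommRing R] [Field K] [Algebra R K]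
  [CommRing B] [IsDomain B] [IsNoetherianRing B] [Algebra R B]
  [Field F] [Algebra B F] [IsFractionRing B F] [Algebra K F] [Algebra R F]
  [IsScalarTower R K F] [IsScalarTower R B F]
  [CommRing C] [IsDedekindDomain C]
  (red : B →+* C) (hsurj : Function.Surjective red) {q : R} (hq0 : algebraMap R B q ≠ 0)
  (hker : RingHom.ker red = Ideal.span {algebraMap R B q})
  (hK : ∀ a : K, ∃ (r : R) (n : ℕ), a * algebraMap R K q ^ n = algebraMap R K r)
  (𝔫 : Ideal B) [𝔫.IsPrime]
  (O : Type*) [CommRing O] [Algebra B O] [IsLocalization.AtPrime O 𝔫]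
  [Algebra O F] [IsScalarTower B O F]

include hsurj hq0 hker hK in
/-- **(S4) in `O = B_𝔫`**, `𝔫` any prime containing `q` and `f` (`red f ≠ 0`): `f = u · h ^ c`. -/
theorem exists_eq_unit_mul_pow_of_prime (hq𝔫 : algebraMap R B q ∈ 𝔫) {f : B} (hf𝔫 : f ∈ 𝔫)
    (hf : red f ≠ 0) {c : ℕ}
    (Hord : ∀ w : Place K F, 0 < w.ord (algebraMap B F f) →
      (c : ℤ) ∣ w.ord (algebraMap B F f)) :
    ∃ (u : Oˣ) (h : O), algebraMap B O f = u * h ^ c := by
  obtain ⟨v, hv⟩ := exists_heightOne_eq red hsurj hker 𝔫 hq𝔫 hf𝔫 hf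
  subst hv
  exact exists_eq_unit_mul_pow red hsurj hq0 hker hK v O hf Hord

end Factor

section SubringForm

open AlgebraicCurve Fermat.Agent.GL.Frame.Chart

variable {R K F C : Type*} [CommRing R] [Field K] [Algebra R K]
  [Field F] [Algebra K F] [Algebra R F] [IsScalarTower R K F]
  [CommRing C] [IsDedekindDomain C]
  (B : Subring F) [IsNoetherianRing B] [IsFractionRing B F]
  (hcst : ∀ r : R, algebraMap R F r ∈ B)
  (red : B →+* C) (hsurj : Function.Surjective red) {q : R} (hq0 : algebraMap R F q ≠ 0)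
  (hker : RingHom.ker red = Ideal.span {(⟨algebraMap R F q, hcst q⟩ : B)})
  (hK : ∀ a : K, ∃ (r : R) (n : ℕ), a * algebraMap R K q ^ n = algebraMap R K r)

include hsurj hq0 hker hK in
/-- **(S4), subring form** (the consumer shape of helper93 `Reg3Dispatch.hreg3_K0_of_chart`):
`B ⊂ F` a noetherian subring with fraction field `F`, `x'` any prime of `B` containing `q` and `f`
(`red f ≠ 0`).  Then `f = u₀ · h₀ ^ c` in `F` with `u₀` a unit of the local ring
`Chart.locSubring B x'` and `h₀` in it. -/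
theorem exists_eq_unit_mul_pow_locSubring (x' : Ideal B) [x'.IsPrime]
    (hqx : (⟨algebraMap R F q, hcst q⟩ : B) ∈ x') {f : B} (hfx : f ∈ x') (hf : red f ≠ 0) {c : ℕ}
    (Hord : ∀ w : Place K F, 0 < w.ord (f : F) → (c : ℤ) ∣ w.ord (f : F)) :
    ∃ (u₀ : (locSubring B x')ˣ) (h₀ : locSubring B x'),
      (f : F) = ((u₀ : locSubring B x') : F) * (h₀ : F) ^ c := by
  letI algRB : Algebra R B := ((algebraMap R F).codRestrict B hcst).toAlgebra
  haveI : IsScalarTower R B F := IsScalarTower.of_algebraMap_eq fun _ => rfl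
  letI algBO : Algebra B (locSubring B x') := (Subring.inclusion (le_locSubring B x')).toAlgebra
  haveI : IsLocalization.AtPrime (locSubring B x') x' := isLocalization_locSubring B x'
  haveI : IsScalarTower B (locSubring B x') F := IsScalarTower.of_algebraMap_eq fun _ => rfl
  have hq0' : algebraMap R B q ≠ 0 := fun h0 => hq0 (congrArg Subtype.val h0)
  obtain ⟨u, h, huh⟩ := exists_eq_unit_mul_pow_of_prime (R := R) (K := K) (F := F) red hsurj hq0'
    hker hK x' (locSubring B x') hqx hfx hf Hord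
  refine ⟨u, h, ?_⟩
  have h1 : (f : F) = ((algebraMap B (locSubring B x') f : locSubring B x') : F) := rfl
  rw [h1, huh, Subring.coe_mul, Subring.coe_pow]

end SubringForm

end Fermat.Agent.GL.Reg3.GoodRed
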