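/-
GATE-L / (S4)-INST, concrete half (helper25): `(S4)` in the local rings of the level-`M` chart,
`q ∤ M` (good reduction) — the `hS4` binder of helper93 `Reg3Dispatch.hreg3_K0_of_chart` /
helper67 `Reg3BChartFeed.hreg3_BK0_of_S4`.

`B₁ = B1 M A = chartRing (R0 A) (jC M (K0 A))`, `red1 : B₁ ↠ CRing M A`, `ker red1 = (q)`
(helper96 `GL/Red/BRing1`).  For every PRIME `x'` of `B₁` containing `q` and `j - a`
(`a = 0`, `c = 3`, resp. `a = 1728`, `c = 2`; `M` has a prime factor `r ≡ 2 mod 3`, resp.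
`r ≡ 3 mod 4`):

  `j - a = u₀ · h₀ ^ c`   EXACTLY in `K₀(X₀(M))`,  `u₀ ∈ (B₁)_{x'}ˣ`, `h₀ ∈ (B₁)_{x'}`

(`(B₁)_{x'} = Chart.locSubring (B1 M A) x'`, helper8).  Proof = `GoodRedPrime` (the local ring is
a noetherian UFD with `q` prime, helper93 `RegTwo.ufd`; horizontal prime factors are prelude places
over `K₀`, helper50 `HorizFactor`) + `EllMultK0` (every zero of `j - a` on `X₀(M)/K₀` has
multiplicity exactly `c`).
-/
import Fermat.Agent.GL.Reg3.GoodRedPrime
import Fermat.Agent.GL.Reg3.EllMultK0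
import Fermat.Agent.GL.Red.BRing1
import Fermat.Agent.GK.SS.CRingFacts

set_option autoImplicit false
set_option linter.unusedSectionVars false
set_option linter.style.haveILetI false
set_option synthInstance.maxHeartbeats 400000

noncomputable section

namespace Fermat.Agent.GL.Reg3.S4Inst

open ModularCurve IntermediateField Polynomial IsLocalRing AlgebraicCurve
open Fermat.Agent.S24 Fermat.Agent.S24_helper62
open Fermat.Agent.GJ.J1 Fermat.Agent.GJ.J1.Val
open Fermat.Agent.GK.AL Fermat.Agent.GK.QS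
open Fermat.Agent.GL.Val.GaussK0 Fermat.Agent.GL.Val.SecondK0 Fermat.Agent.GL.Val.DegBase
open Fermat.Agent.GL.Frame.Inst Fermat.Agent.GL.Frame.Chart
open Fermat.Agent.GL.BRingChart Fermat.Agent.GL.BRing1
open Fermat.Agent.GL.Reg3.GoodRed Fermat.Agent.GL.Reg3.EllMultK0
open Fermat.Agent.Common_helper32

variable (M : ℕ) [NeZero M] {q : ℕ} [Fact q.Prime] (A : ValuationSubring Qb)
variable (hqM : ¬ q ∣ M) (hA : A.LiesOverPrime q)

local notation "kA" => IsLocalRing.ResidueField A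

/-- the uniformiser `q₀` of `R₀` is the natural number `q` -/
theorem coe_q0_eq_natCast : ((q0 A q : R0 A) : K0 A) = (q : K0 A) := by
  apply ι0_injective A
  rw [ι0_q0, map_natCast]

/-- `qB = q` in `B₁` -/
theorem qB_eq_natCast : qB M A (ℓ := q) = ((q : ℕ) : B1 M A) := by
  apply Subtype.ext
  rw [coe_cstB, coe_q0_eq_natCast, map_natCast]
  simp

include hqM hA in
/-- **(S4) in the local rings of the good-level chart, general `f`** -/
theorem exists_eq_unit_mul_pow_B1 (h2 : q = 2 → 3 ∣ M) (h3 : q = 3 → 2 ∣ M)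
    (x' : Ideal (B1 M A)) [x'.IsPrime] (hqx : ((q : ℕ) : B1 M A) ∈ x')
    {f : B1 M A} (hfx : f ∈ x') (hf : red1 M A hqM hA f ≠ 0) {c : ℕ}
    (Hord : ∀ w : Place (K0 A) (modularFunctionFieldFullC (K0 A) M),
      0 < w.ord (f : modularFunctionFieldFullC (K0 A) M) →
        (c : ℤ) ∣ w.ord (f : modularFunctionFieldFullC (K0 A) M)) :
    ∃ (u₀ : (locSubring (B1 M A) x')ˣ) (h₀ : locSubring (B1 M A) x'),
      (f : modularFunctionFieldFullC (K0 A) M) =
        ((u₀ : locSubring (B1 M A) x') : modularFunctionFieldFullC (K0 A) M) *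
          (h₀ : modularFunctionFieldFullC (K0 A) M) ^ c := by
  have hq : q.Prime := Fact.out
  haveI := isScalarTower_R0 A M
  haveI := isDiscreteValuationRing_R0 A hq hA
  haveI := isNoetherianRing_B1 M A hA
  haveI := isFractionRing_B1 M A hA
  haveI := Fermat.Agent.GK.SS.Modular.isDedekindDomain_CRing M q A hA
  have hcst : ∀ r : R0 A,
      algebraMap (R0 A) (modularFunctionFieldFullC (K0 A) M) r ∈ B1 M A :=
    fun r => (cstB M A r).2
  have hqB : (⟨algebraMap (R0 A) (modularFunctionFieldFullC (K0 A) M) (q0 A q), hcst (q0 A q)⟩ :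
      B1 M A) = qB M A (ℓ := q) := Subtype.ext rfl
  have hq0 : algebraMap (R0 A) (modularFunctionFieldFullC (K0 A) M) (q0 A q) ≠ 0 := fun h0 =>
    qB_ne_zero M A hA (Subtype.ext h0)
  have hker : RingHom.ker (red1 M A hqM hA) =
      Ideal.span {(⟨algebraMap (R0 A) (modularFunctionFieldFullC (K0 A) M) (q0 A q),
        hcst (q0 A q)⟩ : B1 M A)} := by
    rw [hqB]
    exact ker_red1 M A hqM hA
  have hK : ∀ a : K0 A, ∃ (r : R0 A) (n : ℕ),
      a * algebraMap (R0 A) (K0 A) (q0 A q) ^ n = algebraMap (R0 A) (K0 A) r :=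
    fun a => Fermat.Agent.GL.Reg3.exists_mul_pow_eq_of_irreducible (irreducible_q0 A hq hA) a
  refine exists_eq_unit_mul_pow_locSubring (R := R0 A) (K := K0 A) (B1 M A) hcst
    (red1 M A hqM hA) (red1_surjective M A hqM hA h2 h3) hq0 hker hK x' ?_ hfx hf Hord
  rw [hqB, qB_eq_natCast]
  exact hqx

/-- `j - a` in `B₁`, `a` an integer -/
def jSub (a : ℤ) : B1 M A := jB1 M A - ((a : ℤ) : B1 M A)

theorem coe_jSub (a : ℤ) :
    ((jSub M A a : B1 M A) : modularFunctionFieldFullC (K0 A) M) =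
      jC M (K0 A) - ((a : ℤ) : modularFunctionFieldFullC (K0 A) M) := by
  simp [jSub, jB1]

include hqM hA in
/-- the reduction of `j - a` is not zero (`j~` is transcendental over `k`) -/
theorem red1_jSub_ne_zero (a : ℤ) : red1 M A hqM hA (jSub M A a) ≠ 0 := by
  intro h0
  have h1 : ((red1 M A hqM hA (jSub M A a) : CRing M A) : FresBar M A) = 0 := by
    rw [h0]; rfl
  rw [jSub, map_sub, map_intCast] at h1
  have h2 : ((red1 M A hqM hA (jB1 M A) : CRing M A) : FresBar M A) =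
      ((a : ℤ) : FresBar M A) := by
    have h3 : ((red1 M A hqM hA (jB1 M A) - ((a : ℤ) : CRing M A) : CRing M A) : FresBar M A) =
        ((red1 M A hqM hA (jB1 M A) : CRing M A) : FresBar M A) - ((a : ℤ) : FresBar M A) := by
      push_cast
      rfl
    rw [h3] at h1
    exact sub_eq_zero.mp h1
  rw [red1_jB1] at h2
  have htr : Transcendental kA (Fermat.Agent.GK.QS.jt M A) :=
    (Fermat.Agent.GJ.Gauss.isGaussChart_jF M A).2
  apply htr
  rw [h2, ← map_intCast (algebraMap kA (FresBar M A))]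
  exact isAlgebraic_algebraMap _

include hqM hA in
/-- **(S4) at `a = 0`, `c = 3`** : `j = u₀ h₀³` in the local ring of `B₁` at every prime containing
`q` and `j`. -/
theorem exists_eq_unit_mul_pow_three (h2 : q = 2 → 3 ∣ M) (h3 : q = 3 → 2 ∣ M)
    {r : ℕ} (hr : r.Prime) (hrM : r ∣ M) (hr3 : r % 3 = 2)
    (x' : Ideal (B1 M A)) [x'.IsPrime] (hqx : ((q : ℕ) : B1 M A) ∈ x')
    (hjx : jB1 M A - ((0 : ℤ) : B1 M A) ∈ x') :
    ∃ (u₀ : (locSubring (B1 M A) x')ˣ) (h₀ : locSubring (B1 M A) x'),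
      jC M (K0 A) - ((0 : ℤ) : modularFunctionFieldFullC (K0 A) M) =
        ((u₀ : locSubring (B1 M A) x') : modularFunctionFieldFullC (K0 A) M) *
          (h₀ : modularFunctionFieldFullC (K0 A) M) ^ 3 := by
  rw [← coe_jSub M A 0]
  refine exists_eq_unit_mul_pow_B1 M A hqM hA h2 h3 x' hqx (f := jSub M A 0) hjx
    (red1_jSub_ne_zero M A hqM hA 0) (c := 3) (fun w hw => ?_)
  rw [coe_jSub, Int.cast_zero, sub_zero] at hw ⊢
  exact three_dvd_ord_jK0 hr hrM hr3 w hw

include hqM hA in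
/-- **(S4) at `a = 1728`, `c = 2`** : `j - 1728 = u₀ h₀²` in the local ring of `B₁` at every prime
containing `q` and `j - 1728`. -/
theorem exists_eq_unit_mul_pow_two (h2 : q = 2 → 3 ∣ M) (h3 : q = 3 → 2 ∣ M)
    {r : ℕ} (hr : r.Prime) (hrM : r ∣ M) (hr4 : r % 4 = 3)
    (x' : Ideal (B1 M A)) [x'.IsPrime] (hqx : ((q : ℕ) : B1 M A) ∈ x')
    (hjx : jB1 M A - ((1728 : ℤ) : B1 M A) ∈ x') :
    ∃ (u₀ : (locSubring (B1 M A) x')ˣ) (h₀ : locSubring (B1 M A) x'),
      jC M (K0 A) - ((1728 : ℤ) : modularFunctionFieldFullC (K0 A) M) =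
        ((u₀ : locSubring (B1 M A) x') : modularFunctionFieldFullC (K0 A) M) *
          (h₀ : modularFunctionFieldFullC (K0 A) M) ^ 2 := by
  rw [← coe_jSub M A 1728]
  refine exists_eq_unit_mul_pow_B1 M A hqM hA h2 h3 x' hqx (f := jSub M A 1728) hjx
    (red1_jSub_ne_zero M A hqM hA 1728) (c := 2) (fun w hw => ?_)
  have e : ((1728 : ℤ) : modularFunctionFieldFullC (K0 A) M) =
      algebraMap (K0 A) (modularFunctionFieldFullC (K0 A) M) 1728 := by
    rw [map_ofNat]; simp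
  rw [coe_jSub, e] at hw ⊢
  exact two_dvd_ord_jK0_sub hr hrM hr4 w hw

include hqM hA in
/-- **the `hS4` binder** of helper93 `hreg3_K0_of_chart` / helper67 `hreg3_BK0_of_S4`, at
`B' := B1 M A` (`= BK0 A M` literally), `j' := jC M (K0 A)`. -/
theorem hS4 (h2 : q = 2 → 3 ∣ M) (h3 : q = 3 → 2 ∣ M)
    {r : ℕ} (hr : r.Prime) (hrM : r ∣ M) (hr3 : r % 3 = 2) (hr4 : r % 4 = 3) :
    ∀ (a : ℤ) (c : ℕ), ((a = 0 ∧ c = 3) ∨ (a = 1728 ∧ c = 2)) →
      ∀ (x' : Ideal (B1 M A)) [x'.IsPrime], ((q : ℕ) : B1 M A) ∈ x' →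
        jB1 M A - ((a : ℤ) : B1 M A) ∈ x' →
        ∃ (u₀ : (locSubring (B1 M A) x')ˣ) (h₀ : locSubring (B1 M A) x'),
          jC M (K0 A) - ((a : ℤ) : modularFunctionFieldFullC (K0 A) M) =
            ((u₀ : locSubring (B1 M A) x') : modularFunctionFieldFullC (K0 A) M) *
              (h₀ : modularFunctionFieldFullC (K0 A) M) ^ c := by
  rintro a c (⟨rfl, rfl⟩ | ⟨rfl, rfl⟩) x' _ hqx hjx
  · exact exists_eq_unit_mul_pow_three M A hqM hA h2 h3 hr hrM hr3 x' hqx hjx
  · exact exists_eq_unit_mul_pow_two M A hqM hA h2 h3 hr hrM hr4 x' hqx hjx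

end Fermat.Agent.GL.Reg3.S4Inst
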