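/-
GATE-L / (S4)-INST feed (helper25): the `hS4` binder of REG3 case (B) in the VERBATIM shapes of its
consumers, and the resulting `hreg3` theorems with `(S4)` DISCHARGED.

* `hS4_B1`  : helper93 `Reg3Final.hreg3_Bj`'s `hS4` binder (`B1 M' A`, `⟨jK0 A M', jK0_mem_B1 A⟩`,
  leading `5 ≤ q →`), from `S4Inst.hS4`; aux prime `r ∣ M'`, `r % 3 = 2`, `r % 4 = 3`
  (`hS4_B1_two` : two aux primes, one for each congruence);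
* `hS4_BK0` : helper67 `Reg3BChartFeed.hreg3_K0_of_S4`'s `hS4` binder (`BK0 A M'`,
  `⟨jK0 A M', jK0_mem_BK0 A⟩`);
* `hreg3_K0_thm`, `hreg3_BK0_thm` : helper67's two `hreg3` statements without `hS4`
  (helper93's `hreg3_Bj` without `hS4` is his `Reg3FinalThm.hreg3_Bj_thm`).
-/
import Fermat.Agent.GL.Reg3.S4Inst
import Fermat.Agent.GL.Reg3.Reg3BChartFeed
import Fermat.Agent.GL.Reg3.Reg3Final

set_option autoImplicit false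
set_option linter.unusedSectionVars false

noncomputable section

namespace Fermat.Agent.GL.Reg3.S4Feed

open Fermat.Agent.GL.KrullFrame Fermat.Agent.GL.KrullHeightOne Fermat.Agent.GL.Frame.HeightOne
  Fermat.Agent.GL.Frame.VertPrimeHtOne IsLocalRing Polynomial
open Fermat.Agent.GL.Frame.Chart Fermat.Agent.GL.Frame.OldContraction
open Fermat.Agent.GL.Val.GaussK0 Fermat.Agent.GL.Val.CuspK0 Fermat.Agent.GL.Val.OrthK0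
open Fermat.Agent.GL.Val.ThirdK0 Fermat.Agent.GL.MultiVal Fermat.Agent.GL.Thick
open Fermat.Agent.GL.W3 ModularCurve Fermat.Agent.Common_helper32
open Fermat.Agent.GK.Val.GaussBase Fermat.Agent.GL.Table.K0
open Fermat.Agent.GL.Frame.Inst Fermat.Agent.GL.BRing1 Fermat.Agent.GL.Reg3.BCong
open Fermat.Agent.GL.Val.DegBase Fermat.Agent.GL.BuildInst

variable (A : ValuationSubring Qb) {M' q : ℕ} [NeZero q] [NeZero M']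

/-- **`hS4` of helper93 `Reg3Final.hreg3_Bj`, VERBATIM**, two aux primes. -/
theorem hS4_B1_two [Fact q.Prime] (hqM : ¬ q ∣ M') (hA : (q : Qb) ∈ A.nonunits)
    {r₃ : ℕ} (hr₃ : r₃.Prime) (hr₃M : r₃ ∣ M') (hr3 : r₃ % 3 = 2)
    {r₄ : ℕ} (hr₄ : r₄.Prime) (hr₄M : r₄ ∣ M') (hr4 : r₄ % 4 = 3) :
    5 ≤ q → ∀ (a : ℤ) (c : ℕ), ((a = 0 ∧ c = 3) ∨ (a = 1728 ∧ c = 2)) →
      ∀ (x' : Ideal (B1 M' A)) [x'.IsPrime], ((q : ℕ) : B1 M' A) ∈ x' →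
        (⟨jK0 A M', Final.jK0_mem_B1 A⟩ : B1 M' A) - ((a : ℤ) : B1 M' A) ∈ x' →
        ∃ (u₀ : (locSubring (B1 M' A) x')ˣ) (h₀ : locSubring (B1 M' A) x'),
          jK0 A M' - ((a : ℤ) : ↥(modularFunctionFieldFullC (K0 A) M')) =
            ((u₀ : locSubring (B1 M' A) x') : ↥(modularFunctionFieldFullC (K0 A) M')) *
              (h₀ : ↥(modularFunctionFieldFullC (K0 A) M')) ^ c := by
  intro hq5 a c hac x' _ hqx hjx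
  have hA' : A.LiesOverPrime q := hA
  have h2 : q = 2 → 3 ∣ M' := fun h => by omega
  have h3 : q = 3 → 2 ∣ M' := fun h => by omega
  have e : (⟨jK0 A M', Final.jK0_mem_B1 A⟩ : B1 M' A) = jB1 M' A :=
    Subtype.ext (jK0_eq_jC A M')
  rw [e] at hjx
  rw [jK0_eq_jC]
  rcases hac with ⟨rfl, rfl⟩ | ⟨rfl, rfl⟩
  · exact S4Inst.exists_eq_unit_mul_pow_three M' A hqM hA' h2 h3 hr₃ hr₃M hr3 x' hqx hjx
  · exact S4Inst.exists_eq_unit_mul_pow_two M' A hqM hA' h2 h3 hr₄ hr₄M hr4 x' hqx hjx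

/-- **`hS4` of helper93 `Reg3Final.hreg3_Bj`, VERBATIM**, one aux prime `r ≡ 11 mod 12`. -/
theorem hS4_B1 [Fact q.Prime] (hqM : ¬ q ∣ M') (hA : (q : Qb) ∈ A.nonunits)
    {r : ℕ} (hr : r.Prime) (hrM : r ∣ M') (hr3 : r % 3 = 2) (hr4 : r % 4 = 3) :
    5 ≤ q → ∀ (a : ℤ) (c : ℕ), ((a = 0 ∧ c = 3) ∨ (a = 1728 ∧ c = 2)) →
      ∀ (x' : Ideal (B1 M' A)) [x'.IsPrime], ((q : ℕ) : B1 M' A) ∈ x' →
        (⟨jK0 A M', Final.jK0_mem_B1 A⟩ : B1 M' A) - ((a : ℤ) : B1 M' A) ∈ x' →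
        ∃ (u₀ : (locSubring (B1 M' A) x')ˣ) (h₀ : locSubring (B1 M' A) x'),
          jK0 A M' - ((a : ℤ) : ↥(modularFunctionFieldFullC (K0 A) M')) =
            ((u₀ : locSubring (B1 M' A) x') : ↥(modularFunctionFieldFullC (K0 A) M')) *
              (h₀ : ↥(modularFunctionFieldFullC (K0 A) M')) ^ c :=
  hS4_B1_two A hqM hA hr hrM hr3 hr hrM hr4

/-- **`hS4` of helper67 `Reg3BChartFeed.hreg3_K0_of_S4` / `hreg3_BK0_of_S4`, VERBATIM**. -/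
theorem hS4_BK0 [Fact q.Prime] (hqM : ¬ q ∣ M') (hA : (q : Qb) ∈ A.nonunits)
    {r : ℕ} (hr : r.Prime) (hrM : r ∣ M') (hr3 : r % 3 = 2) (hr4 : r % 4 = 3) :
    5 ≤ q → ∀ (a : ℤ) (c : ℕ), ((a = 0 ∧ c = 3) ∨ (a = 1728 ∧ c = 2)) →
      ∀ (x' : Ideal (BK0 A M')) [x'.IsPrime], ((q : ℕ) : BK0 A M') ∈ x' →
        (⟨jK0 A M', BChartFeed.jK0_mem_BK0 A⟩ : BK0 A M') - ((a : ℤ) : BK0 A M') ∈ x' →
        ∃ (u₀ : (locSubring (BK0 A M') x')ˣ) (h₀ : locSubring (BK0 A M') x'),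
          jK0 A M' - ((a : ℤ) : modularFunctionFieldFullC (K0 A) M') =
            ((u₀ : locSubring (BK0 A M') x') : modularFunctionFieldFullC (K0 A) M') *
              (h₀ : modularFunctionFieldFullC (K0 A) M') ^ c :=
  hS4_B1 A hqM hA hr hrM hr3 hr4

section Call

variable [NeZero (q ^ 2 * 1)] (hdN : q ^ 2 * 1 ∣ M' * q * q)
  (hqM : ¬ q ∣ M') (hA : (q : Qb) ∈ A.nonunits) (hq : q.Prime)

variable {Bf : Subring ↥(modularFunctionFieldFullC (K0 A) (M' * q * q))}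

include hdN hqM hA hq in
/-- **helper67 `Reg3BChartFeed.hreg3_K0_of_S4` with `(S4)` discharged**. -/
theorem hreg3_K0_thm [Fact q.Prime]
    {r : ℕ} (hr : r.Prime) (hrM : r ∣ M') (hr3 : r % 3 = 2) (hr4 : r % 4 = 3)
    [IsFractionRing Bf ↥(modularFunctionFieldFullC (K0 A) (M' * q * q))] [IsNoetherianRing Bf]
    [IsIntegrallyClosed Bf] {𝔭₀ : HtOne Bf} (vert : Finset (HtOne Bf))
    (hV1 : V1 ↥(modularFunctionFieldFullC (K0 A) (M' * q * q)) 𝔭₀ = Rw3K0 A (M' * q * q) q)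
    {qB jB yB sB : Bf}
    (hqB : (qB : ↥(modularFunctionFieldFullC (K0 A) (M' * q * q))) =
      ((q : ℕ) : ↥(modularFunctionFieldFullC (K0 A) (M' * q * q))))
    (hjB : (jB : ↥(modularFunctionFieldFullC (K0 A) (M' * q * q))) = jK0 A (M' * q * q))
    (hyB : (yB : ↥(modularFunctionFieldFullC (K0 A) (M' * q * q))) =
      y3K0 A (M' * q * q) q hdN (one_dvd (M' * q * q)))
    (hsB : sB = aeval jB (intSsPolyAll q))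
    (hvert : ∀ 𝔭 : HtOne Bf, qB ∈ 𝔭.1 → 𝔭 ∈ vert)
    (hα : ∀ b ∈ BK0 A M', alpha2 A M' q b ∈ Bf) (hγ : ∀ b ∈ BK0 A M', gamma2 A M' q b ∈ Bf) :
    ∀ 𝔫 : Ideal Bf, 𝔫.IsMaximal → (qB ∈ 𝔫 ∧ sB ∉ 𝔫) → 𝔭₀.1 ≤ 𝔫 →
      (∀ j ∈ vert, j ≠ 𝔭₀ → ¬ j.1 ≤ 𝔫) →
      ∃ π : Bf, π ≠ 0 ∧ π ∈ 𝔭₀.1 ∧ (∀ x ∈ 𝔭₀.1, ∃ s : Bf, s ∉ 𝔭₀.1 ∧ π ∣ s * x) ∧
        (∀ 𝔮 : HtOne Bf, 𝔮 ≠ 𝔭₀ → 𝔮.1 ≤ 𝔫 → π ∉ 𝔮.1) :=
  BChartFeed.hreg3_K0_of_S4 A hdN hqM hA hq vert hV1 hqB hjB hyB hsB hvert hα hγ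
    (hS4_BK0 A hqM hA hr hrM hr3 hr4)

include hdN hqM hA hq in
/-- **helper67 `Reg3BChartFeed.hreg3_BK0_of_S4` with `(S4)` discharged** : `hreg3` on the `j`-frame
`BK0 A (M' q q)` itself. -/
theorem hreg3_BK0_thm [Fact q.Prime]
    {r : ℕ} (hr : r.Prime) (hrM : r ∣ M') (hr3 : r % 3 = 2) (hr4 : r % 4 = 3)
    [IsFractionRing (BK0 A (M' * q * q)) ↥(modularFunctionFieldFullC (K0 A) (M' * q * q))]
    [IsNoetherianRing (BK0 A (M' * q * q))] [IsIntegrallyClosed (BK0 A (M' * q * q))]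
    {𝔭₀ : HtOne (BK0 A (M' * q * q))} (vert : Finset (HtOne (BK0 A (M' * q * q))))
    (hV1 : V1 ↥(modularFunctionFieldFullC (K0 A) (M' * q * q)) 𝔭₀ = Rw3K0 A (M' * q * q) q)
    {qB jB yB sB : BK0 A (M' * q * q)}
    (hqB : (qB : ↥(modularFunctionFieldFullC (K0 A) (M' * q * q))) =
      ((q : ℕ) : ↥(modularFunctionFieldFullC (K0 A) (M' * q * q))))
    (hjB : (jB : ↥(modularFunctionFieldFullC (K0 A) (M' * q * q))) = jK0 A (M' * q * q))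
    (hyB : (yB : ↥(modularFunctionFieldFullC (K0 A) (M' * q * q))) =
      y3K0 A (M' * q * q) q hdN (one_dvd (M' * q * q)))
    (hsB : sB = aeval jB (intSsPolyAll q))
    (hvert : ∀ 𝔭 : HtOne (BK0 A (M' * q * q)), qB ∈ 𝔭.1 → 𝔭 ∈ vert) :
    ∀ 𝔫 : Ideal (BK0 A (M' * q * q)), 𝔫.IsMaximal → (qB ∈ 𝔫 ∧ sB ∉ 𝔫) → 𝔭₀.1 ≤ 𝔫 →
      (∀ j ∈ vert, j ≠ 𝔭₀ → ¬ j.1 ≤ 𝔫) →
      ∃ π : BK0 A (M' * q * q), π ≠ 0 ∧ π ∈ 𝔭₀.1 ∧
        (∀ x ∈ 𝔭₀.1, ∃ s : BK0 A (M' * q * q), s ∉ 𝔭₀.1 ∧ π ∣ s * x) ∧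
        (∀ 𝔮 : HtOne (BK0 A (M' * q * q)), 𝔮 ≠ 𝔭₀ → 𝔮.1 ≤ 𝔫 → π ∉ 𝔮.1) :=
  BChartFeed.hreg3_BK0_of_S4 A hdN hqM hA hq vert hV1 hqB hjB hyB hsB hvert
    (hS4_BK0 A hqM hA hr hrM hr3 hr4)

end Call

end Fermat.Agent.GL.Reg3.S4Feed
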