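/-
GATE-L / (S4)-CHAR0 (helper25): multiplicities of `j` and `j - 1728` on `X₀(N)` over `ℚ̄` at levels
without elliptic points.

On top of the (frozen) S24 orbit lemma `Interior.Realization.orbit_equiv` (places of `F_N` over
`j = c` ↔ orbits of a stabiliser generator on `SL₂(ℤ)/Γ₀(N)`, ramification index = orbit size):

* `not_root_three`, `not_root_four` : `x² + x + 1 ≠ 0` in `ZMod N` when `N` has a prime factor
  `r ≡ 2 mod 3`; `x² + 1 ≠ 0` in `ZMod N` when `N` has a prime factor `r ≡ 3 mod 4`;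
* `ST_smul_ne`, `S_smul_ne` : `S T` (resp. `S`) has NO fixed coset on `SL₂(ℤ)/Γ₀(N)`;
* `ord_jF_eq_three` : every zero of `j` on `X₀(N)` has multiplicity exactly `3`;
* `ord_jF_sub_eq_two` : every zero of `j - 1728` on `X₀(N)` has multiplicity exactly `2`;
* `three_dvd_ord_jF`, `two_dvd_ord_jF_sub` : divisibility at EVERY place where `j` is finite.
-/
import Fermat.Agent.S24.InteriorCounts
import Fermat.Agent.S20_helper27.Counts

set_option autoImplicit false

noncomputable section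

namespace Fermat.Agent.GL.Reg3.EllMult

open UpperHalfPlane ModularCurve IntermediateField AlgebraicCurve MulAction ModularGroup
open Fermat.Agent.S24 Fermat.Agent.S24_helper82 Fermat.Agent.S24_helper62
open Fermat.Agent.S24.InteriorCounts
open scoped MatrixGroups

/-! ### Number theory -/

/-- no primitive cube root of unity modulo a prime `r ≡ 2 mod 3` -/
theorem not_root_three_prime (r : ℕ) [hr : Fact r.Prime] (h3 : r % 3 = 2) (x : ZMod r) :
    x ^ 2 + x + 1 ≠ 0 := by
  intro h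
  have hx3 : x ^ 3 = 1 := by linear_combination (x - 1) * h
  have hx1 : x ≠ 1 := by
    rintro rfl
    have h30 : ((3 : ℕ) : ZMod r) = 0 := by
      have : (1 : ZMod r) ^ 2 + 1 + 1 = 3 := by norm_num
      rw [this] at h
      exact_mod_cast h
    rw [ZMod.natCast_eq_zero_iff] at h30
    have : r = 3 := ((Nat.prime_dvd_prime_iff_eq hr.out Nat.prime_three).mp h30)
    omega
  have hx0 : x ≠ 0 := by
    rintro rfl
    simp at h
  -- the unit `x` has order `3`
  let u : (ZMod r)ˣ := Units.mk0 x hx0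
  have hu3 : u ^ 3 = 1 := by
    apply Units.ext
    simp [u, hx3]
  have hu1 : u ≠ 1 := by
    intro h1
    apply hx1
    have := congrArg Units.val h1
    simpa [u] using this
  have hord : orderOf u = 3 := orderOf_eq_prime hu3 hu1
  have hdvd : orderOf u ∣ Fintype.card (ZMod r)ˣ := orderOf_dvd_card
  rw [hord, ZMod.card_units_eq_totient, Nat.totient_prime hr.out] at hdvd
  omega

/-- no square root of `-1` modulo a prime `r ≡ 3 mod 4` -/
theorem not_root_four_prime (r : ℕ) [hr : Fact r.Prime] (h4 : r % 4 = 3) (x : ZMod r) :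
    x ^ 2 + 1 ≠ 0 := by
  intro h
  have hsq : IsSquare (-1 : ZMod r) := ⟨x, by linear_combination -h⟩
  exact (ZMod.exists_sq_eq_neg_one_iff.mp hsq) h4

variable {N : ℕ}

/-- `x² + x + 1 ≠ 0` in `ZMod N` when `N` has a prime factor `r ≡ 2 mod 3` -/
theorem not_root_three {r : ℕ} (hr : r.Prime) (hrN : r ∣ N) (h3 : r % 3 = 2) (x : ZMod N) :
    x ^ 2 + x + 1 ≠ 0 := by
  intro h
  have : Fact r.Prime := ⟨hr⟩
  have := congrArg (ZMod.castHom hrN (ZMod r)) h
  rw [map_add, map_add, map_pow, map_one, map_zero] at this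
  exact not_root_three_prime r h3 _ this

/-- `x² + 1 ≠ 0` in `ZMod N` when `N` has a prime factor `r ≡ 3 mod 4` -/
theorem not_root_four {r : ℕ} (hr : r.Prime) (hrN : r ∣ N) (h4 : r % 4 = 3) (x : ZMod N) :
    x ^ 2 + 1 ≠ 0 := by
  intro h
  have : Fact r.Prime := ⟨hr⟩
  have := congrArg (ZMod.castHom hrN (ZMod r)) h
  rw [map_add, map_pow, map_one, map_zero] at this
  exact not_root_four_prime r h4 _ this

/-! ### No fixed cosets -/

/-- `S T` has no fixed coset on `SL₂(ℤ)/Γ₀(N)` when `x² + x + 1` has no root modulo `N` -/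
theorem ST_smul_ne' (h : ∀ x : ZMod N, x ^ 2 + x + 1 ≠ 0) (x : I0 N) : (S * T) • x ≠ x := by
  intro hx
  obtain ⟨u, -⟩ := Fermat.Agent.S20_helper27.fixedSTEquiv.surjective ⟨x, hx⟩
  exact h u.1 u.2

/-- `S` has no fixed coset on `SL₂(ℤ)/Γ₀(N)` when `x² + 1` has no root modulo `N` -/
theorem S_smul_ne' (h : ∀ x : ZMod N, x ^ 2 + 1 ≠ 0) (x : I0 N) : S • x ≠ x := by
  intro hx
  obtain ⟨u, -⟩ := Fermat.Agent.S20_helper27.fixedSEquiv.surjective ⟨x, hx⟩
  exact h u.1 u.2

/-- `S T` has no fixed coset on `SL₂(ℤ)/Γ₀(N)` when `N` has a prime factor `r ≡ 2 mod 3` -/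
theorem ST_smul_ne {r : ℕ} (hr : r.Prime) (hrN : r ∣ N) (h3 : r % 3 = 2) (x : I0 N) :
    (S * T) • x ≠ x := ST_smul_ne' (not_root_three hr hrN h3) x

/-- `S` has no fixed coset on `SL₂(ℤ)/Γ₀(N)` when `N` has a prime factor `r ≡ 3 mod 4` -/
theorem S_smul_ne {r : ℕ} (hr : r.Prime) (hrN : r ∣ N) (h4 : r % 4 = 3) (x : I0 N) :
    S • x ≠ x := S_smul_ne' (not_root_four hr hrN h4) x

/-- all orbits of `S T` have exactly three elements -/
theorem card_orbit_ST (h : ∀ x : ZMod N, x ^ 2 + x + 1 ≠ 0) (x : I0 N) :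
    Nat.card (orbit (Subgroup.zpowers (S * T)) x) = 3 := by
  have h1 := Fermat.Agent.S20_helper27.card_orbit_zpowers (X := I0 N) (S * T) Nat.prime_three
    Fermat.Agent.S20_helper27.ST_cube_smul x
  rw [if_neg (ST_smul_ne' h x)] at h1
  exact h1

/-- all orbits of `S` have exactly two elements -/
theorem card_orbit_S (h : ∀ x : ZMod N, x ^ 2 + 1 ≠ 0) (x : I0 N) :
    Nat.card (orbit (Subgroup.zpowers S) x) = 2 := by
  have h1 := Fermat.Agent.S20_helper27.card_orbit_zpowers (X := I0 N) S Nat.prime_two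
    Fermat.Agent.S20_helper27.S_sq_smul x
  rw [if_neg (S_smul_ne' h x)] at h1
  exact h1

/-- `ν₃(N) = 0` means that `x² + x + 1` has no root modulo `N` -/
theorem not_root_of_nuThree [NeZero N] (h : ModularCurve.nuThree N = 0) (x : ZMod N) :
    x ^ 2 + x + 1 ≠ 0 := by
  intro hx
  have : IsEmpty {x : ZMod N // x ^ 2 + x + 1 = 0} := by
    rw [ModularCurve.nuThree] at h
    exact (Nat.card_eq_zero.mp h).resolve_right (fun hinf => hinf.not_finite inferInstance)
  exact this.false ⟨x, hx⟩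

/-- `ν₂(N) = 0` means that `x² + 1` has no root modulo `N` -/
theorem not_root_of_nuTwo [NeZero N] (h : ModularCurve.nuTwo N = 0) (x : ZMod N) :
    x ^ 2 + 1 ≠ 0 := by
  intro hx
  have : IsEmpty {x : ZMod N // x ^ 2 + 1 = 0} := by
    rw [ModularCurve.nuTwo] at h
    exact (Nat.card_eq_zero.mp h).resolve_right (fun hinf => hinf.not_finite inferInstance)
  exact this.false ⟨x, hx⟩

/-- a prime factor `r ≡ 2 mod 3` kills `ν₃` -/
theorem nuThree_eq_zero {r : ℕ} (hr : r.Prime) (hrN : r ∣ N) (h3 : r % 3 = 2) :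
    ModularCurve.nuThree N = 0 := by
  rw [ModularCurve.nuThree, Nat.card_eq_zero]
  exact Or.inl ⟨fun x => not_root_three hr hrN h3 x.1 x.2⟩

/-- a prime factor `r ≡ 3 mod 4` kills `ν₂` -/
theorem nuTwo_eq_zero {r : ℕ} (hr : r.Prime) (hrN : r ∣ N) (h4 : r % 4 = 3) :
    ModularCurve.nuTwo N = 0 := by
  rw [ModularCurve.nuTwo, Nat.card_eq_zero]
  exact Or.inl ⟨fun x => not_root_four hr hrN h4 x.1 x.2⟩

/-! ### Multiplicities -/

variable (N) [NeZero N]

/-- **Every zero of `j` on `X₀(N)` has multiplicity exactly `3`** when `x² + x + 1` has no root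
modulo `N` (no elliptic points of order `3`). -/
theorem ord_jF_eq_three' (h : ∀ x : ZMod N, x ^ 2 + x + 1 ≠ 0)
    (w : Place Kbar (FN N)) (hw : 0 < w.ord (jF N)) : w.ord (jF N) = 3 := by
  haveI := finiteDimensional_adjoin_jF N
  obtain ⟨hfin, hN, hWA⟩ := norm_package N 0
  haveI := hfin
  have hcard : Nat.card (Fermat.Agent.S20_helper25.Stab ρ) / 2 = 3 := by
    rw [Fermat.Agent.S20_helper25.card_Stab_rho]
  have hc' : Fermat.Agent.LevelOne_helper29.jInv ρ = (realization N).ι 0 := by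
    rw [map_zero]; exact Fermat.Agent.LevelOne_helper29.jInv_rho
  obtain ⟨φ, -, hφ⟩ := (realization N).orbit_equiv hc' Kbar⟮jF N⟯ hN hWA (hprod N) (s := S * T)
    (Fermat.Agent.S20_helper25.mem_Stab.mp Fermat.Agent.S20_helper25.ST_mem_Stab_rho)
    (by rw [hcard]; exact Or.inr Fermat.Agent.S20_helper25.ST_pow_three)
    (by intro h; rw [hcard] at h; omega) (fun _ => by decide)
  have hw' : 0 < w.ord (jF N - algebraMap Kbar (FN N) 0) := by
    rw [map_zero, sub_zero]; exact hw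
  have h1 := hφ (φ.symm ⟨w, hw'⟩)
  rw [Equiv.apply_symm_apply] at h1
  simp only [map_zero, sub_zero] at h1
  rw [h1]
  induction (φ.symm ⟨w, hw'⟩) using Quotient.inductionOn' with
  | h x =>
    rw [orbitRel.Quotient.orbit_mk, card_orbit_ST h x]
    rfl

/-- **Every zero of `j - 1728` on `X₀(N)` has multiplicity exactly `2`** when `x² + 1` has no
root modulo `N` (no elliptic points of order `2`). -/
theorem ord_jF_sub_eq_two' (h : ∀ x : ZMod N, x ^ 2 + 1 ≠ 0)
    (w : Place Kbar (FN N)) (hw : 0 < w.ord (jF N - algebraMap Kbar (FN N) 1728)) :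
    w.ord (jF N - algebraMap Kbar (FN N) 1728) = 2 := by
  haveI := finiteDimensional_adjoin_jF N
  obtain ⟨hfin, hN, hWA⟩ := norm_package N 1728
  haveI := hfin
  have hcard : Nat.card (Fermat.Agent.S20_helper25.Stab UpperHalfPlane.I) / 2 = 2 := by
    rw [Fermat.Agent.S20_helper25.card_Stab_I]
  have hc' : Fermat.Agent.LevelOne_helper29.jInv UpperHalfPlane.I = (realization N).ι 1728 := by
    rw [map_ofNat]; exact Fermat.Agent.LevelOne_helper29.jInv_I
  obtain ⟨φ, -, hφ⟩ := (realization N).orbit_equiv hc' Kbar⟮jF N⟯ hN hWA (hprod N) (s := S)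
    (Fermat.Agent.S20_helper25.mem_Stab.mp Fermat.Agent.S20_helper25.S_mem_Stab_I)
    (by rw [hcard]; exact Or.inr Fermat.Agent.S20_helper25.S_sq)
    (fun _ => by decide) (by intro h; rw [hcard] at h; omega)
  have h1 := hφ (φ.symm ⟨w, hw⟩)
  rw [Equiv.apply_symm_apply] at h1
  rw [h1]
  induction (φ.symm ⟨w, hw⟩) using Quotient.inductionOn' with
  | h x =>
    rw [orbitRel.Quotient.orbit_mk, card_orbit_S h x]
    rfl

/-- `ν₃(N) = 0` form -/
theorem ord_jF_eq_three_of_nuThree (h : ModularCurve.nuThree N = 0)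
    (w : Place Kbar (FN N)) (hw : 0 < w.ord (jF N)) : w.ord (jF N) = 3 :=
  ord_jF_eq_three' N (not_root_of_nuThree h) w hw

/-- `ν₂(N) = 0` form -/
theorem ord_jF_sub_eq_two_of_nuTwo (h : ModularCurve.nuTwo N = 0)
    (w : Place Kbar (FN N)) (hw : 0 < w.ord (jF N - algebraMap Kbar (FN N) 1728)) :
    w.ord (jF N - algebraMap Kbar (FN N) 1728) = 2 :=
  ord_jF_sub_eq_two' N (not_root_of_nuTwo h) w hw

/-- auxiliary-prime form: `N` has a prime factor `r ≡ 2 mod 3` -/
theorem ord_jF_eq_three {r : ℕ} (hr : r.Prime) (hrN : r ∣ N) (h3 : r % 3 = 2)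
    (w : Place Kbar (FN N)) (hw : 0 < w.ord (jF N)) : w.ord (jF N) = 3 :=
  ord_jF_eq_three' N (not_root_three hr hrN h3) w hw

/-- auxiliary-prime form: `N` has a prime factor `r ≡ 3 mod 4` -/
theorem ord_jF_sub_eq_two {r : ℕ} (hr : r.Prime) (hrN : r ∣ N) (h4 : r % 4 = 3)
    (w : Place Kbar (FN N)) (hw : 0 < w.ord (jF N - algebraMap Kbar (FN N) 1728)) :
    w.ord (jF N - algebraMap Kbar (FN N) 1728) = 2 :=
  ord_jF_sub_eq_two' N (not_root_four hr hrN h4) w hw

/-- divisibility at every place where `j` has no pole -/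
theorem three_dvd_ord_jF (h : ∀ x : ZMod N, x ^ 2 + x + 1 ≠ 0)
    (w : Place Kbar (FN N)) (hw : 0 ≤ w.ord (jF N)) : (3 : ℤ) ∣ w.ord (jF N) := by
  rcases hw.eq_or_lt with h0 | h0
  · rw [← h0]; exact dvd_zero _
  · rw [ord_jF_eq_three' N h w h0]

/-- divisibility at every place where `j - 1728` has no pole -/
theorem two_dvd_ord_jF_sub (h : ∀ x : ZMod N, x ^ 2 + 1 ≠ 0)
    (w : Place Kbar (FN N)) (hw : 0 ≤ w.ord (jF N - algebraMap Kbar (FN N) 1728)) :
    (2 : ℤ) ∣ w.ord (jF N - algebraMap Kbar (FN N) 1728) := by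
  rcases hw.eq_or_lt with h0 | h0
  · rw [← h0]; exact dvd_zero _
  · rw [ord_jF_sub_eq_two' N h w h0]

end Fermat.Agent.GL.Reg3.EllMult
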