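/-
GATE-L / (S4)-K0 (helper25): the multiplicities of `j`, `j - 1728` at the HORIZONTAL discrete
valuation rings of `K₀(X₀(M))` (`K₀ ⊂ ℚ̄` the inertia field), from `EllMult` over `ℚ̄` and
helper11's `HorizDiv.exists_place_over` (constant field extensions are unramified).

* `ord_map_eq_of_unram` (generic glue): `ι : F₀ → F`, `v` a prelude place of `F₀/K₀`, `W` a prelude
  place of `F/Kb` with `W ∩ F₀ = v` and `ord_W (ι π) = 1` for a uniformiser `π` of `v`
  `⟹ ord_W (ι f) = ord_v f` for every `f`.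
* `exists_place_over_place` : every prelude place `v` of `K₀(X₀(M))/K₀` has a prelude place `W` of
  `F_M/ℚ̄` over it with `ord_W ∘ mapK0Bar = ord_v`.
* `ord_jK0_eq_three`, `ord_jK0_sub_eq_two` : `ord_v j = 3`, `ord_v (j - 1728) = 2` at every place
  `v` of `K₀(X₀(M))/K₀` where they are positive (`M` with a prime factor `r ≡ 2 mod 3`, resp.
  `r ≡ 3 mod 4`) — the `Hord` hypothesis of helper50
  `HorizFactor.exists_eq_unit_mul_pow_of_places_of_prime` (`three_dvd_ord_jK0_sub_zero`,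
  `two_dvd_ord_jK0_sub`).
* `jK0_eq_pow_three`, `jK0_sub_eq_pow_two` : `j = t³ ε`, `j - 1728 = t² ε` (`ε` a unit) in every
  discrete valuation ring `V ⊇ K₀` of `K₀(X₀(M))` with uniformiser `t` at which `j`, resp.
  `j - 1728`, is a non-unit.
-/
import Fermat.Agent.GL.Reg3.EllMult
import Fermat.Agent.GL.Val.SecondK0
import Fermat.Agent.GL.Val.DegBase
import Fermat.Agent.GL.Frame.HorizDiv

set_option autoImplicit false

noncomputable section

namespace Fermat.Agent.GL.Reg3.EllMultK0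

open AlgebraicCurve

section Generic

variable {K₀ Kb F₀ F : Type*} [Field K₀] [Field Kb] [Field F₀] [Field F] [Algebra K₀ F₀]
  [Algebra Kb F]

/-- an element of a place's valuation ring whose inverse is there too has order `0` -/
theorem ord_eq_zero_of_mem_of_inv_mem (W : Place Kb F) {y : F} (hy0 : y ≠ 0)
    (hy : y ∈ W.toValuationSubring) (hy' : y⁻¹ ∈ W.toValuationSubring) : W.ord y = 0 := by
  have h1 := (Fermat.Agent.S24.PlaceB.ord_nonneg_iff W hy0).mpr hy
  have h2 := (Fermat.Agent.S24.PlaceB.ord_nonneg_iff W (inv_ne_zero hy0)).mpr hy'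
  rw [W.ord_inv] at h2
  omega

/-- a non-zero non-unit of a place's valuation ring has positive order -/
theorem ord_pos_of_mem_nonunits (W : Place Kb F) {y : F} (hy0 : y ≠ 0)
    (hy : y ∈ W.toValuationSubring.nonunits) : 0 < W.ord y := by
  by_contra hle
  rw [not_lt] at hle
  have hinv : y⁻¹ ∈ W.toValuationSubring := by
    apply (Fermat.Agent.S24.PlaceB.ord_nonneg_iff W (inv_ne_zero hy0)).mp
    rw [W.ord_inv]
    omega
  rcases (ValuationSubring.mem_nonunits_iff_or _).mp hy with h | h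
  · exact hy0 h
  · exact h hinv

/-- an element of positive order is a non-unit of the valuation ring -/
theorem mem_nonunits_of_ord_pos (W : Place Kb F) {y : F} (hy : 0 < W.ord y) :
    y ∈ W.toValuationSubring.nonunits := by
  have hy0 : y ≠ 0 := by
    rintro rfl
    rw [W.ord_zero] at hy
    exact lt_irrefl _ hy
  rw [ValuationSubring.mem_nonunits_iff_or]
  right
  intro hinv
  have h2 := (Fermat.Agent.S24.PlaceB.ord_nonneg_iff W (inv_ne_zero hy0)).mpr hinv
  rw [W.ord_inv] at h2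
  omega

/-- **generic glue (`e = 1`)**: if the place `W` of `F` lies over the place `v` of `F₀` and a
uniformiser of `v` is still a uniformiser of `W`, then `ord_W ∘ ι = ord_v`. -/
theorem ord_map_eq_of_unram (ι : F₀ →+* F) (v : Place K₀ F₀) (W : Place Kb F)
    (hW : ∀ x : F₀, ι x ∈ W.toValuationSubring ↔ x ∈ v.toValuationSubring)
    {π : v.toValuationSubring} (hπ : Irreducible π) (ht : W.ord (ι (π : F₀)) = 1) (f : F₀) :
    W.ord (ι f) = v.ord f := by
  rcases eq_or_ne f 0 with rfl | hf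
  · rw [map_zero, W.ord_zero, v.ord_zero]
  obtain ⟨u, hu⟩ := v.exists_unit_mul_zpow hf hπ
  have hu0 : ((u : v.toValuationSubring) : F₀) ≠ 0 := by
    intro h0
    have : (u : v.toValuationSubring) = 0 := Subtype.ext h0
    exact u.ne_zero this
  have hιu0 : ι ((u : v.toValuationSubring) : F₀) ≠ 0 := (map_ne_zero ι).mpr hu0
  have h1 : ι ((u : v.toValuationSubring) : F₀) ∈ W.toValuationSubring :=
    (hW _).mpr (u : v.toValuationSubring).2
  have h2 : (ι ((u : v.toValuationSubring) : F₀))⁻¹ ∈ W.toValuationSubring := by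
    rw [← map_inv₀]
    apply (hW _).mpr
    have hinv : (((u⁻¹ : v.toValuationSubringˣ) : v.toValuationSubring) : F₀) =
        (((u : v.toValuationSubring) : F₀))⁻¹ := by
      apply eq_inv_of_mul_eq_one_left
      exact congrArg (Subtype.val) (Units.inv_mul u)
    rw [← hinv]
    exact ((u⁻¹ : v.toValuationSubringˣ) : v.toValuationSubring).2
  refine Fermat.Agent.S24.PlaceB.ord_eq_of_eq_mul W ht hιu0
    (ord_eq_zero_of_mem_of_inv_mem W hιu0 h1 h2) ?_
  conv_lhs => rw [hu]
  rw [map_mul, map_zpow₀]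

/-- `f = t ^ n · ε` from `ord_v f = n ≥ 0`, `ord_v t = 1` -/
theorem eq_pow_mul_unit_of_ord (v : Place K₀ F₀) (t : v.toValuationSubring)
    (ht : v.ord (t : F₀) = 1) {f : F₀} (hf : f ≠ 0) (n : ℕ) (hn : v.ord f = n) :
    ∃ ε : v.toValuationSubringˣ, f = (t : F₀) ^ n * ((ε : v.toValuationSubring) : F₀) := by
  have ht0 : (t : F₀) ≠ 0 := by
    intro h0
    rw [h0, Place.ord_zero] at ht
    exact zero_ne_one ht
  set g : F₀ := f / (t : F₀) ^ n with hg
  have hg0 : g ≠ 0 := div_ne_zero hf (pow_ne_zero n ht0)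
  have hord : v.ord g = 0 := by
    rw [hg, div_eq_mul_inv, v.ord_mul hf (inv_ne_zero (pow_ne_zero n ht0)),
      v.ord_inv, ← zpow_natCast, v.ord_zpow, ht, hn]
    ring
  have h1 : g ∈ v.toValuationSubring :=
    (Fermat.Agent.S24.PlaceB.ord_nonneg_iff v hg0).mp hord.ge
  have h2 : g⁻¹ ∈ v.toValuationSubring :=
    (Fermat.Agent.S24.PlaceB.ord_nonneg_iff v (inv_ne_zero hg0)).mp
      (by rw [v.ord_inv, hord, neg_zero])
  refine ⟨⟨⟨g, h1⟩, ⟨g⁻¹, h2⟩, ?_, ?_⟩, ?_⟩
  · apply Subtype.ext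
    show g * g⁻¹ = 1
    exact mul_inv_cancel₀ hg0
  · apply Subtype.ext
    show g⁻¹ * g = 1
    exact inv_mul_cancel₀ hg0
  · show f = (t : F₀) ^ n * g
    rw [hg]
    field_simp

end Generic

section Modular

open Fermat.Agent.S24 Fermat.Agent.GL.Val.GaussK0 Fermat.Agent.GL.Val.SecondK0
  Fermat.Agent.GL.Reg3.EllMult ModularCurve Fermat.Agent.Common_helper32
  Fermat.Agent.GL.Val.DegBase Fermat.Agent.GK.Val.GaussBase Fermat.Agent.GK.AL

variable (A : ValuationSubring Qb) (M : ℕ) [NeZero M]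

/-- `mapK0Bar` sends `j ∈ K₀(X₀(M))` to `j ∈ F_M` -/
theorem mapK0Bar_jC : mapK0Bar A M (jC M (K0 A)) = jF M := by
  rw [← genC_one_eq_jC M (K0 A) (R0 A), jF_eq_gen]
  exact mapK0Bar_genC A M (idxOne M)

/-- `mapK0Bar` on the rational constant `1728` -/
theorem mapK0Bar_1728 :
    mapK0Bar A M (algebraMap (K0 A) (modularFunctionFieldFullC (K0 A) M) 1728) =
      algebraMap Kbar (FN M) 1728 := by
  rw [mapK0Bar_algebraMap, map_ofNat, map_ofNat]

/-- **constant field extensions are unramified, in `Place` language** (helper11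
`HorizDiv.exists_place_over`): every place `v` of `K₀(X₀(M))/K₀` has a place `W` of `F_M/ℚ̄` above
it with `ord_W ∘ mapK0Bar = ord_v`. -/
theorem exists_place_over_place
    (v : Place (K0 A) (modularFunctionFieldFullC (K0 A) M)) :
    ∃ W : Place Kbar (FN M),
      (∀ x : modularFunctionFieldFullC (K0 A) M,
        mapK0Bar A M x ∈ W.toValuationSubring ↔ x ∈ v.toValuationSubring) ∧
      ∀ f : modularFunctionFieldFullC (K0 A) M, W.ord (mapK0Bar A M f) = v.ord f := by
  obtain ⟨π, hπ⟩ := IsDiscreteValuationRing.exists_irreducible v.toValuationSubring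
  obtain ⟨W, hW, ht, -⟩ :=
    Fermat.Agent.GL.Frame.HorizDiv.exists_place_over A M v.toValuationSubring v.algebraMap_mem'
      π hπ.ne_zero hπ.maximalIdeal_eq
  exact ⟨W, hW, ord_map_eq_of_unram (mapK0Bar A M) v W hW hπ ht⟩

variable {A M}

/-- **`ord_v j = 3`** at every place of `K₀(X₀(M))/K₀` where `j` vanishes (no elliptic points of
order three at level `M`). -/
theorem ord_jK0_eq_three' (h : ∀ x : ZMod M, x ^ 2 + x + 1 ≠ 0)
    (v : Place (K0 A) (modularFunctionFieldFullC (K0 A) M)) (hv : 0 < v.ord (jC M (K0 A))) :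
    v.ord (jC M (K0 A)) = 3 := by
  obtain ⟨W, -, hord⟩ := exists_place_over_place A M v
  have h1 := hord (jC M (K0 A))
  rw [mapK0Bar_jC] at h1
  rw [← h1] at hv ⊢
  exact ord_jF_eq_three' M h W hv

/-- **`ord_v (j - 1728) = 2`** at every place of `K₀(X₀(M))/K₀` where `j - 1728` vanishes (no
elliptic points of order two at level `M`). -/
theorem ord_jK0_sub_eq_two' (h : ∀ x : ZMod M, x ^ 2 + 1 ≠ 0)
    (v : Place (K0 A) (modularFunctionFieldFullC (K0 A) M))
    (hv : 0 < v.ord (jC M (K0 A) - algebraMap (K0 A) (modularFunctionFieldFullC (K0 A) M) 1728)) :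
    v.ord (jC M (K0 A) - algebraMap (K0 A) (modularFunctionFieldFullC (K0 A) M) 1728) = 2 := by
  obtain ⟨W, -, hord⟩ := exists_place_over_place A M v
  have h1 := hord (jC M (K0 A) - algebraMap (K0 A) (modularFunctionFieldFullC (K0 A) M) 1728)
  rw [map_sub, mapK0Bar_jC, mapK0Bar_1728] at h1
  rw [← h1] at hv ⊢
  exact ord_jF_sub_eq_two' M h W hv

/-- auxiliary-prime form: `M` has a prime factor `r ≡ 2 mod 3` -/
theorem ord_jK0_eq_three {r : ℕ} (hr : r.Prime) (hrM : r ∣ M) (h3 : r % 3 = 2)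
    (v : Place (K0 A) (modularFunctionFieldFullC (K0 A) M)) (hv : 0 < v.ord (jC M (K0 A))) :
    v.ord (jC M (K0 A)) = 3 :=
  ord_jK0_eq_three' (not_root_three hr hrM h3) v hv

/-- auxiliary-prime form: `M` has a prime factor `r ≡ 3 mod 4` -/
theorem ord_jK0_sub_eq_two {r : ℕ} (hr : r.Prime) (hrM : r ∣ M) (h4 : r % 4 = 3)
    (v : Place (K0 A) (modularFunctionFieldFullC (K0 A) M))
    (hv : 0 < v.ord (jC M (K0 A) - algebraMap (K0 A) (modularFunctionFieldFullC (K0 A) M) 1728)) :
    v.ord (jC M (K0 A) - algebraMap (K0 A) (modularFunctionFieldFullC (K0 A) M) 1728) = 2 :=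
  ord_jK0_sub_eq_two' (not_root_four hr hrM h4) v hv

/-- **`Hord` of helper50 `exists_eq_unit_mul_pow_of_places_of_prime` at `a = 0`, `c = 3`** (the
constant written as `algebraMap 0`, uniformly with `a = 1728`) -/
theorem three_dvd_ord_jK0_sub_zero {r : ℕ} (hr : r.Prime) (hrM : r ∣ M) (h3 : r % 3 = 2)
    (v : Place (K0 A) (modularFunctionFieldFullC (K0 A) M))
    (hv : 0 < v.ord (jC M (K0 A) - algebraMap (K0 A) (modularFunctionFieldFullC (K0 A) M) 0)) :
    ((3 : ℕ) : ℤ) ∣
      v.ord (jC M (K0 A) - algebraMap (K0 A) (modularFunctionFieldFullC (K0 A) M) 0) := by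
  rw [map_zero, sub_zero] at hv ⊢
  rw [ord_jK0_eq_three hr hrM h3 v hv]
  rfl

/-- `Hord` at `a = 0`, `c = 3`, the constant not written -/
theorem three_dvd_ord_jK0 {r : ℕ} (hr : r.Prime) (hrM : r ∣ M) (h3 : r % 3 = 2)
    (v : Place (K0 A) (modularFunctionFieldFullC (K0 A) M)) (hv : 0 < v.ord (jC M (K0 A))) :
    ((3 : ℕ) : ℤ) ∣ v.ord (jC M (K0 A)) := by
  rw [ord_jK0_eq_three hr hrM h3 v hv]
  rfl

/-- **`Hord` of helper50 `exists_eq_unit_mul_pow_of_places_of_prime` at `a = 1728`, `c = 2`** -/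
theorem two_dvd_ord_jK0_sub {r : ℕ} (hr : r.Prime) (hrM : r ∣ M) (h4 : r % 4 = 3)
    (v : Place (K0 A) (modularFunctionFieldFullC (K0 A) M))
    (hv : 0 < v.ord (jC M (K0 A) - algebraMap (K0 A) (modularFunctionFieldFullC (K0 A) M) 1728)) :
    ((2 : ℕ) : ℤ) ∣
      v.ord (jC M (K0 A) - algebraMap (K0 A) (modularFunctionFieldFullC (K0 A) M) 1728) := by
  rw [ord_jK0_sub_eq_two hr hrM h4 v hv]
  rfl

/-- `j ≠ 0` in `K₀(X₀(M))` -/
theorem jC_K0_ne_zero : jC M (K0 A) ≠ 0 := by
  intro h0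
  have h1 := mapK0Bar_jC A M
  rw [h0, map_zero] at h1
  exact (Fermat.Agent.S24.InteriorCounts.realization M).sub_const_ne_zero 0
    (by rw [map_zero, sub_zero]; exact h1.symm)

/-- `j ≠ 1728` in `K₀(X₀(M))` -/
theorem jC_K0_sub_ne_zero :
    jC M (K0 A) - algebraMap (K0 A) (modularFunctionFieldFullC (K0 A) M) 1728 ≠ 0 := by
  intro h0
  have h1 := congrArg (mapK0Bar A M) h0
  rw [map_sub, mapK0Bar_jC, mapK0Bar_1728, map_zero] at h1
  exact (Fermat.Agent.S24.InteriorCounts.realization M).sub_const_ne_zero 1728 h1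

/-- **`j = t³ · ε`** in the valuation ring of every place `v` of `K₀(X₀(M))/K₀` at which `j` is a
non-unit, `t` any uniformiser. -/
theorem jK0_eq_pow_three {r : ℕ} (hr : r.Prime) (hrM : r ∣ M) (h3 : r % 3 = 2)
    (v : Place (K0 A) (modularFunctionFieldFullC (K0 A) M)) (t : v.toValuationSubring)
    (ht : Irreducible t) (hj : jC M (K0 A) ∈ v.toValuationSubring.nonunits) :
    ∃ ε : v.toValuationSubringˣ, jC M (K0 A) =
      (t : modularFunctionFieldFullC (K0 A) M) ^ 3 *
        ((ε : v.toValuationSubring) : modularFunctionFieldFullC (K0 A) M) := by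
  have hpos := ord_pos_of_mem_nonunits v jC_K0_ne_zero hj
  have h := ord_jK0_eq_three hr hrM h3 v hpos
  exact eq_pow_mul_unit_of_ord v t (v.ord_coe_irreducible ht) jC_K0_ne_zero 3 (by rw [h]; rfl)

/-- **`j - 1728 = t² · ε`** in the valuation ring of every place `v` of `K₀(X₀(M))/K₀` at which
`j - 1728` is a non-unit, `t` any uniformiser. -/
theorem jK0_sub_eq_pow_two {r : ℕ} (hr : r.Prime) (hrM : r ∣ M) (h4 : r % 4 = 3)
    (v : Place (K0 A) (modularFunctionFieldFullC (K0 A) M)) (t : v.toValuationSubring)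
    (ht : Irreducible t)
    (hj : jC M (K0 A) - algebraMap (K0 A) (modularFunctionFieldFullC (K0 A) M) 1728 ∈
      v.toValuationSubring.nonunits) :
    ∃ ε : v.toValuationSubringˣ,
      jC M (K0 A) - algebraMap (K0 A) (modularFunctionFieldFullC (K0 A) M) 1728 =
      (t : modularFunctionFieldFullC (K0 A) M) ^ 2 *
        ((ε : v.toValuationSubring) : modularFunctionFieldFullC (K0 A) M) := by
  have hpos := ord_pos_of_mem_nonunits v jC_K0_sub_ne_zero hj
  have h := ord_jK0_sub_eq_two hr hrM h4 v hpos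
  exact eq_pow_mul_unit_of_ord v t (v.ord_coe_irreducible ht) jC_K0_sub_ne_zero 2
    (by rw [h]; rfl)

end Modular

end Fermat.Agent.GL.Reg3.EllMultK0
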