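/-
GATE-L / SMALL-Q (helper95), file 11: the Hasse pair `(U₂, V₁)` for EVERY prime `q`.

REG3 (helper50 3003, cases (A) and (C)) consumes helper93's identity
`red₃ ε₃ · U₂(red₃ j) = − V₁(red₃ j)` (`q ≥ 5`) only through
* the identity itself, * `V₁(a) ≠ 0` for `a ∉ {0, 1728}`, * `deg V₁ = deg U₂ + (q − 1)`,
* `U₂ ≠ 0`, `V₁` monic (reversed polynomials at the cusps).
For `q ∈ {2, 3}` the identity is `red₃ ε₃ = − (red₃ j)^(q−1)` (`ThirdValHasseSmall`), i.e. the pair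
`(1, X^(q−1))`.  This file packages both:

* `hasseU₂All q k`, `hasseV₁All q k` (`= hasseU₂, hasseV₁` for `q ≥ 5`; `= 1, X^(q−1)` else);
* `red3_eps3_mul_hasseU₂All` : the identity for every prime `q`;
* `eval_hasseV₁All_ne_zero`, `natDegree_hasseV₁All_eq`, `hasseU₂All_ne_zero`, `monic_hasseV₁All`;
* `eval_hasseU₂All_ne_zero_of_ssPolyAll` : `a ≠ 0`, `pH(a) ≠ 0 ⟹ U₂(a) ≠ 0`;
* `hasse_identity_cusp_all` : helper50's identity at `∞` for every prime `q`.
-/
import Fermat.Agent.GL.Reg3.HassePoly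
import Fermat.Agent.GL.Val.ThirdValHasseSmall
import Fermat.Agent.GL.Thick.SsPolyAll

set_option autoImplicit false
set_option linter.unusedSectionVars false

noncomputable section

namespace Fermat.Agent.GL.SmallQ

open HahnSeries ModularCurve IsLocalRing Polynomial
open Fermat.Agent.S24 Fermat.Agent.S24_helper62
open Fermat.Agent.GJ.J1 Fermat.Agent.GJ.J1.Val Fermat.Agent.GL.CuspVal
open Fermat.Agent.GL.Thick Fermat.Agent.GL.W3

section Poly

variable (q : ℕ) [Fact q.Prime] (k : Type*) [Field k] [CharP k q]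

/-- the Hasse denominator for every prime: `hasseU₂` for `q ≥ 5`, `1` for `q ∈ {2, 3}` -/
def hasseU₂All : k[X] := if h : 5 ≤ q then hasseU₂ q k h else 1

/-- the Hasse numerator for every prime: `hasseV₁` for `q ≥ 5`, `X^(q-1)` for `q ∈ {2, 3}` -/
def hasseV₁All : k[X] := if 5 ≤ q then hasseV₁ q k else X ^ (q - 1)

theorem hasseU₂All_of_le (h : 5 ≤ q) : hasseU₂All q k = hasseU₂ q k h := dif_pos h

theorem hasseU₂All_of_not_le (h : ¬ 5 ≤ q) : hasseU₂All q k = 1 := dif_neg h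

theorem hasseV₁All_of_le (h : 5 ≤ q) : hasseV₁All q k = hasseV₁ q k := if_pos h

theorem hasseV₁All_of_not_le (h : ¬ 5 ≤ q) : hasseV₁All q k = X ^ (q - 1) := if_neg h

theorem hasseU₂All_ne_zero : hasseU₂All q k ≠ 0 := by
  by_cases h : 5 ≤ q
  · rw [hasseU₂All_of_le q k h]; exact MuLower.hasseU₂_ne_zero q k h
  · rw [hasseU₂All_of_not_le q k h]; exact one_ne_zero

theorem monic_hasseV₁All : (hasseV₁All q k).Monic := by
  by_cases h : 5 ≤ q
  · rw [hasseV₁All_of_le q k h]; exact Fermat.Agent.GL.Reg3.HassePoly.monic_hasseV₁ q k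
  · rw [hasseV₁All_of_not_le q k h]; exact monic_X_pow _

/-- **`deg V₁ = deg U₂ + (q − 1)`** -/
theorem natDegree_hasseV₁All_eq :
    (hasseV₁All q k).natDegree = (hasseU₂All q k).natDegree + (q - 1) := by
  by_cases h : 5 ≤ q
  · rw [hasseV₁All_of_le q k h, hasseU₂All_of_le q k h]
    exact Fermat.Agent.GL.Reg3.HassePoly.natDegree_hasseV₁_eq q k h
  · rw [hasseV₁All_of_not_le q k h, hasseU₂All_of_not_le q k h, natDegree_X_pow, natDegree_one,
      zero_add]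

/-- **`V₁(a) ≠ 0` for `a ∉ {0, 1728}`** -/
theorem eval_hasseV₁All_ne_zero {a : k} (ha0 : a ≠ 0) (ha1728 : a ≠ 1728) :
    (hasseV₁All q k).eval a ≠ 0 := by
  by_cases h : 5 ≤ q
  · rw [hasseV₁All_of_le q k h]; exact eval_hasseV₁_ne_zero q k ha0 ha1728
  · rw [hasseV₁All_of_not_le q k h, eval_pow, eval_X]; exact pow_ne_zero _ ha0

/-- for `q ∈ {2, 3}` already `a ≠ 0` suffices -/
theorem eval_hasseV₁All_ne_zero_small (h : ¬ 5 ≤ q) {a : k} (ha0 : a ≠ 0) :
    (hasseV₁All q k).eval a ≠ 0 := by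
  rw [hasseV₁All_of_not_le q k h, eval_pow, eval_X]; exact pow_ne_zero _ ha0

/-- for `a ≠ 0`: `pH(a) ≠ 0` implies `U₂(a) ≠ 0` (every prime) -/
theorem eval_hasseU₂All_ne_zero_of_ssPolyAll {a : k} (ha0 : a ≠ 0)
    (h : (ssPolyAll q k).eval a ≠ 0) : (hasseU₂All q k).eval a ≠ 0 := by
  by_cases h5 : 5 ≤ q
  · rw [hasseU₂All_of_le q k h5]
    rw [ssPolyAll_of_le q k h5] at h
    exact Fermat.Agent.GL.Reg3.HassePoly.eval_hasseU₂_ne_zero_of_ssPoly q k h5 ha0 h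
  · rw [hasseU₂All_of_not_le q k h5, eval_one]; exact one_ne_zero

/-- **the Hasse identity at the cusp, every prime** (helper50 `hasse_identity_cusp`) -/
theorem hasse_identity_cusp_all {E g : k} (hg : g ≠ 0)
    (h : E * (hasseU₂All q k).eval g⁻¹ = -(hasseV₁All q k).eval g⁻¹) :
    (E * g ^ (2 * (q - 1))) * (hasseU₂All q k).reverse.eval g =
        -((hasseV₁All q k).reverse.eval g * g ^ (q - 1)) ∧
      (hasseU₂All q k).reverse.eval 0 ≠ 0 ∧ (hasseV₁All q k).reverse.eval 0 = 1 := by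
  refine ⟨Fermat.Agent.GL.Reg3.HassePoly.reverse_identity (natDegree_hasseV₁All_eq q k) hg h,
    ?_, ?_⟩
  · rw [Fermat.Agent.GL.Reg3.HassePoly.eval_zero_reverse]
    exact leadingCoeff_ne_zero.mpr (hasseU₂All_ne_zero q k)
  · rw [Fermat.Agent.GL.Reg3.HassePoly.eval_zero_reverse]
    exact monic_hasseV₁All q k

end Poly

section Red3

variable {N : ℕ} [NeZero N] (A : ValuationSubring Kbar) {q M' : ℕ}

local notation "𝕜" => ResidueField A

/-- **`red₃ ε₃ · U₂(red₃ j) = − V₁(red₃ j)` for EVERY prime `q`** (`A` over `q`, `N = M' q²`) -/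
theorem red3_eps3_mul_hasseU₂All [Fact q.Prime] [NeZero q] [CharP 𝕜 q] (hN : N = M' * q ^ 2)
    (hqM : ¬ q ∣ M') (hA : A.LiesOverPrime q) [NeZero (q ^ 2 * 1)]
    (hdN : q ^ 2 * 1 ∣ N) (h : eps3 N q hdN (one_dvd N) ∈ (redData3 N A q).Rw)
    (hj : jF N ∈ (redData3 N A q).Rw) :
    (redData3 N A q).red ⟨eps3 N q hdN (one_dvd N), h⟩ *
        aeval ((redData3 N A q).red ⟨jF N, hj⟩) (hasseU₂All q 𝕜) =
      -aeval ((redData3 N A q).red ⟨jF N, hj⟩) (hasseV₁All q 𝕜) := by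
  by_cases h5 : 5 ≤ q
  · rw [hasseU₂All_of_le q 𝕜 h5, hasseV₁All_of_le q 𝕜 h5]
    exact red3_eps3_mul_hasseU₂ A hN hqM hA h5 hdN h hj
  · rw [hasseU₂All_of_not_le q 𝕜 h5, hasseV₁All_of_not_le q 𝕜 h5, map_one, mul_one, map_pow,
      aeval_X]
    exact red3_eps3_eq_small A hN hqM hA h5 hdN h hj

end Red3

end Fermat.Agent.GL.SmallQ
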