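/-
GATE-L / L5d REG3, level-one input (S2) (helper50): the corollaries of helper63's Hasse identities
`T · U₂(J) = V₁(J)` (`T = (θJ)^(q-1)`, `V₁ = X^(q-1) (X - 1728)^((q-1)/2)`) and
`U₂^12 = X^(4(q-1)) pH²` in the exact polynomial shapes used by the three cases of REG3:

* `natDegree_hasseU₂ : natDegree U₂ = (q-1)/2`  (cusps: `deg V₁ = deg U₂ + (q-1)`);
* `exists_hasseU₂_eq_X_pow_mul` : `pH(0) ≠ 0` (then `q ≡ 1 mod 3`) ⟹ `U₂ = X^((q-1)/3) · U₂'`, `U₂'(0) ≠ 0`;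
* `eval_hasseU₂_ne_zero_of_ssPoly` : `a ≠ 0`, `pH(a) ≠ 0` ⟹ `U₂(a) ≠ 0`  (`a = 1728`, or generic);
* `reverse_identity` : the identity at `∞` in the variable `g = 1/J`.
-/
import Fermat.Agent.GL.Thick.SsPoly
import Fermat.Agent.GL.Thick.MuLower
import Fermat.Agent.GL.Thick.ThickAdapters

set_option autoImplicit false

namespace Fermat.Agent.GL.Reg3.HassePoly

open Polynomial Fermat.Agent.GL.Thick

section Level1

variable (q : ℕ) [Fact q.Prime] (k : Type*) [Field k] [CharP k q]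

/-- `q - 1` is even for `q ≥ 5` prime. -/
theorem two_mul_half (hq5 : 5 ≤ q) : q - 1 = 2 * ((q - 1) / 2) :=
  Fermat.Agent.GL.Thick.two_mul_half q hq5

/-- **`deg U₂ = (q-1)/2`**. -/
theorem natDegree_hasseU₂ (hq5 : 5 ≤ q) : (hasseU₂ q k hq5).natDegree = (q - 1) / 2 := by
  have h := congrArg Polynomial.natDegree (hasse_rel q k hq5)
  have hss : ssPoly q k hq5 ≠ 0 := Fermat.Agent.GL.Thick.ssPoly_ne_zero q k hq5
  rw [natDegree_pow, natDegree_mul (pow_ne_zero _ X_ne_zero) (pow_ne_zero 2 hss), natDegree_X_pow,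
    natDegree_pow, natDegree_ssPoly] at h
  have h2 := two_mul_half q hq5
  omega

/-- `(1728 : k) ≠ 0` in characteristic `q ≥ 5`. -/
theorem c1728_ne_zero (hq5 : 5 ≤ q) : (1728 : k) ≠ 0 := by
  have hp : q.Prime := Fact.out
  intro h
  have h1 : ((1728 : ℕ) : k) = 0 := by exact_mod_cast h
  rw [CharP.cast_eq_zero_iff k q] at h1
  have h2 : (1728 : ℕ) = 2 ^ 6 * 3 ^ 3 := by norm_num
  rw [h2] at h1
  rcases (Nat.Prime.dvd_mul hp).mp h1 with h3 | h3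
  · have := (Nat.prime_dvd_prime_iff_eq hp Nat.prime_two).mp (hp.dvd_of_dvd_pow h3)
    omega
  · have := (Nat.prime_dvd_prime_iff_eq hp Nat.prime_three).mp (hp.dvd_of_dvd_pow h3)
    omega

/-- for `a ≠ 0`: `pH(a) ≠ 0` implies `U₂(a) ≠ 0`. -/
theorem eval_hasseU₂_ne_zero_of_ssPoly (hq5 : 5 ≤ q) {a : k} (ha0 : a ≠ 0)
    (h : (ssPoly q k hq5).eval a ≠ 0) : (hasseU₂ q k hq5).eval a ≠ 0 := fun hU =>
  h ((ssPoly_eval_eq_zero_iff q k hq5 ha0).mpr hU)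

/-- at `1728` ordinary: `U₂(1728) ≠ 0`. -/
theorem eval_hasseU₂_1728_ne_zero (hq5 : 5 ≤ q) (h : (ssPoly q k hq5).eval 1728 ≠ 0) :
    (hasseU₂ q k hq5).eval 1728 ≠ 0 :=
  eval_hasseU₂_ne_zero_of_ssPoly q k hq5 (c1728_ne_zero q k hq5) h

/-- **at `0` ordinary** (`pH(0) ≠ 0`; then `3 ∣ q - 1` automatically): `U₂ = X^((q-1)/3) · U₂'` with
`U₂'(0) ≠ 0`. -/
theorem exists_hasseU₂_eq_X_pow_mul (hq5 : 5 ≤ q)
    (h0 : (ssPoly q k hq5).eval 0 ≠ 0) :
    ∃ U' : k[X], hasseU₂ q k hq5 = X ^ ((q - 1) / 3) * U' ∧ U'.eval 0 ≠ 0 := by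
  have hU : hasseU₂ q k hq5 ≠ 0 := MuLower.hasseU₂_ne_zero q k hq5
  have hμ : rootMultiplicity (0 : k) (ssPoly q k hq5) = 0 :=
    rootMultiplicity_eq_zero h0
  have hrel := MuLower.rootMultiplicity_rel_zero q k hq5
  rw [hμ] at hrel
  have hm : rootMultiplicity (0 : k) (hasseU₂ q k hq5) = (q - 1) / 3 := by omega
  obtain ⟨U', hU', hnd⟩ := exists_eq_pow_rootMultiplicity_mul_and_not_dvd (hasseU₂ q k hq5) hU 0
  rw [hm, C_0, sub_zero] at hU'
  rw [C_0, sub_zero] at hnd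
  refine ⟨U', hU', fun h => hnd ?_⟩
  rw [X_dvd_iff, coeff_zero_eq_eval_zero]
  exact h

end Level1

section Reverse

variable {κ : Type*} [Field κ]

/-- `reverse p` evaluated at `g ≠ 0` is `g ^ deg p · p(1/g)`. -/
theorem eval_reverse_eq (p : κ[X]) {g : κ} (hg : g ≠ 0) :
    p.reverse.eval g = g ^ p.natDegree * p.eval g⁻¹ := by
  let _ : Invertible g⁻¹ := invertibleOfNonzero (inv_ne_zero hg)
  have h := Polynomial.eval₂_reverse_mul_pow (RingHom.id κ) g⁻¹ p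
  rw [invOf_eq_inv, inv_inv, Polynomial.eval₂_id, Polynomial.eval₂_id] at h
  rw [← h, inv_pow, mul_comm, mul_assoc, inv_mul_cancel₀ (pow_ne_zero _ hg), mul_one]

/-- **the Hasse identity at `∞`**: from `E · U(1/g) = - V(1/g)` with `deg V = deg U + n`, in the
variable `g = 1/J`:  `(E · g^(2n)) · Ũ(g) = - Ṽ(g) · g^n`, `Ũ, Ṽ` the reversed polynomials
(`Ũ(0), Ṽ(0)` = leading coefficients, nonzero). -/
theorem reverse_identity {U V : κ[X]} {n : ℕ} (hdeg : V.natDegree = U.natDegree + n) {E g : κ}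
    (hg : g ≠ 0) (h : E * U.eval g⁻¹ = -V.eval g⁻¹) :
    (E * g ^ (2 * n)) * U.reverse.eval g = -(V.reverse.eval g * g ^ n) := by
  rw [eval_reverse_eq U hg, eval_reverse_eq V hg, hdeg]
  calc E * g ^ (2 * n) * (g ^ U.natDegree * U.eval g⁻¹)
      = g ^ (2 * n) * g ^ U.natDegree * (E * U.eval g⁻¹) := by ring
    _ = g ^ (2 * n) * g ^ U.natDegree * (-V.eval g⁻¹) := by rw [h]
    _ = -(g ^ (U.natDegree + n) * V.eval g⁻¹ * g ^ n) := by
        rw [pow_add, two_mul, pow_add]; ring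

/-- the constant term of the reversed polynomial is the leading coefficient. -/
theorem eval_zero_reverse (p : κ[X]) : p.reverse.eval 0 = p.leadingCoeff := by
  rw [← coeff_zero_eq_eval_zero, coeff_zero_reverse]

end Reverse

section V1

variable (q : ℕ) [Fact q.Prime] [NeZero q] (k : Type*) [Field k] [CharP k q]

omit [Fact q.Prime] [NeZero q] [CharP k q] in
/-- `V₁ = X^(q-1) · U₁` with `U₁ = (X - 1728)^((q-1)/2)` (shape at `a = 0`). -/
theorem hasseV₁_eq_X_pow_mul : hasseV₁ q k = X ^ (q - 1) * hasseU₁ q k := rfl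

omit [Fact q.Prime] [NeZero q] [CharP k q] in
/-- `V₁ = (X - 1728)^((q-1)/2) · X^(q-1)` (shape at `a = 1728`). -/
theorem hasseV₁_eq_sub_pow_mul :
    hasseV₁ q k = (X - C (1728 : k)) ^ ((q - 1) / 2) * X ^ (q - 1) := by
  rw [hasseV₁, hasseU₁, mul_comm]

omit [NeZero q] in
/-- `U₁(0) ≠ 0`. -/
theorem eval_hasseU₁_zero_ne_zero (hq5 : 5 ≤ q) : (hasseU₁ q k).eval 0 ≠ 0 := by
  rw [hasseU₁, eval_pow, eval_sub, eval_X, eval_C, zero_sub]
  exact pow_ne_zero _ (neg_ne_zero.mpr (c1728_ne_zero q k hq5))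

omit [NeZero q] in
/-- `X^(q-1)` does not vanish at `1728`. -/
theorem eval_X_pow_1728_ne_zero (hq5 : 5 ≤ q) : ((X : k[X]) ^ (q - 1)).eval 1728 ≠ 0 := by
  rw [eval_pow, eval_X]
  exact pow_ne_zero _ (c1728_ne_zero q k hq5)

omit [Fact q.Prime] [NeZero q] [CharP k q] in
/-- `V₁` is monic. -/
theorem monic_hasseV₁ : (hasseV₁ q k).Monic := by
  rw [hasseV₁, hasseU₁]
  exact (monic_X_pow _).mul ((monic_X_sub_C _).pow _)

omit [Fact q.Prime] [NeZero q] [CharP k q] in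
/-- `deg V₁ = (q-1) + (q-1)/2`. -/
theorem natDegree_hasseV₁ : (hasseV₁ q k).natDegree = (q - 1) + (q - 1) / 2 := by
  rw [hasseV₁, hasseU₁, Polynomial.Monic.natDegree_mul (monic_X_pow _) ((monic_X_sub_C _).pow _),
    natDegree_X_pow, Polynomial.Monic.natDegree_pow (monic_X_sub_C _), natDegree_X_sub_C, mul_one]

omit [NeZero q] in
/-- **`deg V₁ = deg U₂ + (q-1)`**: the degree condition of `reverse_identity`. -/
theorem natDegree_hasseV₁_eq (hq5 : 5 ≤ q) :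
    (hasseV₁ q k).natDegree = (hasseU₂ q k hq5).natDegree + (q - 1) := by
  rw [natDegree_hasseV₁, natDegree_hasseU₂, add_comm]

omit [NeZero q] in
/-- **the Hasse identity at the cusp**, in the variable `g = 1/J̃`: if `E · U₂(1/g) = - V₁(1/g)`
then `(E · g^(2(q-1))) · Ũ₂(g) = - Ṽ₁(g) · g^(q-1)`, and `Ũ₂(0) ≠ 0`, `Ṽ₁(0) = 1`. -/
theorem hasse_identity_cusp (hq5 : 5 ≤ q) {E g : k} (hg : g ≠ 0)
    (h : E * (hasseU₂ q k hq5).eval g⁻¹ = -(hasseV₁ q k).eval g⁻¹) :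
    (E * g ^ (2 * (q - 1))) * (hasseU₂ q k hq5).reverse.eval g =
        -((hasseV₁ q k).reverse.eval g * g ^ (q - 1)) ∧
      (hasseU₂ q k hq5).reverse.eval 0 ≠ 0 ∧ (hasseV₁ q k).reverse.eval 0 = 1 := by
  refine ⟨reverse_identity (natDegree_hasseV₁_eq q k hq5) hg h, ?_, ?_⟩
  · rw [eval_zero_reverse]
    exact leadingCoeff_ne_zero.mpr (MuLower.hasseU₂_ne_zero q k hq5)
  · rw [eval_zero_reverse]
    exact monic_hasseV₁ q k

end V1

end Fermat.Agent.GL.Reg3.HassePoly
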