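/-
GATE-L / SPEC-RAM (T1): the colength lemma in a Dedekind domain.
`D` a Dedekind `k`-algebra, `I ≠ ⊥`, `𝔟 ≠ ⊥` ideals with `𝔟 ^ c ≤ I` and
`c * dim_k (D/𝔟) ≤ dim_k (D/I)`  ⟹  `𝔟 ^ c = I`; hence every adic valuation of a generator of
`I` is divisible by `c`.  Mathlib only.
-/
import Mathlib

set_option autoImplicit false

namespace Fermat.Agent.GL.Reg3.RootColength

open Module

variable {k D : Type*} [Field k] [CommRing D] [Algebra k D]

/-- the canonical `k`-linear surjection `D/I' → D/I` for `I' ≤ I` -/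
noncomputable def factorL {I' I : Ideal D} (h : I' ≤ I) : (D ⧸ I') →ₗ[k] (D ⧸ I) :=
  (Ideal.Quotient.factorₐ k h).toLinearMap

theorem factorL_mk {I' I : Ideal D} (h : I' ≤ I) (x : D) :
    factorL (k := k) h (Ideal.Quotient.mk I' x) = Ideal.Quotient.mk I x := rfl

theorem factorL_surjective {I' I : Ideal D} (h : I' ≤ I) :
    Function.Surjective (factorL (k := k) h) := by
  intro y
  obtain ⟨x, rfl⟩ := Ideal.Quotient.mk_surjective y
  exact ⟨Ideal.Quotient.mk I' x, rfl⟩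

/-- `dim D/I' = dim D/I + dim ker(D/I' → D/I)` -/
theorem finrank_eq_add_ker {I' I : Ideal D} (h : I' ≤ I) [Module.Finite k (D ⧸ I')] :
    finrank k (D ⧸ I') = finrank k (D ⧸ I) + finrank k (LinearMap.ker (factorL (k := k) h)) := by
  have h1 := LinearMap.finrank_range_add_finrank_ker (factorL (k := k) h)
  rw [LinearMap.range_eq_top.2 (factorL_surjective h), finrank_top] at h1
  exact h1.symm

theorem finite_of_le {I' I : Ideal D} (h : I' ≤ I) [Module.Finite k (D ⧸ I')] :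
    Module.Finite k (D ⧸ I) :=
  Module.Finite.of_surjective (factorL (k := k) h) (factorL_surjective h)

theorem finrank_le_of_le {I' I : Ideal D} (h : I' ≤ I) [Module.Finite k (D ⧸ I')] :
    finrank k (D ⧸ I) ≤ finrank k (D ⧸ I') := by
  rw [finrank_eq_add_ker (k := k) h]
  exact Nat.le_add_right _ _

/-- multiplication by `a`, as a `k`-linear map `D → D/I'` -/
noncomputable def mulMk (I' : Ideal D) (a : D) : D →ₗ[k] (D ⧸ I') :=
  (Ideal.Quotient.mkₐ k I').toLinearMap ∘ₗ (LinearMap.mulLeft k a)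

theorem mulMk_apply (I' : Ideal D) (a d : D) :
    mulMk (k := k) I' a d = Ideal.Quotient.mk I' (a * d) := rfl

section Dedekind

variable [IsDedekindDomain D]

/-- **Subadditivity of the colength** in a Dedekind domain. -/
theorem finite_and_finrank_mul_le (I J : Ideal D) (hI : I ≠ ⊥) (hJ : J ≠ ⊥)
    [Module.Finite k (D ⧸ I)] [Module.Finite k (D ⧸ J)] :
    Module.Finite k (D ⧸ I * J) ∧
      finrank k (D ⧸ I * J) ≤ finrank k (D ⧸ I) + finrank k (D ⧸ J) := by
  have hle : I * J ≤ I := Ideal.mul_le_left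
  have hIJ0 : I * J ≠ 0 := mul_ne_zero hI hJ
  obtain ⟨a, ha⟩ := IsDedekindDomain.exists_sup_span_eq hle hIJ0
  have haI : a ∈ I := by
    rw [← ha]
    exact Ideal.mem_sup_right (Ideal.mem_span_singleton_self a)
  -- the map `D/J → D/IJ`, `d ↦ a d`
  have hker : J.restrictScalars k ≤ LinearMap.ker (mulMk (k := k) (I * J) a) := by
    intro d hd
    rw [LinearMap.mem_ker, mulMk_apply, Ideal.Quotient.eq_zero_iff_mem]
    exact Ideal.mul_mem_mul haI hd
  let φ : (D ⧸ J.restrictScalars k) →ₗ[k] (D ⧸ I * J) :=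
    (J.restrictScalars k).liftQ (mulMk (k := k) (I * J) a) hker
  have hfinJ : Module.Finite k (D ⧸ J.restrictScalars k) :=
    Module.Finite.equiv (Submodule.Quotient.restrictScalarsEquiv k J).symm
  have hrankJ : finrank k (D ⧸ J.restrictScalars k) = finrank k (D ⧸ J) :=
    (Submodule.Quotient.restrictScalarsEquiv k J).finrank_eq
  -- the range of `φ` is the kernel of `D/IJ → D/I`
  have hrange : LinearMap.range φ = LinearMap.ker (factorL (k := k) hle) := by
    apply le_antisymm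
    · rintro _ ⟨z, rfl⟩
      obtain ⟨d, rfl⟩ := Submodule.Quotient.mk_surjective _ z
      rw [LinearMap.mem_ker]
      show factorL (k := k) hle (mulMk (k := k) (I * J) a d) = 0
      rw [mulMk_apply, factorL_mk, Ideal.Quotient.eq_zero_iff_mem]
      exact I.mul_mem_right d haI
    · intro z hz
      obtain ⟨y, rfl⟩ := Ideal.Quotient.mk_surjective z
      rw [LinearMap.mem_ker, factorL_mk, Ideal.Quotient.eq_zero_iff_mem, ← ha] at hz
      obtain ⟨i, hi, s, hs, rfl⟩ := Submodule.mem_sup.1 hz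
      obtain ⟨d, rfl⟩ := Ideal.mem_span_singleton'.1 hs
      refine ⟨Submodule.Quotient.mk d, ?_⟩
      show mulMk (k := k) (I * J) a d = _
      rw [mulMk_apply, eq_comm, ← sub_eq_zero, ← map_sub, Ideal.Quotient.eq_zero_iff_mem]
      have : i + d * a - a * d = i := by ring
      rw [this]
      exact hi
  have hfinK : Module.Finite k (LinearMap.ker (factorL (k := k) hle)) := by
    rw [← hrange]
    exact Module.Finite.range φ
  have hfinQ : Module.Finite k ((D ⧸ I * J) ⧸ LinearMap.ker (factorL (k := k) hle)) :=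
    Module.Finite.equiv
      ((factorL (k := k) hle).quotKerEquivOfSurjective (factorL_surjective hle)).symm
  have hfin : Module.Finite k (D ⧸ I * J) :=
    Module.Finite.of_submodule_quotient (LinearMap.ker (factorL (k := k) hle))
  refine ⟨hfin, ?_⟩
  rw [finrank_eq_add_ker (k := k) hle, ← hrankJ]
  have : finrank k (LinearMap.ker (factorL (k := k) hle)) ≤ finrank k (D ⧸ J.restrictScalars k) := by
    rw [← hrange]
    exact LinearMap.finrank_range_le φ
  omega

/-- colength of a power -/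
theorem finite_and_finrank_pow_le (𝔟 : Ideal D) (h𝔟 : 𝔟 ≠ ⊥) [Module.Finite k (D ⧸ 𝔟)] (n : ℕ) :
    Module.Finite k (D ⧸ 𝔟 ^ n) ∧ finrank k (D ⧸ 𝔟 ^ n) ≤ n * finrank k (D ⧸ 𝔟) := by
  induction n with
  | zero =>
    have hsub : Subsingleton (D ⧸ 𝔟 ^ 0) := by
      rw [pow_zero, Ideal.one_eq_top]
      exact Ideal.Quotient.subsingleton_iff.2 rfl
    refine ⟨inferInstance, ?_⟩
    rw [finrank_zero_of_subsingleton]
    exact Nat.zero_le _
  | succ n ih =>
    obtain ⟨hfin, hle⟩ := ih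
    have hne : 𝔟 ^ n ≠ ⊥ := pow_ne_zero n h𝔟
    obtain ⟨h1, h2⟩ := finite_and_finrank_mul_le (k := k) (𝔟 ^ n) 𝔟 hne h𝔟
    rw [pow_succ]
    refine ⟨h1, ?_⟩
    calc finrank k (D ⧸ 𝔟 ^ n * 𝔟) ≤ finrank k (D ⧸ 𝔟 ^ n) + finrank k (D ⧸ 𝔟) := h2
      _ ≤ n * finrank k (D ⧸ 𝔟) + finrank k (D ⧸ 𝔟) := Nat.add_le_add_right hle _
      _ = (n + 1) * finrank k (D ⧸ 𝔟) := by ring

/-- strictness: `dim D/(I P) ≥ dim D/I + 1` for `P` a proper ideal -/
theorem finrank_add_one_le (I P : Ideal D) (hI : I ≠ ⊥) (hP : P ≠ ⊤)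
    [Module.Finite k (D ⧸ I * P)] :
    finrank k (D ⧸ I) + 1 ≤ finrank k (D ⧸ I * P) := by
  have hle : I * P ≤ I := Ideal.mul_le_left
  rw [finrank_eq_add_ker (k := k) hle]
  have hne : I * P ≠ I := by
    intro h
    have h2 : I * P = I * ⊤ := by rw [h, Ideal.mul_top]
    exact hP (mul_left_cancel₀ hI h2)
  obtain ⟨y, hyI, hyIP⟩ : ∃ y, y ∈ I ∧ y ∉ I * P := by
    by_contra hcon
    apply hne
    apply le_antisymm hle
    intro y hy
    by_contra hy'
    exact hcon ⟨y, hy, hy'⟩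
  have hpos : 0 < finrank k (LinearMap.ker (factorL (k := k) hle)) := by
    rw [Module.finrank_pos_iff_exists_ne_zero]
    refine ⟨⟨Ideal.Quotient.mk (I * P) y, ?_⟩, ?_⟩
    · rw [LinearMap.mem_ker, factorL_mk, Ideal.Quotient.eq_zero_iff_mem]
      exact hyI
    · intro h
      have h' := congrArg Subtype.val h
      simp only [ZeroMemClass.coe_zero] at h'
      rw [Ideal.Quotient.eq_zero_iff_mem] at h'
      exact hyIP h'
  omega

/-- **The colength lemma.** -/
theorem pow_eq_of_finrank_le (I 𝔟 : Ideal D) (hI : I ≠ ⊥) (h𝔟 : 𝔟 ≠ ⊥) (c : ℕ)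
    (hle : 𝔟 ^ c ≤ I) [Module.Finite k (D ⧸ 𝔟)]
    (hdim : c * finrank k (D ⧸ 𝔟) ≤ finrank k (D ⧸ I)) : 𝔟 ^ c = I := by
  obtain ⟨L, hL⟩ := Ideal.dvd_iff_le.2 hle
  by_cases hLtop : L = ⊤
  · rw [hL, hLtop, Ideal.mul_top]
  exfalso
  obtain ⟨P, hPmax, hLP⟩ := Ideal.exists_le_maximal L hLtop
  have hIP : 𝔟 ^ c ≤ I * P := by
    rw [hL]
    exact Ideal.mul_mono_right hLP
  obtain ⟨hfin, hpow⟩ := finite_and_finrank_pow_le (k := k) 𝔟 h𝔟 c
  have hfinIP : Module.Finite k (D ⧸ I * P) := finite_of_le (k := k) hIP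
  have h1 : finrank k (D ⧸ I * P) ≤ finrank k (D ⧸ 𝔟 ^ c) := finrank_le_of_le (k := k) hIP
  have h2 := finrank_add_one_le (k := k) I P hI hPmax.ne_top
  omega

open IsDedekindDomain WithZero in
/-- if `(x) = 𝔟 ^ c` then every adic valuation of `x` is `exp (-(c * n))` -/
theorem intValuation_eq_exp_of_span_eq_pow {x : D} (hx : x ≠ 0) {𝔟 : Ideal D} {c : ℕ}
    (h : Ideal.span {x} = 𝔟 ^ c) (v : HeightOneSpectrum D) :
    ∃ n : ℕ, v.intValuation x = exp (-((c * n : ℕ) : ℤ)) := by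
  classical
  have hirr : Irreducible (Associates.mk v.asIdeal) := v.associates_irreducible
  rcases Nat.eq_zero_or_pos c with hc | hc
  · subst hc
    refine ⟨0, ?_⟩
    rw [HeightOneSpectrum.intValuation_if_neg v hx, h, pow_zero, Associates.mk_one,
      Associates.factors_one, Associates.count_zero hirr]
  · have h𝔟 : 𝔟 ≠ 0 := by
      rintro rfl
      rw [zero_pow hc.ne'] at h
      exact hx (Ideal.span_singleton_eq_bot.1 h)
    have hmk : Associates.mk 𝔟 ≠ 0 := Associates.mk_ne_zero.2 h𝔟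
    refine ⟨(Associates.mk v.asIdeal).count (Associates.mk 𝔟).factors, ?_⟩
    rw [HeightOneSpectrum.intValuation_if_neg v hx, h, Associates.mk_pow,
      Associates.count_pow hmk hirr]

/-- **SPEC-RAM (T1), valuation form.** `D` Dedekind `k`-algebra, `x ≠ 0`, `𝔟 ≠ ⊥` an ideal with
`𝔟 ^ c ≤ (x)` and `c * dim_k (D/𝔟) ≤ dim_k (D/(x))`: every adic valuation of `x` is
`exp (-(c * n))`. -/
theorem exists_intValuation_eq_exp {x : D} (hx : x ≠ 0) (𝔟 : Ideal D) (h𝔟 : 𝔟 ≠ ⊥) (c : ℕ)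
    (hle : 𝔟 ^ c ≤ Ideal.span {x}) [Module.Finite k (D ⧸ 𝔟)]
    (hdim : c * finrank k (D ⧸ 𝔟) ≤ finrank k (D ⧸ Ideal.span {x}))
    (v : IsDedekindDomain.HeightOneSpectrum D) :
    ∃ n : ℕ, v.intValuation x = WithZero.exp (-((c * n : ℕ) : ℤ)) := by
  have hI : Ideal.span {x} ≠ ⊥ := by
    rw [Ne, Ideal.span_singleton_eq_bot]
    exact hx
  have h := pow_eq_of_finrank_le (k := k) (Ideal.span {x}) 𝔟 hI h𝔟 c hle hdim
  exact intValuation_eq_exp_of_span_eq_pow hx h.symm v

end Dedekind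

end Fermat.Agent.GL.Reg3.RootColength
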