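/-
GATE-L / SPEC-RAM (T2): reduction comparison.
`A ⊆ K` a valuation ring with residue map `res : A → k`; `B` a `K`-subalgebra of `F`, `Bw ⊆ B` a
subring stable under `A` with a surjective reduction `red : Bw → D` (compatible with `res`);
`ε : B → V` a `K`-linear map into a finite-dimensional space.  If `𝔟 ⊆ D` contains the reduction
of `ker ε ∩ Bw`, then `dim_k D/𝔟 ≤ dim_K V`.  With the colength lemma (T1): if moreover
`(ker ε ∩ Bw)^c ⊆ x Bw` and `c * dim_K V ≤ dim_k D/(x~)` then every adic valuation of `x~` is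
divisible by `c`.  Mathlib + RootColength only.
-/
import Fermat.Agent.GL.Reg3.RootColength

set_option autoImplicit false

namespace Fermat.Agent.GL.Reg3.RamSpecAbs

open Module

variable {K : Type*} [Field K] (A : ValuationSubring K) {k : Type*} [Field k] (res : A →+* k)
  {F : Type*} [CommRing F] [Algebra K F] (B : Subalgebra K F) (Bw : Subring F)
  (hBwB : ∀ y ∈ Bw, y ∈ B) (hA : ∀ a : A, algebraMap K F a ∈ Bw)
  {D : Type*} [CommRing D] [Algebra k D] (red : Bw →+* D)
  (hcompat : ∀ a : A, red ⟨algebraMap K F a, hA a⟩ = algebraMap k D (res a))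
  {V : Type*} [AddCommGroup V] [Module K V] (ε : B →ₗ[K] V)

/-- normalisation of a nontrivial finite family of scalars in a valuation ring -/
theorem exists_normalised {ι : Type*} (s : Finset ι) (g : ι → K) (hg : ∃ i ∈ s, g i ≠ 0) :
    ∃ i0 ∈ s, g i0 ≠ 0 ∧ ∀ i ∈ s, g i / g i0 ∈ A := by
  obtain ⟨i1, hi1, hne⟩ := hg
  obtain ⟨i0, hi0, hmax⟩ := Finset.exists_max_image s (fun i => A.valuation (g i)) ⟨i1, hi1⟩
  have hne0 : g i0 ≠ 0 := by
    intro h0
    have h1 := hmax i1 hi1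
    rw [h0, map_zero] at h1
    exact hne ((map_eq_zero _).1 (le_antisymm h1 zero_le))
  refine ⟨i0, hi0, hne0, fun i hi => ?_⟩
  rw [← A.valuation_le_one_iff, map_div₀]
  exact div_le_one_of_le₀ (hmax i hi) zero_le

include hBwB hcompat in
/-- **(T2)** `dim_k D/𝔟 ≤ dim_K V`. -/
theorem finite_and_finrank_quotient_le [Module.Finite K V] (hsurj : Function.Surjective red)
    (𝔟 : Ideal D) (h𝔟 : ∀ y : Bw, ε ⟨y, hBwB y y.2⟩ = 0 → red y ∈ 𝔟) :
    Module.Finite k (D ⧸ 𝔟) ∧ finrank k (D ⧸ 𝔟) ≤ finrank K V := by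
  classical
  have hrank : Module.rank k (D ⧸ 𝔟) ≤ (finrank K V : ℕ) := by
    apply rank_le
    intro s hs
    by_contra hcard
    rw [not_le] at hcard
    -- lifts
    have hlift : ∀ z : D ⧸ 𝔟, ∃ y : Bw, Ideal.Quotient.mk 𝔟 (red y) = z := by
      intro z
      obtain ⟨d, rfl⟩ := Ideal.Quotient.mk_surjective z
      obtain ⟨y, rfl⟩ := hsurj d
      exact ⟨y, rfl⟩
    choose lift hliftz using hlift
    -- the vectors `ε (lift z)`, `z ∈ s`, are dependent
    have hdep : ¬ LinearIndependent K (fun z : s => ε ⟨lift z, hBwB _ (lift z).2⟩) := by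
      intro hli
      have := hli.fintype_card_le_finrank
      rw [Fintype.card_coe] at this
      omega
    rw [Fintype.not_linearIndependent_iff] at hdep
    obtain ⟨g, hg0, i1, hi1⟩ := hdep
    obtain ⟨i0, -, hne0, hall⟩ := exists_normalised A (Finset.univ : Finset s) g ⟨i1, Finset.mem_univ _, hi1⟩
    -- normalised coefficients in `A`
    let cA : s → A := fun i => ⟨g i / g i0, hall i (Finset.mem_univ _)⟩
    let y : Bw := ∑ i : s, (⟨algebraMap K F (cA i), hA (cA i)⟩ : Bw) * lift i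
    have hyε : ε ⟨y, hBwB y y.2⟩ = 0 := by
      have h1 : (⟨(y : F), hBwB y y.2⟩ : B)
          = ∑ i : s, ((cA i : A) : K) • (⟨lift i, hBwB _ (lift i).2⟩ : B) := by
        apply Subtype.ext
        simp only [y, AddSubmonoidClass.coe_finsetSum, Subring.coe_mul, Subalgebra.coe_smul]
        refine Finset.sum_congr rfl (fun i _ => ?_)
        rw [Algebra.smul_def]
      rw [h1, map_sum]
      simp only [map_smul]
      have h2 : ∑ i : s, ((cA i : A) : K) • ε ⟨lift i, hBwB _ (lift i).2⟩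
          = (g i0)⁻¹ • ∑ i : s, g i • ε ⟨lift i, hBwB _ (lift i).2⟩ := by
        rw [Finset.smul_sum]
        refine Finset.sum_congr rfl (fun i _ => ?_)
        rw [smul_smul]
        congr 1
        simp only [cA]
        rw [div_eq_mul_inv, mul_comm]
      rw [h2, hg0, smul_zero]
    have hmem := h𝔟 y hyε
    -- reduce
    have hred : Ideal.Quotient.mk 𝔟 (red y) = ∑ i : s, res (cA i) • (i : D ⧸ 𝔟) := by
      simp only [y, map_sum, map_mul, hcompat]
      refine Finset.sum_congr rfl (fun i _ => ?_)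
      rw [hliftz, Algebra.smul_def]
      rfl
    rw [Ideal.Quotient.eq_zero_iff_mem.2 hmem] at hred
    have hcoef := (Fintype.linearIndependent_iff.1 hs) (fun i => res (cA i)) hred.symm i0
    have h1 : cA i0 = 1 := by
      apply Subtype.ext
      simp only [cA]
      exact div_self hne0
    rw [h1, map_one] at hcoef
    exact one_ne_zero hcoef
  have hlt : Module.rank k (D ⧸ 𝔟) < Cardinal.aleph0 :=
    lt_of_le_of_lt hrank (Cardinal.natCast_lt_aleph0)
  have hfin : Module.Finite k (D ⧸ 𝔟) := by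
    have : IsNoetherian k (D ⧸ 𝔟) := IsNoetherian.iff_rank_lt_aleph0.2 hlt
    infer_instance
  exact ⟨hfin, finrank_le_of_rank_le hrank⟩

include hBwB hcompat in
/-- **SPEC-RAM, abstract form.** -/
theorem exists_intValuation_eq_exp [IsDedekindDomain D] [Module.Finite K V]
    (hsurj : Function.Surjective red) (𝔞w : Ideal Bw)
    (h𝔞 : ∀ y : Bw, ε ⟨y, hBwB y y.2⟩ = 0 → y ∈ 𝔞w) (xw : Bw) (hx𝔞 : xw ∈ 𝔞w) (c : ℕ)
    (hpow : 𝔞w ^ c ≤ Ideal.span {xw}) (hx0 : red xw ≠ 0)
    (hdim : c * finrank K V ≤ finrank k (D ⧸ Ideal.span {red xw}))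
    (v : IsDedekindDomain.HeightOneSpectrum D) :
    ∃ n : ℕ, v.intValuation (red xw) = WithZero.exp (-((c * n : ℕ) : ℤ)) := by
  set 𝔟 : Ideal D := 𝔞w.map red with h𝔟def
  have hmem : ∀ y : Bw, ε ⟨y, hBwB y y.2⟩ = 0 → red y ∈ 𝔟 :=
    fun y hy => Ideal.mem_map_of_mem red (h𝔞 y hy)
  obtain ⟨hfin, hle⟩ :=
    finite_and_finrank_quotient_le A res B Bw hBwB hA red hcompat ε hsurj 𝔟 hmem
  have h𝔟0 : 𝔟 ≠ ⊥ := by
    intro h
    have : red xw ∈ 𝔟 := Ideal.mem_map_of_mem red hx𝔞
    rw [h, Ideal.mem_bot] at this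
    exact hx0 this
  have hpow' : 𝔟 ^ c ≤ Ideal.span {red xw} := by
    rw [h𝔟def, ← Ideal.map_pow]
    refine (Ideal.map_mono hpow).trans ?_
    rw [Ideal.map_span, Set.image_singleton]
  have hdim' : c * finrank k (D ⧸ 𝔟) ≤ finrank k (D ⧸ Ideal.span {red xw}) :=
    (Nat.mul_le_mul_left c hle).trans hdim
  exact RootColength.exists_intValuation_eq_exp (k := k) hx0 𝔟 h𝔟0 c hpow' hdim' v

end Fermat.Agent.GL.Reg3.RamSpecAbs
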