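/-
GATE-L / L5d REG3, case (C) = the CUSPS, FINAL (helper50; claims key REG3-C-INST).

`exists_vertPrime_caseC_all` (`Reg3CInstK0.lean`) with `hcusp` DISCHARGED by helper16's
CUSP-SPEC (`valuation_genC_inv_eq_of_frame'`, `fInf_mem_range_V1`, `fZero_mem_range_V1`,
`fInf_mem_nonunits_Rw3K0`, `fZero_mem_nonunits_Rw3K0`).  NOTE: helper16's packaged
`valuation_genC_inv_eq_V1` asks `1/j_{q²} ∈ B` (`haD`), which is used only at the NON-cuspidal
horizontal primes; those are handled in `Reg3CInst.exists_quot_cusp` by the integral relation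
(`not_mem_nonunits_of_intRel`), so `haD` is NOT needed here.

`exists_vertPrime_caseC_final` : at a cusp point `P` (`a = 1/j ∈ P`) of a noetherian normal frame `B`
of `F₀ = K₀(X₀(M' q²))` containing `R₀` and `1/j`, whose vertical height-one primes are
`w₁ | w₂ | w₃` (`hvertW`, helper80 `FrameInstVal.exists_frame_inv`), lying on `𝔭₀ = P₃` only:
the block `(π, hπne, hπ0, hgen, hother)` of helper47 `LocTypeI.exists_locAt`.  No hypothesis left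
besides the frame facts.
-/
import Fermat.Agent.GL.Reg3.Reg3CInstK0
import Fermat.Agent.GL.Cusp.CuspSpecInst

set_option autoImplicit false
set_option linter.unusedSectionVars false

noncomputable section

namespace Fermat.Agent.GL.Reg3

open HahnSeries ModularCurve IsLocalRing AlgebraicCurve
open Fermat.Agent.GL.KrullFrame Fermat.Agent.GL.KrullHeightOne Fermat.Agent.GL.Frame.HeightOne
open Fermat.Agent.GL.Frame.HorizHord
open Fermat.Agent.GL.Val.GaussK0 Fermat.Agent.GL.Val.SecondK0 Fermat.Agent.GL.Val.SecondK0Hall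
open Fermat.Agent.GK.Val.GaussBase Fermat.Agent.GK.AL Fermat.Agent.GL.AL Fermat.Agent.GL.Val.OrthK0
open Fermat.Agent.GL.Val.CuspK0 Fermat.Agent.GL.Val.ThirdK0 Fermat.Agent.GL.Val.CuspClass
open Fermat.Agent.GL.W3 Fermat.Agent.GL.Val.L1eAsmK0 Fermat.Agent.GL.CuspSpec
open Fermat.Agent.Common_helper32

variable (A : ValuationSubring Qb) {N : ℕ} [NeZero N] {q M' : ℕ} [NeZero (q ^ 2)] [NeZero M']
  (hq : q.Prime) (hA : A.LiesOverPrime q) (hd : q ^ 2 ∣ N) (hN : N = M' * q ^ 2) (hqM : ¬ q ∣ M')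
  (h : HallDvd (q ^ 2) N)

variable {B : Type*} [CommRing B] [IsDomain B] [Algebra B (modularFunctionFieldFullC (K0 A) N)]
  [IsFractionRing B (modularFunctionFieldFullC (K0 A) N)] [IsNoetherianRing B]
  [IsIntegrallyClosed B]
  (hR : ∀ c : K0 A, c ∈ R0 A →
    algebraMap (K0 A) (modularFunctionFieldFullC (K0 A) N) c ∈
      (algebraMap B (modularFunctionFieldFullC (K0 A) N)).range)
  (hvertW : ∀ 𝔮 : HtOne B, ((q : ℕ) : B) ∈ 𝔮.1 →
    ∃ i, V1 (modularFunctionFieldFullC (K0 A) N) 𝔮 = W3 A h i)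

include hq hA hd hN hqM hR hvertW in
/-- **helper16's CUSP-SPEC in the `hcusp` shape of `exists_vertPrime_caseC_all`** (no `haD`): at
every HORIZONTAL height-one prime `𝔮 ≤ P` containing `a = 1/j`, `|1/j_{q²}|_𝔮 = |1/j|_𝔮`, for `P`
containing the centre `𝔭₀` of `w₃`. -/
theorem hcusp_of_cuspSpec [NeZero (q ^ 2 * 1)] (hdN : q ^ 2 * 1 ∣ N) (P : Ideal B) [P.IsPrime]
    {𝔭₀ : HtOne B}
    (hV1 : V1 (modularFunctionFieldFullC (K0 A) N) 𝔭₀ = Rw3K0 A N q) (h𝔭P : 𝔭₀.1 ≤ P)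
    {aB : B} (haB : algebraMap B (modularFunctionFieldFullC (K0 A) N) aB = (jK0 A N)⁻¹)
    (𝔮 : HtOne B) (hq𝔮 : ((q : ℕ) : B) ∉ 𝔮.1) (h𝔮P : 𝔮.1 ≤ P) (ha𝔮 : aB ∈ 𝔮.1) :
    (V1 (modularFunctionFieldFullC (K0 A) N) 𝔮).valuation (genC (K0 A) (R0 A) N hdN)⁻¹ =
      (V1 (modularFunctionFieldFullC (K0 A) N) 𝔮).valuation (jK0 A N)⁻¹ := by
  have hj : ∃ b : B, algebraMap B (modularFunctionFieldFullC (K0 A) N) b = (jK0 A N)⁻¹ :=
    ⟨aB, haB⟩
  obtain ⟨bI, hbI⟩ := fInf_mem_range_V1 A hq hA hd hN hqM h hR hvertW hj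
  obtain ⟨bZ, hbZ⟩ := fZero_mem_range_V1 A hq hA hd hN hqM h hR hvertW hj
  have hmemP : ∀ b : B, algebraMap B (modularFunctionFieldFullC (K0 A) N) b ∈
      (Rw3K0 A N q).nonunits → b ∈ P := fun b hb => by
    rw [← hV1] at hb
    exact h𝔭P ((algebraMap_mem_nonunits_V1_iff 𝔭₀ b).1 hb)
  have hbIP : bI ∈ P := hmemP bI (by rw [hbI]; exact fInf_mem_nonunits_Rw3K0 A hq hA hd hN hqM)
  have hbZP : bZ ∈ P := hmemP bZ (by rw [hbZ]; exact fZero_mem_nonunits_Rw3K0 A hq hA hd hN hqM)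
  have hKV : ∀ c : K0 A, algebraMap (K0 A) (modularFunctionFieldFullC (K0 A) N) c ∈
      V1 (modularFunctionFieldFullC (K0 A) N) 𝔮 := by
    refine algebraMap_K0_mem_of_baseRing A hq hA
      (algebraMap (K0 A) (modularFunctionFieldFullC (K0 A) N)) _ (fun c hc => ?_) ?_
    · obtain ⟨b, hb⟩ := hR c hc
      rw [← hb]
      exact algebraMap_mem_V1 𝔮 b
    · have h1 := inv_algebraMap_mem_V1 (F := modularFunctionFieldFullC (K0 A) N) 𝔮 hq𝔮
      rwa [map_natCast] at h1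
  have : IsDiscreteValuationRing (V1 (modularFunctionFieldFullC (K0 A) N) 𝔮) :=
    isDiscreteValuationRing_V1 𝔮
  refine valuation_genC_inv_eq_of_frame' A hq hd hdN P (Ideal.IsPrime.ne_top inferInstance)
    (V1 (modularFunctionFieldFullC (K0 A) N) 𝔮) hKV ?_ ?_ bI bZ hbI hbIP hbZ hbZP
  · rw [← haB]
    exact (algebraMap_mem_nonunits_V1_iff 𝔮 aB).2 ha𝔮
  · intro b hb
    exact h𝔮P ((algebraMap_mem_nonunits_V1_iff 𝔮 b).1 hb)

include hq hA hd hN hqM hR hvertW in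
/-- **REG3 case (C) over `K₀`, FINAL**: no hypothesis besides the frame facts. -/
theorem exists_vertPrime_caseC_final (P : Ideal B) [P.IsPrime] {𝔭₀ : HtOne B}
    (hV1 : V1 (modularFunctionFieldFullC (K0 A) N) 𝔭₀ = Rw3K0 A N q) (h𝔭P : 𝔭₀.1 ≤ P)
    (hvert : ∀ 𝔮 : HtOne B, 𝔮 ≠ 𝔭₀ → 𝔮.1 ≤ P → ((q : ℕ) : B) ∉ 𝔮.1)
    {aB : B} (haB : algebraMap B (modularFunctionFieldFullC (K0 A) N) aB = (jK0 A N)⁻¹)
    (haP : aB ∈ P) :
    ∃ π : B, π ≠ 0 ∧ π ∈ 𝔭₀.1 ∧ (∀ f ∈ 𝔭₀.1, ∃ s : B, s ∉ 𝔭₀.1 ∧ π ∣ s * f) ∧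
      (∀ 𝔮 : HtOne B, 𝔮 ≠ 𝔭₀ → 𝔮.1 ≤ P → π ∉ 𝔮.1) := by
  have : NeZero (q ^ 2 * 1) := ⟨by rw [mul_one]; exact NeZero.ne _⟩
  have hdN : q ^ 2 * 1 ∣ N := by rw [mul_one]; exact hd
  have hA' : (q : Qb) ∈ A.nonunits := hA
  exact exists_vertPrime_caseC_all A hdN hN hqM hA' hq P hV1 h𝔭P hvert haB haP
    (fun 𝔮 h1 h2 h3 => hcusp_of_cuspSpec A hq hA hd hN hqM h hR hvertW hdN P hV1 h𝔭P haB 𝔮
      (hvert 𝔮 h1 h2) h2 h3)

end Fermat.Agent.GL.Reg3
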