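/-
GATE-L / L5d REG3 at the CUSPS, DISPATCH form (helper50; claims key REG3-C-INST).

`hreg3i_K0` = the `hreg3` binder of helper11 `H5TypeI.hallji_typed` VERBATIM on the `1/j`-frame
`Bf = Bji ⊂ F₀ = K₀(X₀(M' q²))` (`f 2 := 𝔭₀`, `Pt 𝔫 := qB ∈ 𝔫 ∧ aB ∈ 𝔫`, `aB = 1/j`), from
`Reg3CFinal.exists_vertPrime_caseC_final`.  Twin of helper93's `Dispatch.hreg3_K0` (the `j`-frame).
Inputs = frame facts only: `R₀ ⊆ Bf`, the vertical height-one primes of `Bf` are `w₁ | w₂ | w₃`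
(`hvertW`, helper80 `FrameInstK0.frame_jinv_top`), `V1 F₀ 𝔭₀ = Rw3K0`.
-/
import Fermat.Agent.GL.Reg3.Reg3CFinal
import Fermat.Agent.GL.Frame.ChartChange

set_option autoImplicit false
set_option linter.unusedSectionVars false

noncomputable section

namespace Fermat.Agent.GL.Reg3.CDispatch

open HahnSeries ModularCurve IsLocalRing AlgebraicCurve
open Fermat.Agent.GL.KrullFrame Fermat.Agent.GL.KrullHeightOne Fermat.Agent.GL.Frame.HeightOne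
open Fermat.Agent.GL.Val.GaussK0 Fermat.Agent.GL.Val.SecondK0 Fermat.Agent.GL.Val.SecondK0Hall
open Fermat.Agent.GK.Val.GaussBase Fermat.Agent.GK.AL Fermat.Agent.GL.AL Fermat.Agent.GL.Val.OrthK0
open Fermat.Agent.GL.Val.CuspK0 Fermat.Agent.GL.Val.ThirdK0 Fermat.Agent.GL.Val.CuspClass
open Fermat.Agent.GL.W3 Fermat.Agent.GL.Val.L1eAsmK0 Fermat.Agent.GL.CuspSpec
open Fermat.Agent.Common_helper32

/-- shortcut instance (TC does not find it within the default heartbeats at the concrete field);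
`rfl`-equal to the generic `Algebra.ofSubsemiring`. -/
local instance (priority := 2000) instAlgSubringF0C (A : ValuationSubring Qb) (N : ℕ) [NeZero N]
    (T : Subring (modularFunctionFieldFullC (K0 A) N)) :
    Algebra T (modularFunctionFieldFullC (K0 A) N) := Algebra.ofSubsemiring T

section Main

variable (A : ValuationSubring Qb) {N : ℕ} [NeZero N] {q M' : ℕ} [NeZero (q ^ 2)] [NeZero M']
  (hq : q.Prime) (hA : A.LiesOverPrime q) (hd : q ^ 2 ∣ N) (hN : N = M' * q ^ 2) (hqM : ¬ q ∣ M')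
  (h : HallDvd (q ^ 2) N)

variable {Bf : Subring (modularFunctionFieldFullC (K0 A) N)}
  [IsFractionRing Bf (modularFunctionFieldFullC (K0 A) N)] [IsNoetherianRing Bf]
  [IsIntegrallyClosed Bf] {𝔭₀ : HtOne Bf}

include hq hA hd hN hqM in
/-- **the `hreg3` binder of helper11 `H5TypeI.hallji_typed` VERBATIM** on the `1/j`-frame:
REG3 at every cuspidal closed point of the third component. -/
theorem hreg3i_K0 (vert : Finset (HtOne Bf))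
    (hV1 : V1 (modularFunctionFieldFullC (K0 A) N) 𝔭₀ = Rw3K0 A N q)
    {qB aB : Bf}
    (hqB : (qB : modularFunctionFieldFullC (K0 A) N) =
      ((q : ℕ) : modularFunctionFieldFullC (K0 A) N))
    (haB : (aB : modularFunctionFieldFullC (K0 A) N) = (jK0 A N)⁻¹)
    (hvert : ∀ 𝔭 : HtOne Bf, qB ∈ 𝔭.1 → 𝔭 ∈ vert)
    (hR : ∀ c : K0 A, c ∈ R0 A →
      algebraMap (K0 A) (modularFunctionFieldFullC (K0 A) N) c ∈ Bf)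
    (hvertW : ∀ 𝔮 : HtOne Bf, qB ∈ 𝔮.1 →
      ∃ i, V1 (modularFunctionFieldFullC (K0 A) N) 𝔮 = W3 A h i) :
    ∀ 𝔫 : Ideal Bf, 𝔫.IsMaximal → (qB ∈ 𝔫 ∧ aB ∈ 𝔫) → 𝔭₀.1 ≤ 𝔫 →
      (∀ j ∈ vert, j ≠ 𝔭₀ → ¬ j.1 ≤ 𝔫) →
      ∃ π : Bf, π ≠ 0 ∧ π ∈ 𝔭₀.1 ∧ (∀ x ∈ 𝔭₀.1, ∃ s : Bf, s ∉ 𝔭₀.1 ∧ π ∣ s * x) ∧
        (∀ 𝔮 : HtOne Bf, 𝔮 ≠ 𝔭₀ → 𝔮.1 ≤ 𝔫 → π ∉ 𝔮.1) := by
  intro 𝔫 h𝔫 hPt h𝔭𝔫 hbr
  obtain ⟨-, ha𝔫⟩ := hPt
  have := h𝔫.isPrime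
  have hqcast : qB = ((q : ℕ) : Bf) := Subtype.ext (by rw [hqB]; push_cast; rfl)
  have hvert' : ∀ 𝔮 : HtOne Bf, 𝔮 ≠ 𝔭₀ → 𝔮.1 ≤ 𝔫 → ((q : ℕ) : Bf) ∉ 𝔮.1 :=
    fun 𝔮 hne hle hmem => hbr 𝔮 (hvert 𝔮 (hqcast ▸ hmem)) hne hle
  have hR' : ∀ c : K0 A, c ∈ R0 A →
      algebraMap (K0 A) (modularFunctionFieldFullC (K0 A) N) c ∈
        (algebraMap Bf (modularFunctionFieldFullC (K0 A) N)).range :=
    fun c hc => ⟨⟨_, hR c hc⟩, rfl⟩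
  have hvertW' : ∀ 𝔮 : HtOne Bf, ((q : ℕ) : Bf) ∈ 𝔮.1 →
      ∃ i, V1 (modularFunctionFieldFullC (K0 A) N) 𝔮 = W3 A h i :=
    fun 𝔮 hmem => hvertW 𝔮 (hqcast ▸ hmem)
  exact exists_vertPrime_caseC_final A hq hA hd hN hqM h hR' hvertW' 𝔫 hV1 h𝔭𝔫 hvert'
    (aB := aB) haB ha𝔫

open Fermat.Agent.GL.ChartChange in
include hq hA hd hN hqM in
/-- **`hreg3i` of helper11 `H5TypedK0.h5_typed_toFN0` VERBATIM**, in its frame binders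
(`hBji vertji fi hfWi hfi hvertji`): no hypothesis besides the frame. -/
theorem hreg3i_frame {Bji : Subring (modularFunctionFieldFullC (K0 A) N)}
    [IsFractionRing Bji (modularFunctionFieldFullC (K0 A) N)] [IsNoetherianRing Bji]
    [IsIntegrallyClosed Bji]
    (hBji : IsChartRing (R0 A) (jK0 A N)⁻¹ Bji)
    (vertji : Finset (HtOne Bji)) (fi : Fin 3 → HtOne Bji)
    (hfWi : ∀ i, V1 (modularFunctionFieldFullC (K0 A) N) (fi i) = W3 A h i)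
    (hfi : ∀ p, p ∈ vertji ↔ ∃ i, fi i = p)
    (hvertji : ∀ 𝔭 : HtOne Bji, hBji.toRingHom (q0 A q) ∈ 𝔭.1 → 𝔭 ∈ vertji) :
    ∀ 𝔫 : Ideal Bji, 𝔫.IsMaximal →
      (hBji.toRingHom (q0 A q) ∈ 𝔫 ∧ hBji.gen ∈ 𝔫) →
      (fi 2).1 ≤ 𝔫 → (∀ j ∈ vertji, j ≠ fi 2 → ¬ j.1 ≤ 𝔫) →
      ∃ π : Bji, π ≠ 0 ∧ π ∈ (fi 2).1 ∧ (∀ x ∈ (fi 2).1, ∃ s : Bji, s ∉ (fi 2).1 ∧ π ∣ s * x) ∧
        (∀ 𝔮 : HtOne Bji, 𝔮 ≠ fi 2 → 𝔮.1 ≤ 𝔫 → π ∉ 𝔮.1) := by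
  refine hreg3i_K0 A hq hA hd hN hqM h vertji (hfWi 2) (qB := hBji.toRingHom (q0 A q))
    (aB := hBji.gen) ?_ rfl hvertji ?_ ?_
  · rw [IsChartRing.coe_toRingHom]
    have h2 : algebraMap (R0 A) (modularFunctionFieldFullC (K0 A) N) (q0 A q) =
        algebraMap (K0 A) (modularFunctionFieldFullC (K0 A) N) ((q0 A q : R0 A) : K0 A) := rfl
    rw [h2, q0_coe_eq_natCast, map_natCast]
  · intro c hc
    have h2 : algebraMap (K0 A) (modularFunctionFieldFullC (K0 A) N) c =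
        algebraMap (R0 A) (modularFunctionFieldFullC (K0 A) N) ⟨c, hc⟩ := rfl
    rw [h2]
    exact hBji.algebraMap_mem _
  · intro 𝔮 h𝔮
    obtain ⟨i, rfl⟩ := (hfi 𝔮).1 (hvertji 𝔮 h𝔮)
    exact ⟨i, hfWi i⟩

end Main

open Fermat.Agent.GL.ChartChange

/-- **`hreg3i` in the EXACT context of helper11 `H5TypedK0.h5_typed_toFN0`** (binders
`A hq hN hqM hA h` + the `Bji` frame): `[NeZero (q ^ 2)]` and `q ^ 2 ∣ N` are derived inside. -/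
theorem hreg3i_toFN0 (A : ValuationSubring Qb) {N : ℕ} [NeZero N] {q M' : ℕ} [NeZero M']
    (hq : q.Prime) (hN : N = M' * q ^ 2) (hqM : ¬ q ∣ M') (hA : A.LiesOverPrime q)
    (h : HallDvd (q ^ 2) N)
    {Bji : Subring (modularFunctionFieldFullC (K0 A) N)}
    [IsFractionRing Bji (modularFunctionFieldFullC (K0 A) N)] [IsNoetherianRing Bji]
    [IsIntegrallyClosed Bji]
    (hBji : IsChartRing (R0 A) (jK0 A N)⁻¹ Bji)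
    (vertji : Finset (HtOne Bji)) (fi : Fin 3 → HtOne Bji)
    (hfWi : ∀ i, V1 (modularFunctionFieldFullC (K0 A) N) (fi i) = W3 A h i)
    (hfi : ∀ p, p ∈ vertji ↔ ∃ i, fi i = p)
    (hvertji : ∀ 𝔭 : HtOne Bji, hBji.toRingHom (q0 A q) ∈ 𝔭.1 → 𝔭 ∈ vertji) :
    ∀ 𝔫 : Ideal Bji, 𝔫.IsMaximal →
      (hBji.toRingHom (q0 A q) ∈ 𝔫 ∧ hBji.gen ∈ 𝔫) →
      (fi 2).1 ≤ 𝔫 → (∀ j ∈ vertji, j ≠ fi 2 → ¬ j.1 ≤ 𝔫) →
      ∃ π : Bji, π ≠ 0 ∧ π ∈ (fi 2).1 ∧ (∀ x ∈ (fi 2).1, ∃ s : Bji, s ∉ (fi 2).1 ∧ π ∣ s * x) ∧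
        (∀ 𝔮 : HtOne Bji, 𝔮 ≠ fi 2 → 𝔮.1 ≤ 𝔫 → π ∉ 𝔮.1) := by
  have : NeZero (q ^ 2) := ⟨pow_ne_zero 2 hq.ne_zero⟩
  have hd : q ^ 2 ∣ N := by rw [hN]; exact dvd_mul_left _ _
  exact hreg3i_frame A hq hA hd hN hqM h hBji vertji fi hfWi hfi hvertji

end Fermat.Agent.GL.Reg3.CDispatch
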