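/-
GATE-L / L5d REG3 on the `j`-frame, CLOSED (helper93; claims key REG3-FINAL-THM).

`hreg3_Bj_thm` = `Reg3Final.hreg3_Bj` with `(S4)` DISCHARGED by helper25 `S4Inst.hS4`:
**the `hreg3` binder of helper11 `H5TypeI.hallj_typed` on ANY frame `Bf ⊂ K₀(X₀(M' q q))`**
(noetherian, integrally closed, fraction field `F₀`, `R₀ ⊆ Bf`, `j ∈ Bf`) — hypotheses: the frame
data and the good-level arithmetic (`q ∤ M'`, `A | q`, `q = 2 → 3 ∣ M'`, `q = 3 → 2 ∣ M'`, an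
auxiliary prime `r ∣ M'`, `r ≡ 2 (3)`, `r ≡ 3 (4)`) ONLY.
-/
import Fermat.Agent.GL.Reg3.Reg3Final
import Fermat.Agent.GL.Reg3.S4Inst

set_option autoImplicit false
set_option linter.unusedSectionVars false

noncomputable section

namespace Fermat.Agent.GL.Reg3.Final

open Fermat.Agent.GL.KrullFrame Fermat.Agent.GL.KrullHeightOne Fermat.Agent.GL.Frame.HeightOne
  Fermat.Agent.GL.Frame.VertPrimeHtOne IsLocalRing Polynomial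
open Fermat.Agent.GL.Frame.Chart Fermat.Agent.GL.Frame.OldContraction
open Fermat.Agent.GL.Val.GaussK0 Fermat.Agent.GL.Val.CuspK0 Fermat.Agent.GL.Val.OrthK0
open Fermat.Agent.GL.Val.ThirdK0 Fermat.Agent.GL.MultiVal Fermat.Agent.GL.Thick
open Fermat.Agent.GL.W3 ModularCurve Fermat.Agent.Common_helper32
open Fermat.Agent.GK.Val.GaussBase Fermat.Agent.GL.Table.K0
open Fermat.Agent.GL.Frame.Inst Fermat.Agent.GL.BRing1 Fermat.Agent.GL.Reg3.BCong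
open Fermat.Agent.GL.Val.DegBase

variable (A : ValuationSubring Qb) {M' q : ℕ} [NeZero q] [NeZero M'] [NeZero (q ^ 2 * 1)]
  (hdN : q ^ 2 * 1 ∣ M' * q * q) (hqM : ¬ q ∣ M') (hA : (q : Qb) ∈ A.nonunits) (hq : q.Prime)

variable {Bf : Subring ↥(modularFunctionFieldFullC (K0 A) (M' * q * q))}

include hdN hqM hA hq in
/-- **REG3 on the `j`-frame, closed**: the `hreg3` binder of helper11 `hallj_typed` / `h5_typed`
on `Bf ⊂ K₀(X₀(M' q q))` (`f 2 := 𝔭₀`, `s := sB = pH(jB)`). -/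
theorem hreg3_Bj_thm [Fact q.Prime]
    [IsFractionRing Bf ↥(modularFunctionFieldFullC (K0 A) (M' * q * q))] [IsNoetherianRing Bf]
    [IsIntegrallyClosed Bf] (h2 : q = 2 → 3 ∣ M') (h3 : q = 3 → 2 ∣ M')
    {r : ℕ} (hr : r.Prime) (hrM : r ∣ M') (hr3 : r % 3 = 2) (hr4 : r % 4 = 3)
    (vert : Finset (HtOne Bf)) {𝔭₀ : HtOne Bf}
    (hV1 : V1 ↥(modularFunctionFieldFullC (K0 A) (M' * q * q)) 𝔭₀ = Rw3K0 A (M' * q * q) q)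
    {qB jB yB sB : Bf}
    (hqB : (qB : ↥(modularFunctionFieldFullC (K0 A) (M' * q * q))) =
      ((q : ℕ) : ↥(modularFunctionFieldFullC (K0 A) (M' * q * q))))
    (hjB : (jB : ↥(modularFunctionFieldFullC (K0 A) (M' * q * q))) = jK0 A (M' * q * q))
    (hyB : (yB : ↥(modularFunctionFieldFullC (K0 A) (M' * q * q))) =
      y3K0 A (M' * q * q) q hdN (one_dvd (M' * q * q)))
    (hsB : sB = aeval jB (intSsPolyAll q))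
    (hvert : ∀ 𝔭 : HtOne Bf, qB ∈ 𝔭.1 → 𝔭 ∈ vert)
    (hR0 : ∀ r : R0 A, algebraMap (R0 A) ↥(modularFunctionFieldFullC (K0 A) (M' * q * q)) r ∈ Bf) :
    ∀ 𝔫 : Ideal Bf, 𝔫.IsMaximal → (qB ∈ 𝔫 ∧ sB ∉ 𝔫) → 𝔭₀.1 ≤ 𝔫 →
      (∀ j ∈ vert, j ≠ 𝔭₀ → ¬ j.1 ≤ 𝔫) →
      ∃ π : Bf, π ≠ 0 ∧ π ∈ 𝔭₀.1 ∧ (∀ x ∈ 𝔭₀.1, ∃ s : Bf, s ∉ 𝔭₀.1 ∧ π ∣ s * x) ∧
        (∀ 𝔮 : HtOne Bf, 𝔮 ≠ 𝔭₀ → 𝔮.1 ≤ 𝔫 → π ∉ 𝔮.1) := by
  refine hreg3_Bj A hdN hqM hA hq vert hV1 hqB hjB hyB hsB hvert hR0 ?_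
  intro _ a c hac x' _ hqx hjx
  have hjx' : jB1 M' A - ((a : ℤ) : B1 M' A) ∈ x' := by
    have he : (⟨jK0 A M', jK0_mem_B1 A⟩ : B1 M' A) = jB1 M' A :=
      Subtype.ext (jK0_eq_jC A M')
    rw [← he]; exact hjx
  obtain ⟨u₀, h₀, h⟩ := S4Inst.hS4 M' A hqM hA h2 h3 hr hrM hr3 hr4 a c hac x' hqx hjx'
  exact ⟨u₀, h₀, by rw [jK0_eq_jC]; exact h⟩

end Fermat.Agent.GL.Reg3.Final
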